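import Fermat.Agent.TwoComponent.ModelGenus

/-!
# The two-component reduction of `X₀(M q)` at `q`

The frame, the node set and the exactness theorem packed as a `TwoRed`, the input of the general
theory of semistable reduction with two components.
-/

noncomputable section

open ModularCurve AlgebraicCurve IntermediateField Fermat.Agent.Red Fermat.Agent.Igusa

namespace Fermat.Agent.TwoComponent

local notation "Qb" => AlgebraicClosure ℚ

/-- The values `ev` and `val` agree at rational places. -/
theorem ev_eq_val {K F : Type*} [Field K] [IsAlgClosed K] [Field F] [Algebra K F]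
    [FF.IsFunctionField K F] (v : Place K F) (hv : v.deg = 1) {f : F}
    (hf : f ∈ v.toValuationSubring) : ev v f = val v f := by
  refine ev_eq_of_residue hv hf ?_
  rw [val_of_mem v hf]
  show _ = algebraMap K v.ResidueField ((resEquiv v).symm (IsLocalRing.residue _ ⟨f, hf⟩))
  exact ((resEquiv v).apply_symm_apply _).symm

variable (M q : ℕ) [hq : Fact q.Prime] [NeZero M] (hqM : ¬ q ∣ M)
variable {A : ValuationSubring (AlgebraicClosure ℚ)} {k : Type*} [Field k] {π : A →+* k}
variable [CharP k q] [IsAlgClosed k]

/-- The nodes of the special fibre: pairs of places of the two components glued together. -/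
abbrev Node (hres : ResidueAt A q π)
    (hgen : genusFF Qb (modularFunctionFieldBar M) ≤ genusFF k (CK M k)) : Type _ :=
  ↥(nodesC M q hqM hres hgen)

/-- **The two-component reduction of `X₀(M q)` at `q`.** -/
def modelTwoRed (hres : ResidueAt A q π)
    (hgen : genusFF Qb (modularFunctionFieldBar M) ≤ genusFF k (CK M k)) :
    TwoRed A π (FN M q) (CK M k) (Node M q hqM hres hgen) where
  R := redC M q hqM hres
  x := xN M q
  x_mem i := (redC_xN M q hqM hres i).1
  G := FF.poleDiv (K := Qb) (xN M q)
  Gk _ := FF.poleDiv (K := k) (xbC M q : CK M k)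
  G_spec P := by rw [FF.poleDiv_apply, max_comm]
  Gk_spec i Q := by rw [(redC_xN M q hqM hres i).2, FF.poleDiv_apply, max_comm]
  g := genusFF Qb (FN M q)
  gk := genusFF k (CK M k)
  rrF := RR.ofFF
  rrK := RR.ofFF
  genus_eq := by
    rw [genus_eq_nodes M q hqM hres hgen, Fintype.card_coe]
  degree_G := by
    rw [FF.degree_poleDiv (transcendental_xN M q), finrank_xN M q hqM,
      degree_poleDiv_xbC M q hqM]
    push_cast
    ring
  degree_Gk_pos _ := degree_poleDiv_pos (transcendental_xbC M q)
  arch := hres.arch
  br s i := Bool.rec (s : Place k (CK M k) × Place k (CK M k)).1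
    (s : Place k (CK M k) × Place k (CK M k)).2 i
  br_inj i := by
    intro s t h
    obtain ⟨a, -, ha⟩ := (mem_nodesC M q hqM hres hgen).mp s.2
    obtain ⟨b, -, hb⟩ := (mem_nodesC M q hqM hres hgen).mp t.2
    apply Subtype.ext
    have e : a = b := by
      cases i
      · exact (congrArg Prod.fst ha).trans (h.trans (congrArg Prod.fst hb).symm)
      · exact (graphAlg M q hqM hres hgen).φ.injective
          ((congrArg Prod.snd ha).trans (h.trans (congrArg Prod.snd hb).symm))
    rw [← ha, ← hb, e]
  br_regular s i := by
    have h := nodesC_regular M q hqM hres hgen s.2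
    cases i
    · exact poleDiv_eq_zero_of_mem _ h.1
    · exact poleDiv_eq_zero_of_mem _ h.2
  finrank_pair V hV c hc := by
    obtain ⟨G, hR, -⟩ := exists_frameC M q hqM hres
    have h := G.finrank_pair V hV c hc
    rwa [hR] at h
  bound n u hu h := by
    refine ⟨fun i => redC_mem_space M q hqM hres h hu i, fun s => ?_⟩
    have hw := redImage_le_gluedC M q hqM hres hgen n
      (show (pairRedOf (redC M q hqM hres)).red ⟨u, pairRedOf_mem.mpr h⟩ ∈ _ from
        ⟨⟨u, pairRedOf_mem.mpr h⟩, hu, rfl⟩)
    obtain ⟨h1, h2, h3⟩ := hw.2.2 _ s.2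
    have hK : RR k (CK M k) (genusFF k (CK M k)) := RR.ofFF
    exact (ev_eq_val _ (hK.deg_one _) h1).trans (h3.trans (ev_eq_val _ (hK.deg_one _) h2).symm)

end Fermat.Agent.TwoComponent
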