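import Mathlib.RingTheory.AdjoinRoot
import Fermat.Agent.Igusa.Degree

/-!
# The Atkin–Lehner automorphism `j(dτ) ↔ j(dqτ)` of the function field of level `M q`

Constructed algebraically from the modular equations: `A₀ = K(j_d : d ∣ M)` maps into the field of
level `M q` by the inclusion and by `j_d ↦ j_{dq}`; the latter extends by `j_{Mq} ↦ j_M`, and the
extension sends every `j_{dq}` to `j_d` because that is the only common root of two modular
equations.
-/

noncomputable section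

open Function Polynomial IntermediateField ModularCurve

namespace Fermat.Agent.TwoComponent

open Igusa

variable {K : Type*} [Field K] [IsAlgClosed K] {M q : ℕ} [hq : Fact q.Prime]

local notation "X" => modularFunctionFieldFullC K (M * q)

omit [IsAlgClosed K] in
/-- A root of a modular equation stays one under a `K`-endomorphism. -/
theorem isRoot_map_endo {E : IntermediateField K (LaurentSeries K)} (ψ : E →+* E)
    (hC : ∀ c : K, ψ (algebraMap K E c) = algebraMap K E c) (Φ : Polynomial (Polynomial K))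
    {a b : E} (h : (Φ.map (evalAt (a : LaurentSeries K))).IsRoot (b : LaurentSeries K)) :
    (Φ.map (evalAt (ψ a : LaurentSeries K))).IsRoot (ψ b : LaurentSeries K) := by
  have h0 : (Φ.map (evalIn E a.2)).eval b = 0 := by
    refine (algebraMap E (LaurentSeries K)).injective ?_
    rw [map_zero, ← Polynomial.eval_map_apply, map_evalIn_map]
    exact h
  have hcomp : ψ.comp (evalIn E a.2) = evalIn E (ψ a).2 := by
    refine Polynomial.ringHom_ext (fun c => ?_) ?_
    · simpa [evalIn] using hC c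
    · simp [evalIn]
  have h1 : ψ ((Φ.map (evalIn E a.2)).eval b) = ψ 0 := congrArg (fun z => ψ z) h0
  rw [map_zero, ← Polynomial.eval_map_apply, Polynomial.map_map, hcomp] at h1
  rw [IsRoot, ← map_evalIn_map E (ψ a).2]
  have h2 := congrArg (algebraMap E (LaurentSeries K)) h1
  rw [map_zero, ← Polynomial.eval_map_apply] at h2
  exact h2

omit [IsAlgClosed K] in
/-- The only series which is `q`-linked to `j_{dq}` and `r`-linked to `j_{dr}` is `j_d`. -/
theorem eq_of_two_linked {r : ℕ} [hr : Fact r.Prime] (hqr : r ≠ q)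
    {Φ Ψ : Polynomial (Polynomial K)} (hΦ : IsModPoly q Φ) (hΨ : IsModPoly r Ψ) {d : ℕ}
    (hd : d ≠ 0) {y : LaurentSeries K} (h1 : (Φ.map (evalAt (jv (1 : Kˣ) (d * q)))).IsRoot y)
    (h2 : (Ψ.map (evalAt (jv (1 : Kˣ) (d * r)))).IsRoot y) : y = jv (1 : Kˣ) d := by
  have hq0 : q ≠ 0 := hq.out.ne_zero
  have hr0 : r ≠ 0 := hr.out.ne_zero
  have hn : q * r ≠ 0 := mul_ne_zero hq0 hr0
  have hm : r * d * q ≠ 0 := mul_ne_zero (mul_ne_zero hr0 hd) hq0
  have key : ∀ (p : ℕ) (P : Polynomial (Polynomial K)) (a : ℕ), a ≠ 0 →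
      (P.map (evalAt (jv (1 : Kˣ) a))).IsRoot y → q * r * a = p * (r * d * q) →
      (P.map (evalAt (jv (1 : Kˣ) (p * (r * d * q))))).IsRoot (Igusa.sub (1 : Kˣ) (q * r) y) := by
    intro p P a ha h he
    have := h.map (f := Igusa.sub (1 : Kˣ) (q * r))
    rwa [Polynomial.map_map, sub_evalAt 1 hn, sub_jv 1 1 hn ha, one_pow, one_mul, he] at this
  have e1 := (hΦ.isRoot_iff 1 _ hm _).mp (key q Φ (d * q) (mul_ne_zero hd hq0) h1 (by ring))
  have e2 := (hΨ.isRoot_iff 1 _ hm _).mp (key r Ψ (d * r) (mul_ne_zero hd hr0) h2 (by ring))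
  refine sub_injective (1 : Kˣ) hn ?_
  rw [sub_jv 1 1 hn hd, one_pow, one_mul, show q * r * d = r * d * q by ring]
  have hqq : 1 < q * q := by nlinarith [hq.out.two_le]
  have hrr : 1 < r * r := by nlinarith [hr.out.two_le]
  rcases e1 with e1 | ⟨η, hη, e1⟩ <;> rcases e2 with e2 | ⟨η', hη', e2⟩
  · exfalso
    have := ((jv_inj (mul_ne_zero (mul_ne_zero hq0 hq0) hm)
      (mul_ne_zero (mul_ne_zero hr0 hr0) hm)).mp (e1.symm.trans e2)).2
    exact hqr (Nat.mul_self_inj.mp (Nat.eq_of_mul_eq_mul_right (Nat.pos_of_ne_zero hm) this)).symm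
  · exfalso
    have := ((jv_inj (mul_ne_zero (mul_ne_zero hq0 hq0) hm) hm).mp (e1.symm.trans e2)).2
    nlinarith [Nat.pos_of_ne_zero hm]
  · exfalso
    have := ((jv_inj hm (mul_ne_zero (mul_ne_zero hr0 hr0) hm)).mp (e1.symm.trans e2)).2
    nlinarith [Nat.pos_of_ne_zero hm]
  · have h := ((jv_inj hm hm).mp (e1.symm.trans e2)).1
    rw [← h] at hη'
    have hone : η = 1 := by
      have hco : Nat.Coprime q r := (Nat.coprime_primes hq.out hr.out).mpr hqr.symm
      have := (pow_gcd_eq_one (m := q) (n := r)).mpr ⟨hη, hη'⟩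
      rwa [hco.gcd_eq_one, pow_one] at this
    rw [e1, hone]

omit [IsAlgClosed K] hq in
theorem jv_dvd_mem {d : ℕ} (hd0 : d ≠ 0) (hd : d ∣ M) : jv (1 : Kˣ) d ∈ X :=
  jv_mem_full hd0 (hd.mul_right q)

omit [IsAlgClosed K] in
theorem jv_dvd_mul_mem {d : ℕ} (hd0 : d ≠ 0) (hd : d ∣ M) : jv (1 : Kˣ) (d * q) ∈ X :=
  jv_mem_full (mul_ne_zero hd0 hq.out.ne_zero) (Nat.mul_dvd_mul_right hd q)

omit [IsAlgClosed K] in
/-- A homomorphism out of `A₀(t)` from an image of `A₀` and of `t`. -/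
theorem exists_hom_adjoin {L R : Type*} [Field L] [Algebra K L] [CommRing R]
    {A0 X' : IntermediateField K L} {t : L} (hint : IsIntegral A0 t)
    (htop : restrictScalars K A0⟮t⟯ = X') (i : A0 →+* R) (a : R)
    (hev : (minpoly A0 t).eval₂ i a = 0) :
    ∃ ψ : X' →+* R, (∀ (z : A0) (hz : (z : L) ∈ X'), ψ ⟨z, hz⟩ = i z) ∧
      ∀ ht : t ∈ X', ψ ⟨t, ht⟩ = a := by
  subst htop
  let toAdj : restrictScalars K A0⟮t⟯ →+* A0⟮t⟯ :=
    { toFun := fun z => ⟨(z : L), z.2⟩
      map_one' := rfl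
      map_mul' := fun _ _ => rfl
      map_zero' := rfl
      map_add' := fun _ _ => rfl }
  let e := IntermediateField.adjoinRootEquivAdjoin A0 hint
  refine ⟨(AdjoinRoot.lift i a hev).comp (e.symm.toRingHom.comp toAdj), fun z hz => ?_,
    fun ht => ?_⟩
  · show AdjoinRoot.lift i a hev (e.symm (toAdj ⟨z, hz⟩)) = i z
    rw [show toAdj ⟨z, hz⟩ = algebraMap A0 A0⟮t⟯ z from Subtype.ext rfl, AlgEquiv.commutes]
    exact AdjoinRoot.lift_of hev
  · show AdjoinRoot.lift i a hev (e.symm (toAdj ⟨t, ht⟩)) = a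
    rw [show toAdj ⟨t, ht⟩ = AdjoinSimple.gen A0 t from Subtype.ext rfl,
      adjoinRootEquivAdjoin_symm_apply_gen, AdjoinRoot.lift_root]

/-- The modular equation is the minimal polynomial of `j_{Mq}` over the field of level `M`. -/
theorem minpoly_top (hqM : ¬ q ∣ M) (hK : ((M * q : ℕ) : K) ≠ 0)
    {Φ : Polynomial (Polynomial K)} (hΦ : IsModPoly q Φ)
    (hjM : jv (1 : Kˣ) M ∈ modularFunctionFieldFullC K M) :
    IsIntegral (modularFunctionFieldFullC K M) (jv (1 : Kˣ) (M * q)) ∧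
      minpoly (modularFunctionFieldFullC K M) (jv (1 : Kˣ) (M * q)) =
        Φ.map (evalIn (modularFunctionFieldFullC K M) hjM) := by
  have hM : M ≠ 0 := by rintro rfl; simp at hK
  have hMK : (M : K) ≠ 0 := natCast_ne_zero_of_dvd hK (dvd_mul_right M q)
  set A0 := modularFunctionFieldFullC K M with hA0
  have hroot : aeval (jv (1 : Kˣ) (M * q)) (Φ.map (evalIn A0 hjM)) = 0 := by
    rw [aeval_def, eval₂_eq_eval_map, map_evalIn_map]
    exact isModPoly_root_up hΦ hM
  have hint : IsIntegral A0 (jv (1 : Kˣ) (M * q)) :=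
    ⟨_, hΦ.monic.map _, by rw [← aeval_def, hroot]⟩
  refine ⟨hint, ?_⟩
  have hAX : A0 ≤ X := full_le_iff.mpr fun d hd0 hd => jv_mem_full hd0 (hd.mul_right q)
  have hdeg : relfinrank A0 X = q + 1 := by
    refine Nat.eq_of_mul_eq_mul_left (psi_pos M) ?_
    have := relfinrank_mul_relfinrank (adjoin_j_le_full (K := K) (N := M)) hAX
    rw [relfinrank_full M hMK, relfinrank_full _ hK,
      psi_mul_prime hM hq.out, if_neg hqM] at this
    exact this
  rw [full_mul_prime hK, relfinrank_adjoin_simple _ hint] at hdeg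
  refine (Polynomial.eq_of_monic_of_dvd_of_natDegree_le (minpoly.monic hint) (hΦ.monic.map _)
    (minpoly.dvd _ _ hroot) ?_).symm
  rw [hdeg, hΦ.monic.natDegree_map, hΦ.natDegree_eq]

/-- `j_d ↦ j_{dq}` from level `M` to level `M q`. -/
def degUp [NeZero q] : modularFunctionFieldFullC K M →+* X :=
  ((qExpand K q).comp (algebraMap (modularFunctionFieldFullC K M) (LaurentSeries K))).codRestrict X
    fun a => full_degeneracyC_map_le K (N := M) q ⟨a, a.2, rfl⟩

omit hq [IsAlgClosed K] in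
theorem degUp_jv [NeZero q] {d : ℕ} (hd0 : d ≠ 0)
    (hd : jv (1 : Kˣ) d ∈ modularFunctionFieldFullC K M) :
    (degUp (q := q) ⟨_, hd⟩ : LaurentSeries K) = jv (1 : Kˣ) (d * q) := by
  show qExpand K q (jv (1 : Kˣ) d) = _
  rw [← qExpandAlgHomC_apply, qExpandAlgHomC_jv d hd0, mul_comm]

theorem eval₂_degUp_minpoly [NeZero q] (hqM : ¬ q ∣ M) (hK : ((M * q : ℕ) : K) ≠ 0)
    (h : jv (1 : Kˣ) M ∈ X) :
    (minpoly (modularFunctionFieldFullC K M) (jv (1 : Kˣ) (M * q))).eval₂ (degUp (q := q))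
      ⟨_, h⟩ = 0 := by
  have hM : M ≠ 0 := by rintro rfl; simp at hK
  obtain ⟨Φ, hΦ⟩ := exists_isModPoly (p := q) (K := K)
    (natCast_ne_zero_of_dvd hK (dvd_mul_left q M))
  have hjM : jv (1 : Kˣ) M ∈ modularFunctionFieldFullC K M := jv_mem_full hM dvd_rfl
  refine Subtype.ext ?_
  have hcomp : (algebraMap X (LaurentSeries K)).comp
      ((degUp (q := q)).comp (evalIn (modularFunctionFieldFullC K M) hjM)) =
      evalAt (jv (1 : Kˣ) (M * q)) := by
    refine Polynomial.ringHom_ext (fun c => ?_) ?_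
    · simp only [RingHom.comp_apply, evalAt_C]
      show qExpand K q ((evalIn (modularFunctionFieldFullC K M) hjM (Polynomial.C c) :
        modularFunctionFieldFullC K M) : LaurentSeries K) = _
      simp [evalIn, algebraMap_laurentSeries_eq_single]
    · simp only [RingHom.comp_apply, evalAt_X]
      rw [← degUp_jv (q := q) hM hjM]
      simp [evalIn]
  refine (Polynomial.hom_eval₂ (minpoly (modularFunctionFieldFullC K M) (jv (1 : Kˣ) (M * q)))
    (degUp (q := q)) (algebraMap X (LaurentSeries K)) ⟨_, h⟩).trans ?_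
  rw [(minpoly_top hqM hK hΦ hjM).2, eval₂_map, RingHom.comp_assoc, hcomp, eval₂_eq_eval_map]
  exact isModPoly_root_down hΦ hM

/-- An endomorphism sending `j_d ↦ j_{dq}` (`d ∣ M`) and `j_{Mq} ↦ j_M`. -/
theorem exists_endo (hqM : ¬ q ∣ M) (hK : ((M * q : ℕ) : K) ≠ 0) :
    ∃ ψ : X →+* X, (∀ c : K, ψ (algebraMap K X c) = algebraMap K X c) ∧
      (∀ (d : ℕ) (hd0 : d ≠ 0) (hd : d ∣ M),
        (ψ ⟨_, jv_dvd_mem hd0 hd⟩ : LaurentSeries K) = jv (1 : Kˣ) (d * q)) ∧
      ∀ hM : M ≠ 0,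
        (ψ ⟨_, jv_dvd_mul_mem hM dvd_rfl⟩ : LaurentSeries K) = jv (1 : Kˣ) M := by
  have : NeZero q := ⟨hq.out.ne_zero⟩
  have hM : M ≠ 0 := by rintro rfl; simp at hK
  obtain ⟨Φ, hΦ⟩ := exists_isModPoly (p := q) (K := K)
    (natCast_ne_zero_of_dvd hK (dvd_mul_left q M))
  obtain ⟨ψ, hψA, hψt⟩ := exists_hom_adjoin (X' := X)
    (minpoly_top hqM hK hΦ (jv_mem_full hM dvd_rfl)).1
    (by rw [restrictScalars_adjoin_eq_sup, full_mul_prime hK])
    (degUp (q := q)) ⟨_, jv_dvd_mem hM dvd_rfl⟩ (eval₂_degUp_minpoly hqM hK _)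
  refine ⟨ψ, fun c => ?_, fun d hd0 hd => ?_, fun hM' => ?_⟩
  · refine (hψA (algebraMap K (modularFunctionFieldFullC K M) c) (algebraMap K X c).2).trans
      (Subtype.ext ?_)
    show qExpand K q (algebraMap K (LaurentSeries K) c) = algebraMap K (LaurentSeries K) c
    rw [algebraMap_laurentSeries_eq_single, qExpand_single, mul_zero]
  · exact (congrArg Subtype.val (hψA ⟨_, jv_mem_full hd0 hd⟩ (jv_dvd_mem hd0 hd))).trans
      (degUp_jv hd0 _)
  · exact congrArg Subtype.val (hψt _)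

/-- A `K`-algebra involution of the field of level `M q` with `j_d ↦ j_{dq} ↦ j_d` for `d ∣ M`. -/
theorem exists_atkinLehner (hqM : ¬ q ∣ M) (hK : ((M * q : ℕ) : K) ≠ 0) :
    ∃ w : X ≃ₐ[K] X, (∀ z, w (w z) = z) ∧
      (∀ (d : ℕ) (hd0 : d ≠ 0) (hd : d ∣ M),
        (w ⟨_, jv_dvd_mem hd0 hd⟩ : LaurentSeries K) = jv (1 : Kˣ) (d * q)) ∧
      ∀ (d : ℕ) (hd0 : d ≠ 0) (hd : d ∣ M),
        (w ⟨_, jv_dvd_mul_mem hd0 hd⟩ : LaurentSeries K) = jv (1 : Kˣ) d := by
  obtain ⟨ψ, hC, hup, hM⟩ := exists_endo hqM hK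
  have hM0 : M ≠ 0 := by rintro rfl; simp at hK
  have hqK : (q : K) ≠ 0 := natCast_ne_zero_of_dvd hK (dvd_mul_left q M)
  obtain ⟨Φ, hΦ⟩ := exists_isModPoly (p := q) hqK
  have hdown : ∀ m d : ℕ, d * m = M → ∀ h : jv (1 : Kˣ) (d * q) ∈ X,
      (ψ ⟨_, h⟩ : LaurentSeries K) = jv (1 : Kˣ) d := by
    intro m
    induction m using Nat.strong_induction_on with
    | _ m ih =>
      intro d hdm h
      rcases eq_or_ne m 1 with rfl | hm1
      · rw [mul_one] at hdm; subst hdm; exact hM hM0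
      obtain ⟨r, hr, m', rfl⟩ := Nat.exists_prime_and_dvd hm1
      have : Fact r.Prime := ⟨hr⟩
      have hd0 : d ≠ 0 := by rintro rfl; simp at hdm; exact hM0 hdm.symm
      have hm' : m' ≠ 0 := by rintro rfl; simp at hdm; exact hM0 hdm.symm
      have hrM : r ∣ M := ⟨d * m', by rw [← hdm]; ring⟩
      have hrq : r ≠ q := fun e => hqM (e ▸ hrM)
      obtain ⟨Ψ, hΨ⟩ := exists_isModPoly (p := r)
        (natCast_ne_zero_of_dvd hK (hrM.mul_right q))
      have hd : d ∣ M := ⟨r * m', hdm.symm⟩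
      have hdr : d * r ∣ M := ⟨m', by rw [← hdm]; ring⟩
      have hdr0 : d * r ≠ 0 := mul_ne_zero hd0 hr.ne_zero
      refine eq_of_two_linked hrq hΦ hΨ hd0 ?_ ?_
      · have := isRoot_map_endo ψ hC Φ (a := ⟨_, jv_dvd_mem hd0 hd⟩) (b := ⟨_, h⟩)
          (isModPoly_root_up hΦ hd0)
        rwa [hup d hd0 hd] at this
      · have hdown' := isModPoly_root_down hΨ (mul_ne_zero hd0 hq.out.ne_zero)
        have := isRoot_map_endo ψ hC Ψ
          (a := ⟨_, (show jv (1 : Kˣ) (d * q * r) ∈ X by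
            rw [show d * q * r = d * r * q by ring]; exact jv_dvd_mul_mem hdr0 hdr)⟩)
          (b := ⟨_, h⟩) hdown'
        have hlt : m' < r * m' := by nlinarith [hr.two_le, Nat.pos_of_ne_zero hm']
        have hval := ih m' hlt (d * r) (by rw [← hdm]; ring) (jv_dvd_mul_mem hdr0 hdr)
        have he : (⟨_, (show jv (1 : Kˣ) (d * q * r) ∈ X by
            rw [show d * q * r = d * r * q by ring]; exact jv_dvd_mul_mem hdr0 hdr)⟩ : X) =
            ⟨_, jv_dvd_mul_mem hdr0 hdr⟩ :=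
          Subtype.ext (by show jv (1 : Kˣ) (d * q * r) = jv (1 : Kˣ) (d * r * q); congr 1; ring)
        rw [he, hval] at this
        exact this
  have hdown' : ∀ (d : ℕ) (hd0 : d ≠ 0) (hd : d ∣ M),
      (ψ ⟨_, jv_dvd_mul_mem hd0 hd⟩ : LaurentSeries K) = jv (1 : Kˣ) d := fun d hd0 hd => by
    obtain ⟨m, hm⟩ := hd
    exact hdown m d hm.symm _
  have hinv : ∀ z : X, ψ (ψ z) = z := by
    rintro ⟨z, hz⟩
    induction hz using IntermediateField.adjoin_induction with
    | mem y hy =>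
      obtain ⟨d, hd, hdvd, rfl⟩ := hy
      have := hd
      have key : ∀ (e : ℕ) (he : e ≠ 0) (h : jv (1 : Kˣ) e ∈ X), e ∣ M * q →
          (ψ (ψ ⟨_, h⟩) : LaurentSeries K) = jv (1 : Kˣ) e := by
        intro e he h hed
        rcases (Nat.coprime_or_dvd_of_prime hq.out e).symm with hqe | hqe
        · obtain ⟨e', rfl⟩ := hqe
          have he' : e' ≠ 0 := right_ne_zero_of_mul he
          have he'M : e' ∣ M := by
            rw [mul_comm M q] at hed
            exact (Nat.mul_dvd_mul_iff_left hq.out.pos).mp hed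
          have e1 : (⟨_, h⟩ : X) = ⟨_, jv_dvd_mul_mem he' he'M⟩ :=
            Subtype.ext (by show jv (1 : Kˣ) (q * e') = jv (1 : Kˣ) (e' * q); rw [mul_comm])
          rw [e1, show ψ ⟨_, jv_dvd_mul_mem he' he'M⟩ = ⟨_, jv_dvd_mem he' he'M⟩ from
            Subtype.ext (hdown' e' he' he'M), hup e' he' he'M, mul_comm]
        · have heM : e ∣ M := hqe.symm.dvd_of_dvd_mul_right hed
          rw [show ψ ⟨_, h⟩ = ⟨_, jv_dvd_mul_mem he heM⟩ from Subtype.ext (hup e he heM),
            hdown' e he heM]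
      refine Subtype.ext ?_
      simp only [← jv_one_eq_qExpand]
      exact key d hd.out _ hdvd
    | algebraMap c =>
      show ψ (ψ (algebraMap K X c)) = algebraMap K X c
      rw [hC, hC]
    | add y z hy hz ihy ihz =>
      show ψ (ψ (⟨y, hy⟩ + ⟨z, hz⟩)) = ⟨y, hy⟩ + ⟨z, hz⟩
      rw [map_add, map_add, ihy, ihz]
    | inv y hy ihy =>
      show ψ (ψ (⟨y, hy⟩⁻¹)) = (⟨y, hy⟩ : X)⁻¹
      rw [map_inv₀, map_inv₀, ihy]
    | mul y z hy hz ihy ihz =>
      show ψ (ψ (⟨y, hy⟩ * ⟨z, hz⟩)) = ⟨y, hy⟩ * ⟨z, hz⟩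
      rw [map_mul, map_mul, ihy, ihz]
  exact ⟨{ toFun := ψ, invFun := ψ, left_inv := hinv, right_inv := hinv,
           map_mul' := map_mul ψ, map_add' := map_add ψ, commutes' := hC }, hinv, hup, hdown'⟩

end Fermat.Agent.TwoComponent
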