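import Fermat.Agent.TwoComponent.Residual

/-!
# The lines at the nodes of normalised data are multiplicative

Normalised torsion data determine a line at each node; these are multiplicative in the data, are
`m`-th roots of unity for trivial reductions, and are transported by automorphisms permuting the
nodes.
-/

noncomputable section

open AlgebraicCurve Fermat.Agent.Red

namespace Fermat.Agent.TwoComponent

variable {K k F Fk : Type*} [Field K] [Field F] [Algebra K F] [Field k] [Field Fk] [Algebra k Fk]
variable {A : ValuationSubring K} {π : A →+* k}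

namespace TwoRed

variable {S : Type*} [Fintype S] {T : TwoRed A π F Fk S} {m : ℕ}

namespace NormalData

variable {D D' : Divisor K F}

/-- The lines at the nodes along which the reductions of `L(D + n G)` are glued. -/
def lines (d : T.NormalData m D) : S → k :=
  open scoped Classical in
  if hm : 0 < m then (d.exists_image_eq hm).choose else 0

theorem lines_ne_zero (hm : 0 < m) (d : T.NormalData m D) (s : S) : d.lines s ≠ 0 := by
  rw [lines, dif_pos hm]
  exact (d.exists_image_eq hm).choose_spec.1 s

theorem mul_E (hm : 0 < m) (d : T.NormalData m D) (i : Bool) (Q : Place k Fk) :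
    (m : ℤ) * d.E i Q = Q.ord ((T.R i).red (d.e i)) := by
  rw [← d.redDiv_apply]
  exact (d.exists_image_eq hm).choose_spec.2.1 i Q

theorem image_lines (hm : 0 < m) (d : T.NormalData m D) {n : ℕ} (hn : d.bigN ≤ n) :
    pairImage T.R d.c (riemannRochSpace (D + n • T.G)) = T.glued (d.twist n) d.lines := by
  rw [lines, dif_pos hm]
  exact (d.exists_image_eq hm).choose_spec.2.2 n hn

theorem degree_E (hm : 0 < m) (d : T.NormalData m D) (i : Bool) :
    Divisor.degree (d.E i) = 0 := by
  have h : m • d.E i = d.redDiv i := Finsupp.ext fun Q => by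
    rw [Finsupp.smul_apply, nsmul_eq_mul, d.mul_E hm, d.redDiv_apply]
  have := d.degree_redDiv i
  rw [← h, map_nsmul, nsmul_eq_mul] at this
  exact (mul_eq_zero.mp this).resolve_left (by omega)

/-- A pair of reductions with value `1` at every true branch; at the false branches its values are
the lines. -/
theorem exists_test (hm : 0 < m) (d : T.NormalData m D) {n : ℕ} (hn : d.bigN ≤ n) :
    ∃ w ∈ pairImage T.R d.c (riemannRochSpace (D + n • T.G)),
      ∀ s, ev (T.br s true) (w true) = 1 ∧ ev (T.br s false) (w false) = d.lines s := by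
  obtain ⟨w, hw, hwv⟩ := T.exists_glued_values (d.twist n) d.lines (d.twist_br _)
    (d.bigN_le_degree hn) (fun _ => 1)
  rw [← d.image_lines hm hn] at hw
  exact ⟨w, hw, fun s => ⟨(hwv s).1, by rw [(hwv s).2, mul_one]⟩⟩

theorem lines_eq_of_mem (hm : 0 < m) (d : T.NormalData m D) {n : ℕ} (hn : d.bigN ≤ n)
    {w : Bool → Fk} (hw : w ∈ pairImage T.R d.c (riemannRochSpace (D + n • T.G))) (s : S) :
    ev (T.br s false) (w false) = d.lines s * ev (T.br s true) (w true) := by
  rw [d.image_lines hm hn] at hw
  exact hw.2.2 s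

/-- The product of normalised data, for the sum of the divisors. -/
def mul (d : T.NormalData m D) (d' : T.NormalData m D') : T.NormalData m (D + D') where
  f := d.f * d'.f
  f_ne := mul_ne_zero d.f_ne d'.f_ne
  div_f P := by rw [P.ord_mul d.f_ne d'.f_ne, d.div_f, d'.div_f, Finsupp.add_apply, mul_add]
  degree_D := by rw [map_add, d.degree_D, d'.degree_D, add_zero]
  c i := d.c i * d'.c i
  c_ne i := mul_ne_zero (d.c_ne i) (d'.c_ne i)
  e i := d.e i * d'.e i
  e_eq i := by rw [Subring.coe_mul, d.e_eq, d'.e_eq, map_mul, mul_pow]; ring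
  e_ne i := by rw [map_mul]; exact mul_ne_zero (d.e_ne i) (d'.e_ne i)
  e_br s i := by rw [map_mul, Place.ord_mul _ (d.e_ne i) (d'.e_ne i), d.e_br, d'.e_br, add_zero]

theorem lines_mul (hm : 0 < m) (d : T.NormalData m D) (d' : T.NormalData m D') (s : S) :
    (d.mul d').lines s = d.lines s * d'.lines s := by
  set N := d.bigN + d'.bigN + (d.mul d').bigN with hN
  obtain ⟨w, hw, hv⟩ := d.exists_test hm (show d.bigN ≤ N by omega)
  obtain ⟨w', hw', hv'⟩ := d'.exists_test hm (show d'.bigN ≤ N by omega)
  have hprod : w * w' ∈ pairImage T.R (d.mul d').c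
      (riemannRochSpace (D + D' + (N + N) • T.G)) := T.mul_mem_pairImage hw hw'
  have h := (d.mul d').lines_eq_of_mem hm (show (d.mul d').bigN ≤ N + N by omega) hprod s
  rw [d.image_lines hm (by omega)] at hw
  rw [d'.image_lines hm (by omega)] at hw'
  rw [Pi.mul_apply, Pi.mul_apply, ev_mul (T.deg_br s false) (hw.2.1 s _) (hw'.2.1 s _),
    ev_mul (T.deg_br s true) (hw.2.1 s _) (hw'.2.1 s _), (hv s).1, (hv s).2, (hv' s).1, (hv' s).2,
    mul_one, mul_one] at h
  exact h.symm

variable (T m) in
/-- The normalised data of the zero divisor given by the function `1`. -/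
def one : T.NormalData m 0 where
  f := 1
  f_ne := one_ne_zero
  div_f P := by simp
  degree_D := map_zero _
  c _ := 1
  c_ne _ := one_ne_zero
  e _ := 1
  e_eq i := by simp
  e_ne i := by rw [map_one]; exact one_ne_zero
  e_br s i := by rw [map_one, Place.ord_one]

theorem lines_one (hm : 0 < m) (s : S) : (one T m).lines s = 1 := by
  set N := (one T m).bigN + T.bigN with hN
  have hmem : (fun _ => (1 : Fk)) ∈
      pairImage T.R (one T m).c (riemannRochSpace (0 + N • T.G)) := by
    refine ⟨1, by rw [zero_add]; exact T.one_mem_space N, fun i => ⟨1, ?_, map_one _⟩⟩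
    show algebraMap K F 1 * ((1 : (T.R i).O) : F) = 1
    rw [map_one, Subring.coe_one, one_mul]
  have h := (one T m).lines_eq_of_mem hm (show (one T m).bigN ≤ N by omega) hmem s
  rwa [ev_one (T.deg_br s _), ev_one (T.deg_br s _), mul_one, eq_comm] at h

/-- Change of divisor along an equality. -/
def copy (d : T.NormalData m D) (h : D' = D) : T.NormalData m D' where
  f := d.f
  f_ne := d.f_ne
  div_f P := by rw [h]; exact d.div_f P
  degree_D := by rw [h]; exact d.degree_D
  c := d.c
  c_ne := d.c_ne
  e := d.e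
  e_eq := d.e_eq
  e_ne := d.e_ne
  e_br := d.e_br

theorem lines_copy (d : T.NormalData m D) (h : D' = D) : (d.copy h).lines = d.lines := by
  subst h; rfl

/-- The inverse of normalised data, for the opposite divisor. -/
def inv (d : T.NormalData m D) : T.NormalData m (-D) where
  f := d.f⁻¹
  f_ne := inv_ne_zero d.f_ne
  div_f P := by rw [P.ord_inv, d.div_f, Finsupp.neg_apply, mul_neg]
  degree_D := by rw [map_neg, d.degree_D, neg_zero]
  c i := (d.c i)⁻¹
  c_ne i := inv_ne_zero (d.c_ne i)
  e i := (inv_mem_O (T.R i) (d.e_ne i)).choose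
  e_eq i := by
    rw [(inv_mem_O (T.R i) (d.e_ne i)).choose_spec.1, d.e_eq, map_inv₀, mul_inv, inv_pow]
  e_ne i := by
    rw [(inv_mem_O (T.R i) (d.e_ne i)).choose_spec.2]; exact inv_ne_zero (d.e_ne i)
  e_br s i := by
    rw [(inv_mem_O (T.R i) (d.e_ne i)).choose_spec.2, Place.ord_inv, d.e_br, neg_zero]

theorem red_e_inv (d : T.NormalData m D) (i : Bool) :
    (T.R i).red (d.inv.e i) = ((T.R i).red (d.e i))⁻¹ :=
  (inv_mem_O (T.R i) (d.e_ne i)).choose_spec.2

theorem red_e_mul (d : T.NormalData m D) (d' : T.NormalData m D') (i : Bool) :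
    (T.R i).red ((d.mul d').e i) = (T.R i).red (d.e i) * (T.R i).red (d'.e i) := map_mul _ _ _

theorem lines_inv (hm : 0 < m) (d : T.NormalData m D) (s : S) :
    d.inv.lines s = (d.lines s)⁻¹ := by
  refine eq_inv_of_mul_eq_one_left ?_
  rw [← lines_mul hm]
  -- `d⁻¹ * d` has the same scalings and divisor as the unit
  set N := (d.inv.mul d).bigN + T.bigN with hN
  have hmem : (fun _ => (1 : Fk)) ∈ pairImage T.R (d.inv.mul d).c
      (riemannRochSpace (-D + D + N • T.G)) := by
    refine ⟨1, by rw [neg_add_cancel, zero_add]; exact T.one_mem_space N,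
      fun i => ⟨1, ?_, map_one _⟩⟩
    show algebraMap K F ((d.c i)⁻¹ * d.c i) * ((1 : (T.R i).O) : F) = 1
    rw [inv_mul_cancel₀ (d.c_ne i), map_one, Subring.coe_one, one_mul]
  have h := (d.inv.mul d).lines_eq_of_mem hm (show (d.inv.mul d).bigN ≤ N by omega) hmem s
  rwa [ev_one (T.deg_br s _), ev_one (T.deg_br s _), mul_one, eq_comm] at h

/-- The powers of normalised data, for the multiples of the divisor. -/
def npow (d : T.NormalData m D) : ∀ a : ℕ, T.NormalData m (a • D)
  | 0 => (one T m).copy (zero_smul ℕ D)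
  | a + 1 => ((npow d a).mul d).copy (succ_nsmul D a)

theorem lines_npow (hm : 0 < m) (d : T.NormalData m D) (a : ℕ) (s : S) :
    (d.npow a).lines s = d.lines s ^ a := by
  induction a with
  | zero => rw [npow, lines_copy, lines_one hm, pow_zero]
  | succ a ih => rw [npow, lines_copy, lines_mul hm, ih, pow_succ]

theorem red_e_npow (d : T.NormalData m D) (a : ℕ) (i : Bool) :
    (T.R i).red ((d.npow a).e i) = (T.R i).red (d.e i) ^ a := by
  induction a with
  | zero => exact (map_one _).trans (pow_zero _).symm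
  | succ a ih =>
    show (T.R i).red ((d.npow a).e i * d.e i) = _
    rw [map_mul, ih, pow_succ]

theorem nodeVal_eq (d : T.NormalData m D) (he : ∀ i, (T.R i).red (d.e i) = 1) (s : S) (i : Bool) :
    d.nodeVal s i = 1 := by
  rw [nodeVal, he, ev_one (T.deg_br s i)]

/-- With trivial reductions the lines are `m`-th roots of unity. -/
theorem lines_pow (hm : 0 < m) (d : T.NormalData m D) (he : ∀ i, (T.R i).red (d.e i) = 1)
    (s : S) : d.lines s ^ m = 1 := by
  obtain ⟨w, hw, hv⟩ := d.exists_test hm le_rfl
  have h := (d.image_bound hm _ hw).2 s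
  rwa [(hv s).1, (hv s).2, d.nodeVal_eq he, d.nodeVal_eq he, mul_one, mul_one, one_pow] at h

/-- Trivial reductions and trivial lines give trivial data. -/
def toTrivial (hm : 0 < m) (d : T.NormalData m D) (he : ∀ i, (T.R i).red (d.e i) = 1)
    (hl : ∀ s, d.lines s = 1) : T.TrivialData m D where
  toNormalData := d
  red_e := he
  N := d.bigN
  image_eq n hn := by
    have hE : ∀ i, d.E i = 0 := fun i => Finsupp.ext fun Q => by
      rw [d.E_apply, d.redDiv_apply, he, Place.ord_one, Int.zero_ediv, Finsupp.coe_zero,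
        Pi.zero_apply]
    rw [d.image_lines hm hn, show d.lines = 1 from funext hl]
    congr 1
    funext i
    simp [twist, hE]

end NormalData

end TwoRed

namespace SemiRed

variable {S : Type*} [Fintype S] {T : TwoRed A π F Fk S} (σ : SemiRed T)

/-- Transport of normalised data along an automorphism permuting the nodes. -/
def mapNormal (hσ : σ.PermutesNodes) {m : ℕ} {D : Divisor K F} (d : T.NormalData m D) :
    T.NormalData m (σ.aut • D) where
  f := σ.aut • d.f
  f_ne := σ.smul_ne_zero d.f_ne
  div_f P := by rw [σ.ord_aut_smul, d.div_f, SemilinearAut.divisor_smul_apply]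
  degree_D := by rw [SemilinearAut.degree_smul, d.degree_D]
  c i := SemilinearAut.baseAut σ.aut (d.c i)
  c_ne i := σ.baseAut_ne_zero (d.c_ne i)
  e i := σ.mapO i (d.e i)
  e_eq i := by
    rw [coe_mapO, d.e_eq, smul_mul', smul_pow', SemilinearAut.smul_algebraMap]
  e_ne i := by rw [σ.red_mapO_resF]; exact σ.resF_ne_zero (d.e_ne i)
  e_br s i := by
    obtain ⟨t, ht⟩ := hσ s i
    rw [σ.red_mapO_resF, σ.ord_resF, ht]; exact d.e_br t i

theorem ev_resF {P : Place k Fk} (hP : P.deg = 1) {w : Fk}
    (hw : w ∈ (σ.resAut⁻¹ • P).toValuationSubring) :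
    ev P (σ.resF w) = σ.res (ev (σ.resAut⁻¹ • P) w) := by
  have hP' : (σ.resAut⁻¹ • P).deg = 1 := by rw [SemilinearAut.deg_smul, hP]
  set c := ev (σ.resAut⁻¹ • P) w with hc
  have hwc : w - algebraMap k Fk c ∈ (σ.resAut⁻¹ • P).toValuationSubring :=
    sub_mem hw ((σ.resAut⁻¹ • P).algebraMap_mem' c)
  have h0 : ev (σ.resAut⁻¹ • P) (w - algebraMap k Fk c) = 0 := by
    have := ev_add hP' hwc ((σ.resAut⁻¹ • P).algebraMap_mem' c)
    rw [sub_add_cancel, ev_algebraMap hP', ← hc] at this
    linear_combination -this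
  have h1 := (ev_eq_zero_iff hP' hwc).mp h0
  have hmem : σ.resF (w - algebraMap k Fk c) ∈ P.toValuationSubring := by
    rw [mem_place_iff, σ.ord_resF]
    exact (mem_place_iff _).mp hwc
  have h2 : ev P (σ.resF (w - algebraMap k Fk c)) = 0 := by
    rw [ev_eq_zero_iff hP hmem, σ.ord_resF]
    exact h1.imp (fun h => by rw [h, map_zero]) id
  have hsplit : σ.resF w = σ.resF (w - algebraMap k Fk c) + algebraMap k Fk (σ.res c) := by
    rw [map_sub, σ.resF_algebraMap, sub_add_cancel]
  rw [hsplit, ev_add hP hmem (P.algebraMap_mem' _), h2, zero_add, ev_algebraMap hP]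

/-- Automorphisms fixing the nodes act on the lines through constants. -/
theorem lines_mapNormal (hσ : σ.FixesNodes) {m : ℕ} (hm : 0 < m) {D : Divisor K F}
    (d : T.NormalData m D) (s : S) :
    (σ.mapNormal hσ.permutes d).lines s = σ.res (d.lines s) := by
  set d₁ := σ.mapNormal hσ.permutes d with hd₁
  set N := d.bigN + d₁.bigN with hN
  obtain ⟨w, hw, hv⟩ := d.exists_test hm (show d.bigN ≤ N by omega)
  have hmem : (fun i => σ.resF (w i)) ∈
      pairImage T.R d₁.c (riemannRochSpace (σ.aut • D + N • T.G)) := by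
    obtain ⟨u, hu, h⟩ := hw
    refine ⟨σ.aut • u, ?_, fun i => ?_⟩
    · have := σ.smul_mem_space hu
      rwa [smul_add, smul_comm σ.aut N T.G, σ.smul_G] at this
    · obtain ⟨v, hv', hr⟩ := h i
      exact ⟨σ.mapO i v, by rw [coe_mapO, ← hv', smul_mul', SemilinearAut.smul_algebraMap]; rfl,
        by rw [σ.red_mapO_resF, hr]⟩
  have h := d₁.lines_eq_of_mem hm (show d₁.bigN ≤ N by omega) hmem s
  rw [d.image_lines hm (by omega)] at hw
  have hreg : ∀ i, w i ∈ (σ.resAut⁻¹ • T.br s i).toValuationSubring := fun i => by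
    rw [hσ.inv s i]; exact hw.2.1 s i
  rw [σ.ev_resF (T.deg_br s false) (hreg _), σ.ev_resF (T.deg_br s true) (hreg _), hσ.inv s false,
    hσ.inv s true, (hv s).1, (hv s).2, map_one, mul_one] at h
  exact h.symm

end SemiRed

end Fermat.Agent.TwoComponent
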