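import Fermat.Agent.TwoComponent.Inject
import Fermat.Agent.TwoComponent.Lines

/-!
# The map to the Jacobians of the components, and Frobenius

Classes of slope zero map to the Jacobians of the two components; classes killed by both maps
have data of trivial reduction, on which an automorphism fixing the nodes acts as it does on
roots of unity.
-/

noncomputable section

open AlgebraicCurve Fermat.Agent.Red

namespace Fermat.Agent.TwoComponent

variable {K k F Fk : Type*} [Field K] [Field F] [Algebra K F] [Field k] [Field Fk] [Algebra k Fk]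
variable {A : ValuationSubring K} {π : A →+* k}

namespace TwoRed

variable {S : Type*} [Fintype S] (T : TwoRed A π F Fk S)

/-- Classes with torsion data of trivial reduction. -/
def InT00 (m : ℕ) (y : Pic0 K F) : Prop :=
  ∃ (D : Divisor.degZero (K := K) (F := F)) (d : T.NormalData m (D : Divisor K F)),
    Pic0.mk D = y ∧ ∀ i, (T.R i).red (d.e i) = 1

variable {T} {m : ℕ}

namespace NormalData

/-- The class of `E`, the `m`-th part of the reduced divisor, on a component. -/
def eClass (hm : 0 < m) {D : Divisor K F} (d : T.NormalData m D) (i : Bool) : Pic0 k Fk :=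
  Pic0.mk ⟨d.E i, Divisor.mem_degZero.mpr (d.degree_E hm i)⟩

theorem E_mul (hm : 0 < m) {D D' : Divisor K F} (d : T.NormalData m D) (d' : T.NormalData m D')
    (i : Bool) : (d.mul d').E i = d.E i + d'.E i := Finsupp.ext fun Q => by
  refine mul_left_cancel₀ (show (m : ℤ) ≠ 0 by omega) ?_
  rw [(d.mul d').mul_E hm, Finsupp.add_apply, mul_add, d.mul_E hm, d'.mul_E hm, d.red_e_mul,
    Q.ord_mul (d.e_ne i) (d'.e_ne i)]

theorem E_inv (hm : 0 < m) {D : Divisor K F} (d : T.NormalData m D) (i : Bool) :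
    d.inv.E i = - d.E i := Finsupp.ext fun Q => by
  refine mul_left_cancel₀ (show (m : ℤ) ≠ 0 by omega) ?_
  rw [d.inv.mul_E hm, Finsupp.neg_apply, mul_neg, d.mul_E hm, d.red_e_inv, Q.ord_inv]

theorem eClass_mul (hm : 0 < m) {D D' : Divisor K F} (d : T.NormalData m D)
    (d' : T.NormalData m D') (i : Bool) :
    (d.mul d').eClass hm i = d.eClass hm i + d'.eClass hm i := by
  rw [eClass, eClass, eClass, ← Pic0.mk_add]
  exact congrArg Pic0.mk (Subtype.ext (E_mul hm d d' i))

theorem eClass_inv (hm : 0 < m) {D : Divisor K F} (d : T.NormalData m D) (i : Bool) :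
    d.inv.eClass hm i = - d.eClass hm i := by
  rw [eClass, eClass]
  refine (congrArg Pic0.mk (Subtype.ext ?_)).trans (map_neg (QuotientAddGroup.mk' _)
    (⟨d.E i, Divisor.mem_degZero.mpr (d.degree_E hm i)⟩ : Divisor.degZero (K := k) (F := Fk)))
  exact E_inv hm d i

theorem eClass_eq_zero_of_principal (hm : 0 < m) {D : Divisor K F} (d : T.NormalData m D)
    (hD : D ∈ Divisor.principal (K := K) (F := F)) (i : Bool) : d.eClass hm i = 0 := by
  obtain ⟨h, hh0, hh⟩ := hD
  obtain ⟨a, ha⟩ := T.rrF.eq_const_of_ord_nonneg (f := d.f / h ^ m) fun P => by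
    rw [ord_div P d.f_ne (pow_ne_zero _ hh0), ord_pow, d.div_f, hh, sub_self]
  have ha0 : a ≠ 0 := by
    rintro rfl
    rw [map_zero, div_eq_zero_iff] at ha
    exact ha.elim d.f_ne (pow_ne_zero _ hh0)
  have hf : d.f = algebraMap K F a * h ^ m := by
    rw [← ha, div_mul_cancel₀ _ (pow_ne_zero _ hh0)]
  obtain ⟨c, v, hv, hcv⟩ := (T.R i).scale h hh0
  refine (QuotientAddGroup.eq_zero_iff _).mpr
    (AddSubgroup.mem_addSubgroupOf.mpr ⟨(T.R i).red v, hv, fun Q => ?_⟩)
  refine mul_left_cancel₀ (show (m : ℤ) ≠ 0 by omega) ?_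
  show (m : ℤ) * d.E i Q = _
  have hca : algebraMap K F (d.c i) ^ m * algebraMap K F a ≠ 0 :=
    mul_ne_zero (pow_ne_zero _ ((map_ne_zero _).mpr (d.c_ne i))) ((map_ne_zero _).mpr ha0)
  rw [d.mul_E hm, ← redOrd_of_O (T.R i) (d.e_ne i), d.e_eq, hf, ← mul_assoc,
    redOrd_mul _ hca (pow_ne_zero _ hh0), redOrd_pow _ hh0, ← map_pow, ← map_mul,
    redOrd_algebraMap _ (mul_ne_zero (pow_ne_zero _ (d.c_ne i)) ha0), zero_add,
    redOrd_eq (T.R i) hh0 hv hcv]

theorem eClass_congr (hm : 0 < m) {D D' : Divisor.degZero (K := K) (F := F)}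
    (d : T.NormalData m (D : Divisor K F)) (d' : T.NormalData m (D' : Divisor K F))
    (h : Pic0.mk D = Pic0.mk D') (i : Bool) : d.eClass hm i = d'.eClass hm i := by
  have hp : (D : Divisor K F) + -(D' : Divisor K F) ∈ Divisor.principal (K := K) (F := F) := by
    have := (QuotientAddGroup.eq (s := (Divisor.principal (K := K) (F := F)).addSubgroupOf
      (Divisor.degZero (K := K) (F := F)))).mp h.symm
    rw [AddSubgroup.mem_addSubgroupOf] at this
    rw [add_comm]
    simpa using this
  have := (d.mul d'.inv).eClass_eq_zero_of_principal hm hp i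
  rwa [eClass_mul, eClass_inv, ← sub_eq_add_neg, sub_eq_zero] at this

end NormalData

theorem InT0.exists_data [IsAlgClosed K] (hm : 0 < m) {y : Pic0 K F} (hy : T.InT0 m y) :
    ∃ (D : Divisor.degZero (K := K) (F := F)) (_d : T.NormalData m (D : Divisor K F)),
      Pic0.mk D = y := by
  obtain ⟨D, hD, ⟨d⟩⟩ := T.exists_normalData hm hy
  exact ⟨D, d, hD⟩

variable (T) in
/-- The reduction map on classes of slope zero. -/
def redClass [IsAlgClosed K] (hm : 0 < m) (i : Bool) : T.T0 m →+ Pic0 k Fk where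
  toFun y := (InT0.exists_data hm y.2).choose_spec.choose.eClass hm i
  map_zero' := by
    refine (NormalData.eClass_eq_zero_of_principal hm _ ?_ i)
    have h := (InT0.exists_data hm (T.T0 m).zero_mem).choose_spec.choose_spec
    exact AddSubgroup.mem_addSubgroupOf.mp ((QuotientAddGroup.eq_zero_iff _).mp h)
  map_add' y y' := by
    set a := InT0.exists_data hm y.2 with ha
    set a' := InT0.exists_data hm y'.2 with ha'
    set b := InT0.exists_data hm (y + y').2 with hb
    rw [← NormalData.eClass_mul]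
    refine NormalData.eClass_congr hm _ (D' := a.choose + a'.choose)
      ((a.choose_spec.choose.mul a'.choose_spec.choose).copy (AddSubgroup.coe_add _ _ _)) ?_ i
    rw [Pic0.mk_add, a.choose_spec.choose_spec, a'.choose_spec.choose_spec,
      b.choose_spec.choose_spec]
    rfl

theorem redClass_eq [IsAlgClosed K] (hm : 0 < m) (i : Bool) {y : T.T0 m}
    {D : Divisor.degZero (K := K) (F := F)} (d : T.NormalData m (D : Divisor K F))
    (h : Pic0.mk D = (y : Pic0 K F)) : T.redClass hm i y = d.eClass hm i :=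
  NormalData.eClass_congr hm _ d
    ((InT0.exists_data hm y.2).choose_spec.choose_spec.trans h.symm) i

/-- Classes killed by both reduction maps have unit data. -/
theorem inT00_of_redClass_eq_zero [IsAlgClosed K] (hm : 0 < m) (y : T.T0 m)
    (h : ∀ i, T.redClass hm i y = 0) : T.InT00 m (y : Pic0 K F) := by
  obtain ⟨D, d, hD⟩ := InT0.exists_data hm y.2
  have hp : ∀ i, ∃ w : Fk, w ≠ 0 ∧ ∀ Q : Place k Fk, d.E i Q = Q.ord w := fun i => by
    have h0 := h i
    rw [redClass_eq hm i d hD] at h0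
    exact AddSubgroup.mem_addSubgroupOf.mp ((QuotientAddGroup.eq_zero_iff _).mp h0)
  choose w hw0 hw using hp
  obtain ⟨g, hg0, hg⟩ := T.exists_lift_pair w hw0
  choose v hv hvr using hg
  obtain ⟨H, hH, hHd⟩ := T.rrF.exists_div g hg0
  have hbr : ∀ s i, (T.br s i).ord (w i) = 0 := fun s i => by rw [← hw, d.E_br]
  let p : T.NormalData m H :=
    { f := g ^ m
      f_ne := pow_ne_zero _ hg0
      div_f := fun P => by rw [ord_pow, hH]
      degree_D := hHd
      c := fun _ => 1
      c_ne := fun _ => one_ne_zero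
      e := fun i => v i ^ m
      e_eq := fun i => by rw [SubmonoidClass.coe_pow, hv, map_one, one_pow, one_mul]
      e_ne := fun i => by rw [map_pow, hvr]; exact pow_ne_zero _ (hw0 i)
      e_br := fun s i => by rw [map_pow, hvr, ord_pow, hbr, mul_zero] }
  set d' := d.mul p.inv with hd'
  have hconst : ∀ i, ∃ b : k, b ≠ 0 ∧ (T.R i).red (d'.e i) = algebraMap k Fk b := fun i => by
    obtain ⟨b, hb⟩ := T.rrK.eq_const_of_ord_nonneg (f := (T.R i).red (d'.e i)) fun Q => by
      rw [hd', d.red_e_mul, p.red_e_inv]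
      show 0 ≤ Q.ord ((T.R i).red (d.e i) * ((T.R i).red (v i ^ m))⁻¹)
      rw [map_pow, hvr, Q.ord_mul (d.e_ne i) (inv_ne_zero (pow_ne_zero _ (hw0 i))), Q.ord_inv,
        ord_pow, ← d.mul_E hm, hw, add_neg_cancel]
    exact ⟨b, fun h0 => d'.e_ne i (by rw [hb, h0, map_zero]), hb⟩
  choose b hb0 hb using hconst
  choose a ha using fun i => (T.R i).surj_pi (b i)⁻¹
  have ha0 : ∀ i, (a i : K) ≠ 0 := fun i h0 => inv_ne_zero (hb0 i) (by
    rw [← ha i, show a i = 0 from Subtype.ext h0, map_zero])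
  choose r hr using fun i => IsAlgClosed.exists_pow_nat_eq (a i : K) hm
  let H0 : Divisor.degZero (K := K) (F := F) := ⟨H, Divisor.mem_degZero.mpr hHd⟩
  refine ⟨D - H0,
    ({ f := d'.f
       f_ne := d'.f_ne
       div_f := d'.div_f
       degree_D := d'.degree_D
       c := fun i => r i * d'.c i
       c_ne := fun i => mul_ne_zero (fun h0 => ha0 i (by rw [← hr i, h0, zero_pow hm.ne']))
         (d'.c_ne i)
       e := fun i => (T.R i).ι (a i) * d'.e i
       e_eq := fun i => by
         rw [Subring.coe_mul, RedBase.coe_ι, d'.e_eq, map_mul, mul_pow, ← map_pow, ← map_pow, hr]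
         ring
       e_ne := fun i => by
         rw [map_mul, RedBase.red_ι, ha]
         exact mul_ne_zero ((map_ne_zero _).mpr (inv_ne_zero (hb0 i))) (d'.e_ne i)
       e_br := fun s i => by
         rw [map_mul, RedBase.red_ι, ha, ord_algebraMap_mul _ (inv_ne_zero (hb0 i))]
         exact d'.e_br s i } :
      T.NormalData m ((D : Divisor K F) + -H)).copy
      (by rw [AddSubgroupClass.coe_sub, sub_eq_add_neg]), ?_, fun i => ?_⟩
  · have h0 : Pic0.mk H0 = 0 := (QuotientAddGroup.eq_zero_iff _).mpr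
      (AddSubgroup.mem_addSubgroupOf.mpr ⟨g, hg0, hH⟩)
    rw [show Pic0.mk (D - H0) = Pic0.mk D - Pic0.mk H0 from map_sub (QuotientAddGroup.mk' _) _ _,
      h0, sub_zero, hD]
  · show (T.R i).red ((T.R i).ι (a i) * d'.e i) = 1
    rw [map_mul, RedBase.red_ι, ha, hb, ← map_mul, inv_mul_cancel₀ (hb0 i), map_one]

end TwoRed

namespace SemiRed

variable {S : Type*} [Fintype S] {T : TwoRed A π F Fk S} (σ : SemiRed T)

theorem redClass_smul [IsAlgClosed K] {m : ℕ} (hm : 0 < m) (hσ : σ.PermutesNodes) (i : Bool)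
    (y : T.T0 m) :
    T.redClass hm i ⟨σ.aut • (y : Pic0 K F), σ.smul_mem_T0 hσ y.2⟩ =
      σ.resAut • T.redClass hm i y := by
  obtain ⟨D, d, hD⟩ := TwoRed.InT0.exists_data hm y.2
  rw [TwoRed.redClass_eq hm i d hD,
    TwoRed.redClass_eq hm i (D := SemilinearAut.degZeroSMulHom σ.aut D)
      ((σ.mapNormal hσ d).copy rfl) (by rw [← SemilinearAut.pic0_smul_mk, hD]),
    TwoRed.NormalData.eClass, TwoRed.NormalData.eClass, SemilinearAut.pic0_smul_mk]
  refine congrArg Pic0.mk (Subtype.ext (Finsupp.ext fun Q => ?_))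
  refine mul_left_cancel₀ (show (m : ℤ) ≠ 0 by omega) ?_
  show (m : ℤ) * ((σ.mapNormal hσ d).copy rfl).E i Q = (m : ℤ) * (σ.resAut • d.E i) Q
  rw [TwoRed.NormalData.mul_E hm, SemilinearAut.divisor_smul_apply, d.mul_E hm]
  show Q.ord ((T.R i).red (σ.mapO i (d.e i))) = _
  rw [σ.red_mapO_resF, σ.ord_resF]

/-- **Frobenius on the toric part**: an automorphism fixing the nodes acts on classes of trivial
reduction as on the roots of unity. -/
theorem smul_eq_nsmul_of_inT00 [IsAlgClosed K] (hσ : σ.FixesNodes) {m : ℕ} (hm : 0 < m)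
    (hmk : (m : k) ≠ 0) (hnt : ∃ t : A, t ≠ 0 ∧ π t = 0) {a : ℕ}
    (hres : ∀ z : k, z ^ m = 1 → σ.res z = z ^ a) {y : Pic0 K F} (hy : T.InT00 m y) :
    σ.aut • y = a • y := by
  obtain ⟨D, d, rfl, he⟩ := hy
  set d' := (σ.mapNormal hσ.permutes d).mul (d.npow a).inv with hd'
  have he' : ∀ i, (T.R i).red (d'.e i) = 1 := fun i => by
    rw [hd', TwoRed.NormalData.red_e_mul, TwoRed.NormalData.red_e_inv,
      TwoRed.NormalData.red_e_npow, he, one_pow, inv_one, mul_one]
    show (T.R i).red (σ.mapO i (d.e i)) = 1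
    rw [σ.red_mapO_resF, he, map_one]
  have hl : ∀ s, d'.lines s = 1 := fun s => by
    rw [hd', TwoRed.NormalData.lines_mul hm, TwoRed.NormalData.lines_inv hm,
      TwoRed.NormalData.lines_npow hm, σ.lines_mapNormal hσ hm,
      hres _ (TwoRed.NormalData.lines_pow hm d he s)]
    exact mul_inv_cancel₀ (pow_ne_zero _ (TwoRed.NormalData.lines_ne_zero hm d s))
  have hp := (TwoRed.NormalData.toTrivial hm d' he' hl).principal hm hmk hnt
  rw [← sub_eq_zero, SemilinearAut.pic0_smul_mk,
    show a • Pic0.mk D = Pic0.mk (a • D) from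
      (map_nsmul (QuotientAddGroup.mk' ((Divisor.principal (K := K) (F := F)).addSubgroupOf
        (Divisor.degZero (K := K) (F := F)))) a D).symm,
    show Pic0.mk (SemilinearAut.degZeroSMulHom σ.aut D) - Pic0.mk (a • D) =
      Pic0.mk (SemilinearAut.degZeroSMulHom σ.aut D - a • D) from
      (map_sub (QuotientAddGroup.mk' ((Divisor.principal (K := K) (F := F)).addSubgroupOf
        (Divisor.degZero (K := K) (F := F)))) _ _).symm]
  refine (QuotientAddGroup.eq_zero_iff _).mpr (AddSubgroup.mem_addSubgroupOf.mpr ?_)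
  rwa [AddSubgroupClass.coe_sub, SemilinearAut.coe_degZeroSMulHom, AddSubgroupClass.coe_nsmul,
    sub_eq_add_neg]

end SemiRed

end Fermat.Agent.TwoComponent
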