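import Fermat.Agent.TwoComponent.Glued

/-!
# Exactness: reductions of functions with poles at the poles of `x`

In large degree the reductions of integral functions in `L(n G)` are exactly the glued pairs, so
every pair of nonzero reduced functions lifts to one function.
-/

noncomputable section

open AlgebraicCurve Fermat.Agent.Red

namespace Fermat.Agent.TwoComponent

variable {K k F Fk : Type*} [Field K] [Field F] [Algebra K F] [Field k] [Field Fk] [Algebra k Fk]
variable {A : ValuationSubring K} {π : A →+* k}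

namespace TwoRed

variable {S : Type*} [Fintype S] (T : TwoRed A π F Fk S)

/-- From this multiple of `G` on, everything is non-special. -/
def bigN : ℕ := 2 * (T.g + T.gk) + Fintype.card S + 1

theorem bigN_le_degree {n : ℕ} (hn : T.bigN ≤ n) (i : Bool) :
    2 * (T.gk : ℤ) - 1 + Fintype.card S ≤ Divisor.degree (n • T.Gk i) := by
  rw [map_nsmul, nsmul_eq_mul]
  have := T.degree_Gk_pos i
  have : (n : ℤ) ≤ n * Divisor.degree (T.Gk i) := le_mul_of_one_le_right (by omega) (by omega)
  unfold bigN at hn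
  omega

theorem bigN_le_degree_G {n : ℕ} (hn : T.bigN ≤ n) :
    2 * (T.g : ℤ) - 1 ≤ Divisor.degree (n • T.G) := by
  rw [map_nsmul, nsmul_eq_mul, T.degree_G]
  have := T.degree_Gk_pos false
  have := T.degree_Gk_pos true
  have : (n : ℤ) ≤ n * (Divisor.degree (T.Gk false) + Divisor.degree (T.Gk true)) :=
    le_mul_of_one_le_right (by omega) (by omega)
  unfold bigN at hn
  omega

theorem nsmul_Gk_br (n : ℕ) (s : S) (i : Bool) : (n • T.Gk i) (T.br s i) = 0 := by
  rw [Finsupp.smul_apply, T.br_regular, smul_zero]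

theorem G_nonneg (P : Place K F) : 0 ≤ T.G P := by rw [T.G_spec]; exact le_max_left _ _

theorem Gk_nonneg (i : Bool) (Q : Place k Fk) : 0 ≤ T.Gk i Q := by
  rw [T.Gk_spec]; exact le_max_left _ _

theorem space_nsmul_mono {n n' : ℕ} (h : n ≤ n') (D : Divisor K F) :
    riemannRochSpace (D + n • T.G) ≤ riemannRochSpace (D + n' • T.G) := by
  refine RR.space_mono fun P => ?_
  rw [Finsupp.add_apply, Finsupp.add_apply, Finsupp.smul_apply, Finsupp.smul_apply,
    nsmul_eq_mul, nsmul_eq_mul]
  have := T.G_nonneg P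
  nlinarith

theorem pow_x_mem_space (n : ℕ) : T.x ^ n ∈ riemannRochSpace (n • T.G) := by
  refine mem_riemannRochSpace_iff.mpr fun P => Or.inr ?_
  rw [Finsupp.smul_apply, nsmul_eq_mul, T.G_spec, ord_pow]
  have : -P.ord T.x ≤ max 0 (-P.ord T.x) := le_max_right _ _
  have := mul_le_mul_of_nonneg_left this (Int.natCast_nonneg n)
  linarith

theorem one_mem_space (n : ℕ) : (1 : F) ∈ riemannRochSpace (n • T.G) := by
  refine mem_riemannRochSpace_iff.mpr fun P => Or.inr ?_
  rw [Finsupp.smul_apply, nsmul_eq_mul, Place.ord_one]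
  have := T.G_nonneg P
  nlinarith

/-- Products in Riemann–Roch spaces: divisors and multiples of `G` add up. -/
theorem mem_space_add_mul {D D' : Divisor K F} {a b : ℕ} {y z : F}
    (hy : y ∈ riemannRochSpace (D + a • T.G)) (hz : z ∈ riemannRochSpace (D' + b • T.G)) :
    y * z ∈ riemannRochSpace (D + D' + (a + b) • T.G) := by
  refine mem_riemannRochSpace_iff.mpr fun P => or_iff_not_imp_left.mpr fun hne => ?_
  have h1 := ((mem_riemannRochSpace_iff.mp hy) P).resolve_left (left_ne_zero_of_mul hne)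
  have h2 := ((mem_riemannRochSpace_iff.mp hz) P).resolve_left (right_ne_zero_of_mul hne)
  rw [P.ord_mul (left_ne_zero_of_mul hne) (right_ne_zero_of_mul hne)]
  simp only [Finsupp.add_apply, Finsupp.smul_apply, nsmul_eq_mul] at h1 h2 ⊢
  push_cast
  linarith

/-- A product of pairs of reductions is the pair of reductions of the product. -/
theorem mul_mem_pairImage {D D' : Divisor K F} {a b : ℕ} {c c' : Bool → K} {w w' : Bool → Fk}
    (hw : w ∈ pairImage T.R c (riemannRochSpace (D + a • T.G)))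
    (hw' : w' ∈ pairImage T.R c' (riemannRochSpace (D' + b • T.G))) :
    w * w' ∈ pairImage T.R (c * c') (riemannRochSpace (D + D' + (a + b) • T.G)) := by
  obtain ⟨u, hu, h⟩ := hw
  obtain ⟨u', hu', h'⟩ := hw'
  refine ⟨u * u', T.mem_space_add_mul hu hu', fun i => ?_⟩
  obtain ⟨v, hv, hr⟩ := h i
  obtain ⟨v', hv', hr'⟩ := h' i
  exact ⟨v * v', by rw [Pi.mul_apply, map_mul, Subring.coe_mul, ← hv, ← hv']; ring,
    by rw [map_mul, hr, hr']; rfl⟩

/-- The reductions of an element of `L(n G)`, given in the rings `O`, form a glued pair. -/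
theorem bound' {n : ℕ} {u : F} (hu : u ∈ riemannRochSpace (n • T.G)) (v : ∀ i, (T.R i).O)
    (hv : ∀ i, ((v i : (T.R i).O) : F) = u) :
    (fun i => (T.R i).red (v i)) ∈ T.glued (fun i => n • T.Gk i) 1 := by
  have h : ∀ i, u ∈ (T.R i).O := fun i => hv i ▸ (v i).2
  have he : ∀ i, v i = ⟨u, h i⟩ := fun i => Subtype.ext (hv i)
  obtain ⟨h1, h2⟩ := T.bound n u hu h
  refine ⟨fun i => ?_, fun s i => ?_, fun s => ?_⟩
  · simp only [he]; exact h1 i
  · simp only [he]; exact mem_of_space (h1 i) (T.nsmul_Gk_br n s i)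
  · simp only [he, Pi.one_apply, one_mul]; exact h2 s

theorem image_le_glued (n : ℕ) :
    pairImage T.R 1 (riemannRochSpace (n • T.G)) ≤ T.glued (fun i => n • T.Gk i) 1 := by
  rintro w ⟨u, hu, hw⟩
  choose v hv hr using hw
  have := T.bound' hu v fun i => by simpa using hv i
  simpa only [hr] using this

/-- **Exactness**: in large degree the pairs of reductions of `L(n G)` are all the glued pairs. -/
theorem image_eq_glued {n : ℕ} (hn : T.bigN ≤ n) :
    pairImage T.R 1 (riemannRochSpace (n • T.G)) = T.glued (fun i => n • T.Gk i) 1 := by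
  have := T.finiteDimensional_glued (fun i => n • T.Gk i) 1
  have := T.rrF.finiteDim (n • T.G)
  refine Submodule.eq_of_le_of_finrank_le (T.image_le_glued n) (le_of_eq ?_)
  have h1 := T.finrank_glued (fun i => n • T.Gk i) 1 (fun s i => T.nsmul_Gk_br n s i)
    (fun i => T.bigN_le_degree hn i)
  have h2 := T.rrF.ell_eq_of_large (D := n • T.G) (T.bigN_le_degree_G hn)
  have h3 := T.genus_eq
  rw [T.finrank_pairImage (c := 1) (fun _ => one_ne_zero)]
  rw [map_nsmul, map_nsmul] at h1
  rw [map_nsmul, T.degree_G, smul_add] at h2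
  unfold Red.ell at h2
  omega

/-- Glued pairs in large degree lift. -/
theorem exists_lift {n : ℕ} (hn : T.bigN ≤ n) {w : Bool → Fk}
    (hw : w ∈ T.glued (fun i => n • T.Gk i) 1) :
    ∃ u ∈ riemannRochSpace (n • T.G), ∀ i, ∃ v : (T.R i).O,
      (v : F) = u ∧ (T.R i).red v = w i := by
  rw [← T.image_eq_glued hn] at hw
  obtain ⟨u, hu, h⟩ := hw
  refine ⟨u, hu, fun i => ?_⟩
  obtain ⟨v, hv, hr⟩ := h i
  exact ⟨v, by simpa using hv, hr⟩

/-- Any pair of nonzero reduced functions is a quotient of glued pairs. -/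
theorem exists_glued_factor (w : Bool → Fk) (hw : ∀ i, w i ≠ 0) :
    ∃ n, T.bigN ≤ n ∧ ∃ z : Bool → Fk, (∀ i, z i ≠ 0) ∧
      z ∈ T.glued (fun i => n • T.Gk i) 1 ∧
      (fun i => w i * z i) ∈ T.glued (fun i => n • T.Gk i) 1 := by
  classical
  choose Dw hDw hDw0 using fun i => T.rrK.exists_div (w i) (hw i)
  set N : Bool → Divisor k Fk := fun i => (Dw i).mapRange (fun a => max 0 (-a)) (by simp) with hN
  set n := T.bigN + Fintype.card S + 2 * T.gk +
    ∑ i, (Divisor.degree (N i)).natAbs with hn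
  set E : Bool → Divisor k Fk := fun i => n • T.Gk i - N i - T.brDiv i with hE
  have hEdeg : ∀ i, 2 * (T.gk : ℤ) ≤ Divisor.degree (E i) := fun i => by
    have h1 := T.degree_Gk_pos i
    have h2 : (n : ℤ) ≤ n * Divisor.degree (T.Gk i) := le_mul_of_one_le_right (by omega) (by omega)
    have h3 : (Divisor.degree (N i)).natAbs ≤ ∑ i, (Divisor.degree (N i)).natAbs :=
      Finset.single_le_sum (f := fun i => (Divisor.degree (N i)).natAbs) (fun _ _ => Nat.zero_le _)
        (Finset.mem_univ i)
    simp only [hE, map_sub, map_nsmul, T.degree_brDiv, nsmul_eq_mul]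
    unfold bigN at hn
    omega
  have hz : ∀ i, ∃ z ∈ riemannRochSpace (E i + T.brDiv i), z ≠ 0 ∧
      ∀ s, 0 < (T.br s i).ord (w i * z) ∧ 0 < (T.br s i).ord z := fun i => by
    have h2 := hEdeg i
    have h1 := T.rrK.ell_eq_of_large (D := E i) (by omega)
    obtain ⟨z, hz, hz0⟩ := T.rrK.exists_ne_zero_of_ell_pos (D := E i) (by omega)
    refine ⟨z, RR.space_mono (fun Q => ?_) hz, hz0, fun s => ?_⟩
    · rw [Finsupp.add_apply]
      have := T.brDiv_nonneg i Q
      omega
    · have := ((mem_riemannRochSpace_iff.mp hz) (T.br s i)).resolve_left hz0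
      have hmax : max 0 (-(T.br s i).ord (w i)) = N i (T.br s i) := by simp [hN, hDw]
      simp only [hE, Finsupp.sub_apply, T.nsmul_Gk_br, T.brDiv_br] at this
      rw [Place.ord_mul _ (hw i) hz0]
      omega
  choose z hz hz0 hzord using hz
  have hzb : ∀ i Q, -(n • T.Gk i) Q + N i Q ≤ Q.ord (z i) := fun i Q => by
    have := ((mem_riemannRochSpace_iff.mp (hz i)) Q).resolve_left (hz0 i)
    simp only [hE, Finsupp.sub_apply, Finsupp.add_apply] at this
    omega
  have hNb : ∀ i Q, 0 ≤ N i Q ∧ -Q.ord (w i) ≤ N i Q := fun i Q => by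
    simp [hN, hDw]
  have hzm : (fun i => z i) ∈ T.glued (fun i => n • T.Gk i) 1 := by
    refine ⟨fun i => mem_riemannRochSpace_iff.mpr fun Q => Or.inr ?_,
      fun s i => (mem_place_iff _).mpr (hzord i s).2.le, fun s => ?_⟩
    · dsimp only
      have := hzb i Q; have := (hNb i Q).1; omega
    · have h := fun i => (ev_eq_zero_iff (T.deg_br s i)
        ((mem_place_iff _).mpr (hzord i s).2.le)).mpr (Or.inr (hzord i s).2)
      rw [h, h, mul_zero]
  have hwm : (fun i => w i * z i) ∈ T.glued (fun i => n • T.Gk i) 1 := by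
    refine ⟨fun i => mem_riemannRochSpace_iff.mpr fun Q => Or.inr ?_,
      fun s i => (mem_place_iff _).mpr (hzord i s).1.le, fun s => ?_⟩
    · dsimp only
      rw [Place.ord_mul _ (hw i) (hz0 i)]
      have := hzb i Q; have := (hNb i Q).2; omega
    · have h := fun i => (ev_eq_zero_iff (T.deg_br s i)
        ((mem_place_iff _).mpr (hzord i s).1.le)).mpr (Or.inr (hzord i s).1)
      rw [h, h, mul_zero]
  exact ⟨n, by omega, fun i => z i, hz0, hzm, hwm⟩

/-- Any pair of nonzero reduced functions lifts to one function. -/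
theorem exists_lift_pair (w : Bool → Fk) (hw : ∀ i, w i ≠ 0) :
    ∃ h : F, h ≠ 0 ∧ ∀ i, ∃ v : (T.R i).O, (v : F) = h ∧ (T.R i).red v = w i := by
  obtain ⟨n, hnN, z, hz0, hzm, hwm⟩ := T.exists_glued_factor w hw
  obtain ⟨U, -, hU⟩ := T.exists_lift hnN hwm
  obtain ⟨Z, -, hZ⟩ := T.exists_lift hnN hzm
  choose Uv hUv hUr using hU
  choose Zv hZv hZr using hZ
  choose r hr hrr using fun i => inv_mem_O (T.R i) (u := Zv i) (by rw [hZr]; exact hz0 i)
  have hred : ∀ i, (T.R i).red (Uv i * r i) = w i := fun i => by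
    rw [map_mul, hrr, hUr, hZr, mul_assoc, mul_inv_cancel₀ (hz0 i), mul_one]
  refine ⟨U * Z⁻¹, ?_, fun i => ⟨Uv i * r i, by rw [Subring.coe_mul, hr, hUv, hZv], hred i⟩⟩
  have := (T.R false).coe_ne_zero (u := Uv false * r false) (by rw [hred]; exact hw false)
  rwa [Subring.coe_mul, hr, hUv, hZv] at this

end TwoRed

end Fermat.Agent.TwoComponent
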