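import Mathlib.FieldTheory.IsAlgClosed.Basic
import Fermat.Agent.FF.Approx
import Fermat.Agent.TwoComponent.Exact

/-!
# Orders of reductions; normalised torsion data

The order at a point of the reduction of a function after scaling, the slope condition at the
nodes, and torsion data normalised at the nodes.
-/

noncomputable section

open AlgebraicCurve Fermat.Agent.Red

namespace Fermat.Agent.TwoComponent

variable {K k F Fk : Type*} [Field K] [Field F] [Algebra K F] [Field k] [Field Fk] [Algebra k Fk]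
variable {A : ValuationSubring K} {π : A →+* k}

/-- A chosen unit part of `f` for the reduction `R`. -/
def unitPart (R : RedBase A π F Fk) (f : F) : R.O :=
  open scoped Classical in
  if h : f ≠ 0 then (R.scale f h).choose_spec.choose else 0

/-- The order at `Q` of the reduction of `f` (after scaling). -/
def redOrd (R : RedBase A π F Fk) (f : F) (Q : Place k Fk) : ℤ := Q.ord (R.red (unitPart R f))

theorem unitPart_spec (R : RedBase A π F Fk) {f : F} (hf : f ≠ 0) :
    ∃ c : K, R.red (unitPart R f) ≠ 0 ∧ f = algebraMap K F c * (unitPart R f : F) := by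
  refine ⟨(R.scale f hf).choose, ?_⟩
  rw [unitPart, dif_pos hf]
  exact (R.scale f hf).choose_spec.choose_spec

theorem redOrd_eq (R : RedBase A π F Fk) {f : F} {c : K} {u : R.O} (hf : f ≠ 0)
    (hu : R.red u ≠ 0) (h : f = algebraMap K F c * (u : F)) (Q : Place k Fk) :
    redOrd R f Q = Q.ord (R.red u) := by
  obtain ⟨c', hu', h'⟩ := unitPart_spec R hf
  have hc'0 : algebraMap K F c' ≠ 0 := left_ne_zero_of_mul (h' ▸ hf)
  have he : (unitPart R f : F) = algebraMap K F (c / c') * (u : F) := by
    rw [map_div₀, div_mul_eq_mul_div, ← h, eq_div_iff hc'0, mul_comm, ← h']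
  have hA : c / c' ∈ A := R.mem_of_smul_mem hu he
  have hred : R.red (unitPart R f) = algebraMap k Fk (π ⟨c / c', hA⟩) * R.red u := by
    rw [← RedBase.red_ι (R := R), ← map_mul]
    exact congrArg R.red (Subtype.ext he)
  have hπ : π ⟨c / c', hA⟩ ≠ 0 := fun h0 => hu' (by rw [hred, h0, map_zero, zero_mul])
  rw [redOrd, hred, ord_algebraMap_mul _ hπ]

theorem redOrd_of_O (R : RedBase A π F Fk) {u : R.O} (hu : R.red u ≠ 0) (Q : Place k Fk) :
    redOrd R (u : F) Q = Q.ord (R.red u) :=
  redOrd_eq R (c := 1) (R.coe_ne_zero hu) hu (by rw [map_one, one_mul]) Q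

theorem redOrd_mul (R : RedBase A π F Fk) {f f' : F} (hf : f ≠ 0) (hf' : f' ≠ 0) (Q : Place k Fk) :
    redOrd R (f * f') Q = redOrd R f Q + redOrd R f' Q := by
  obtain ⟨c, hu, h⟩ := unitPart_spec R hf
  obtain ⟨c', hu', h'⟩ := unitPart_spec R hf'
  have hp : f * f' = algebraMap K F (c * c') * ((unitPart R f * unitPart R f' : R.O) : F) := by
    conv_lhs => rw [h, h']
    rw [map_mul, Subring.coe_mul]; ring
  rw [redOrd_eq R (mul_ne_zero hf hf') (by rw [map_mul]; exact mul_ne_zero hu hu') hp,
    map_mul, Q.ord_mul hu hu']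
  rfl

theorem redOrd_algebraMap (R : RedBase A π F Fk) {a : K} (ha : a ≠ 0) (Q : Place k Fk) :
    redOrd R (algebraMap K F a) Q = 0 := by
  rw [redOrd_eq R (c := a) (u := 1) (by simpa using ha) (by rw [map_one]; exact one_ne_zero)
    (by rw [Subring.coe_one, mul_one]), map_one, Place.ord_one]

theorem redOrd_inv (R : RedBase A π F Fk) {f : F} (hf : f ≠ 0) (Q : Place k Fk) :
    redOrd R f⁻¹ Q = - redOrd R f Q := by
  have h := redOrd_mul R hf (inv_ne_zero hf) Q
  rw [mul_inv_cancel₀ hf, ← map_one (algebraMap K F), redOrd_algebraMap R one_ne_zero] at h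
  omega

theorem redOrd_pow (R : RedBase A π F Fk) {f : F} (hf : f ≠ 0) (n : ℕ) (Q : Place k Fk) :
    redOrd R (f ^ n) Q = n * redOrd R f Q := by
  induction n with
  | zero => rw [pow_zero, ← map_one (algebraMap K F), redOrd_algebraMap R one_ne_zero]; simp
  | succ n ih => rw [pow_succ, redOrd_mul R (pow_ne_zero n hf) hf, ih]; push_cast; ring

namespace TwoRed

variable {S : Type*} [Fintype S] (T : TwoRed A π F Fk S)

/-- The class has slope zero at every branch of every node. -/
def InT0 (m : ℕ) (y : Pic0 K F) : Prop :=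
  ∃ (D : Divisor.degZero (K := K) (F := F)) (f : F), Pic0.mk D = y ∧ f ≠ 0 ∧
    (∀ P : Place K F, P.ord f = (m : ℤ) * (D : Divisor K F) P) ∧
    ∀ s i, (m : ℤ) ∣ redOrd (T.R i) f (T.br s i)

/-- Torsion data normalised at the nodes. -/
structure NormalData (m : ℕ) (D : Divisor K F) where
  /-- `m D = div f` -/
  f : F
  f_ne : f ≠ 0
  div_f : ∀ P : Place K F, P.ord f = (m : ℤ) * D P
  degree_D : Divisor.degree D = 0
  /-- the scalings -/
  c : Bool → K
  c_ne : ∀ i, c i ≠ 0
  /-- the scaled functions -/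
  e : ∀ i, (T.R i).O
  e_eq : ∀ i, ((e i : (T.R i).O) : F) = algebraMap K F (c i) ^ m * f
  e_ne : ∀ i, (T.R i).red (e i) ≠ 0
  e_br : ∀ s i, (T.br s i).ord ((T.R i).red (e i)) = 0

/-- Torsion classes of slope zero have normalised data. -/
theorem exists_normalData [IsAlgClosed K] {m : ℕ} (hm : 0 < m) {y : Pic0 K F}
    (hy : T.InT0 m y) :
    ∃ D : Divisor.degZero (K := K) (F := F), Pic0.mk D = y ∧
      Nonempty (T.NormalData m (D : Divisor K F)) := by
  classical
  obtain ⟨D, f, rfl, hf, hdiv, hdvd⟩ := hy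
  choose q hq using hdvd
  let pre : Bool → Place k Fk → ℤ := fun i Q =>
    if h : ∃ s, T.br s i = Q then - q h.choose i else 0
  choose w hw hwo using fun i =>
    Fermat.Agent.FF.exists_ord_eq (Finset.univ.image fun s => T.br s i) (pre i)
  obtain ⟨h, hh0, hh⟩ := T.exists_lift_pair w hw
  choose v hv hvr using hh
  have hvn : ∀ i, (T.R i).red (v i) ≠ 0 := fun i => by rw [hvr]; exact hw i
  obtain ⟨H, hH, hHd⟩ := T.rrF.exists_div h hh0
  have hHp : H ∈ Divisor.principal (K := K) (F := F) := ⟨h, hh0, hH⟩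
  refine ⟨D + ⟨H, (Divisor.mem_degZero).mpr hHd⟩, ?_, ⟨?_⟩⟩
  · have h0 : Pic0.mk (⟨H, (Divisor.mem_degZero).mpr hHd⟩ : Divisor.degZero (K := K) (F := F))
        = 0 := (QuotientAddGroup.eq_zero_iff _).mpr (AddSubgroup.mem_addSubgroupOf.mpr hHp)
    rw [Pic0.mk_add, h0, add_zero]
  set f' := f * h ^ m with hf'
  have hf'0 : f' ≠ 0 := mul_ne_zero hf (pow_ne_zero _ hh0)
  choose d u hu hud using fun i => (T.R i).scale f' hf'0
  have hd0 : ∀ i, d i ≠ 0 := fun i h0 => hf'0 (by rw [hud i, h0, map_zero, zero_mul])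
  choose c hc using fun i => IsAlgClosed.exists_pow_nat_eq (d i)⁻¹ hm
  exact
    { f := f'
      f_ne := hf'0
      div_f := fun P => by
        rw [hf', P.ord_mul hf (pow_ne_zero _ hh0), ord_pow, hdiv, ← hH, ← mul_add]
        rfl
      degree_D := by rw [AddSubgroup.coe_add, map_add, Divisor.mem_degZero.mp D.2, hHd, add_zero]
      c := c
      c_ne := fun i h0 => by
        have := hc i
        rw [h0, zero_pow hm.ne'] at this
        exact inv_ne_zero (hd0 i) this.symm
      e := u
      e_eq := fun i => by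
        rw [← map_pow, hc, hud i, ← mul_assoc, ← map_mul, inv_mul_cancel₀ (hd0 i), map_one,
          one_mul]
      e_ne := hu
      e_br := fun s i => by
        rw [← redOrd_eq (T.R i) hf'0 (hu i) (hud i), hf', redOrd_mul _ hf (pow_ne_zero _ hh0),
          redOrd_pow _ hh0, hq, ← hv i, redOrd_of_O _ (hvn i), hvr,
          hwo i _ (Finset.mem_image.mpr ⟨s, Finset.mem_univ _, rfl⟩)]
        have hex : ∃ t, T.br t i = T.br s i := ⟨s, rfl⟩
        have := (T.br_inj i) hex.choose_spec
        simp only [pre, dif_pos hex, this]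
        ring }

/-- A space of pairs regular at the node `s`, whose false value at `s` vanishes whenever the true
one does, is glued along a line at `s`. -/
theorem exists_node_line {W : Submodule k (Bool → Fk)} {s : S}
    (hreg : ∀ w ∈ W, ∀ i, w i ∈ (T.br s i).toValuationSubring)
    (h : ∀ w ∈ W, ev (T.br s true) (w true) = 0 → ev (T.br s false) (w false) = 0) :
    ∃ z : k, ∀ w ∈ W, ev (T.br s false) (w false) = z * ev (T.br s true) (w true) := by
  by_cases h0 : ∃ w₀ ∈ W, ev (T.br s true) (w₀ true) ≠ 0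
  · obtain ⟨w₀, hw₀, hb₀⟩ := h0
    refine ⟨ev (T.br s false) (w₀ false) / ev (T.br s true) (w₀ true), fun w hw => ?_⟩
    set t := ev (T.br s true) (w true) / ev (T.br s true) (w₀ true) with ht
    have key : ∀ i, ev (T.br s i) ((w + (-t) • w₀) i) =
        ev (T.br s i) (w i) + -t * ev (T.br s i) (w₀ i) := fun i => by
      rw [Pi.add_apply, Pi.smul_apply, ev_add (T.deg_br s i) (hreg w hw i)
        (by rw [Algebra.smul_def]; exact mul_mem ((T.br s i).algebraMap_mem' _) (hreg w₀ hw₀ i)),
        ev_smul (T.deg_br s i) _ (hreg w₀ hw₀ i)]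
    have h2 := h _ (add_mem hw (Submodule.smul_mem _ (-t) hw₀))
    rw [key, key] at h2
    have h3 := h2 (by rw [ht, neg_mul, div_mul_cancel₀ _ hb₀, add_neg_cancel])
    have : ev (T.br s false) (w false) = t * ev (T.br s false) (w₀ false) := by
      linear_combination h3
    rw [this, ht]
    field_simp
  · push Not at h0
    exact ⟨0, fun w hw => by rw [zero_mul]; exact h w hw (h0 w hw)⟩

end TwoRed

end Fermat.Agent.TwoComponent
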