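import Mathlib.Algebra.Polynomial.Identities
import Mathlib.Algebra.Ring.GeomSum
import Fermat.Agent.TwoComponent.Slopes

/-!
# Approximate `m`-th roots in the lattices

For torsion data `div f = m D` with integral normalisation, approximate `m`-th roots of the unit
part exist in the spaces `L(D + nG)` and are unique modulo any prescribed nonzero scalar; used to
show that classes of trivial reduction are trivial.
-/

noncomputable section

open AlgebraicCurve Fermat.Agent.Red

namespace Fermat.Agent.TwoComponent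

variable {K k F Fk : Type*} [Field K] [Field F] [Algebra K F] [Field k] [Field Fk] [Algebra k Fk]
variable {A : ValuationSubring K} {π : A →+* k}

/-- A polynomial approximation of `X ^ (-1/m)` at `1`. -/
theorem exists_rootPoly {R : Type*} [CommRing R] {m : ℕ} {mi : R} (hmi : (m : R) * mi = 1)
    (n : ℕ) :
    ∃ p q : Polynomial R, p.eval 1 = 1 ∧
      p ^ m * Polynomial.X - 1 = (Polynomial.X - 1) ^ (n + 1) * q := by
  induction n with
  | zero => exact ⟨1, 1, by simp, by simp⟩
  | succ n ih =>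
    obtain ⟨p, q, hp, hpq⟩ := ih
    set h : Polynomial R := (Polynomial.X - 1) ^ (n + 1) with hh
    have hh1 : h.eval 1 = 0 := by simp [hh]
    set δ : R := -(q.eval 1) * mi with hδ
    obtain ⟨r, hr⟩ := Polynomial.powAddExpansion p (Polynomial.C δ * h) m
    set q' : Polynomial R := q + (m : Polynomial R) * p ^ (m - 1) * Polynomial.C δ * Polynomial.X
      + r * Polynomial.C δ ^ 2 * h * Polynomial.X with hq'
    have hroot : q'.IsRoot 1 := by
      simp only [Polynomial.IsRoot.def, hq', Polynomial.eval_add, Polynomial.eval_mul,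
        Polynomial.eval_natCast, Polynomial.eval_pow, Polynomial.eval_C, Polynomial.eval_X, hp,
        hh1]
      rw [hδ]
      linear_combination (-(q.eval 1)) * hmi
    obtain ⟨q'', hq''⟩ := Polynomial.dvd_iff_isRoot.mpr hroot
    refine ⟨p + Polynomial.C δ * h, q'', by simp [hp, hh1], ?_⟩
    rw [map_one] at hq''
    rw [pow_succ, mul_assoc, ← hq'', ← hh, hq', hr]
    linear_combination hpq

namespace TwoRed

variable {S : Type*} [Fintype S] (T : TwoRed A π F Fk S)

theorem exists_pow_dvd {i : Bool} {w : (T.R i).O} (hw : (T.R i).red w = 1) {a : A} (ha : a ≠ 0) :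
    ∃ N : ℕ, ∀ n, N ≤ n → (T.R i).ι a ∣ (w - 1) ^ n := by
  rcases eq_or_ne ((w - 1 : (T.R i).O) : F) 0 with h0 | h0
  · refine ⟨1, fun n hn => ?_⟩
    rw [show (w - 1) = 0 from Subtype.ext h0, zero_pow (by omega)]
    exact dvd_zero _
  obtain ⟨l, v, hv, hwv⟩ := (T.R i).exists_scale_mem h0
  have hl : π l = 0 := by
    have h := congrArg (T.R i).red hwv
    rw [map_sub, hw, map_one, sub_self, map_mul, RedBase.red_ι] at h
    exact (map_eq_zero (algebraMap k Fk)).mp ((mul_eq_zero.mp h.symm).resolve_right hv)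
  obtain ⟨N, c, hc⟩ := T.arch l a hl ha
  refine ⟨N, fun n hn => ?_⟩
  refine dvd_trans ?_ (pow_dvd_pow (w - 1) hn)
  rw [hwv, mul_pow, ← map_pow, hc, map_mul]
  exact Dvd.dvd.mul_right (dvd_mul_left _ _) _

theorem dvd_of_mul_red_ne {i : Bool} {a : A} {x y : (T.R i).O} (hy : (T.R i).red y ≠ 0)
    (h : (T.R i).ι a ∣ x * y) : (T.R i).ι a ∣ x := by
  obtain ⟨r, hr, -⟩ := inv_mem_O (T.R i) hy
  have h1 : x * y * r = x := Subtype.ext (by
    rw [Subring.coe_mul, Subring.coe_mul, hr, mul_inv_cancel_right₀ ((T.R i).coe_ne_zero hy)])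
  rw [← h1]
  exact Dvd.dvd.mul_right h r

/-- Approximate roots with residue `1` are unique. -/
theorem dvd_sub_of_roots {i : Bool} {m : ℕ} (hm : (m : k) ≠ 0) {a : A} {e t t' : (T.R i).O}
    (he : (T.R i).red e = 1) (ht : (T.R i).red t = 1) (ht' : (T.R i).red t' = 1)
    (h : (T.R i).ι a ∣ e * t ^ m - 1) (h' : (T.R i).ι a ∣ e * t' ^ m - 1) :
    (T.R i).ι a ∣ t - t' := by
  refine T.dvd_of_mul_red_ne (y := e * ∑ j ∈ Finset.range m, t ^ j * t' ^ (m - 1 - j)) ?_ ?_
  · rw [map_mul, he, one_mul, map_sum]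
    simp only [map_mul, map_pow, ht, ht', one_pow, Finset.sum_const, Finset.card_range,
      nsmul_eq_mul, mul_one]
    rw [← map_natCast (algebraMap k Fk)]
    exact (map_ne_zero _).mpr hm
  · have : (t - t') * (e * ∑ j ∈ Finset.range m, t ^ j * t' ^ (m - 1 - j)) =
        (e * t ^ m - 1) - (e * t' ^ m - 1) := by
      linear_combination e * geom_sum₂_mul t t' m
    rw [this]
    exact dvd_sub h h'

theorem mem_space_mul {D : Divisor K F} {a b : ℕ} {y z : F}
    (hy : y ∈ riemannRochSpace (D + a • T.G)) (hz : z ∈ riemannRochSpace (b • T.G)) :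
    y * z ∈ riemannRochSpace (D + (a + b) • T.G) := by
  simpa using T.mem_space_add_mul (D' := 0) hy (by rwa [zero_add])

theorem mem_space_npow {D : Divisor K F} {a : ℕ} {y : F}
    (hy : y ∈ riemannRochSpace (D + a • T.G)) (j : ℕ) :
    y ^ j ∈ riemannRochSpace (j • D + (j * a) • T.G) := by
  induction j with
  | zero => simpa using T.one_mem_space 0
  | succ j ih =>
    have := T.mem_space_add_mul ih hy
    rwa [← succ_nsmul, ← Nat.succ_mul, ← pow_succ] at this

theorem mem_space_pow {a : ℕ} {y : F} (hy : y ∈ riemannRochSpace (a • T.G)) (j : ℕ) :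
    y ^ j ∈ riemannRochSpace ((j * a) • T.G) := by
  simpa using T.mem_space_npow (D := 0) (by rwa [zero_add]) j

namespace NormalData

variable {T} {m : ℕ} {D : Divisor K F} (d : T.NormalData m D)

theorem pow_mem_space (hm : 0 < m) {n : ℕ} {u : F}
    (hu : u ∈ riemannRochSpace (D + n • T.G)) :
    d.f * u ^ m ∈ riemannRochSpace ((m * n) • T.G) := by
  refine mem_riemannRochSpace_iff.mpr fun P => or_iff_not_imp_left.mpr fun hne => ?_
  have hu0 : u ≠ 0 := fun h0 => hne (by rw [h0, zero_pow hm.ne', mul_zero])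
  have h1 := ((mem_riemannRochSpace_iff.mp hu) P).resolve_left hu0
  rw [Finsupp.add_apply, Finsupp.smul_apply, nsmul_eq_mul] at h1
  rw [Finsupp.smul_apply, nsmul_eq_mul, P.ord_mul d.f_ne (pow_ne_zero _ hu0), ord_pow, d.div_f]
  push_cast
  nlinarith

/-- Approximate roots relative to a denominator `z`, from a polynomial which makes
`P(W) ^ m * W` close to `1` for `W = e * (u / z) ^ m`. -/
theorem exists_approx_of_poly (hm : 0 < m)
    {n : ℕ} {u z : F} (hu : u ∈ riemannRochSpace (D + n • T.G))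
    (hz : z ∈ riemannRochSpace (n • T.G)) (v zv : ∀ i, (T.R i).O)
    (hv : ∀ i, algebraMap K F (d.c i) * (v i : F) = u) (hzv : ∀ i, (zv i : F) = z)
    (hz0 : ∀ i, (T.R i).red (zv i) ≠ 0) (hvz : ∀ i, (T.R i).red (v i) = (T.R i).red (zv i))
    {a : A} (p : Polynomial K)
    (hp : ∀ i, ∀ W r : (T.R i).O, (r : F) * z = (v i : F) → W = d.e i * r ^ m →
      ∃ s : (T.R i).O, (s : F) = p.eval₂ (algebraMap K F) (W : F) ∧ (T.R i).red s = 1 ∧
        (T.R i).ι a ∣ s ^ m * W - 1) :
    ∃ (j : ℕ) (U : F), U ∈ riemannRochSpace (D + (n * (j + 1)) • T.G) ∧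
      ∀ i, ∃ t r s : (T.R i).O, algebraMap K F (d.c i) * (t : F) * z ^ (j + 1) = U ∧
        (T.R i).red t = 1 ∧ (T.R i).ι a ∣ d.e i * t ^ m - 1 ∧ t = r * s ∧
        (r : F) * z = (v i : F) ∧
        (s : F) = p.eval₂ (algebraMap K F) (d.e i * r ^ m : (T.R i).O) := by
  classical
  choose zi hzi hzir using fun i => inv_mem_O (T.R i) (hz0 i)
  set P := p.natDegree with hP
  refine ⟨m * P, u * ∑ l ∈ Finset.range (P + 1),
    p.coeff l • ((d.f * u ^ m) ^ l * (z ^ m) ^ (P - l)), ?_, fun i => ?_⟩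
  · have hsum : (∑ l ∈ Finset.range (P + 1), p.coeff l • ((d.f * u ^ m) ^ l * (z ^ m) ^ (P - l))) ∈
        riemannRochSpace ((P * (m * n)) • T.G) := by
      refine Submodule.sum_mem _ fun l hl => Submodule.smul_mem _ _ ?_
      have hl' : l ≤ P := Nat.lt_succ_iff.mp (Finset.mem_range.mp hl)
      have h1 := T.mem_space_pow (d.pow_mem_space hm hu) l
      have h2 := T.mem_space_pow (T.mem_space_pow hz m) (P - l)
      have h3 := T.mem_space_mul (D := 0) (a := l * (m * n)) (by rwa [zero_add]) h2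
      rwa [zero_add, ← add_mul, Nat.add_sub_cancel' hl'] at h3
    have := T.mem_space_mul hu hsum
    rwa [show n + P * (m * n) = n * (m * P + 1) by ring] at this
  · set r : (T.R i).O := v i * zi i with hr
    set W : (T.R i).O := d.e i * r ^ m with hW
    have hzne : z ≠ 0 := hzv i ▸ (T.R i).coe_ne_zero (hz0 i)
    have hrz : (r : F) * z = (v i : F) := by
      rw [hr, Subring.coe_mul, hzi, hzv, inv_mul_cancel_right₀ hzne]
    obtain ⟨s, hs, hsr, hsa⟩ := hp i W r hrz hW
    have hrr : (T.R i).red r = 1 := by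
      rw [hr, map_mul, hzir, hvz, mul_inv_cancel₀ (hz0 i)]
    refine ⟨r * s, r, s, ?_, by rw [map_mul, hrr, hsr, one_mul], ?_, rfl, hrz, hs⟩
    · have hWF : (W : F) * z ^ m = d.f * u ^ m := by
        rw [hW, Subring.coe_mul, SubmonoidClass.coe_pow, d.e_eq, ← hv i, ← hrz, mul_pow, mul_pow]
        ring
      have hrF : algebraMap K F (d.c i) * (r : F) * z = u := by rw [mul_assoc, hrz, hv]
      have hev : (s : F) * (z ^ m) ^ P =
          ∑ l ∈ Finset.range (P + 1), p.coeff l • ((d.f * u ^ m) ^ l * (z ^ m) ^ (P - l)) := by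
        rw [hs, Polynomial.eval₂_eq_sum_range, Finset.sum_mul]
        refine Finset.sum_congr rfl fun l hl => ?_
        have hl' : l ≤ P := Nat.lt_succ_iff.mp (Finset.mem_range.mp hl)
        rw [Algebra.smul_def, ← hWF, mul_pow, ← pow_mul, ← pow_mul, ← pow_mul, mul_assoc,
          mul_assoc, ← pow_add, ← Nat.mul_add, Nat.add_sub_cancel' hl']
      rw [← hev, ← hrF, Subring.coe_mul, ← pow_mul]
      ring
    · rwa [mul_pow, mul_comm (r ^ m), ← mul_assoc, mul_comm (d.e i), mul_assoc, ← hW]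

/-- Approximate roots relative to a denominator `z`. -/
theorem exists_approx (hm : 0 < m) (hmk : (m : k) ≠ 0) (he : ∀ i, (T.R i).red (d.e i) = 1)
    {n : ℕ} {u z : F} (hu : u ∈ riemannRochSpace (D + n • T.G))
    (hz : z ∈ riemannRochSpace (n • T.G)) (v zv : ∀ i, (T.R i).O)
    (hv : ∀ i, algebraMap K F (d.c i) * (v i : F) = u) (hzv : ∀ i, (zv i : F) = z)
    (hz0 : ∀ i, (T.R i).red (zv i) ≠ 0) (hvz : ∀ i, (T.R i).red (v i) = (T.R i).red (zv i))
    {a : A} (ha : a ≠ 0) :
    ∃ (j : ℕ) (U : F), U ∈ riemannRochSpace (D + (n * (j + 1)) • T.G) ∧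
      ∀ i, ∃ t : (T.R i).O, algebraMap K F (d.c i) * (t : F) * z ^ (j + 1) = U ∧
        (T.R i).red t = 1 ∧ (T.R i).ι a ∣ d.e i * t ^ m - 1 := by
  classical
  choose zi hzi hzir using fun i => inv_mem_O (T.R i) (hz0 i)
  set W₀ : ∀ i, (T.R i).O := fun i => d.e i * (v i * zi i) ^ m with hW₀
  have hWr : ∀ i, (T.R i).red (W₀ i) = 1 := fun i => by
    rw [hW₀, map_mul, map_pow, map_mul, he, hzir, hvz, mul_inv_cancel₀ (hz0 i), one_pow, mul_one]
  choose Ni hNi using fun i => T.exists_pow_dvd (hWr i) ha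
  set M := Ni false + Ni true with hM
  have hmA : π (m : A) ≠ 0 := by rwa [map_natCast]
  have hminv : ((m : A) : K)⁻¹ ∈ A := inv_mem_of_pi_ne_zero (T.R false).surj_pi hmA
  have hmi : (m : A) * (⟨((m : A) : K)⁻¹, hminv⟩ : A) = 1 := by
    refine Subtype.ext (mul_inv_cancel₀ fun h0 => hmA ?_)
    rw [show (m : A) = 0 from Subtype.ext h0, map_zero]
  obtain ⟨p, q, hp1, hpq⟩ := exists_rootPoly hmi M
  obtain ⟨j, U, hU, h⟩ := d.exists_approx_of_poly hm hu hz v zv hv hzv hz0 hvz (a := a)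
    (p.map A.subtype) fun i W r hrz hW => by
      have hWW : W = W₀ i := by
        rw [hW]
        simp only [hW₀]
        congr 2
        refine Subtype.ext (mul_right_cancel₀ (hzv i ▸ (T.R i).coe_ne_zero (hz0 i) : z ≠ 0) ?_)
        rw [hrz, Subring.coe_mul, hzi, hzv,
          inv_mul_cancel_right₀ (hzv i ▸ (T.R i).coe_ne_zero (hz0 i) : z ≠ 0)]
      refine ⟨p.eval₂ (T.R i).ι W, ?_, ?_, ?_⟩
      · rw [Polynomial.eval₂_map]
        exact (Polynomial.hom_eval₂ p (T.R i).ι (T.R i).O.subtype W)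
      · rw [Polynomial.hom_eval₂]
        have hc : (T.R i).red.comp (T.R i).ι = (algebraMap k Fk).comp π :=
          RingHom.ext fun c => RedBase.red_ι _ c
        rw [hc, hWW, hWr, Polynomial.eval₂_at_one, hp1, map_one]
      · have h1 : (p.eval₂ (T.R i).ι W) ^ m * W - 1 =
            (W - 1) ^ (M + 1) * q.eval₂ (T.R i).ι W := by
          have := congrArg (Polynomial.eval₂ (T.R i).ι W) hpq
          simpa only [Polynomial.eval₂_sub, Polynomial.eval₂_mul, Polynomial.eval₂_pow,
            Polynomial.eval₂_X, Polynomial.eval₂_one] using this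
        rw [h1, hWW]
        exact Dvd.dvd.mul_right (hNi i _ (by cases i <;> omega)) _
  refine ⟨j, U, hU, fun i => ?_⟩
  obtain ⟨t, r, s, h1, h2, h3, -⟩ := h i
  exact ⟨t, h1, h2, h3⟩

end NormalData

end TwoRed

end Fermat.Agent.TwoComponent
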