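import Fermat.Agent.TwoComponent.Moving

/-!
# The action of inertia

An automorphism of the function field compatible with the reduction transports normalised torsion
data; inertia changes torsion classes by classes of slope zero.
-/

noncomputable section

open AlgebraicCurve Fermat.Agent.Red

namespace Fermat.Agent.TwoComponent

variable {K k F Fk : Type*} [Field K] [Field F] [Algebra K F] [Field k] [Field Fk] [Algebra k Fk]
variable {A : ValuationSubring K} {π : A →+* k}

namespace SemiRed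

variable {S : Type*} [Fintype S] {T : TwoRed A π F Fk S} (σ : SemiRed T)

theorem baseAut_ne_zero {a : K} (ha : a ≠ 0) : SemilinearAut.baseAut σ.aut a ≠ 0 :=
  fun h => ha (by simpa using congrArg (SemilinearAut.baseAut σ.aut).symm h)

theorem smul_ne_zero {f : F} (hf : f ≠ 0) : σ.aut • f ≠ 0 :=
  fun h => hf (by simpa [smul_smul] using congrArg (fun z => σ.aut⁻¹ • z) h)

theorem ord_aut_smul (P : Place K F) (f : F) : P.ord (σ.aut • f) = (σ.aut⁻¹ • P).ord f := by
  have h := SemilinearAut.ord_smul σ.aut (σ.aut⁻¹ • P) f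
  rwa [smul_inv_smul] at h

theorem smul_G : σ.aut • T.G = T.G := by
  ext P
  rw [SemilinearAut.divisor_smul_apply, T.G_spec, T.G_spec, ← σ.ord_aut_smul, σ.x_fix]

theorem smul_mem_space {D : Divisor K F} {u : F} (hu : u ∈ riemannRochSpace D) :
    σ.aut • u ∈ riemannRochSpace (σ.aut • D) := by
  refine mem_riemannRochSpace_iff.mpr fun P => ?_
  rw [SemilinearAut.divisor_smul_apply, σ.ord_aut_smul]
  exact ((mem_riemannRochSpace_iff.mp hu) (σ.aut⁻¹ • P)).imp (fun h => by rw [h, smul_zero]) id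

/-- The image under `σ` of an element of the `i`-th reduction ring. -/
def mapO (i : Bool) (u : (T.R i).O) : (T.R i).O := ⟨σ.aut • (u : F), σ.mem i u u.2⟩

theorem coe_mapO (i : Bool) (u : (T.R i).O) : (σ.mapO i u : F) = σ.aut • (u : F) := rfl

theorem red_mapO_resF (i : Bool) (u : (T.R i).O) :
    (T.R i).red (σ.mapO i u) = σ.resF ((T.R i).red u) := σ.red_smul i u

theorem red_mapO (hσ : σ.IsInertial) (i : Bool) (u : (T.R i).O) :
    (T.R i).red (σ.mapO i u) = (T.R i).red u :=
  (σ.red_mapO_resF i u).trans (hσ _)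

theorem redOrd_smul (hσ : σ.IsInertial) (i : Bool) {f : F} (hf : f ≠ 0) (Q : Place k Fk) :
    redOrd (T.R i) (σ.aut • f) Q = redOrd (T.R i) f Q := by
  obtain ⟨c, hu, h⟩ := unitPart_spec (T.R i) hf
  rw [redOrd_eq (T.R i) (c := SemilinearAut.baseAut σ.aut c) (u := σ.mapO i (unitPart (T.R i) f))
    (σ.smul_ne_zero hf) (by rwa [σ.red_mapO hσ])
    (by conv_lhs => rw [h, smul_mul', SemilinearAut.smul_algebraMap]
        rfl), σ.red_mapO hσ]
  rfl

/-- The transport of normalised data by inertia. -/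
def mapData (hσ : σ.IsInertial) {m : ℕ} {D : Divisor K F} (d : T.NormalData m D) :
    T.NormalData m (σ.aut • D) where
  f := σ.aut • d.f
  f_ne := σ.smul_ne_zero d.f_ne
  div_f P := by rw [σ.ord_aut_smul, d.div_f, SemilinearAut.divisor_smul_apply]
  degree_D := by rw [SemilinearAut.degree_smul, d.degree_D]
  c i := SemilinearAut.baseAut σ.aut (d.c i)
  c_ne i := σ.baseAut_ne_zero (d.c_ne i)
  e i := σ.mapO i (d.e i)
  e_eq i := by
    rw [coe_mapO, d.e_eq, smul_mul', smul_pow', SemilinearAut.smul_algebraMap]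
  e_ne i := by rw [σ.red_mapO hσ]; exact d.e_ne i
  e_br s i := by rw [σ.red_mapO hσ]; exact d.e_br s i

theorem mem_image_mapData (hσ : σ.IsInertial) {m : ℕ} {D : Divisor K F} (d : T.NormalData m D)
    {n : ℕ} {w : Bool → Fk}
    (hw : w ∈ pairImage T.R d.c (riemannRochSpace (D + n • T.G))) :
    w ∈ pairImage T.R (σ.mapData hσ d).c (riemannRochSpace (σ.aut • D + n • T.G)) := by
  obtain ⟨u, hu, h⟩ := hw
  have hG : σ.aut • (n • T.G) = n • T.G := by rw [smul_comm, σ.smul_G]
  refine ⟨σ.aut • u, ?_, fun i => ?_⟩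
  · have := σ.smul_mem_space hu
    rwa [smul_add, hG] at this
  · obtain ⟨v, hv, hr⟩ := h i
    exact ⟨σ.mapO i v, by rw [coe_mapO, ← hv, smul_mul', SemilinearAut.smul_algebraMap]; rfl,
      by rw [σ.red_mapO hσ, hr]⟩

/-- An automorphism keeping the orders of reductions at all branches changes torsion classes by
classes of slope zero. -/
theorem smul_sub_mem_of_redOrd
    (h : ∀ f : F, f ≠ 0 → ∀ s i,
      redOrd (T.R i) (σ.aut • f) (T.br s i) = redOrd (T.R i) f (T.br s i)) {m : ℕ}
    {y : Pic0 K F} (hy : m • y = 0) : T.InT0 m (σ.aut • y - y) := by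
  obtain ⟨D, rfl⟩ := Pic0.mk_surjective y
  have hp : ((m • D : Divisor.degZero (K := K) (F := F)) : Divisor K F) ∈
      Divisor.principal (K := K) (F := F) := by
    have h0 : Pic0.mk (m • D) = 0 := hy
    exact AddSubgroup.mem_addSubgroupOf.mp ((QuotientAddGroup.eq_zero_iff _).mp h0)
  obtain ⟨f, hf0, hf⟩ := hp
  have hdiv : ∀ P : Place K F, P.ord f = (m : ℤ) * (D : Divisor K F) P := fun P => by
    rw [← hf P, AddSubgroupClass.coe_nsmul, Finsupp.smul_apply, nsmul_eq_mul]
  refine ⟨SemilinearAut.degZeroSMulHom σ.aut D - D, σ.aut • f / f, ?_,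
    div_ne_zero (σ.smul_ne_zero hf0) hf0, fun P => ?_, fun s i => ?_⟩
  · rw [SemilinearAut.pic0_smul_mk]
    exact map_sub (QuotientAddGroup.mk' _) _ _
  · rw [ord_div P (σ.smul_ne_zero hf0) hf0, σ.ord_aut_smul, hdiv, hdiv, AddSubgroupClass.coe_sub,
      Finsupp.sub_apply, SemilinearAut.coe_degZeroSMulHom, SemilinearAut.divisor_smul_apply,
      mul_sub]
  · rw [div_eq_mul_inv, redOrd_mul _ (σ.smul_ne_zero hf0) (inv_ne_zero hf0),
      redOrd_inv _ hf0, h f hf0 s i, add_neg_cancel]
    exact dvd_zero _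

/-- Inertia changes torsion classes by classes of slope zero. -/
theorem smul_sub_mem (hσ : σ.IsInertial) {m : ℕ} {y : Pic0 K F} (hy : m • y = 0) :
    T.InT0 m (σ.aut • y - y) :=
  σ.smul_sub_mem_of_redOrd (fun _ hf _ i => σ.redOrd_smul hσ i hf _) hy

end SemiRed

namespace TwoRed

variable {S : Type*} [Fintype S] (T : TwoRed A π F Fk S)

/-- Torsion data with trivial reduction. -/
structure TrivialData (m : ℕ) (D : Divisor K F) extends T.NormalData m D where
  red_e : ∀ i, (T.R i).red (e i) = 1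
  /-- from this multiple of `G` on, the reductions are exactly the glued pairs -/
  N : ℕ
  image_eq : ∀ n, N ≤ n → pairImage T.R c (riemannRochSpace (D + n • T.G)) =
    T.glued (fun i => n • T.Gk i) 1

end TwoRed

namespace SemiRed

variable {S : Type*} [Fintype S] {T : TwoRed A π F Fk S} (σ : SemiRed T)

/-- `σ y - y` has data of trivial reduction for inertia `σ` and `y` of slope zero. -/
theorem exists_trivialData [IsAlgClosed K] (hσ : σ.IsInertial) {m : ℕ} (hm : 0 < m)
    {y : Pic0 K F} (hy : T.InT0 m y) :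
    ∃ D : Divisor.degZero (K := K) (F := F), Pic0.mk D = σ.aut • y - y ∧
      Nonempty (T.TrivialData m (D : Divisor K F)) := by
  classical
  obtain ⟨D, rfl, ⟨d⟩⟩ := T.exists_normalData hm hy
  choose r hr hrr using fun i => inv_mem_O (T.R i) (u := d.e i) (d.e_ne i)
  set d₁ := σ.mapData hσ d with hd₁
  let d₂ : T.NormalData m (σ.aut • (D : Divisor K F) - (D : Divisor K F)) :=
    { f := d₁.f / d.f
      f_ne := div_ne_zero d₁.f_ne d.f_ne
      div_f := fun P => by
        rw [ord_div P d₁.f_ne d.f_ne, d₁.div_f, d.div_f, Finsupp.sub_apply, mul_sub]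
      degree_D := by rw [map_sub, d₁.degree_D, d.degree_D, sub_zero]
      c := fun i => d₁.c i / d.c i
      c_ne := fun i => div_ne_zero (d₁.c_ne i) (d.c_ne i)
      e := fun i => d₁.e i * r i
      e_eq := fun i => by
        rw [Subring.coe_mul, hr, d₁.e_eq, d.e_eq, map_div₀, div_pow]
        field_simp
      e_ne := fun i => by
        rw [map_mul, hrr, hd₁]
        exact mul_ne_zero (d₁.e_ne i) (inv_ne_zero (d.e_ne i))
      e_br := fun s i => by
        rw [map_mul, hrr]
        show (T.br s i).ord ((T.R i).red (σ.mapO i (d.e i)) * _) = 0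
        rw [σ.red_mapO hσ, mul_inv_cancel₀ (d.e_ne i), Place.ord_one] }
  have hone : ∀ i, (T.R i).red (d₂.e i) = 1 := fun i => by
    show (T.R i).red (σ.mapO i (d.e i) * r i) = 1
    rw [map_mul, hrr, σ.red_mapO hσ, mul_inv_cancel₀ (d.e_ne i)]
  have hE₂ : ∀ i, d₂.E i = 0 := fun i => Finsupp.ext fun Q => by
    rw [d₂.E_apply, d₂.redDiv_apply, hone, Place.ord_one, Int.zero_ediv, Finsupp.coe_zero,
      Pi.zero_apply]
  have hE₁ : ∀ i, d₁.E i = d.E i := fun i => Finsupp.ext fun Q => by
    rw [d₁.E_apply, d.E_apply, d₁.redDiv_apply, d.redDiv_apply]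
    show Q.ord ((T.R i).red (σ.mapO i (d.e i))) / _ = _
    rw [σ.red_mapO hσ]
  obtain ⟨ζ, -, -, hζ⟩ := d.exists_image_eq hm
  obtain ⟨ζ₁, -, -, hζ₁⟩ := d₁.exists_image_eq hm
  obtain ⟨ζ₂, -, -, hζ₂⟩ := d₂.exists_image_eq hm
  set N := d.bigN + d₁.bigN + d₂.bigN with hN
  -- `ζ₁ = ζ`
  obtain ⟨w, hw, hwv⟩ := T.exists_glued_values (d.twist N) ζ (d.twist_br _)
    (d.bigN_le_degree (by omega)) (fun _ => 1)
  rw [← hζ N (by omega)] at hw
  have h11 : ζ₁ = ζ := funext fun s => by
    have h := σ.mem_image_mapData hσ d hw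
    rw [← hd₁, hζ₁ N (by omega)] at h
    have := h.2.2 s
    rw [(hwv s).1, (hwv s).2, mul_one, mul_one] at this
    exact this.symm
  obtain ⟨w', hw', hwv'⟩ := T.exists_glued_values (d₂.twist N) ζ₂ (d₂.twist_br _)
    (d₂.bigN_le_degree (by omega)) (fun _ => 1)
  rw [← hζ₂ N (by omega)] at hw'
  -- the product
  have hprod : w * w' ∈ pairImage T.R d₁.c
      (riemannRochSpace (σ.aut • (D : Divisor K F) + (N + N) • T.G)) := by
    have h := T.mul_mem_pairImage hw hw'
    rwa [add_sub_cancel, show d.c * d₂.c = d₁.c from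
      funext fun i => mul_div_cancel₀ (d₁.c i) (d.c_ne i)] at h
  rw [hζ₁ (N + N) (by omega), h11] at hprod
  have h22 : ζ₂ = 1 := funext fun s => by
    have hm0 : d.bigN ≤ N := by omega
    have hw1 : ∀ i, w i ∈ (T.br s i).toValuationSubring := by
      rw [hζ N hm0] at hw; exact hw.2.1 s
    have hw2 : ∀ i, w' i ∈ (T.br s i).toValuationSubring := by
      rw [hζ₂ N (by omega)] at hw'; exact hw'.2.1 s
    have h := hprod.2.2 s
    rw [Pi.mul_apply, Pi.mul_apply, ev_mul (T.deg_br s false) (hw1 _) (hw2 _),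
      ev_mul (T.deg_br s true) (hw1 _) (hw2 _), (hwv s).1, (hwv s).2, (hwv' s).1, (hwv' s).2,
      mul_one, mul_one, mul_one, mul_one] at h
    have hζ0 : ζ s ≠ 0 := by
      obtain ⟨ζ', hζ'0, -, hζ'⟩ := d.exists_image_eq hm
      have h' := hw
      rw [hζ' N hm0] at h'
      have := h'.2.2 s
      rw [(hwv s).1, (hwv s).2, mul_one, mul_one] at this
      rw [this]; exact hζ'0 s
    rw [Pi.one_apply]
    exact (mul_eq_left₀ hζ0).mp h
  refine ⟨SemilinearAut.degZeroSMulHom σ.aut D - D, ?_, ?_⟩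
  · rw [SemilinearAut.pic0_smul_mk]
    exact map_sub (QuotientAddGroup.mk' _) _ _
  exact ⟨{ d₂ with
    red_e := hone
    N := d₂.bigN
    image_eq := fun n hn => by
      show pairImage T.R d₂.c
        (riemannRochSpace (σ.aut • (D : Divisor K F) - (D : Divisor K F) + n • T.G)) = _
      rw [hζ₂ n hn, h22]
      congr 1
      funext i
      simp [TwoRed.NormalData.twist, hE₂] }⟩

end SemiRed

end Fermat.Agent.TwoComponent
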