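import Mathlib.RingTheory.Nullstellensatz
import Fermat.Agent.TwoComponent.Approx
import Fermat.Agent.TwoComponent.Inertia

/-!
# Torsion classes with trivial reduction are trivial

Torsion prime to the residue characteristic whose torsion data have trivial reduction and trivial
lines is zero; consequently inertia acts on such torsion with square zero.
-/

noncomputable section

open AlgebraicCurve Fermat.Agent.Red

namespace Fermat.Agent.TwoComponent

variable {K k F Fk : Type*} [Field K] [Field F] [Algebra K F] [Field k] [Field Fk] [Algebra k Fk]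
variable {A : ValuationSubring K} {π : A →+* k}

/-- Finitely many scalars are made integral by one nonzero integral factor. -/
theorem exists_scalar_mem {ι' : Type*} (s : Finset ι') (c : ι' → K) :
    ∃ γ : K, γ ≠ 0 ∧ γ ∈ A ∧ ∀ j ∈ s, γ * c j ∈ A := by
  classical
  induction s using Finset.induction with
  | empty => exact ⟨1, one_ne_zero, A.one_mem, by simp⟩
  | insert j s hj ih =>
    obtain ⟨γ, h0, hA, h⟩ := ih
    rcases A.mem_or_inv_mem (c j) with hc | hc
    · exact ⟨γ, h0, hA, Finset.forall_mem_insert _ _ _ |>.mpr ⟨mul_mem hA hc, h⟩⟩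
    · rcases eq_or_ne (c j) 0 with hz | hz
      · exact ⟨γ, h0, hA, Finset.forall_mem_insert _ _ _ |>.mpr
          ⟨by rw [hz, mul_zero]; exact A.zero_mem, h⟩⟩
      refine ⟨γ * (c j)⁻¹, mul_ne_zero h0 (inv_ne_zero hz), mul_mem hA hc,
        Finset.forall_mem_insert _ _ _ |>.mpr ⟨?_, fun l hl => ?_⟩⟩
      · rwa [inv_mul_cancel_right₀ hz]
      · rw [mul_right_comm]
        exact mul_mem (h l hl) hc

/-- Normalising a nonzero vector by an entry of largest valuation. -/
theorem exists_div_mem {ι' : Type*} [Fintype ι'] (β : ι' → K) {j₀ : ι'} (hj₀ : β j₀ ≠ 0) :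
    ∃ j₁, β j₁ ≠ 0 ∧ ∀ j, β j / β j₁ ∈ A := by
  obtain ⟨j₁, -, hmax⟩ := Finset.univ.exists_max_image (fun j => A.valuation (β j))
    ⟨j₀, Finset.mem_univ _⟩
  refine ⟨j₁, fun h0 => hj₀ <| (map_eq_zero A.valuation).mp <|
    le_zero_iff.mp (by simpa [h0] using hmax j₀ (Finset.mem_univ _)), fun j => ?_⟩
  rw [← A.valuation_le_one_iff, map_div₀]
  exact div_le_one_of_le₀ (hmax j (Finset.mem_univ _)) zero_le

/-- Polynomials without common zero: at integral points their values are not all divisible by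
more than a fixed scalar. -/
theorem exists_scalar_of_no_common_zero [IsAlgClosed K] {σ' ι' : Type*} [Finite σ'] [Fintype ι']
    (P : ι' → MvPolynomial σ' K) (hzero : ∀ α : σ' → K, ∃ l, MvPolynomial.eval α (P l) ≠ 0) :
    ∃ γ : K, γ ≠ 0 ∧ γ ∈ A ∧ ∀ (α : σ' → K) (a : K), (∀ j, α j ∈ A) →
      (∀ l, MvPolynomial.eval α (P l) / a ∈ A) → γ / a ∈ A := by
  classical
  have hI : Ideal.span (Set.range P) = ⊤ := by
    by_contra hne
    have hrad : (Ideal.span (Set.range P)).radical ≠ ⊤ := fun h => hne (Ideal.radical_eq_top.mp h)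
    rw [← MvPolynomial.vanishingIdeal_zeroLocus_eq_radical (K := K)] at hrad
    refine hrad (eq_top_iff.mpr fun q _ => fun x hx => ?_)
    obtain ⟨l, hl⟩ := hzero x
    exact absurd (hx (P l) (Ideal.subset_span ⟨l, rfl⟩)) (by rwa [MvPolynomial.aeval_eq_eval])
  obtain ⟨g, hg⟩ := (Ideal.mem_span_range_iff_exists_fun).mp
    (show (1 : MvPolynomial _ K) ∈ Ideal.span (Set.range P) by rw [hI]; trivial)
  obtain ⟨γ, hγ0, hγA, hγ⟩ := exists_scalar_mem (A := A)
    (Finset.univ.sigma fun l => (g l).support) (fun ls => (g ls.1).coeff ls.2)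
  refine ⟨γ, hγ0, hγA, fun α a hαA hsmall => ?_⟩
  have hgA : ∀ l, γ * MvPolynomial.eval α (g l) ∈ A := fun l => by
    rw [MvPolynomial.eval_eq, Finset.mul_sum]
    refine sum_mem fun s hs => ?_
    rw [← mul_assoc]
    exact mul_mem (hγ ⟨l, s⟩ (Finset.mem_sigma.mpr ⟨Finset.mem_univ _, hs⟩))
      (prod_mem fun j _ => pow_mem (hαA j) _)
  have h1 := congrArg (MvPolynomial.eval α) hg
  simp only [map_sum, map_mul, map_one] at h1
  have : γ / a = ∑ l, γ * MvPolynomial.eval α (g l) *
      (MvPolynomial.eval α (P l) / a) := by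
    calc γ / a = γ * (∑ l, MvPolynomial.eval α (g l) * MvPolynomial.eval α (P l)) / a := by
          rw [h1, mul_one]
      _ = _ := by
          rw [Finset.mul_sum, Finset.sum_div]
          exact Finset.sum_congr rfl fun l _ => by ring
  rw [this]
  exact sum_mem fun l _ => mul_mem (hgA l) (hsmall l)

namespace TwoRed

variable {S : Type*} [Fintype S] (T : TwoRed A π F Fk S)

theorem glued_mono {a b : ℕ} (h : a ≤ b) :
    T.glued (fun i => a • T.Gk i) 1 ≤ T.glued (fun i => b • T.Gk i) 1 := by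
  rintro w ⟨h1, h2, h3⟩
  refine ⟨fun i => RR.space_mono (fun Q => ?_) (h1 i), h2, h3⟩
  rw [Finsupp.smul_apply, Finsupp.smul_apply, nsmul_eq_mul, nsmul_eq_mul]
  have := T.Gk_nonneg i Q
  nlinarith

theorem red_x_ne_zero (i : Bool) : (T.R i).red ⟨T.x, T.x_mem i⟩ ≠ 0 := by
  intro h
  have h0 : T.Gk i = 0 := Finsupp.ext fun Q => by rw [T.Gk_spec, h]; simp
  have := T.degree_Gk_pos i
  rw [h0, map_zero] at this
  exact lt_irrefl _ this

theorem red_pow_mem_glued (N : ℕ) :
    (fun i => (T.R i).red (⟨T.x, T.x_mem i⟩ ^ N)) ∈ T.glued (fun i => N • T.Gk i) 1 :=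
  T.bound' (T.pow_x_mem_space N) _ fun _ => SubmonoidClass.coe_pow _ _

theorem one_mem_glued (N : ℕ) : (fun _ => (1 : Fk)) ∈ T.glued (fun i => N • T.Gk i) 1 := by
  have := T.bound' (T.one_mem_space N) (fun i => (1 : (T.R i).O)) fun i => Subring.coe_one _
  simpa only [map_one] using this

namespace TrivialData

variable {T} {m : ℕ} {D : Divisor K F} (d : T.TrivialData m D)

/-- Splitting off the part with poles beyond the fixed multiple of `G`. -/
theorem exists_decomp {n1 : ℕ} (hNn1 : d.N ≤ n1) {U1 : F}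
    (hU1 : U1 ∈ riemannRochSpace (D + n1 • T.G)) (t : ∀ i, (T.R i).O)
    (ht : ∀ i, algebraMap K F (d.c i) * (t i : F) = U1) :
    ∃ U0 ∈ riemannRochSpace (D + d.N • T.G), ∃ (t0 c : ∀ i, (T.R i).O) (μ : A),
      (∀ i, algebraMap K F (d.c i) * (t0 i : F) = U0) ∧
      (∀ i, t i = t0 i + (T.R i).ι μ * c i) ∧
      (μ ≠ 0 → (fun i => (T.R i).red (c i)) ∈ T.glued (fun i => n1 • T.Gk i) 1 ∧
        (fun i => (T.R i).red (c i)) ∉ T.glued (fun i => d.N • T.Gk i) 1) := by
  classical
  set N := d.N with hN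
  have hlift : ∀ {n}, N ≤ n → ∀ w ∈ T.glued (fun i => n • T.Gk i) 1,
      ∃ u ∈ riemannRochSpace (D + n • T.G), ∀ i, ∃ v : (T.R i).O,
        algebraMap K F (d.c i) * (v : F) = u ∧ (T.R i).red v = w i := by
    intro n hn w hw
    rw [← d.image_eq n hn] at hw
    exact hw
  -- adapted basis
  set W0 := T.glued (fun i => N • T.Gk i) 1 with hW0
  set W1 := T.glued (fun i => n1 • T.Gk i) 1 with hW1
  obtain ⟨C', hC'⟩ := W0.exists_isCompl
  set C := C' ⊓ W1 with hC
  have hle : W0 ≤ W1 := T.glued_mono hNn1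
  have hsup : W0 ⊔ C = W1 := by
    rw [hC, ← sup_inf_assoc_of_le C' hle, hC'.sup_eq_top, top_inf_eq]
  have hdisj : Disjoint W0 C := hC'.disjoint.mono_right inf_le_left
  have := T.finiteDimensional_glued (fun i => N • T.Gk i) 1
  have := T.finiteDimensional_glued (fun i => n1 • T.Gk i) 1
  have : FiniteDimensional k C := Submodule.finiteDimensional_of_le (inf_le_right : C ≤ W1)
  let b0 := Module.finBasis k W0
  let bC := Module.finBasis k C
  choose p hp hpv using fun j => hlift le_rfl _ (b0 j).2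
  choose pv hpve hpr using hpv
  choose q hq hqv using fun j => hlift hNn1 _ ((inf_le_right : C ≤ W1) (bC j).2)
  choose qv hqve hqr using hqv
  let w : Fin _ ⊕ Fin _ → Bool → Fk :=
    Sum.elim (fun j => (b0 j : Bool → Fk)) (fun j => (bC j : Bool → Fk))
  have hli : LinearIndependent k w := by
    refine LinearIndependent.sum_type
      (b0.linearIndependent.map' W0.subtype (Submodule.ker_subtype _))
      (bC.linearIndependent.map' C.subtype (Submodule.ker_subtype _)) ?_
    exact hdisj.mono (Submodule.span_le.mpr (by rintro _ ⟨j, rfl⟩; exact (b0 j).2))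
      (Submodule.span_le.mpr (by rintro _ ⟨j, rfl⟩; exact (bC j).2))
  have := T.rrF.finiteDim (D + n1 • T.G)
  have hcard : Fintype.card (Fin (Module.finrank k W0) ⊕ Fin (Module.finrank k C)) =
      Module.finrank k (pairImage T.R d.c (riemannRochSpace (D + n1 • T.G))) := by
    have h := Submodule.finrank_sup_add_finrank_inf_eq W0 C
    rw [hsup, hdisj.eq_bot, finrank_bot, add_zero] at h
    rw [Fintype.card_sum, Fintype.card_fin, Fintype.card_fin, d.image_eq n1 hNn1, ← hW1, h]
  have hu : ∀ j i, algebraMap K F (d.c i) * ((Sum.elim pv qv j i : (T.R i).O) : F) =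
      Sum.elim p q j := fun j i => by cases j <;> simp [hpve, hqve]
  have hw : ∀ j i, (T.R i).red (Sum.elim pv qv j i) = w j i := fun j i => by
    cases j <;> simp [w, hpr, hqr]
  have hV : ∀ j, Sum.elim p q j ∈ riemannRochSpace (D + n1 • T.G) := fun j => by
    cases j with
    | inl j => exact T.space_nsmul_mono hNn1 D (hp j)
    | inr j => exact hq j
  obtain ⟨β, hβ⟩ := T.exists_expansion d.c_ne hu hw hli hV hcard hU1
  have hβA : ∀ j, β j ∈ A := coeff_mem hu hw hli d.c_ne β fun i => ⟨t i, by rw [ht, hβ]⟩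
  let βA : Fin _ ⊕ Fin _ → A := fun j => ⟨β j, hβA j⟩
  have htv : ∀ i, t i = ∑ j, (T.R i).ι (βA (Sum.inl j)) * pv j i +
      ∑ j, (T.R i).ι (βA (Sum.inr j)) * qv j i := fun i => by
    refine Subtype.ext (mul_left_cancel₀ ((map_ne_zero (algebraMap K F)).mpr (d.c_ne i)) ?_)
    rw [ht, hβ, Fintype.sum_sum_type, Subring.coe_add, AddSubmonoidClass.coe_finsetSum,
      AddSubmonoidClass.coe_finsetSum, mul_add, Finset.mul_sum, Finset.mul_sum]
    congr 1 <;> refine Finset.sum_congr rfl fun j _ => ?_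
    · rw [Subring.coe_mul, RedBase.coe_ι, mul_left_comm, hpve]; rfl
    · rw [Subring.coe_mul, RedBase.coe_ι, mul_left_comm, hqve]; rfl
  let t0 : ∀ i, (T.R i).O := fun i => ∑ j, (T.R i).ι (βA (Sum.inl j)) * pv j i
  have ht0 : ∀ i, algebraMap K F (d.c i) * (t0 i : F) =
      ∑ j, algebraMap K F (β (Sum.inl j)) * p j := fun i => by
    rw [AddSubmonoidClass.coe_finsetSum, Finset.mul_sum]
    exact Finset.sum_congr rfl fun j _ => by
      rw [Subring.coe_mul, RedBase.coe_ι, mul_left_comm, hpve]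
  refine ⟨∑ j, algebraMap K F (β (Sum.inl j)) * p j, Submodule.sum_mem _ fun j _ => ?_, t0, ?_⟩
  · rw [← Algebra.smul_def]
    exact Submodule.smul_mem _ _ (hp j)
  by_cases hzero : ∀ j, β (Sum.inr j) = 0
  · refine ⟨fun i => 0, 0, ht0, fun i => ?_, fun h => absurd rfl h⟩
    rw [htv i, map_zero, zero_mul]
    refine congrArg (t0 i + ·) (Finset.sum_eq_zero fun j _ => ?_)
    rw [show βA (Sum.inr j) = 0 from Subtype.ext (hzero j), map_zero, zero_mul]
  push Not at hzero
  obtain ⟨j₀, hj₀⟩ := hzero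
  obtain ⟨j₁, hl0, hd⟩ := exists_div_mem (A := A) (fun j => β (Sum.inr j)) hj₀
  let c : ∀ i, (T.R i).O := fun i =>
    ∑ j, (T.R i).ι ⟨β (Sum.inr j) / β (Sum.inr j₁), hd j⟩ * qv j i
  refine ⟨c, βA (Sum.inr j₁), ht0, fun i => ?_, fun _ => ?_⟩
  · rw [htv i, Finset.mul_sum]
    refine congrArg (t0 i + ·) (Finset.sum_congr rfl fun j _ => ?_)
    rw [← mul_assoc, ← map_mul]
    refine congrArg (fun z => (T.R i).ι z * qv j i) (Subtype.ext ?_)
    show β (Sum.inr j) = β (Sum.inr j₁) * (β (Sum.inr j) / β (Sum.inr j₁))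
    rw [mul_div_cancel₀ _ hl0]
  set Z : Bool → Fk := ∑ j, π ⟨β (Sum.inr j) / β (Sum.inr j₁), hd j⟩ • (bC j : Bool → Fk) with hZ
  have hred : (fun i => (T.R i).red (c i)) = Z := by
    funext i
    rw [map_sum, hZ, Finset.sum_apply]
    exact Finset.sum_congr rfl fun j _ => by
      rw [map_mul, RedBase.red_ι, hqr, Pi.smul_apply, Algebra.smul_def]
  rw [hred]
  have hZC : Z ∈ C := Submodule.sum_mem _ fun j _ => Submodule.smul_mem _ _ (bC j).2
  refine ⟨(inf_le_right : C ≤ W1) hZC, fun hZ0 => ?_⟩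
  have hZ0' : Z = 0 := (Submodule.disjoint_def.mp hdisj) Z hZ0 hZC
  have hcoe : ∑ j, π ⟨β (Sum.inr j) / β (Sum.inr j₁), hd j⟩ • bC j = 0 :=
    Subtype.ext (by simpa [hZ] using hZ0')
  have h1 := Fintype.linearIndependent_iff.mp bC.linearIndependent _ hcoe j₁
  rw [show (⟨β (Sum.inr j₁) / β (Sum.inr j₁), hd j₁⟩ : A) = 1 from Subtype.ext (div_self hl0),
    map_one] at h1
  exact one_ne_zero h1

/-- A glued pair bounded by `n₁ Gk` but not by `N Gk` has, at some pole of `x`, a pole of order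
more than `N` times that of `x`. -/
theorem _root_.Fermat.Agent.TwoComponent.TwoRed.exists_excess {T : TwoRed A π F Fk S} {N n1 : ℕ}
    {Z : Bool → Fk} (h1 : Z ∈ T.glued (fun i => n1 • T.Gk i) 1)
    (h0 : Z ∉ T.glued (fun i => N • T.Gk i) 1) :
    ∃ i Q, Z i ≠ 0 ∧ T.Gk i Q = -Q.ord ((T.R i).red ⟨T.x, T.x_mem i⟩) ∧
      Q.ord (Z i) < -(N : ℤ) * T.Gk i Q := by
  by_contra hcon
  push Not at hcon
  refine h0 ⟨fun i => mem_riemannRochSpace_iff.mpr fun Q => or_iff_not_imp_left.mpr fun hne => ?_,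
    h1.2.1, h1.2.2⟩
  have ha := ((mem_riemannRochSpace_iff.mp (h1.1 i)) Q).resolve_left hne
  rw [Finsupp.smul_apply, nsmul_eq_mul] at ha ⊢
  have hs := T.Gk_spec i Q
  rcases le_total (-Q.ord ((T.R i).red ⟨T.x, T.x_mem i⟩)) 0 with h | h
  · rw [max_eq_left h] at hs
    rw [hs] at ha ⊢
    simpa using ha
  · rw [max_eq_right h] at hs
    have := hcon i Q hne hs
    linarith

/-- From two compatible approximate roots, one with poles bounded by the fixed multiple of `G`. -/
theorem exists_bounded_root_of {a : A} (ha : a ≠ 0) {n1 K' : ℕ} (hNn1 : d.N ≤ n1) {U1 U2 : F}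
    (hU1 : U1 ∈ riemannRochSpace (D + n1 • T.G))
    (hU2 : U2 ∈ riemannRochSpace (D + (d.N + K') • T.G))
    (t t' δ : ∀ i, (T.R i).O) (ht : ∀ i, algebraMap K F (d.c i) * (t i : F) = U1)
    (hta : ∀ i, (T.R i).ι a ∣ d.e i * t i ^ m - 1)
    (hxK : ∀ i, algebraMap K F (d.c i) * (t' i : F) * T.x ^ K' = U2)
    (hδ : ∀ i, t' i - t i = (T.R i).ι a * δ i) :
    ∃ u ∈ riemannRochSpace (D + d.N • T.G), ∀ i, ∃ t : (T.R i).O,
      algebraMap K F (d.c i) * (t : F) = u ∧ (T.R i).ι a ∣ d.e i * t ^ m - 1 := by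
  classical
  obtain ⟨U0, hU0, t0, c, μ, ht0, htc, hμ⟩ := d.exists_decomp hNn1 hU1 t ht
  have hdvd : (μ : K) / (a : K) ∈ A := by
    by_contra hbig
    have hμ0 : μ ≠ 0 := fun h => hbig (by rw [h]; simp [A.zero_mem])
    have hl0 : (μ : K) ≠ 0 := fun h => hμ0 (Subtype.ext h)
    obtain ⟨hZ1, hZ0⟩ := hμ hμ0
    have hal : (a : K) / (μ : K) ∈ A := by
      have := (A.mem_or_inv_mem ((μ : K) / (a : K))).resolve_left hbig
      rwa [inv_div] at this
    have hπal : π ⟨(a : K) / (μ : K), hal⟩ = 0 := by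
      by_contra hne
      have := inv_mem_of_pi_ne_zero (T.R false).surj_pi hne
      rw [inv_div] at this
      exact hbig this
    set Y : F := algebraMap K F (μ : K)⁻¹ * (U2 - T.x ^ K' * U0) with hY
    have hYmem : Y ∈ riemannRochSpace (D + (d.N + K') • T.G) := by
      rw [hY, ← Algebra.smul_def, mul_comm (T.x ^ K')]
      exact Submodule.smul_mem _ _ (sub_mem hU2 (T.mem_space_mul hU0 (T.pow_x_mem_space K')))
    have hYimg : (fun i => (T.R i).red ⟨T.x, T.x_mem i⟩ ^ K' * (T.R i).red (c i)) ∈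
        T.glued (fun i => (d.N + K') • T.Gk i) 1 := by
      rw [← d.image_eq _ (Nat.le_add_right d.N K')]
      refine ⟨Y, hYmem, fun i => ⟨⟨T.x, T.x_mem i⟩ ^ K' *
        (c i + (T.R i).ι ⟨(a : K) / (μ : K), hal⟩ * δ i), ?_, ?_⟩⟩
      · have hd' : (t' i : F) - (t i : F) = algebraMap K F (a : K) * (δ i : F) :=
          congrArg Subtype.val (hδ i)
        have e4 : (t i : F) = (t0 i : F) + algebraMap K F (μ : K) * (c i : F) :=
          congrArg Subtype.val (htc i)
        rw [hY, ← hxK i, ← ht0 i]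
        simp only [Subring.coe_mul, SubmonoidClass.coe_pow, Subring.coe_add, RedBase.coe_ι,
          map_div₀, map_inv₀]
        have : algebraMap K F (μ : K) ≠ 0 := (map_ne_zero _).mpr hl0
        field_simp
        linear_combination (-(algebraMap K F (d.c i) * T.x ^ K')) * hd' +
          (-(algebraMap K F (d.c i) * T.x ^ K')) * e4
      · rw [map_mul, map_pow, map_add, map_mul, RedBase.red_ι, hπal, map_zero, zero_mul, add_zero]
    obtain ⟨i, Q, hne, hG, hlt⟩ := TwoRed.exists_excess hZ1 hZ0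
    have hx := T.red_x_ne_zero i
    have h2 := ((mem_riemannRochSpace_iff.mp (hYimg.1 i)) Q).resolve_left
      (mul_ne_zero (pow_ne_zero _ hx) hne)
    rw [Q.ord_mul (pow_ne_zero _ hx) hne, ord_pow, Finsupp.smul_apply, nsmul_eq_mul, hG] at h2
    rw [hG] at hlt
    push_cast at h2
    linarith
  refine ⟨U0, hU0, fun i => ⟨t0 i, ht0 i, ?_⟩⟩
  have hd2 : (T.R i).ι a ∣ t i - t0 i := by
    rw [htc i, add_sub_cancel_left]
    refine Dvd.dvd.mul_right (map_dvd (T.R i).ι ⟨⟨_, hdvd⟩, Subtype.ext ?_⟩) _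
    show (μ : K) = (a : K) * ((μ : K) / (a : K))
    rw [mul_div_cancel₀ _ (fun h => ha (Subtype.ext h))]
  have h2 : (T.R i).ι a ∣ t i ^ m - t0 i ^ m := hd2.trans (sub_dvd_pow_sub_pow _ _ _)
  have h3 : d.e i * t0 i ^ m - 1 = (d.e i * t i ^ m - 1) - d.e i * (t i ^ m - t0 i ^ m) := by ring
  rw [h3]
  exact dvd_sub (hta i) (Dvd.dvd.mul_left h2 _)

/-- Approximate roots can be found with bounded poles. -/
theorem exists_bounded_root (hm : 0 < m) (hmk : (m : k) ≠ 0) {a : A} (ha : a ≠ 0) :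
    ∃ u ∈ riemannRochSpace (D + d.N • T.G), ∀ i, ∃ t : (T.R i).O,
      algebraMap K F (d.c i) * (t : F) = u ∧ (T.R i).ι a ∣ d.e i * t ^ m - 1 := by
  classical
  set N := d.N with hN
  have hlift : ∀ {n}, N ≤ n → ∀ w ∈ T.glued (fun i => n • T.Gk i) 1,
      ∃ u ∈ riemannRochSpace (D + n • T.G), ∀ i, ∃ v : (T.R i).O,
        algebraMap K F (d.c i) * (v : F) = u ∧ (T.R i).red v = w i := by
    intro n hn w hw
    rw [← d.image_eq n hn] at hw
    exact hw
  -- the two approximations
  obtain ⟨u0, hu0, h0⟩ := hlift le_rfl _ (T.one_mem_glued N)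
  choose v0 hv0 hr0 using h0
  obtain ⟨j1, U1, hU1, hT1⟩ := d.toNormalData.exists_approx hm hmk d.red_e hu0 (z := 1)
    (T.one_mem_space N) v0 (fun i => (1 : (T.R i).O)) hv0 (fun i => Subring.coe_one _)
    (fun i => by rw [map_one]; exact one_ne_zero) (fun i => by rw [hr0, map_one]) ha
  choose t ht htr hta using hT1
  simp only [one_pow, mul_one] at ht
  obtain ⟨u1, hu1, h1⟩ := hlift le_rfl _ (T.red_pow_mem_glued N)
  choose v1 hv1 hr1 using h1
  obtain ⟨j2, U2, hU2, hT2⟩ := d.toNormalData.exists_approx hm hmk d.red_e hu1 (z := T.x ^ N)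
    (T.pow_x_mem_space N) v1 (fun i => ⟨T.x, T.x_mem i⟩ ^ N) hv1
    (fun i => SubmonoidClass.coe_pow _ _)
    (fun i => by rw [map_pow]; exact pow_ne_zero _ (T.red_x_ne_zero i)) hr1 ha
  choose t' ht' htr' hta' using hT2
  set K' := N * (j2 + 1) with hK'
  have hxK : ∀ i, algebraMap K F (d.c i) * (t' i : F) * T.x ^ K' = U2 := fun i => by
    rw [hK', pow_mul]; exact ht' i
  choose δ hδ using fun i =>
    T.dvd_sub_of_roots hmk (d.red_e i) (htr' i) (htr i) (hta' i) (hta i)
  exact d.exists_bounded_root_of ha (n1 := N * (j1 + 1)) (K' := K')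
    (Nat.le_mul_of_pos_right N (Nat.succ_pos _)) hU1 (T.space_nsmul_mono (by omega) D hU2) t t' δ
    ht hta hxK hδ

include d in
/-- Approximate solutions of arbitrary precision give principality. -/
theorem principal_of_bounded_root [IsAlgClosed K] (hm : 0 < m)
    (hnt : ∃ t : A, t ≠ 0 ∧ π t = 0)
    (hroot : ∀ a : A, a ≠ 0 → ∃ u ∈ riemannRochSpace (D + d.N • T.G), ∀ i, ∃ t : (T.R i).O,
      algebraMap K F (d.c i) * (t : F) = u ∧ (T.R i).ι a ∣ d.e i * t ^ m - 1) :
    D ∈ Divisor.principal (K := K) (F := F) := by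
  classical
  set N := max d.N T.bigN with hN
  set M := m * N with hM
  have hMT : T.bigN ≤ M := le_trans (le_max_right _ _) (Nat.le_mul_of_pos_left _ hm)
  -- bases of the two spaces
  have := T.finiteDimensional_glued (fun i => N • T.Gk i) 1
  have := T.finiteDimensional_glued (fun i => M • T.Gk i) 1
  have := T.rrF.finiteDim (D + N • T.G)
  have := T.rrF.finiteDim (M • T.G)
  let bw := Module.finBasis k (T.glued (fun i => N • T.Gk i) 1)
  let bb := Module.finBasis k (T.glued (fun i => M • T.Gk i) 1)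
  have himgN : pairImage T.R d.c (riemannRochSpace (D + N • T.G)) =
      T.glued (fun i => N • T.Gk i) 1 := d.image_eq N (le_max_left _ _)
  obtain ⟨u, v, hu, hv, hvr⟩ := exists_lifts (R := T.R) (c := d.c)
    (V := riemannRochSpace (D + N • T.G)) (w := fun j => (bw j : Bool → Fk))
    fun j => by rw [himgN]; exact (bw j).2
  obtain ⟨b, bv, hb, hbv, hbr⟩ := exists_lifts (R := T.R) (c := 1)
    (V := riemannRochSpace (M • T.G)) (w := fun j => (bb j : Bool → Fk))
    fun j => by rw [T.image_eq_glued hMT]; exact (bb j).2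
  have hliw : LinearIndependent k fun j => (bw j : Bool → Fk) :=
    bw.linearIndependent.map' (Submodule.subtype _) (Submodule.ker_subtype _)
  have hlib : LinearIndependent k fun j => (bb j : Bool → Fk) :=
    bb.linearIndependent.map' (Submodule.subtype _) (Submodule.ker_subtype _)
  have hblin : LinearIndependent K b :=
    linearIndependent_lift hbv hbr hlib (fun _ => one_ne_zero)
  obtain ⟨φ, hφ⟩ := LinearMap.exists_extend
    (Module.Basis.span hblin).equivFun.toLinearMap
  have hφb : ∀ (β : _ → K) l, φ (∑ j, algebraMap K F (β j) * b j) l = β l := fun β l => by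
    have hmem : ∀ j, b j ∈ Submodule.span K (Set.range b) := fun j => Submodule.subset_span ⟨j, rfl⟩
    have e : ∀ j, φ (b j) = fun l => if j = l then (1 : K) else 0 := fun j => by
      have h := LinearMap.congr_fun hφ ⟨b j, hmem j⟩
      rw [LinearMap.comp_apply, Submodule.subtype_apply] at h
      rw [h]
      have hbs : (⟨b j, hmem j⟩ : Submodule.span K (Set.range b)) = Module.Basis.span hblin j :=
        Subtype.ext (by rw [Module.Basis.span_apply])
      rw [hbs, LinearEquiv.coe_toLinearMap]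
      funext l
      rw [Module.Basis.equivFun_self]
    simp only [← Algebra.smul_def, map_sum, map_smul, e, Finset.sum_apply, Pi.smul_apply,
      smul_eq_mul, mul_ite, mul_one, mul_zero, Finset.sum_ite_eq', Finset.mem_univ, if_true]
  -- `Φ α - 1` lies in the span of `b`
  have hspace : ∀ α : _ → K, d.f * (∑ j, algebraMap K F (α j) * u j) ^ m - 1 ∈
      riemannRochSpace (M • T.G) := fun α => by
    refine sub_mem (d.toNormalData.pow_mem_space hm (Submodule.sum_mem _ fun j _ => ?_))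
      (T.one_mem_space M)
    rw [← Algebra.smul_def]
    exact Submodule.smul_mem _ _ (hu j)
  have hexp : ∀ y ∈ riemannRochSpace (M • T.G), y = ∑ j, algebraMap K F (φ y j) * b j := by
    intro y hy
    obtain ⟨β, hβ⟩ := T.exists_expansion (c := 1) (fun _ => one_ne_zero) hbv hbr hlib hb
      (by rw [Fintype.card_fin, T.image_eq_glued hMT]) hy
    conv_lhs => rw [hβ]
    exact Finset.sum_congr rfl fun j _ => by rw [hβ, hφb]
  -- the polynomial equations
  let PF : MvPolynomial (Fin _) F :=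
    MvPolynomial.C d.f * (∑ j, MvPolynomial.C (u j) * MvPolynomial.X j) ^ m - 1
  let P : Fin _ → MvPolynomial (Fin (Module.finrank k (T.glued (fun i => N • T.Gk i) 1))) K :=
    fun l => ∑ s ∈ PF.support, MvPolynomial.monomial s (φ (PF.coeff s) l)
  have hPeval : ∀ (α : _ → K) l, MvPolynomial.eval α (P l) =
      φ (d.f * (∑ j, algebraMap K F (α j) * u j) ^ m - 1) l := fun α l => by
    have h1 : MvPolynomial.eval (fun j => algebraMap K F (α j)) PF =
        d.f * (∑ j, algebraMap K F (α j) * u j) ^ m - 1 := by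
      simp [PF, mul_comm (u _)]
    rw [← h1, MvPolynomial.eval_eq (fun j => algebraMap K F (α j)) PF, map_sum]
    simp only [map_sum, MvPolynomial.eval_monomial, Finset.sum_apply]
    refine Finset.sum_congr rfl fun s _ => ?_
    have hmon : ∏ j ∈ s.support, algebraMap K F (α j) ^ s j =
        algebraMap K F (∏ j ∈ s.support, α j ^ s j) := by
      simp [map_prod]
    rw [hmon, mul_comm (MvPolynomial.coeff s PF), ← Algebra.smul_def, map_smul, Pi.smul_apply,
      smul_eq_mul, mul_comm]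
    rfl
  by_cases hzero : ∃ α : _ → K, ∀ l, MvPolynomial.eval α (P l) = 0
  · obtain ⟨α, hα⟩ := hzero
    set y := ∑ j, algebraMap K F (α j) * u j with hy
    have h1 : d.f * y ^ m = 1 := by
      rw [← sub_eq_zero, hexp _ (hspace α)]
      exact Finset.sum_eq_zero fun l _ => by rw [← hPeval, hα, map_zero, zero_mul]
    have hy0 : y ≠ 0 := fun h => one_ne_zero (α := F) (by rw [← h1, h, zero_pow hm.ne', mul_zero])
    refine ⟨y⁻¹, inv_ne_zero hy0, fun Q => ?_⟩
    have h2 : Q.ord (d.f * y ^ m) = 0 := by rw [h1, Place.ord_one]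
    rw [Q.ord_mul d.f_ne (pow_ne_zero _ hy0), ord_pow, d.div_f, ← mul_add] at h2
    rcases mul_eq_zero.mp h2 with h | h
    · omega
    · rw [Q.ord_inv]; omega
  exfalso
  push Not at hzero
  obtain ⟨γ, hγ0, hγA, hγ⟩ := exists_scalar_of_no_common_zero (A := A) P hzero
  obtain ⟨τ, hτ0, hτ⟩ := hnt
  set a : A := ⟨γ, hγA⟩ * τ with haDef
  have ha : a ≠ 0 := mul_ne_zero (fun h => hγ0 (congrArg Subtype.val h)) hτ0
  -- an approximate solution
  obtain ⟨y, hy, hyt⟩ := hroot a ha
  choose t ht hta using hyt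
  have hyN : y ∈ riemannRochSpace (D + N • T.G) := T.space_nsmul_mono (le_max_left _ _) D hy
  obtain ⟨α, hα⟩ := T.exists_expansion d.c_ne hv hvr hliw hu
    (by rw [Fintype.card_fin, himgN]) hyN
  have hαA : ∀ j, α j ∈ A := coeff_mem hv hvr hliw d.c_ne α fun i => ⟨t i, by rw [ht, hα]⟩
  have ha0 : (a : K) ≠ 0 := fun h => ha (Subtype.ext h)
  have hsmall : ∀ l, MvPolynomial.eval α (P l) / (a : K) ∈ A := by
    refine coeff_mem (c := 1) hbv hbr hlib (fun _ => one_ne_zero) _ fun i => ?_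
    obtain ⟨r, hr⟩ := hta i
    refine ⟨r, ?_⟩
    have hF : d.f * y ^ m - 1 = algebraMap K F (a : K) * (r : F) := by
      have h := congrArg Subtype.val hr
      simp only [AddSubgroupClass.coe_sub, Subring.coe_mul, SubmonoidClass.coe_pow, Subring.coe_one,
        RedBase.coe_ι, d.e_eq] at h
      rw [← h, ← ht i, mul_pow]; ring
    have hsum : ∑ l, algebraMap K F (MvPolynomial.eval α (P l)) * b l = d.f * y ^ m - 1 := by
      conv_rhs => rw [hα, hexp _ (hspace α)]
      exact Finset.sum_congr rfl fun l _ => by rw [hPeval]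
    rw [Pi.one_apply, map_one, one_mul]
    have : ∑ l, algebraMap K F (MvPolynomial.eval α (P l) / (a : K)) * b l =
        (algebraMap K F (a : K))⁻¹ * ∑ l, algebraMap K F (MvPolynomial.eval α (P l)) * b l := by
      rw [Finset.mul_sum]
      exact Finset.sum_congr rfl fun l _ => by rw [map_div₀]; ring
    rw [this, hsum, hF, ← mul_assoc, inv_mul_cancel₀ ((map_ne_zero _).mpr ha0), one_mul]
  have key : γ / (a : K) ∈ A := hγ α _ hαA hsmall
  have hτi : (τ : K)⁻¹ ∈ A := by
    rwa [haDef, MulMemClass.coe_mul, div_mul_eq_div_div, div_self hγ0, one_div] at key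
  exact pi_ne_zero_of_mul_eq_one (π := π) hτi
    (mul_inv_cancel₀ fun h => hτ0 (Subtype.ext h)) hτ

include d in
/-- **Torsion data with trivial reduction come from principal divisors.** -/
theorem principal [IsAlgClosed K] (hm : 0 < m) (hmk : (m : k) ≠ 0)
    (hnt : ∃ t : A, t ≠ 0 ∧ π t = 0) : D ∈ Divisor.principal (K := K) (F := F) :=
  d.principal_of_bounded_root hm hnt fun _ ha => d.exists_bounded_root hm hmk ha

end TrivialData

end TwoRed

/-- Inertia fixes the classes of slope zero. -/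
theorem SemiRed.smul_eq_of_inT0 [IsAlgClosed K] {S : Type*} [Fintype S] {T : TwoRed A π F Fk S}
    (σ : SemiRed T) (hσ : σ.IsInertial) {m : ℕ} (hm : 0 < m) (hmk : (m : k) ≠ 0)
    (hnt : ∃ t : A, t ≠ 0 ∧ π t = 0) {y : Pic0 K F} (hy : T.InT0 m y) : σ.aut • y = y := by
  obtain ⟨D, hD, ⟨d⟩⟩ := σ.exists_trivialData hσ hm hy
  rw [← sub_eq_zero, ← hD]
  exact (QuotientAddGroup.eq_zero_iff _).mpr
    (AddSubgroup.mem_addSubgroupOf.mpr (d.principal hm hmk hnt))

/-- **Inertia acts on prime-to-`q` torsion with square zero.** -/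
theorem SemiRed.smul_sub_eq [IsAlgClosed K] {S : Type*} [Fintype S] {T : TwoRed A π F Fk S}
    (σ τ : SemiRed T) (hσ : σ.IsInertial) (hτ : τ.IsInertial) {m : ℕ} (hm : 0 < m)
    (hmk : (m : k) ≠ 0) (hnt : ∃ t : A, t ≠ 0 ∧ π t = 0) {y : Pic0 K F} (hy : m • y = 0) :
    σ.aut • (τ.aut • y - y) = τ.aut • y - y :=
  σ.smul_eq_of_inT0 hσ hm hmk hnt (τ.smul_sub_mem hτ hy)

end Fermat.Agent.TwoComponent
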