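import Mathlib
import Fermat.Prelude.Def_EllipticCurve_FrobeniusTrace
import Fermat.Prelude.Def_FLTPrelim_Ramification

/-!
# Valuation rings of algebraic numbers above `q` have rank one

For `a ≠ 0` algebraic some positive power of the valuation of `a` is an integral power of
that of `q`.
-/

noncomputable section

namespace Fermat.Agent.TwoComponent

variable {L : Type*} [Field L] [Algebra ℚ L] (A : ValuationSubring L) {q : ℕ} [hq : Fact q.Prime]

theorem charZero_of_algebra : CharZero L :=
  charZero_of_injective_algebraMap (algebraMap ℚ L).injective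

variable {A}

omit [Algebra ℚ L] in
/-- An integer prime to `q` is a unit. -/
theorem valuation_intCast (hA : A.LiesOverPrime q) {c : ℤ} (hc : c ≠ 0) :
    A.valuation (c : L) = A.valuation (q : L) ^ padicValInt q c := by
  have hq1 : A.valuation (q : L) < 1 := A.mem_nonunits_iff.mp hA
  obtain ⟨m, hm⟩ : ∃ m : ℤ, c = (q : ℤ) ^ padicValInt q c * m := padicValInt_dvd c
  have hndvd : ¬ (q : ℤ) ∣ m := by
    intro hdvd
    have h1 : (q : ℤ) ^ (padicValInt q c + 1) ∣ c := by
      conv_rhs => rw [hm]
      rw [pow_succ]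
      exact mul_dvd_mul_left _ hdvd
    rcases (padicValInt_dvd_iff _ c).mp h1 with h | h
    · exact hc h
    · omega
  have hle : ∀ z : ℤ, A.valuation (z : L) ≤ 1 := fun z =>
    (A.valuation_le_one_iff _).mpr (intCast_mem A z)
  have hunit : A.valuation (m : L) = 1 := by
    refine le_antisymm (hle m) (not_lt.mp fun hlt => ?_)
    obtain ⟨u, v, huv⟩ : IsCoprime (q : ℤ) m :=
      (Nat.prime_iff_prime_int.mp hq.out).coprime_iff_not_dvd.mpr hndvd
    have h1 : A.valuation ((u : L) * (q : L) + (v : L) * (m : L)) < 1 := by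
      refine (Valuation.map_add _ _ _).trans_lt (max_lt ?_ ?_)
      · rw [map_mul]; exact lt_of_le_of_lt (mul_le_of_le_one_left' (hle u)) hq1
      · rw [map_mul]; exact lt_of_le_of_lt (mul_le_of_le_one_left' (hle v)) hlt
    have e : ((u : L) * (q : L) + (v : L) * (m : L)) = 1 := by
      exact_mod_cast congrArg (Int.cast : ℤ → L) huv
    rw [e, map_one] at h1
    exact lt_irrefl _ h1
  conv_lhs => rw [hm]
  push_cast
  rw [map_mul, map_pow, hunit, mul_one]

/-- A positive power of the valuation of a nonzero algebraic number is a power of that of `q`. -/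
theorem exists_pow_valuation (hA : A.LiesOverPrime q) {a : L} (ha : IsAlgebraic ℚ a) (ha0 : a ≠ 0) :
    ∃ (k : ℕ) (e₁ e₂ : ℕ), 0 < k ∧
      A.valuation a ^ k * A.valuation (q : L) ^ e₁ = A.valuation (q : L) ^ e₂ := by
  classical
  have := charZero_of_algebra (L := L)
  obtain ⟨p, hp0, hpa⟩ := (IsFractionRing.isAlgebraic_iff ℤ ℚ L).mpr ha
  set f : ℕ → L := fun i => (p.coeff i : L) * a ^ i with hf
  have hsum : ∑ i ∈ p.support, f i = 0 := by
    rw [← hpa, Polynomial.aeval_def, Polynomial.eval₂_eq_sum, Polynomial.sum_def]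
    exact Finset.sum_congr rfl fun i _ => by rw [hf]; simp
  have hne : p.support.Nonempty := Polynomial.support_nonempty.mpr hp0
  obtain ⟨i, hi, hmax⟩ := p.support.exists_max_image (fun i => A.valuation (f i)) hne
  have hfne : ∀ i ∈ p.support, f i ≠ 0 := fun i hi =>
    mul_ne_zero (Int.cast_ne_zero.mpr (Polynomial.mem_support_iff.mp hi)) (pow_ne_zero _ ha0)
  obtain ⟨j, hj, hji, heq⟩ : ∃ j ∈ p.support, j ≠ i ∧ A.valuation (f j) = A.valuation (f i) := by
    by_contra hcon
    push Not at hcon
    have hlt : A.valuation (∑ j ∈ p.support.erase i, f j) < A.valuation (f i) :=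
      A.valuation.map_sum_lt' (zero_lt_iff.mpr ((Valuation.ne_zero_iff _).mpr (hfne i hi)))
        fun j hj => lt_of_le_of_ne (hmax j (Finset.mem_of_mem_erase hj))
          (hcon j (Finset.mem_of_mem_erase hj) (Finset.ne_of_mem_erase hj))
    have h2 := Finset.add_sum_erase _ f hi
    rw [hsum] at h2
    have h3 := A.valuation.map_add_eq_of_lt_left hlt
    rw [h2, map_zero] at h3
    exact hfne i hi ((Valuation.zero_iff _).mp h3.symm)
  have hv : A.valuation a ≠ 0 := (Valuation.ne_zero_iff _).mpr ha0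
  have key : ∀ i j : ℕ, i ∈ p.support → j ∈ p.support → i < j →
      A.valuation (f i) = A.valuation (f j) → ∃ (k : ℕ) (e₁ e₂ : ℕ), 0 < k ∧
        A.valuation a ^ k * A.valuation (q : L) ^ e₁ = A.valuation (q : L) ^ e₂ := by
    intro i j hi hj hij h
    obtain ⟨k, rfl⟩ : ∃ k, j = i + k := Nat.exists_eq_add_of_le hij.le
    refine ⟨k, padicValInt q (p.coeff (i + k)), padicValInt q (p.coeff i), by omega, ?_⟩
    rw [hf] at h
    simp only [map_mul, map_pow, valuation_intCast hA (Polynomial.mem_support_iff.mp hi),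
      valuation_intCast hA (Polynomial.mem_support_iff.mp hj), pow_add] at h
    refine mul_right_cancel₀ (pow_ne_zero i hv) ?_
    rw [h]
    ac_rfl
  rcases lt_or_gt_of_ne hji with h | h
  · exact key j i hj hi h heq
  · exact key i j hi hj h heq.symm

/-- **Rank one**: powers of a nonunit are divisible by every nonzero element. -/
theorem exists_pow_eq_mul (hA : A.LiesOverPrime q) (halg : ∀ a : L, IsAlgebraic ℚ a) (a b : A)
    (ha : A.valuation (a : L) < 1) (hb : b ≠ 0) : ∃ (n : ℕ) (c : A), a ^ n = c * b := by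
  have := charZero_of_algebra (L := L)
  have hb' : (b : L) ≠ 0 := fun h => hb (Subtype.ext h)
  have hq1 : A.valuation (q : L) < 1 := A.mem_nonunits_iff.mp hA
  have hq0 : A.valuation (q : L) ≠ 0 :=
    (Valuation.ne_zero_iff _).mpr (Nat.cast_ne_zero.mpr hq.out.ne_zero)
  rcases eq_or_ne (a : L) 0 with ha0 | ha0
  · exact ⟨1, 0, by rw [zero_mul, pow_one]; exact Subtype.ext ha0⟩
  obtain ⟨k, e₁, e₂, hk, he⟩ := exists_pow_valuation hA (halg (a : L)) ha0
  obtain ⟨l, d₁, d₂, hl, hd⟩ := exists_pow_valuation hA (halg (b : L)) hb'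
  have he12 : e₁ < e₂ := by
    by_contra h
    push Not at h
    have h1 : A.valuation (a : L) ^ k * A.valuation (q : L) ^ e₁ < 1 * A.valuation (q : L) ^ e₁ :=
      mul_lt_mul_of_pos_right (pow_lt_one₀ zero_le ha hk.ne') (zero_lt_iff.mpr (pow_ne_zero _ hq0))
    rw [he, one_mul] at h1
    exact absurd (pow_le_pow_right_of_le_one' hq1.le h) (not_le.mpr h1)
  have hak : A.valuation (a : L) ^ k ≤ A.valuation (q : L) := by
    refine le_of_mul_le_mul_right ?_ (zero_lt_iff.mpr (pow_ne_zero e₁ hq0))
    rw [he, ← pow_succ']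
    exact pow_le_pow_right_of_le_one' hq1.le he12
  have hbl : A.valuation (q : L) ^ d₂ ≤ A.valuation (b : L) := by
    rw [← hd]
    calc A.valuation (b : L) ^ l * A.valuation (q : L) ^ d₁
        ≤ A.valuation (b : L) ^ l := mul_le_of_le_one_right' (pow_le_one₀ zero_le hq1.le)
      _ ≤ A.valuation (b : L) ^ 1 :=
        pow_le_pow_right_of_le_one' ((A.valuation_le_one_iff _).mpr b.2) hl
      _ = A.valuation (b : L) := pow_one _
  refine ⟨k * d₂, ⟨(a : L) ^ (k * d₂) / (b : L), ?_⟩, Subtype.ext ?_⟩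
  · rw [← A.valuation_le_one_iff, map_div₀, map_pow]
    refine div_le_one_of_le₀ ?_ zero_le
    rw [pow_mul]
    exact (pow_le_pow_left₀ zero_le hak d₂).trans hbl
  · rw [SubmonoidClass.coe_pow, MulMemClass.coe_mul, div_mul_cancel₀ _ hb']

end Fermat.Agent.TwoComponent
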