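import Fermat.Agent.TwoComponent.Inertia

/-!
# The residual action of a compatible automorphism; slopes

A compatible automorphism induces automorphisms of the two components; if it fixes all branches it
moves torsion classes by classes of slope zero.
-/

noncomputable section

open AlgebraicCurve Fermat.Agent.Red

namespace Fermat.Agent.TwoComponent

variable {K k F Fk : Type*} [Field K] [Field F] [Algebra K F] [Field k] [Field Fk] [Algebra k Fk]
variable {A : ValuationSubring K} {π : A →+* k}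

namespace TwoRed

variable {S : Type*} [Fintype S] {T : TwoRed A π F Fk S} {m : ℕ}

theorem inT0_zero (m : ℕ) : T.InT0 m 0 :=
  ⟨0, 1, Pic0.mk_zero, one_ne_zero, fun P => by simp, fun s i => by
    rw [← map_one (algebraMap K F), redOrd_algebraMap _ one_ne_zero]; exact dvd_zero _⟩

theorem InT0.add {y y' : Pic0 K F} (hy : T.InT0 m y) (hy' : T.InT0 m y') :
    T.InT0 m (y + y') := by
  obtain ⟨D, f, rfl, hf, hd, hs⟩ := hy
  obtain ⟨D', f', rfl, hf', hd', hs'⟩ := hy'
  refine ⟨D + D', f * f', Pic0.mk_add _ _, mul_ne_zero hf hf', fun P => ?_, fun s i => ?_⟩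
  · rw [P.ord_mul hf hf', hd, hd', AddSubgroup.coe_add, Finsupp.add_apply, mul_add]
  · rw [redOrd_mul _ hf hf']
    exact dvd_add (hs s i) (hs' s i)

theorem InT0.neg {y : Pic0 K F} (hy : T.InT0 m y) : T.InT0 m (-y) := by
  obtain ⟨D, f, rfl, hf, hd, hs⟩ := hy
  refine ⟨-D, f⁻¹, map_neg (QuotientAddGroup.mk' _) _, inv_ne_zero hf, fun P => ?_, fun s i => ?_⟩
  · rw [P.ord_inv, hd, NegMemClass.coe_neg, Finsupp.neg_apply, mul_neg]
  · rw [redOrd_inv _ hf]
    exact (hs s i).neg_right

variable (T) in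
/-- The classes of slope zero, as a subgroup. -/
def T0 (m : ℕ) : AddSubgroup (Pic0 K F) where
  carrier := {y | T.InT0 m y}
  zero_mem' := inT0_zero m
  add_mem' := InT0.add
  neg_mem' := InT0.neg

theorem InT0.nsmul_eq_zero {y : Pic0 K F} (hy : T.InT0 m y) : m • y = 0 := by
  obtain ⟨D, f, rfl, hf, hd, -⟩ := hy
  show Pic0.mk (m • D) = 0
  refine (QuotientAddGroup.eq_zero_iff _).mpr (AddSubgroup.mem_addSubgroupOf.mpr ⟨f, hf,
      fun P => ?_⟩)
  rw [hd, AddSubgroupClass.coe_nsmul, Finsupp.smul_apply, nsmul_eq_mul]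

end TwoRed

namespace SemiRed

variable {S : Type*} [Fintype S] {T : TwoRed A π F Fk S} (σ : SemiRed T)

/-- The residual automorphism of a component. -/
def resAut : SemilinearAut k Fk := ⟨(σ.resF, σ.res), σ.resF_algebraMap⟩

theorem resF_ne_zero {w : Fk} (hw : w ≠ 0) : σ.resF w ≠ 0 := by simpa using hw

theorem ord_resF (Q : Place k Fk) (w : Fk) : Q.ord (σ.resF w) = (σ.resAut⁻¹ • Q).ord w := by
  have h := SemilinearAut.ord_smul σ.resAut (σ.resAut⁻¹ • Q) w
  rwa [smul_inv_smul] at h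

theorem redOrd_smul_resAut (i : Bool) {f : F} (hf : f ≠ 0) (Q : Place k Fk) :
    redOrd (T.R i) (σ.aut • f) Q = redOrd (T.R i) f (σ.resAut⁻¹ • Q) := by
  obtain ⟨c, hu, h⟩ := unitPart_spec (T.R i) hf
  rw [redOrd_eq (T.R i) (c := SemilinearAut.baseAut σ.aut c) (u := σ.mapO i (unitPart (T.R i) f))
    (σ.smul_ne_zero hf) (by rw [red_mapO_resF]; exact σ.resF_ne_zero hu)
    (by conv_lhs => rw [h, smul_mul', SemilinearAut.smul_algebraMap]
        rfl), red_mapO_resF, ord_resF]
  rfl

/-- The automorphism permutes the nodes, respecting the sides. -/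
def PermutesNodes : Prop := ∀ s i, ∃ t, σ.resAut⁻¹ • T.br s i = T.br t i

/-- The automorphism fixes every branch. -/
def FixesNodes : Prop := ∀ s i, σ.resAut • T.br s i = T.br s i

theorem FixesNodes.inv {σ : SemiRed T} (h : σ.FixesNodes) (s : S) (i : Bool) :
    σ.resAut⁻¹ • T.br s i = T.br s i := inv_smul_eq_iff.mpr (h s i).symm

theorem FixesNodes.permutes {σ : SemiRed T} (h : σ.FixesNodes) : σ.PermutesNodes :=
  fun s i => ⟨s, h.inv s i⟩

theorem smul_mem_T0 (hσ : σ.PermutesNodes) {m : ℕ} {y : Pic0 K F} (hy : T.InT0 m y) :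
    T.InT0 m (σ.aut • y) := by
  obtain ⟨D, f, rfl, hf, hd, hs⟩ := hy
  refine ⟨SemilinearAut.degZeroSMulHom σ.aut D, σ.aut • f, (SemilinearAut.pic0_smul_mk _ _).symm,
    σ.smul_ne_zero hf, fun P => ?_, fun s i => ?_⟩
  · rw [σ.ord_aut_smul, hd, SemilinearAut.coe_degZeroSMulHom, SemilinearAut.divisor_smul_apply]
  · obtain ⟨t, ht⟩ := hσ s i
    rw [σ.redOrd_smul_resAut i hf, ht]
    exact hs t i

/-- An automorphism fixing all branches changes torsion classes by classes of slope zero. -/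
theorem smul_sub_mem_of_fixesNodes (hσ : σ.FixesNodes) {m : ℕ} {y : Pic0 K F} (hy : m • y = 0) :
    T.InT0 m (σ.aut • y - y) :=
  σ.smul_sub_mem_of_redOrd (fun _ hf s i => by rw [σ.redOrd_smul_resAut i hf, hσ.inv s i]) hy

end SemiRed

end Fermat.Agent.TwoComponent
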