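import Fermat.Agent.EichlerShimura.Galois
import Fermat.Agent.Red.GenusLift
import Fermat.Agent.TwoComponent.ArchQbar
import Fermat.Agent.TwoComponent.Model
import Fermat.Agent.TwoComponent.Residual

/-!
# The Galois action on the two-component reduction of `X₀(M q)`

A decomposition group element acts on functions of level `M q` through their coefficients; this
commutes with the involution and is compatible with both reductions.
-/

noncomputable section

open ModularCurve AlgebraicCurve IntermediateField Fermat.Agent.Red Fermat.Agent.Igusa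

namespace Fermat.Agent.TwoComponent

local notation "Qb" => AlgebraicClosure ℚ
local notation "GQ" => (AlgebraicClosure ℚ ≃ₐ[ℚ] AlgebraicClosure ℚ)

variable (M q : ℕ) [hq : Fact q.Prime] [NeZero M] (hqM : ¬ q ∣ M)
variable {A : ValuationSubring (AlgebraicClosure ℚ)} {k : Type*} [Field k] {π : A →+* k}
variable [CharP k q] [IsAlgClosed k]

/-- The action of `σ` on functions of level `M q` through their coefficients. -/
def galFN (σ : GQ) : SemilinearAut Qb (FN M q) :=
  arithmeticGalois (modularFunctionFieldFull (M * q)) σ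

omit hq [NeZero M] in
theorem coe_galFN_smul (σ : GQ) (f : FN M q) :
    ((galFN M q σ • f : FN M q) : LaurentSeries Qb) =
      coeffMap (σ : Qb →+* Qb) (f : LaurentSeries Qb) := rfl

omit hq [NeZero M] in
theorem galFN_smul_jEl (σ : GQ) (d : ℕ) (hd0 : d ≠ 0) (hd : d ∣ M * q) :
    galFN M q σ • jEl M q d hd0 hd = jEl M q d hd0 hd := by
  refine Subtype.ext ?_
  rw [coe_galFN_smul, coe_jEl, coeffMap_jv _ _ hd0, map_one]

omit [NeZero M] in
theorem galFN_smul_xN (σ : GQ) : galFN M q σ • xN M q = xN M q := by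
  rw [xN, smul_mul', jOne, jQ, galFN_smul_jEl, galFN_smul_jEl]

theorem exists_wAL_jEl (d : ℕ) (hd0 : d ≠ 0) (hd : d ∣ M * q) :
    ∃ (d' : ℕ) (hd0' : d' ≠ 0) (hd' : d' ∣ M * q),
      wAL M q hqM (jEl M q d hd0 hd) = jEl M q d' hd0' hd' := by
  by_cases hqd : q ∣ d
  · obtain ⟨d₁, rfl⟩ := hqd
    have hd1 : d₁ ∣ M := Nat.dvd_of_mul_dvd_mul_left hq.out.pos (by rwa [mul_comm M q] at hd)
    have hd10 : d₁ ≠ 0 := right_ne_zero_of_mul hd0
    exact ⟨d₁, hd10, hd1.mul_right q, Subtype.ext (coe_wAL_jv_mul M q hqM hd10 hd1 _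
      (by rw [coe_jEl, mul_comm]))⟩
  · have hdM : d ∣ M := ((hq.out.coprime_iff_not_dvd.mpr hqd).symm).dvd_of_dvd_mul_right hd
    exact ⟨d * q, mul_ne_zero hd0 hq.out.ne_zero, Nat.mul_dvd_mul_right hdM q,
      Subtype.ext (coe_wAL_jv M q hqM hd0 hdM _ (coe_jEl M q d _ _))⟩

/-- The involution commutes with the action on coefficients. -/
theorem wAL_galFN (σ : GQ) (f : FN M q) :
    wAL M q hqM (galFN M q σ • f) = galFN M q σ • wAL M q hqM f := by
  obtain ⟨a, ha⟩ := f
  have ha' : a ∈ IntermediateField.adjoin Qb (divisorExpansionsC Qb (M * q)) := by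
    show a ∈ modularFunctionFieldFullC Qb (M * q)
    rw [← FN_eq M q]; exact ha
  have hle : IntermediateField.adjoin Qb (divisorExpansionsC Qb (M * q)) ≤ FN M q :=
    (FN_eq M q).ge
  suffices h : ∀ hz : a ∈ FN M q, wAL M q hqM (galFN M q σ • (⟨a, hz⟩ : FN M q)) =
      galFN M q σ • wAL M q hqM ⟨a, hz⟩ from h _
  clear ha
  induction ha' using IntermediateField.adjoin_induction with
  | mem y hy =>
    obtain ⟨d, hd, hdM, rfl⟩ := hy
    have := hd
    intro hz
    rw [show (⟨_, hz⟩ : FN M q) = jEl M q d hd.out hdM from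
      Subtype.ext (jv_one_eq_qExpand d).symm]
    obtain ⟨d', hd0', hd', e⟩ := exists_wAL_jEl M q hqM d hd.out hdM
    rw [galFN_smul_jEl, e, galFN_smul_jEl]
  | algebraMap c =>
    intro hz
    rw [show (⟨_, hz⟩ : FN M q) = algebraMap Qb (FN M q) c from rfl, AlgEquiv.commutes,
      SemilinearAut.smul_algebraMap, AlgEquiv.commutes]
  | add y z hy hz ihy ihz =>
    intro h
    rw [show (⟨y + z, h⟩ : FN M q) = ⟨y, hle hy⟩ + ⟨z, hle hz⟩ from rfl, smul_add, map_add,
      map_add, ihy (hle hy), ihz (hle hz), smul_add]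
  | inv y hy ihy =>
    intro h
    rw [show (⟨y⁻¹, h⟩ : FN M q) = (⟨y, hle hy⟩ : FN M q)⁻¹ from rfl, smul_inv'', map_inv₀,
      map_inv₀, ihy (hle hy), smul_inv'']
  | mul y z hy hz ihy ihz =>
    intro h
    rw [show (⟨y * z, h⟩ : FN M q) = ⟨y, hle hy⟩ * ⟨z, hle hz⟩ from rfl, smul_mul', map_mul,
      map_mul, ihy (hle hy), ihz (hle hz), smul_mul']

omit [CharP k q] [IsAlgClosed k] hq [NeZero M] in
theorem exists_intFns_smul {σ : GQ} {φ : k ≃+* k} (h : EichlerShimura.InducesOn A π σ φ)
    (y : intFns A (FN M q)) :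
    ∃ y' : intFns A (FN M q), (y' : FN M q) = galFN M q σ • (y : FN M q) ∧
      intRed A π (FN M q) y' = coeffMap (φ : k →+* k) (intRed A π (FN M q) y) := by
  set w := liftSeries A (FN M q) y with hw
  have e1 : coeffMap A.subtype (coeffMap h.restr w) =
      ((galFN M q σ • (y : FN M q) : FN M q) : LaurentSeries Qb) := by
    rw [coe_galFN_smul, ← coeffMap_liftSeries A (FN M q) y, ← hw, coeffMap_coeffMap,
      coeffMap_coeffMap, h.subtype_comp]
  refine ⟨⟨_, (mem_intFns A (FN M q)).mpr ⟨_, e1⟩⟩, rfl, ?_⟩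
  rw [intRed_eq A π (FN M q) (y := coeffMap h.restr w) e1, coeffMap_coeffMap, h.comp_restr,
    intRed, RingHom.comp_apply, ← hw, coeffMap_coeffMap]

omit [IsAlgClosed k] in
theorem coeffMap_ne_zero {φ : k ≃+* k} {x : LaurentSeries k} (hx : x ≠ 0) :
    coeffMap (φ : k →+* k) x ≠ 0 := fun h => hx
  (EichlerShimura.coeffMap_injective φ.injective (h.trans (map_zero _).symm))

omit [CharP k q] [IsAlgClosed k] hq [NeZero M] in
theorem gauss_smul {σ : GQ} {φ : k ≃+* k} (h : EichlerShimura.InducesOn A π σ φ)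
    (u : gaussO A π (FN M q)) :
    ∃ h' : galFN M q σ • (u : FN M q) ∈ gaussO A π (FN M q),
      gaussRedHom A π (FN M q) ⟨_, h'⟩ =
        coeffMap (φ : k →+* k) (gaussRedHom A π (FN M q) u) := by
  obtain ⟨y, z, hz, hyz⟩ := (mem_gaussO A π (FN M q)).mp u.2
  obtain ⟨y', ey, ry⟩ := exists_intFns_smul M q h y
  obtain ⟨z', ez, rz⟩ := exists_intFns_smul M q h z
  have hz' : intRed A π (FN M q) z' ≠ 0 := rz.symm ▸ coeffMap_ne_zero hz
  have e : galFN M q σ • (u : FN M q) * (z' : FN M q) = (y' : FN M q) := by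
    rw [ez, ey, ← smul_mul', hyz]
  refine ⟨⟨y', z', hz', e⟩, ?_⟩
  have e1 : gaussRedHom A π (FN M q) ⟨galFN M q σ • (u : FN M q), ⟨y', z', hz', e⟩⟩ =
      intRed A π (FN M q) y' / intRed A π (FN M q) z' :=
    gaussRedHom_eq A π (FN M q) (f := ⟨_, ⟨y', z', hz', e⟩⟩) hz' e
  have e2 : gaussRedHom A π (FN M q) u = intRed A π (FN M q) y / intRed A π (FN M q) z :=
    gaussRedHom_eq A π (FN M q) (f := u) hz hyz
  exact e1.trans ((congrArg₂ (· / ·) ry rz).trans
    ((map_div₀ _ _ _).symm.trans (congrArg _ e2.symm)))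

omit [CharP k q] [IsAlgClosed k] hq [NeZero M] in
theorem redInf_smul (hres : ResidueAt A q π) {σ : GQ} {φ : k ≃+* k}
    (h : EichlerShimura.InducesOn A π σ φ)
    (u : (redInf M q hres).O) :
    ∃ h' : galFN M q σ • (u : FN M q) ∈ (redInf M q hres).O,
      (redInf M q hres).red ⟨_, h'⟩ = coeffMap (φ : k →+* k) ((redInf M q hres).red u) :=
  gauss_smul M q h u

/-- The action on the two reductions. -/
theorem redC_smul (hres : ResidueAt A q π) {σ : GQ} {φ : k ≃+* k}
    (h : EichlerShimura.InducesOn A π σ φ)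
    (i : Bool) (u : (redC M q hqM hres i).O) :
    ∃ h' : galFN M q σ • (u : FN M q) ∈ (redC M q hqM hres i).O,
      (redC M q hqM hres i).red ⟨_, h'⟩ =
        EichlerShimura.coeffRingAut M φ ((redC M q hqM hres i).red u) := by
  cases i
  · obtain ⟨h', hr⟩ := redInf_smul M q hres h u
    exact ⟨h', Subtype.ext hr⟩
  · obtain ⟨h', hr⟩ := redInf_smul M q hres h ⟨wAL M q hqM u, u.2⟩
    have e := (wAL_galFN M q hqM σ (u : FN M q)).symm
    refine ⟨show wAL M q hqM (galFN M q σ • (u : FN M q)) ∈ (redInf M q hres).O from e ▸ h',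
      Subtype.ext ?_⟩
    exact (congrArg (redInf M q hres).red (Subtype.ext e.symm)).trans hr

/-- **A decomposition-group element acts compatibly with the reduction.** -/
def modelSemiRed (hres : ResidueAt A q π)
    (hgen : genusFF Qb (modularFunctionFieldBar M) ≤ genusFF k (CK M k))
    {σ : GQ} {φ : k ≃+* k} (h : EichlerShimura.InducesOn A π σ φ) :
    SemiRed (modelTwoRed M q hqM hres hgen) where
  aut := galFN M q σ
  res := φ
  resF := EichlerShimura.coeffRingAut M φ
  resF_algebraMap a := Subtype.ext (coeffMap_algebraMap (φ : k →+* k) a)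
  base_mem a ha := (h ⟨a, ha⟩).1
  pi_base a := (h a).2
  mem i u hu := (redC_smul M q hqM hres h i ⟨u, hu⟩).1
  red_smul i u := (redC_smul M q hqM hres h i u).2
  x_fix := galFN_smul_xN M q σ

theorem modelSemiRed_resAut (hres : ResidueAt A q π)
    (hgen : genusFF Qb (modularFunctionFieldBar M) ≤ genusFF k (CK M k))
    {σ : GQ} {φ : k ≃+* k} (h : EichlerShimura.InducesOn A π σ φ) :
    (modelSemiRed M q hqM hres hgen h).resAut = EichlerShimura.coeffSemilinear M φ := rfl

theorem modelSemiRed_isInertial (hres : ResidueAt A q π)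
    (hgen : genusFF Qb (modularFunctionFieldBar M) ≤ genusFF k (CK M k))
    {σ : GQ} (h : EichlerShimura.InducesOn A π σ (RingEquiv.refl k)) :
    (modelSemiRed M q hqM hres hgen h).IsInertial := fun w => Subtype.ext (by
  show coeffMap ((RingEquiv.refl k : k ≃+* k) : k →+* k) (w : LaurentSeries k) = _
  ext n; simp)

/-! ### The residue field of a place above `q` -/

/-- The residue map at a place above `q` satisfies `ResidueAt`. -/
theorem residueAt (hA : A.LiesOverPrime q) :
    ResidueAt A q (IsLocalRing.residue A) where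
  surj := IsLocalRing.residue_surjective
  charP := Red.charP_residueField A hA
  arch a b ha hb := exists_pow_eq_mul hA
    (fun z => (AlgebraicClosure.isAlgebraic ℚ).isAlgebraic z) a b
    ((A.valuation_lt_one_iff a).mp ((IsLocalRing.residue_eq_zero_iff a).mp ha)) hb

end Fermat.Agent.TwoComponent
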