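import Fermat.Agent.TwoComponent.RedClass

/-!
# Functions rational over an unramified field: reductions

`RatRed`: a subfield of `F` whose elements have valuations in `ℤ` (normalised by `p`) on both
components and whose constants cover the residue field. If a space of functions is spanned by
rational ones, every pair of reductions (for integral weights) has a rational lift.
-/

noncomputable section

open AlgebraicCurve Fermat.Agent.Red

namespace Fermat.Agent.TwoComponent

variable {K k F Fk : Type*} [Field K] [Field F] [Algebra K F] [Field k] [Field Fk] [Algebra k Fk]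
variable {A : ValuationSubring K} {π : A →+* k}
variable {S : Type*} [Fintype S]

/-- A rational structure over an absolutely unramified field. -/
structure RatRed (T : TwoRed A π F Fk S) where
  /-- the rational functions -/
  F0 : Subfield F
  /-- the residue characteristic -/
  p : ℕ
  hp : p.Prime
  hpk : (p : k) = 0
  hp0 : (p : K) ≠ 0
  scale : ∀ (i : Bool) (f : F), f ∈ F0 → f ≠ 0 →
    ∃ (a : ℤ) (u : (T.R i).O), (T.R i).red u ≠ 0 ∧ f = algebraMap K F ((p : K) ^ a) * (u : F)
  unit_lift : ∀ z : k, ∃ a : A, π a = z ∧ algebraMap K F (a : K) ∈ F0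
  x_mem : T.x ∈ F0

namespace RatRed

variable {T : TwoRed A π F Fk S} (Q : RatRed T)

/-- A space spanned by its rational elements. -/
def Spanned (V : Submodule K F) : Prop := V ≤ Submodule.span K {u | u ∈ V ∧ u ∈ Q.F0}

theorem pi_p : π (Q.p : A) = 0 := by rw [map_natCast, Q.hpk]

theorem algebraMap_zpow_mem (a : ℤ) : algebraMap K F ((Q.p : K) ^ a) ∈ Q.F0 := by
  rw [map_zpow₀, map_natCast]
  exact zpow_mem (natCast_mem Q.F0 Q.p) a

/-- As the valuations of rational functions are integers, a rational one with zero reduction is `p`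
times an integral rational one. -/
theorem one_le_of_red_eq_zero {i : Bool} {v : (T.R i).O} (hv : (T.R i).red v = 0)
    (hv0 : (v : F) ∈ Q.F0) :
    ∃ v' : (T.R i).O, (v' : F) ∈ Q.F0 ∧ v = (T.R i).ι (Q.p : A) * v' := by
  rcases eq_or_ne (v : F) 0 with h0 | h0
  · exact ⟨0, zero_mem _, by rw [mul_zero]; exact Subtype.ext h0⟩
  obtain ⟨a, u, hu, hvu⟩ := Q.scale i _ hv0 h0
  have hmemu : (u : F) ∈ Q.F0 := by
    have : (u : F) = (algebraMap K F ((Q.p : K) ^ a))⁻¹ * (v : F) := by
      rw [hvu, ← mul_assoc, inv_mul_cancel₀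
        ((map_ne_zero _).mpr (zpow_ne_zero _ Q.hp0)), one_mul]
    rw [this]
    exact mul_mem (inv_mem (Q.algebraMap_zpow_mem a)) hv0
  obtain ⟨n, rfl | rfl⟩ := a.eq_nat_or_neg
  · rcases n with _ | n
    · exact absurd
        (by rw [← hv]; exact congrArg (T.R i).red (Subtype.ext (by simpa using hvu.symm)))
        hu
    refine ⟨(T.R i).ι ((Q.p : A) ^ n) * u, ?_, Subtype.ext ?_⟩
    · rw [Subring.coe_mul, RedBase.coe_ι, SubmonoidClass.coe_pow, show ((Q.p : A) : K) = (Q.p : K)
        from map_natCast A.subtype _, ← zpow_natCast]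
      exact mul_mem (Q.algebraMap_zpow_mem _) hmemu
    · rw [hvu, Subring.coe_mul, Subring.coe_mul, RedBase.coe_ι, RedBase.coe_ι,
        SubmonoidClass.coe_pow, show ((Q.p : A) : K) = (Q.p : K) from map_natCast A.subtype _,
        zpow_natCast, ← mul_assoc, ← map_mul, pow_succ']
  · exfalso
    have he : u = (T.R i).ι ((Q.p : A) ^ n) * v := Subtype.ext (by
      rw [Subring.coe_mul, RedBase.coe_ι, SubmonoidClass.coe_pow,
        show ((Q.p : A) : K) = (Q.p : K) from map_natCast A.subtype _, hvu, ← mul_assoc, ← map_mul,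
        zpow_neg, zpow_natCast, mul_inv_cancel₀ (pow_ne_zero _ Q.hp0), map_one, one_mul])
    exact hu (by rw [he, map_mul, hv, mul_zero])

/-- The pairs with rational lifts. -/
def ratImage (b : Bool → ℤ) (V : Submodule K F) : Submodule k (Bool → Fk) where
  carrier := {w | ∃ u ∈ V, u ∈ Q.F0 ∧ ∀ i, ∃ v : (T.R i).O,
    algebraMap K F ((Q.p : K) ^ b i) * (v : F) = u ∧ (T.R i).red v = w i}
  zero_mem' := ⟨0, V.zero_mem, zero_mem _, fun i => ⟨0, by simp, map_zero _⟩⟩
  add_mem' := by
    rintro w w' ⟨u, hu, hu0, h⟩ ⟨u', hu', hu0', h'⟩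
    refine ⟨u + u', V.add_mem hu hu', add_mem hu0 hu0', fun i => ?_⟩
    obtain ⟨v, hv, hr⟩ := h i
    obtain ⟨v', hv', hr'⟩ := h' i
    exact ⟨v + v', by rw [Subring.coe_add, mul_add, hv, hv'], by rw [map_add, hr, hr']; rfl⟩
  smul_mem' := by
    rintro z w ⟨u, hu, hu0, h⟩
    obtain ⟨a, rfl, ha⟩ := Q.unit_lift z
    refine ⟨(a : K) • u, V.smul_mem _ hu, by rw [Algebra.smul_def]; exact mul_mem ha hu0,
      fun i => ?_⟩
    obtain ⟨v, hv, hr⟩ := h i
    refine ⟨(T.R i).ι a * v, ?_, ?_⟩
    · rw [Subring.coe_mul, RedBase.coe_ι, mul_left_comm, hv, Algebra.smul_def]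
    · rw [map_mul, RedBase.red_ι, hr, Pi.smul_apply, Algebra.smul_def]

theorem ratImage_le (b : Bool → ℤ) (V : Submodule K F) :
    Q.ratImage b V ≤ pairImage T.R (fun i => (Q.p : K) ^ b i) V :=
  fun _ ⟨u, hu, _, h⟩ => ⟨u, hu, h⟩

theorem exists_pow_mul_mem (b : Bool → ℤ) {u : F} (hu : u ∈ Q.F0) :
    ∃ N : ℕ, ∀ i, ∃ v : (T.R i).O,
      algebraMap K F ((Q.p : K) ^ b i) * (v : F) = algebraMap K F ((Q.p : K) ^ N) * u := by
  rcases eq_or_ne u 0 with rfl | hu0
  · exact ⟨0, fun i => ⟨0, by simp⟩⟩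
  choose a v hv hva using fun i => Q.scale i u hu hu0
  refine ⟨(b false - a false).toNat + (b true - a true).toNat, fun i => ?_⟩
  set N := (b false - a false).toNat + (b true - a true).toNat with hN
  obtain ⟨n, hn⟩ : ∃ n : ℕ, (N : ℤ) + a i - b i = n := ⟨((N : ℤ) + a i - b i).toNat, by
    cases i <;> omega⟩
  refine ⟨(T.R i).ι ((Q.p : A) ^ n) * v i, ?_⟩
  conv_rhs => rw [hva i]
  rw [Subring.coe_mul, RedBase.coe_ι, SubmonoidClass.coe_pow,
    show ((Q.p : A) : K) = (Q.p : K) from map_natCast A.subtype _, ← mul_assoc, ← mul_assoc,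
    ← map_mul, ← map_mul, ← zpow_natCast, ← zpow_natCast (Q.p : K) N, ← zpow_add₀ Q.hp0,
    ← zpow_add₀ Q.hp0]
  congr 3
  omega

/-- **Rational lifts.** -/
theorem ratImage_eq (b : Bool → ℤ) {V : Submodule K F} [FiniteDimensional K V]
    (hV : Q.Spanned V) :
    Q.ratImage b V = pairImage T.R (fun i => (Q.p : K) ^ b i) V := by
  classical
  set c : Bool → K := fun i => (Q.p : K) ^ b i with hc
  have hc0 : ∀ i, c i ≠ 0 := fun i => zpow_ne_zero _ Q.hp0
  have := finiteDimensional_pairImage (R := T.R) hc0 V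
  have : FiniteDimensional k (Q.ratImage b V) :=
    Submodule.finiteDimensional_of_le (Q.ratImage_le b V)
  refine Submodule.eq_of_le_of_finrank_le (Q.ratImage_le b V) ?_
  rw [T.finrank_pairImage hc0]
  by_contra hlt
  push Not at hlt
  let b0 := Module.finBasis k (Q.ratImage b V)
  choose r hr hr0 hrv using fun j => (b0 j).2
  choose rv hrve hrvr using hrv
  let U : Submodule K F := Submodule.span K (Set.range r)
  have hUV : ¬ V ≤ U := by
    intro hle
    have : FiniteDimensional K U := FiniteDimensional.span_of_finite K (Set.finite_range r)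
    have h1 := Submodule.finrank_mono hle
    have h2 : Module.finrank K U ≤ Fintype.card (Fin (Module.finrank k (Q.ratImage b V))) :=
      finrank_range_le_card r
    rw [Fintype.card_fin] at h2
    omega
  obtain ⟨u, ⟨huV, hu0⟩, huU⟩ : ∃ u ∈ {u | u ∈ V ∧ u ∈ Q.F0}, u ∉ U := by
    by_contra hcon
    push Not at hcon
    exact hUV (hV.trans (Submodule.span_le.mpr hcon))
  obtain ⟨φ, hφu, hφU⟩ := Submodule.exists_dual_map_eq_bot_of_notMem huU inferInstance
  have hφU' : ∀ z ∈ U, φ z = 0 := fun z hz => by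
    have : φ z ∈ U.map φ := Submodule.mem_map_of_mem hz
    rwa [hφU, Submodule.mem_bot] at this
  -- a bound for `φ` on integral elements
  let bw := Module.finBasis k (pairImage T.R c V)
  obtain ⟨w, wv, hw, hwe, hwr⟩ := exists_lifts (R := T.R) (c := c) (V := V)
    (w := fun j => (bw j : Bool → Fk)) fun j => (bw j).2
  obtain ⟨γ, hγ0, hγA, hγ⟩ := exists_scalar_mem (A := A) Finset.univ (fun j => φ (w j))
  have hbound : ∀ y ∈ V, (∀ i, ∃ v : (T.R i).O, algebraMap K F (c i) * (v : F) = y) →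
      γ * φ y ∈ A := by
    intro y hy hyi
    obtain ⟨β, hβ⟩ := T.exists_expansion hc0 hwe hwr
      (bw.linearIndependent.map' (Submodule.subtype _) (Submodule.ker_subtype _)) hw
      (Fintype.card_fin _) hy
    have hβA : ∀ j, β j ∈ A := coeff_mem hwe hwr
      (bw.linearIndependent.map' (Submodule.subtype _) (Submodule.ker_subtype _)) hc0 β
      fun i => by obtain ⟨v, hv⟩ := hyi i; exact ⟨v, by rw [hv, hβ]⟩
    rw [hβ, map_sum, Finset.mul_sum]
    refine sum_mem fun j _ => ?_
    rw [← Algebra.smul_def, map_smul, smul_eq_mul, mul_left_comm]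
    exact mul_mem (hβA j) (hγ j (Finset.mem_univ _))
  -- `p`-adic approximation by `U`
  have hiter : ∀ n : ℕ, ∀ y ∈ V, y ∈ Q.F0 →
      (∀ i, ∃ v : (T.R i).O, algebraMap K F (c i) * (v : F) = y) →
      ∃ y' ∈ V, y' ∈ Q.F0 ∧ (∀ i, ∃ v : (T.R i).O, algebraMap K F (c i) * (v : F) = y') ∧
        φ y = (Q.p : K) ^ n * φ y' := by
    intro n
    induction n with
    | zero => exact fun y hy hy0 hyi => ⟨y, hy, hy0, hyi, by rw [pow_zero, one_mul]⟩
    | succ n ih =>
      intro y hy hy0 hyi
      obtain ⟨y', hy', hy0', hyi', he⟩ := ih y hy hy0 hyi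
      choose v hv using hyi'
      have hmem : (fun i => (T.R i).red (v i)) ∈ Q.ratImage b V :=
        ⟨y', hy', hy0', fun i => ⟨v i, hv i, rfl⟩⟩
      let z := b0.repr ⟨_, hmem⟩
      choose α hα hα0 using fun j => Q.unit_lift (z j)
      set y₁ := y' - ∑ j, algebraMap K F (α j : K) * r j with hy1
      have hy1V : y₁ ∈ V := V.sub_mem hy' (V.sum_mem fun j _ => by
        rw [← Algebra.smul_def]; exact V.smul_mem _ (hr j))
      have hy10 : y₁ ∈ Q.F0 := sub_mem hy0' (sum_mem fun j _ => mul_mem (hα0 j) (hr0 j))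
      have hdiv : ∀ i, ∃ v' : (T.R i).O,
          algebraMap K F (c i) * (v' : F) = algebraMap K F ((Q.p : K))⁻¹ * y₁ := by
        intro i
        set v₁ := v i - ∑ j, (T.R i).ι (α j) * rv j i with hv1
        have hv1e : algebraMap K F (c i) * (v₁ : F) = y₁ := by
          rw [hv1, hy1, AddSubgroupClass.coe_sub, mul_sub, hv, AddSubmonoidClass.coe_finsetSum,
            Finset.mul_sum]
          congr 1
          refine Finset.sum_congr rfl fun j _ => ?_
          rw [Subring.coe_mul, RedBase.coe_ι, mul_left_comm, hrve]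
        have hred : (T.R i).red v₁ = 0 := by
          have hs := congrArg (fun e : Q.ratImage b V => (e : Bool → Fk) i) (b0.sum_repr ⟨_, hmem⟩)
          simp only [Submodule.coe_sum, Submodule.coe_smul, Finset.sum_apply, Pi.smul_apply] at hs
          simp only [Algebra.smul_def] at hs
          rw [hv1, map_sub, map_sum, sub_eq_zero, ← hs]
          refine Finset.sum_congr rfl fun j _ => ?_
          rw [map_mul, RedBase.red_ι, hrvr, hα]
        have hv10 : (v₁ : F) ∈ Q.F0 := by
          have : (v₁ : F) = (algebraMap K F (c i))⁻¹ * y₁ := by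
            rw [← hv1e, ← mul_assoc, inv_mul_cancel₀ ((map_ne_zero _).mpr (hc0 i)), one_mul]
          rw [this]
          exact mul_mem (inv_mem (Q.algebraMap_zpow_mem _)) hy10
        obtain ⟨v', -, hv'⟩ := Q.one_le_of_red_eq_zero hred hv10
        refine ⟨v', ?_⟩
        rw [← hv1e, hv', Subring.coe_mul, RedBase.coe_ι,
          show ((Q.p : A) : K) = (Q.p : K) from map_natCast A.subtype _, map_inv₀]
        have := (map_ne_zero (algebraMap K F)).mpr Q.hp0
        field_simp
      refine ⟨algebraMap K F ((Q.p : K))⁻¹ * y₁,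
        by rw [← Algebra.smul_def]; exact V.smul_mem _ hy1V,
        mul_mem (by rw [map_inv₀, map_natCast]; exact inv_mem (natCast_mem Q.F0 Q.p)) hy10,
        hdiv, ?_⟩
      have h0 : φ (∑ j, algebraMap K F (α j : K) * r j) = 0 := hφU' _
        (U.sum_mem fun j _ => by
          rw [← Algebra.smul_def]; exact U.smul_mem _ (Submodule.subset_span ⟨j, rfl⟩))
      rw [← Algebra.smul_def, map_smul, hy1, map_sub, h0, sub_zero, he, smul_eq_mul, pow_succ]
      field_simp [Q.hp0]
  obtain ⟨N, hN⟩ := Q.exists_pow_mul_mem b hu0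
  set u' := algebraMap K F ((Q.p : K) ^ N) * u with hu'
  have hu'V : u' ∈ V := by rw [hu', ← Algebra.smul_def]; exact V.smul_mem _ huV
  have hu'0 : u' ∈ Q.F0 := by
    rw [hu', ← zpow_natCast]; exact mul_mem (Q.algebraMap_zpow_mem _) hu0
  have hφu' : φ u' = (Q.p : K) ^ N * φ u := by rw [hu', ← Algebra.smul_def, map_smul, smul_eq_mul]
  -- choose `φ u = 1` after scaling
  have hγu : γ * φ u' ≠ 0 := by
    rw [hφu']; exact mul_ne_zero hγ0 (mul_ne_zero (pow_ne_zero _ Q.hp0) hφu)
  obtain ⟨y0, hy0V, -, hy0i, hy0e⟩ := hiter 0 u' hu'V hu'0 hN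
  have hgA : γ * φ u' ∈ A := hbound u' hu'V hN
  obtain ⟨n, cn, hn⟩ := T.arch (Q.p : A) (⟨_, hgA⟩ * (Q.p : A)) Q.pi_p
    (mul_ne_zero (fun h => hγu (congrArg Subtype.val h))
      (fun h => Q.hp0 (by simpa using congrArg Subtype.val h)))
  obtain ⟨y', hy'V, -, hy'i, hye⟩ := hiter n u' hu'V hu'0 hN
  have hy'A := hbound y' hy'V hy'i
  have hn' : (Q.p : K) ^ n = (cn : K) * (γ * φ u' * (Q.p : K)) := by
    have := congrArg Subtype.val hn
    simpa using this
  have hone : (Q.p : K)⁻¹ ∈ A := by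
    have h : (Q.p : K)⁻¹ = γ * φ y' * (cn : K) := by
      have : γ * φ u' = (cn : K) * (γ * φ u' * (Q.p : K)) * (γ * φ y') := by
        rw [← hn', hye]; ring
      field_simp [Q.hp0]
      exact mul_left_cancel₀ hγu (by linear_combination this)
    rw [h]
    exact mul_mem hy'A cn.2
  exact pi_ne_zero_of_mul_eq_one (π := π) (a := (Q.p : A)) hone
    (by rw [show ((Q.p : A) : K) = (Q.p : K) from map_natCast A.subtype _, mul_inv_cancel₀ Q.hp0])
    Q.pi_p

end RatRed

end Fermat.Agent.TwoComponent
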