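import Fermat.Agent.TwoComponent.CloseRoot
import Fermat.Agent.TwoComponent.Rational

/-!
# Roots in valuation rings and their residue fields

A valuation subring is closed under roots, and for an algebraically closed field its residue field
has roots.
-/

noncomputable section

open AlgebraicCurve Fermat.Agent.Red

namespace Fermat.Agent.TwoComponent

variable {K k F Fk : Type*} [Field K] [Field F] [Algebra K F] [Field k] [Field Fk] [Algebra k Fk]
variable {A : ValuationSubring K} {π : A →+* k}
variable {S : Type*} [Fintype S]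

/-- A valuation subring is closed under roots. -/
theorem mem_of_pow_mem {z : K} {n : ℕ} (hn : 0 < n) (h : z ^ n ∈ A) : z ∈ A := by
  rcases A.mem_or_inv_mem z with h' | h'
  · exact h'
  rcases eq_or_ne z 0 with rfl | hz
  · exact A.zero_mem
  obtain ⟨j, rfl⟩ : ∃ j, n = j + 1 := ⟨n - 1, by omega⟩
  have he : z = z ^ (j + 1) * z⁻¹ ^ j := by
    rw [inv_pow, pow_succ']
    field_simp
  rw [he]
  exact mul_mem h (pow_mem h' j)

/-- The residue field has roots. -/
theorem exists_pow_eq_res [IsAlgClosed K] (hπ : Function.Surjective π) {n : ℕ} (hn : 0 < n)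
    (z : k) : ∃ y : k, y ^ n = z := by
  obtain ⟨a, rfl⟩ := hπ z
  obtain ⟨r, hr⟩ := IsAlgClosed.exists_pow_nat_eq (a : K) hn
  have hrA : r ∈ A := mem_of_pow_mem hn (by rw [hr]; exact a.2)
  exact ⟨π ⟨r, hrA⟩, by rw [← map_pow]; exact congrArg π (Subtype.ext hr)⟩

end Fermat.Agent.TwoComponent
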