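import Fermat.Agent.TwoComponent.NormFormula

/-!
# Classes killed by both degeneracy maps

For a torsion class of slope zero killed by both pushforwards to the curves of good reduction, the
two reduced classes are exchanged by Frobenius up to sign; hence `τ = Frobenius²` fixes them, and
the toric relation gives the vanishing used for the new part.
-/

noncomputable section

open AlgebraicCurve Fermat.Agent.Red

namespace Fermat.Agent.TwoComponent

variable {K k F Fk : Type*} [Field K] [Field F] [Algebra K F] [Field k] [Field Fk] [Algebra k Fk]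
variable {A : ValuationSubring K} {π : A →+* k}
variable {S : Type*} [Fintype S] {T : TwoRed A π F Fk S}

namespace Degen

variable {FM : Type*} [Field FM] [Algebra K FM] (G : Degen T FM)

theorem mapDomain_ψ_mem_principal {E : Divisor k Fk}
    (hE : E ∈ Divisor.principal (K := k) (F := Fk)) :
    Finsupp.mapDomain G.ψ E ∈ Divisor.principal (K := k) (F := Fk) := by
  obtain ⟨b, hb0, hb⟩ := hE
  obtain ⟨c, hc⟩ := G.pow_mem b
  have hc0 : c ≠ 0 := fun h => pow_ne_zero G.q hb0 (by rw [← hc, h, map_zero])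
  refine ⟨c, hc0, fun Q => ?_⟩
  rw [Finsupp.mapDomain_equiv_apply, hb]
  have h := congrArg (G.ψ.symm Q).ord hc
  rw [G.ord_Fr, Equiv.apply_symm_apply, ord_pow] at h
  have hq : (G.q : ℤ) ≠ 0 := by have := G.q_pos; omega
  exact (mul_left_cancel₀ hq h).symm

variable (hconst : ∀ h : FM, (∀ v : Place K FM, 0 ≤ v.ord h) → ∃ c : K, h = algebraMap K FM c)
variable (hint : G.φ.toRingHom.IsIntegral) (hfin : FiniteAlong K G.φ)
variable (hN : NormFormulaAlong K G.φ hfin)
include hconst hN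

/-- If the pushforward of `D` is principal, the two reduced divisors `E` are related by the place
map of the degeneracy map, up to a principal divisor. -/
theorem E_rel {m : ℕ} (hm : 0 < m) {D : Divisor K F} (d : T.NormalData m D)
    (hD : Divisor.pushforwardAlong G.φ hint D ∈ Divisor.principal (K := K) (F := FM)) :
    d.E G.side + Finsupp.mapDomain G.ψ (d.E (!G.side)) ∈
      Divisor.principal (K := k) (F := Fk) := by
  classical
  let := algebraAlong G.φ
  have := isScalarTower_along G.φ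
  have := isIntegral_along G.φ hint
  have : Module.Finite FM F := hfin
  obtain ⟨h, hh0, hh⟩ := hD
  obtain ⟨hNne, hred⟩ := redOrd_norm G d.f_ne
  have hord : ∀ v : Place K FM, v.ord (Algebra.norm FM d.f) = m * v.ord h := fun v => by
    rw [← hh, ← (hN : Divisor.PushforwardNormFormula K FM F) d.f d.f_ne (m • D)
      (fun P => by rw [Finsupp.smul_apply, nsmul_eq_mul, d.div_f]) v]
    rw [show Divisor.pushforwardAlong G.φ hint D = Divisor.pushforward FM D from rfl, map_nsmul,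
      Finsupp.smul_apply, nsmul_eq_mul]
  obtain ⟨a, ha⟩ := hconst (Algebra.norm FM d.f / h ^ m) fun v => by
    rw [ord_div v hNne (pow_ne_zero _ hh0), ord_pow, hord, sub_self]
  have ha0 : a ≠ 0 := by
    rintro rfl
    rw [map_zero, div_eq_zero_iff] at ha
    exact ha.elim hNne (pow_ne_zero _ hh0)
  rw [div_eq_iff (pow_ne_zero _ hh0)] at ha
  obtain ⟨c, u, hu, hcu⟩ := G.RM.scale h hh0
  refine ⟨G.RM.red u, hu, fun Q => mul_left_cancel₀ (show (m : ℤ) ≠ 0 by omega) ?_⟩
  have hside : ∀ i Q', redOrd (T.R i) d.f Q' = (m : ℤ) * d.E i Q' := fun i Q' => by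
    rw [d.mul_E hm, redOrd_eq (T.R i) (c := (d.c i ^ m)⁻¹) (u := d.e i) d.f_ne (d.e_ne i)
      (by rw [d.e_eq, map_inv₀, map_pow, ← mul_assoc,
        inv_mul_cancel₀ (pow_ne_zero _ ((map_ne_zero _).mpr (d.c_ne i))), one_mul])]
  rw [Finsupp.add_apply, Finsupp.mapDomain_equiv_apply, mul_add, ← hside, ← hside, ← hred, ha,
    redOrd_mul _ ((map_ne_zero _).mpr ha0) (pow_ne_zero _ hh0), redOrd_algebraMap _ ha0,
    redOrd_pow _ hh0, redOrd_eq G.RM hh0 hu hcu, zero_add]

omit hconst in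
theorem pushforward_principal_congr {D D' : Divisor.degZero (K := K) (F := F)}
    (h : Pic0.mk D = Pic0.mk D')
    (hD : Divisor.pushforwardAlong G.φ hint (D : Divisor K F) ∈
      Divisor.principal (K := K) (F := FM)) :
    Divisor.pushforwardAlong G.φ hint (D' : Divisor K F) ∈
      Divisor.principal (K := K) (F := FM) := by
  have hp : (D' : Divisor K F) - (D : Divisor K F) ∈ Divisor.principal (K := K) (F := F) := by
    have := (QuotientAddGroup.eq (s := (Divisor.principal (K := K) (F := F)).addSubgroupOf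
      (Divisor.degZero (K := K) (F := F)))).mp h
    rw [AddSubgroup.mem_addSubgroupOf] at this
    simpa [sub_eq_neg_add] using this
  have h2 : Divisor.pushforwardAlong G.φ hint ((D' : Divisor K F) - (D : Divisor K F)) ∈
      Divisor.principal (K := K) (F := FM) :=
        Divisor.isPrincipal_pushforwardAlong G.φ hint hfin hN hp
  have := add_mem h2 hD
  rwa [map_sub, sub_add_cancel] at this

end Degen

namespace SemiRed

variable (τ : SemiRed T)

/-- For a class `z` of slope zero killed by both pushforwards, the reductions of `τ z - z` vanish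
when `τ` acts on places as the composites of the two Frobenius maps. -/
theorem redClass_smul_sub_eq_zero [IsAlgClosed K] (hτ : τ.FixesNodes) {m : ℕ} (hm : 0 < m)
    {F₀ F₁ : Type*} [Field F₀] [Algebra K F₀] [Field F₁] [Algebra K F₁]
    (G₀ : Degen T F₀) (G₁ : Degen T F₁) (hs₀ : G₀.side = false) (hs₁ : G₁.side = true)
    (hψ₀ : ∀ P : Place k Fk, G₀.ψ (G₁.ψ P) = τ.resAut • P)
    (hψ₁ : ∀ P : Place k Fk, G₁.ψ (G₀.ψ P) = τ.resAut • P)
    (hc₀ : ∀ h : F₀, (∀ v : Place K F₀, 0 ≤ v.ord h) → ∃ c : K, h = algebraMap K F₀ c)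
    (hc₁ : ∀ h : F₁, (∀ v : Place K F₁, 0 ≤ v.ord h) → ∃ c : K, h = algebraMap K F₁ c)
    (hi₀ : G₀.φ.toRingHom.IsIntegral) (hi₁ : G₁.φ.toRingHom.IsIntegral)
    (hf₀ : FiniteAlong K G₀.φ) (hf₁ : FiniteAlong K G₁.φ)
    (hn₀ : NormFormulaAlong K G₀.φ hf₀) (hn₁ : NormFormulaAlong K G₁.φ hf₁)
    {z : Pic0 K F} (hz : T.InT0 m z) {D : Divisor.degZero (K := K) (F := F)} (hD : Pic0.mk D = z)
    (hp₀ : Divisor.pushforwardAlong G₀.φ hi₀ (D : Divisor K F) ∈
      Divisor.principal (K := K) (F := F₀))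
    (hp₁ : Divisor.pushforwardAlong G₁.φ hi₁ (D : Divisor K F) ∈
      Divisor.principal (K := K) (F := F₁))
    (hmem : τ.aut • z - z ∈ T.T0 m) (i : Bool) :
    T.redClass hm i ⟨τ.aut • z - z, hmem⟩ = 0 := by
  obtain ⟨D', d, hD'⟩ := TwoRed.InT0.exists_data hm hz
  have hrel₀ := G₀.E_rel hc₀ hi₀ hf₀ hn₀ hm d
    (G₀.pushforward_principal_congr hi₀ hf₀ hn₀ (hD.trans hD'.symm) hp₀)
  have hrel₁ := G₁.E_rel hc₁ hi₁ hf₁ hn₁ hm d
    (G₁.pushforward_principal_congr hi₁ hf₁ hn₁ (hD.trans hD'.symm) hp₁)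
  rw [hs₀, Bool.not_false] at hrel₀
  rw [hs₁, Bool.not_true] at hrel₁
  have hfix : ∀ i, τ.resAut • d.E i - d.E i ∈ Divisor.principal (K := k) (F := Fk) := by
    have hcomp : ∀ (ψ ψ' : Place k Fk ≃ Place k Fk) (E : Divisor k Fk),
        (∀ P, ψ (ψ' P) = τ.resAut • P) →
        Finsupp.mapDomain ψ (Finsupp.mapDomain ψ' E) = τ.resAut • E := fun ψ ψ' E h => by
      rw [← Finsupp.mapDomain_comp, SemilinearAut.divisor_smul_def]
      exact Finsupp.mapDomain_congr fun P _ => h P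
    intro i
    cases i
    · have h := sub_mem (G₀.mapDomain_ψ_mem_principal hrel₁) hrel₀
      rw [Finsupp.mapDomain_add, hcomp _ _ _ hψ₀] at h
      convert h using 1
      abel
    · have h := sub_mem (G₁.mapDomain_ψ_mem_principal hrel₀) hrel₁
      rw [Finsupp.mapDomain_add, hcomp _ _ _ hψ₁] at h
      convert h using 1
      abel
  let z' : T.T0 m := ⟨z, hz⟩
  have he : (⟨τ.aut • z - z, hmem⟩ : T.T0 m) =
      ⟨τ.aut • (z' : Pic0 K F), τ.smul_mem_T0 hτ.permutes z'.2⟩ - z' := rfl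
  rw [he, map_sub, τ.redClass_smul hm hτ.permutes,
    TwoRed.redClass_eq hm i (y := z') d hD', TwoRed.NormalData.eClass,
    SemilinearAut.pic0_smul_mk]
  refine Eq.trans (map_sub (QuotientAddGroup.mk'
    ((Divisor.principal (K := k) (F := Fk)).addSubgroupOf
    (Divisor.degZero (K := k) (F := Fk)))) _ _).symm ?_
  refine (QuotientAddGroup.eq_zero_iff _).mpr (AddSubgroup.mem_addSubgroupOf.mpr ?_)
  exact hfix i

/-- **The new-part vanishing.** For `τ` acting on places as the composites of the two Frobenius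
maps and a class `z` of slope zero killed by both pushforwards, `τ (τ z - z) = a (τ z - z)`. -/
theorem smul_eq_nsmul_of_pushforward_eq_zero [IsAlgClosed K] (hτ : τ.FixesNodes) {m : ℕ}
    (hm : 0 < m) (hmk : (m : k) ≠ 0) (hnt : ∃ t : A, t ≠ 0 ∧ π t = 0) {a : ℕ}
    (hres : ∀ z : k, z ^ m = 1 → τ.res z = z ^ a)
    {F₀ F₁ : Type*} [Field F₀] [Algebra K F₀] [Field F₁] [Algebra K F₁]
    (G₀ : Degen T F₀) (G₁ : Degen T F₁) (hs₀ : G₀.side = false) (hs₁ : G₁.side = true)
    (hψ₀ : ∀ P : Place k Fk, G₀.ψ (G₁.ψ P) = τ.resAut • P)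
    (hψ₁ : ∀ P : Place k Fk, G₁.ψ (G₀.ψ P) = τ.resAut • P)
    (hc₀ : ∀ h : F₀, (∀ v : Place K F₀, 0 ≤ v.ord h) → ∃ c : K, h = algebraMap K F₀ c)
    (hc₁ : ∀ h : F₁, (∀ v : Place K F₁, 0 ≤ v.ord h) → ∃ c : K, h = algebraMap K F₁ c)
    (hi₀ : G₀.φ.toRingHom.IsIntegral) (hi₁ : G₁.φ.toRingHom.IsIntegral)
    (hf₀ : FiniteAlong K G₀.φ) (hf₁ : FiniteAlong K G₁.φ)
    (hn₀ : NormFormulaAlong K G₀.φ hf₀) (hn₁ : NormFormulaAlong K G₁.φ hf₁)
    {z : Pic0 K F} (hz : T.InT0 m z) {D : Divisor.degZero (K := K) (F := F)} (hD : Pic0.mk D = z)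
    (hp₀ : Divisor.pushforwardAlong G₀.φ hi₀ (D : Divisor K F) ∈
      Divisor.principal (K := K) (F := F₀))
    (hp₁ : Divisor.pushforwardAlong G₁.φ hi₁ (D : Divisor K F) ∈
      Divisor.principal (K := K) (F := F₁)) :
    τ.aut • (τ.aut • z - z) = a • (τ.aut • z - z) := by
  have hmem : τ.aut • z - z ∈ T.T0 m := (T.T0 m).sub_mem (τ.smul_mem_T0 hτ.permutes hz) hz
  exact τ.smul_eq_nsmul_of_inT00 hτ hm hmk hnt hres (TwoRed.inT00_of_redClass_eq_zero hm ⟨_, hmem⟩
    (τ.redClass_smul_sub_eq_zero hτ hm G₀ G₁ hs₀ hs₁ hψ₀ hψ₁ hc₀ hc₁ hi₀ hi₁ hf₀ hf₁ hn₀ hn₁ hz hD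
      hp₀ hp₁ hmem))

end SemiRed

end Fermat.Agent.TwoComponent
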