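import Mathlib.LinearAlgebra.Matrix.Determinant.Basic
import Mathlib.RingTheory.Norm.Basic
import Fermat.Prelude.Def_AlgebraicCurve_Correspondence
import Fermat.Agent.TwoComponent.RedClass

/-!
# Reduction of norms to a subfield with one component

For a degeneracy map `φ : FM → F` of degree `q + 1` which is an isomorphism on one component and a
Frobenius map on the other, the orders of the reduction of a norm are the sums of the orders of the
two reductions, transported by the Frobenius map.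
-/

noncomputable section

open AlgebraicCurve Fermat.Agent.Red Matrix

namespace Fermat.Agent.TwoComponent

variable {K k F Fk : Type*} [Field K] [Field F] [Algebra K F] [Field k] [Field Fk] [Algebra k Fk]
variable {A : ValuationSubring K} {π : A →+* k}
variable {S : Type*} [Fintype S]

/-- A degeneracy map to a curve with good reduction. -/
structure Degen (T : TwoRed A π F Fk S) (FM : Type*) [Field FM] [Algebra K FM] where
  /-- the reduction downstairs -/
  RM : RedBase A π FM Fk
  /-- the degeneracy map -/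
  φ : FM →ₐ[K] F
  /-- the side mapped isomorphically -/
  side : Bool
  /-- the degree on the other side -/
  q : ℕ
  q_pos : 0 < q
  /-- the map on the other side -/
  Fr : Fk →+* Fk
  /-- its effect on places -/
  ψ : Place k Fk ≃ Place k Fk
  ord_Fr : ∀ (P : Place k Fk) (c : Fk), P.ord (Fr c) = q * (ψ P).ord c
  pow_mem : ∀ b : Fk, ∃ c, Fr c = b ^ q
  /-- a basis along `Fr` -/
  e : Fin q → Fk
  e_existsUnique : ∀ w : Fk, ∃! c : Fin q → Fk, w = ∑ l, Fr (c l) * e l
  mem : ∀ (i : Bool) (z : RM.O), φ z ∈ (T.R i).O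
  red_side : ∀ z : RM.O, (T.R side).red ⟨φ z, mem side z⟩ = RM.red z
  red_other : ∀ z : RM.O, (T.R (!side)).red ⟨φ z, mem (!side) z⟩ = Fr (RM.red z)
  finrank_eq : finrankAlong K φ = q + 1

namespace Degen

variable {T : TwoRed A π F Fk S} {FM : Type*} [Field FM] [Algebra K FM] (G : Degen T FM)

/-- The pull-back of an integral element downstairs to the `i`-th reduction ring. -/
def pullO (i : Bool) (z : G.RM.O) : (T.R i).O := ⟨G.φ z, G.mem i z⟩

theorem eq_zero_of_sum {c : Fin G.q → Fk} (h : ∑ l, G.Fr (c l) * G.e l = 0) : c = 0 := by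
  obtain ⟨c₀, -, huniq⟩ := G.e_existsUnique 0
  exact (huniq c h.symm).trans (huniq 0 (by simp)).symm

/-- The coordinates along `Fr`. -/
def coord (w : Fk) : Fin G.q → Fk := (G.e_existsUnique w).choose

theorem coord_spec (w : Fk) : w = ∑ l, G.Fr (G.coord w l) * G.e l :=
  (G.e_existsUnique w).choose_spec.1

theorem coord_unique {w : Fk} {c : Fin G.q → Fk} (h : w = ∑ l, G.Fr (c l) * G.e l) :
    c = G.coord w :=
  (G.e_existsUnique w).choose_spec.2 c h

/-- The matrix of a multiplication along `Fr`. -/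
def mat (b : Fk) : Matrix (Fin G.q) (Fin G.q) Fk := fun l j => G.coord (b * G.e j) l

theorem mat_mul (a b : Fk) : G.mat (a * b) = G.mat a * G.mat b := by
  ext l j
  refine (congrFun (G.coord_unique (w := a * b * G.e j)
    (c := fun l => (G.mat a * G.mat b) l j) ?_) l).symm
  calc a * b * G.e j = a * ∑ r, G.Fr (G.coord (b * G.e j) r) * G.e r := by
        rw [← G.coord_spec, mul_assoc]
    _ = ∑ r, G.Fr (G.coord (b * G.e j) r) * (a * G.e r) := by
        rw [Finset.mul_sum]; exact Finset.sum_congr rfl fun r _ => by ring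
    _ = ∑ r, G.Fr (G.coord (b * G.e j) r) * ∑ l, G.Fr (G.coord (a * G.e r) l) * G.e l :=
        Finset.sum_congr rfl fun r _ => by rw [← G.coord_spec]
    _ = _ := by
        simp only [Matrix.mul_apply, mat, map_sum, map_mul, Finset.mul_sum, Finset.sum_mul]
        rw [Finset.sum_comm]
        exact Finset.sum_congr rfl fun _ _ => Finset.sum_congr rfl fun _ _ => by ring

theorem mat_Fr (c : Fk) : G.mat (G.Fr c) = Matrix.scalar _ c := by
  ext l j
  refine (congrFun (G.coord_unique (w := G.Fr c * G.e j)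
    (c := fun l => Matrix.scalar (Fin G.q) c l j) ?_) l).symm
  rw [Finset.sum_eq_single j (fun l _ hl => by
      rw [Matrix.scalar_apply, Matrix.diagonal_apply_ne _ hl, map_zero, zero_mul])
    (fun hj => absurd (Finset.mem_univ j) hj), Matrix.scalar_apply, Matrix.diagonal_apply_eq]

theorem ord_det_mat {b : Fk} (hb : b ≠ 0) :
    (G.mat b).det ≠ 0 ∧ ∀ P : Place k Fk, (G.ψ P).ord (G.mat b).det = P.ord b := by
  obtain ⟨c, hc⟩ := G.pow_mem b
  have hc0 : c ≠ 0 := fun h => pow_ne_zero G.q hb (by rw [← hc, h, map_zero])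
  have hpow : ∀ n : ℕ, G.mat (b ^ n) = G.mat b ^ n := by
    intro n
    induction n with
    | zero => rw [pow_zero, pow_zero, ← map_one G.Fr, G.mat_Fr, map_one]
    | succ n ih => rw [pow_succ, pow_succ, G.mat_mul, ih]
  have hdet : (G.mat b).det ^ G.q = c ^ G.q := by
    rw [← Matrix.det_pow, ← hpow, ← hc, G.mat_Fr]
    simp [Matrix.scalar_apply, Matrix.det_diagonal]
  have hne : (G.mat b).det ≠ 0 := fun h => pow_ne_zero G.q hc0 (by
    rw [← hdet, h, zero_pow G.q_pos.ne'])
  refine ⟨hne, fun P => ?_⟩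
  have h1 := congrArg (G.ψ P).ord hdet
  rw [ord_pow, ord_pow] at h1
  have h2 := congrArg P.ord hc
  rw [G.ord_Fr, ord_pow] at h2
  have hq : (G.q : ℤ) ≠ 0 := by have := G.q_pos; omega
  exact mul_left_cancel₀ hq (h1.trans h2)

/-- Coefficients downstairs of an integral combination on the other side are integral, and reduce
to the coordinates. -/
theorem coeff_other {b : Fin G.q → (T.R (!G.side)).O}
    (hb : ∀ l, (T.R (!G.side)).red (b l) = G.e l) (μ : Fin G.q → FM) (X : (T.R (!G.side)).O)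
    (h : (X : F) = ∑ l, G.φ (μ l) * (b l : F)) :
    ∃ z : Fin G.q → G.RM.O, (∀ l, (z l : FM) = μ l) ∧
      (fun l => G.RM.red (z l)) = G.coord ((T.R (!G.side)).red X) := by
  classical
  suffices hmem : ∀ l, μ l ∈ G.RM.O by
    refine ⟨fun l => ⟨μ l, hmem l⟩, fun l => rfl, G.coord_unique ?_⟩
    have hX : X = ∑ l, G.pullO (!G.side) ⟨μ l, hmem l⟩ * b l := Subtype.ext (by
      rw [h, AddSubmonoidClass.coe_finsetSum]; rfl)
    rw [hX, map_sum]
    exact Finset.sum_congr rfl fun l _ => by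
      rw [map_mul, hb]; exact congrArg (· * _) (G.red_other _)
  by_contra hcon
  push Not at hcon
  obtain ⟨l₀, hl₀⟩ := hcon
  have hdec : ∀ l, ∃ c : K, ∃ v : G.RM.O, μ l = algebraMap K FM c * (v : FM) ∧
      (μ l ≠ 0 → G.RM.red v ≠ 0) ∧ (c ≠ 0 → G.RM.red v ≠ 0) := fun l => by
    by_cases hm : μ l = 0
    · exact ⟨0, 0, by simp [hm], fun hh => absurd hm hh, fun hh => absurd rfl hh⟩
    · obtain ⟨c, v, hv, hh⟩ := G.RM.scale _ hm
      exact ⟨c, v, hh, fun _ => hv, fun _ => hv⟩
  choose c v hcv hv hv0 using hdec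
  obtain ⟨l₁, -, hmax⟩ := Finset.univ.exists_max_image (fun l => A.valuation (c l))
    ⟨l₀, Finset.mem_univ _⟩
  have hM : c l₁ ∉ A := fun hm => hl₀ <| by
    have hc₀ : c l₀ ∈ A := (A.valuation_le_one_iff _).mp <|
      (hmax l₀ (Finset.mem_univ _)).trans ((A.valuation_le_one_iff _).mpr hm)
    rw [hcv]
    exact mul_mem (G.RM.algebraMap_mem ⟨_, hc₀⟩) (v l₀).2
  have hM0 : c l₁ ≠ 0 := fun h0 => hM (h0 ▸ A.zero_mem)
  have hμ1 : μ l₁ ≠ 0 := fun h0 => by
    rw [hcv, mul_eq_zero, or_iff_right (by simpa using hM0)] at h0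
    exact hv0 l₁ hM0 (by rw [show v l₁ = 0 from Subtype.ext h0, map_zero])
  have hMi : (c l₁)⁻¹ ∈ A := (A.mem_or_inv_mem _).resolve_left hM
  have h0 : π ⟨(c l₁)⁻¹, hMi⟩ = 0 := by
    by_contra hne
    exact hM (inv_inv (c l₁) ▸ inv_mem_of_pi_ne_zero G.RM.surj_pi hne)
  have hd : ∀ l, c l / c l₁ ∈ A := fun l => by
    rw [← A.valuation_le_one_iff, map_div₀]
    exact div_le_one_of_le₀ (hmax l (Finset.mem_univ _)) zero_le
  have he : (T.R (!G.side)).ι ⟨(c l₁)⁻¹, hMi⟩ * X =
      ∑ l, G.pullO (!G.side) (G.RM.ι ⟨c l / c l₁, hd l⟩ * v l) * b l := by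
    refine Subtype.ext ?_
    rw [Subring.coe_mul, RedBase.coe_ι, h, AddSubmonoidClass.coe_finsetSum, Finset.mul_sum]
    refine Finset.sum_congr rfl fun l _ => ?_
    show algebraMap K F (c l₁)⁻¹ * (G.φ (μ l) * (b l : F)) =
      G.φ (algebraMap K FM (c l / c l₁) * (v l : FM)) * (b l : F)
    rw [hcv, map_mul, map_mul, AlgHom.commutes, AlgHom.commutes, map_div₀, map_inv₀]
    ring
  have hred := congrArg (T.R (!G.side)).red he
  rw [map_mul, RedBase.red_ι, h0, map_zero, zero_mul, map_sum] at hred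
  have hred' : ∀ l, (T.R (!G.side)).red (G.pullO (!G.side) (G.RM.ι ⟨c l / c l₁, hd l⟩ * v l)) =
      G.Fr (algebraMap k Fk (π ⟨c l / c l₁, hd l⟩) * G.RM.red (v l)) := fun l => by
    rw [show (T.R (!G.side)).red (G.pullO (!G.side) (G.RM.ι ⟨c l / c l₁, hd l⟩ * v l)) =
      G.Fr (G.RM.red (G.RM.ι ⟨c l / c l₁, hd l⟩ * v l)) from G.red_other _, map_mul, RedBase.red_ι]
  simp only [map_mul (T.R (!G.side)).red, hb, hred'] at hred
  have := congrFun (G.eq_zero_of_sum hred.symm) l₁
  rw [Pi.zero_apply, show (⟨c l₁ / c l₁, hd l₁⟩ : A) = 1 from Subtype.ext (div_self hM0), map_one,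
    map_one, one_mul] at this
  exact hv l₁ hμ1 this

end Degen

end Fermat.Agent.TwoComponent
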