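import Fermat.Prelude.Def_ModularCurve_HeckeOperator
import Fermat.Agent.Hecke.Curves
import Fermat.Agent.TwoComponent.Depth.Side
import Fermat.Agent.TwoComponent.Model
import Fermat.Agent.TwoComponent.Norm

/-!
# The two degeneracy maps on the model of `X₀(M q)` at `q`

`α` is an isomorphism on the component of `∞` and Frobenius on the other; `β = w ∘ α` the reverse.
-/

noncomputable section

open ModularCurve AlgebraicCurve IntermediateField Fermat.Agent.Red Fermat.Agent.Igusa

namespace Fermat.Agent.TwoComponent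

local notation "Qb" => AlgebraicClosure ℚ

section Pull

variable {K k F Fk : Type*} [Field K] [Field F] [Algebra K F] [Field k] [Field Fk] [Algebra k Fk]
variable {A : ValuationSubring K} {π : A →+* k}
variable {S : Type*} [Fintype S] {T : TwoRed A π F Fk S}
variable {FM : Type*} [Field FM] [Algebra K FM]

/-- A place where a pushforward is nonzero lies below the support of the divisor. -/
theorem exists_restrict_of_pushforward_ne_zero (φ : FM →ₐ[K] F) (hint : φ.toRingHom.IsIntegral)
    {D : Divisor K F} {v : Place K FM} (h : Divisor.pushforwardAlong φ hint D v ≠ 0) :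
    ∃ w ∈ D.support, w.restrictAlong φ hint = v := by
  classical
  by_contra hne
  push Not at hne
  refine h ?_
  conv_lhs => rw [← D.sum_single]
  rw [map_finsuppSum, Finsupp.sum_apply]
  refine Finset.sum_eq_zero fun w hw => ?_
  show Divisor.pushforwardAlong φ hint (Finsupp.single w (D w)) v = 0
  rw [Divisor.pushforwardAlong_single, Finsupp.single_eq_of_ne' (hne w hw)]

/-- If the polar support of `T.G` is the preimage of the poles of a function downstairs, functions
with bounded poles pull back to such. -/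
theorem Degen.boundedPull_of_iff (G : Degen T FM) (hint : G.φ.toRingHom.IsIntegral) (t : FM)
    (ht : ∀ P : Place K F, T.G P ≠ 0 ↔ P.ord (G.φ t) < 0) : G.BoundedPull hint := by
  intro n
  set Pu := Divisor.pushforwardAlong G.φ hint (n • T.G) with hPu
  set w : Place K F → ℕ := fun P =>
    P.ramificationIndexAlong G.φ * (Pu (P.restrictAlong G.φ hint)).toNat with hw
  refine ⟨T.G.support.sup w, fun z hz => mem_riemannRochSpace_iff.mpr fun P => Or.inr ?_⟩
  rw [Place.ord_restrictAlong G.φ hint P z, Finsupp.smul_apply, nsmul_eq_mul]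
  set v := P.restrictAlong G.φ hint with hv
  have hGP : 0 ≤ T.G P := by rw [T.G_spec]; exact le_max_left _ _
  rcases eq_or_ne (Pu v) 0 with h0 | h0
  · have h1 := hz v
    rw [h0, neg_zero] at h1
    have h2 : 0 ≤ (P.ramificationIndexAlong G.φ : ℤ) * v.ord z :=
      mul_nonneg (Int.natCast_nonneg _) h1
    nlinarith [Int.natCast_nonneg (T.G.support.sup w)]
  · obtain ⟨P', hP', hP'v⟩ := exists_restrict_of_pushforward_ne_zero G.φ hint h0
    have hGP' : T.G P' ≠ 0 := fun h => by
      rw [Finsupp.mem_support_iff, Finsupp.smul_apply, h, nsmul_zero] at hP'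
      exact hP' rfl
    have hvt : v.ord t < 0 := by
      have h := (ht P').mp hGP'
      rw [Place.ord_restrictAlong G.φ hint P' t, hP'v] at h
      nlinarith [Int.natCast_nonneg (P'.ramificationIndexAlong G.φ)]
    have he : (0 : ℤ) < P.ramificationIndexAlong G.φ :=
      Int.natCast_pos.mpr (by
        let := algebraAlong G.φ
        have := isScalarTower_along G.φ
        have := isIntegral_along G.φ hint
        exact P.ramificationIndex_pos (F := FM))
    have hne : T.G P ≠ 0 := (ht P).mpr (by
      rw [Place.ord_restrictAlong G.φ hint P t, ← hv]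
      exact mul_neg_of_pos_of_neg he hvt)
    have hsup : (w P : ℤ) ≤ (T.G.support.sup w : ℕ) :=
      Int.ofNat_le.mpr (Finset.le_sup (Finsupp.mem_support_iff.mpr hne))
    have h1 := hz v
    have h2 : Pu v ≤ ((Pu v).toNat : ℤ) := Int.self_le_toNat _
    simp only [hw, ← hv, Nat.cast_mul] at hsup
    have hG1 : (1 : ℤ) ≤ T.G P := by omega
    nlinarith [Int.natCast_nonneg (T.G.support.sup w)]

/-- A finite extension along `φ` of degree `n` has a basis indexed by `Fin n`. -/
theorem exists_basisAlong (φ : FM →ₐ[K] F) (hfin : FiniteAlong K φ) {n : ℕ}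
    (hn : finrankAlong K φ = n) :
    ∃ e : Fin n → F, ∀ w : F, ∃! c : Fin n → FM, w = ∑ l, φ (c l) * e l := by
  let := algebraAlong φ
  have : Module.Finite FM F := hfin
  let b := Module.finBasisOfFinrankEq FM F hn
  refine ⟨b, fun w => ⟨fun l => b.repr w l, (b.sum_repr w).symm, fun c hc => funext fun l => ?_⟩⟩
  rw [hc]
  exact (congrFun (b.repr_sum_self c) l).symm

end Pull

variable (M q : ℕ) [hq : Fact q.Prime] [NeZero M] (hqM : ¬ q ∣ M)
variable {A : ValuationSubring (AlgebraicClosure ℚ)} {k : Type*} [Field k] {π : A →+* k}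
variable [CharP k q] [IsAlgClosed k]

local notation "FB" => modularFunctionFieldBar M
local notation "αm" => heckeAlphaBar (AlgebraicClosure ℚ) M q
local notation "βm" => heckeBetaBar (AlgebraicClosure ℚ) M q

theorem inclM_eq_alpha (a : FB) : inclM M q a = αm a :=
  Subtype.ext ((coe_inclM M q a).trans (coe_heckeAlphaBar M q a).symm)

theorem wAL_alpha (a : FB) : wAL M q hqM (αm a) = βm a :=
  Subtype.ext (by rw [← inclM_eq_alpha, coe_wAL_inclM, coe_heckeBetaBar])

theorem wAL_beta (a : FB) : wAL M q hqM (βm a) = αm a := by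
  rw [← wAL_alpha M q hqM, wAL_wAL]

omit [CharP k q] [IsAlgClosed k] in
theorem gauss_alpha {z : FB} (hz : z ∈ gaussO A π (modularFunctionFieldBar M)) :
    ∃ h : (αm z : FN M q) ∈ gaussO A π (FN M q),
      gaussRedHom A π (FN M q) ⟨_, h⟩ = gaussRedHom A π (modularFunctionFieldBar M) ⟨z, hz⟩ := by
  obtain ⟨y, w, hw, hyw⟩ := (mem_gaussO A π _).mp hz
  have up : ∀ y : intFns A (modularFunctionFieldBar M), ∃ y' : intFns A (FN M q),
      (y' : FN M q) = αm (y : FB) ∧
      intRed A π (FN M q) y' = intRed A π (modularFunctionFieldBar M) y := fun y => by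
    have e : coeffMap A.subtype (liftSeries A _ y) =
        ((αm (y : FB) : FN M q) : LaurentSeries Qb) := by
      rw [coeffMap_liftSeries, coe_heckeAlphaBar]
    refine ⟨⟨_, (mem_intFns A (FN M q)).mpr ⟨_, e⟩⟩, rfl, ?_⟩
    rw [intRed_eq A π (FN M q) (y := liftSeries A _ y) e]
    rfl
  obtain ⟨y', ey, ry⟩ := up y
  obtain ⟨w', ew, rw'⟩ := up w
  have hw' : intRed A π (FN M q) w' ≠ 0 := rw'.symm ▸ hw
  have e : αm z * (w' : FN M q) = y' := by rw [ew, ey, ← map_mul, hyw]
  refine ⟨⟨y', w', hw', e⟩, ?_⟩
  exact (gaussRedHom_eq A π (FN M q) (f := ⟨αm z, ⟨y', w', hw', e⟩⟩) hw' e).trans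
    ((congrArg₂ (· / ·) ry rw').trans
      (gaussRedHom_eq A π (modularFunctionFieldBar M) (f := ⟨z, hz⟩) hw hyw).symm)

omit [NeZero M] [CharP k q] [IsAlgClosed k] in
theorem gauss_beta {z : FB} (hz : z ∈ gaussO A π (modularFunctionFieldBar M)) :
    ∃ h : (βm z : FN M q) ∈ gaussO A π (FN M q),
      gaussRedHom A π (FN M q) ⟨_, h⟩ =
        qExpand k q (gaussRedHom A π (modularFunctionFieldBar M) ⟨z, hz⟩) := by
  obtain ⟨y, w, hw, hyw⟩ := (mem_gaussO A π _).mp hz
  have up : ∀ y : intFns A (modularFunctionFieldBar M), ∃ y' : intFns A (FN M q),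
      (y' : FN M q) = βm (y : FB) ∧
      intRed A π (FN M q) y' = qExpand k q (intRed A π (modularFunctionFieldBar M) y) := fun y => by
    have e : coeffMap A.subtype (qExpand A q (liftSeries A _ y)) =
        ((βm (y : FB) : FN M q) : LaurentSeries Qb) := by
      rw [coeffMap_qExpand, coeffMap_liftSeries, coe_heckeBetaBar]
    refine ⟨⟨_, (mem_intFns A (FN M q)).mpr ⟨_, e⟩⟩, rfl, ?_⟩
    rw [intRed_eq A π (FN M q) (y := qExpand A q (liftSeries A _ y)) e, coeffMap_qExpand]
    rfl
  obtain ⟨y', ey, ry⟩ := up y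
  obtain ⟨w', ew, rw'⟩ := up w
  have hw' : intRed A π (FN M q) w' ≠ 0 := by
    rw [rw']
    exact fun h => hw (qExpand_injective q (h.trans (map_zero _).symm))
  have e : βm z * (w' : FN M q) = y' := by rw [ew, ey, ← map_mul, hyw]
  refine ⟨⟨y', w', hw', e⟩, ?_⟩
  exact (gaussRedHom_eq A π (FN M q) (f := ⟨βm z, ⟨y', w', hw', e⟩⟩) hw' e).trans
    ((congrArg₂ (· / ·) ry rw').trans ((map_div₀ _ _ _).symm.trans
      (congrArg _ (gaussRedHom_eq A π (modularFunctionFieldBar M) (f := ⟨z, hz⟩) hw hyw).symm)))

omit [NeZero M] in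
theorem divisorExpansions_subset_level : divisorExpansionsC Qb M ⊆ IntSer Qb := by
  rintro _ ⟨d, hd, -, rfl⟩
  have := hd
  exact ⟨jv (1 : ℤˣ) d, by rw [jv_mem_intSer hd.out, jv_one_eq_qExpand]⟩

omit [NeZero M] in
theorem bar_eq_fullC :
    modularFunctionFieldBar M = IntermediateField.adjoin Qb (divisorExpansionsC Qb M) :=
  MF.laurentBaseChange_full_eq Qb M

theorem alpha_jLevel : αm (jLevel M) = jOne M q := Subtype.ext (coe_heckeAlphaBar M q _)

omit [NeZero M] in
theorem beta_jLevel : βm (jLevel M) = jQ M q := Subtype.ext ((coe_heckeBetaBar M q _).trans (by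
  show qExpand Qb q (jv (1 : Qbˣ) 1) = jv (1 : Qbˣ) q
  rw [jv_one_one, ← jv_one_eq_qExpand]))

/-- The reduction of level `M`. -/
def redLevel (hres : ResidueAt A q π) : RedBase A π FB (LaurentSeries k) :=
  gaussBase A π (modularFunctionFieldBar M) hres.surj (divisorExpansionsC Qb M) (bar_eq_fullC M)
    (divisorExpansions_subset_level M)

include hqM in
theorem redLevel_mem (hres : ResidueAt A q π) (u : (redLevel M q hres).O) :
    (redLevel M q hres).red u ∈ CK M k := by
  obtain ⟨h, e⟩ := gauss_alpha M q u.2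
  show gaussRedHom A π (modularFunctionFieldBar M) ⟨u.1, u.2⟩ ∈ CK M k
  rw [← e]
  exact red_mem_CK M q hqM hres false ⟨_, h⟩

/-- The reduction of level `M`, with values in the field of a component. -/
def redLevelC (hres : ResidueAt A q π) : RedBase A π FB (CK M k) :=
  corestrictRed (redLevel M q hres) (CK M k) (redLevel_mem M q hqM hres)

theorem redC_alpha (hres : ResidueAt A q π) (i : Bool) (z : (redLevelC M q hqM hres).O) :
    ∃ h : (αm (z : FB) : FN M q) ∈ (redC M q hqM hres i).O,
      (redC M q hqM hres i).red ⟨_, h⟩ =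
        Bool.rec ((redLevelC M q hqM hres).red z)
            (frobE M q (k := k) ((redLevelC M q hqM hres).red z)) i := by
  cases i
  · obtain ⟨h, e⟩ := gauss_alpha M q z.2
    exact ⟨h, Subtype.ext e⟩
  · obtain ⟨h, e⟩ := gauss_beta M q z.2
    have h' : wAL M q hqM (αm (z : FB)) ∈ (redInf M q hres).O :=
      (wAL_alpha M q hqM (z : FB)).symm ▸ h
    refine ⟨h', Subtype.ext ?_⟩
    rw [coe_frobE]
    exact ((congrArg (redInf M q hres).red (Subtype.ext (wAL_alpha M q hqM (z : FB)))).trans e)

theorem redC_beta (hres : ResidueAt A q π) (i : Bool) (z : (redLevelC M q hqM hres).O) :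
    ∃ h : (βm (z : FB) : FN M q) ∈ (redC M q hqM hres i).O,
      (redC M q hqM hres i).red ⟨_, h⟩ =
        Bool.rec (frobE M q (k := k) ((redLevelC M q hqM hres).red z))
            ((redLevelC M q hqM hres).red z) i := by
  cases i
  · obtain ⟨h, e⟩ := gauss_beta M q z.2
    exact ⟨h, Subtype.ext (e.trans (coe_frobE (k := k) M q ((redLevelC M q hqM hres).red z)).symm)⟩
  · obtain ⟨h, e⟩ := gauss_alpha M q z.2
    have h' : wAL M q hqM (βm (z : FB)) ∈ (redInf M q hres).O :=
      (wAL_beta M q hqM (z : FB)).symm ▸ h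
    exact ⟨h', Subtype.ext
      ((congrArg (redInf M q hres).red (Subtype.ext (wAL_beta M q hqM (z : FB)))).trans e)⟩

omit hq [NeZero M] in
/-- A component is a function field. -/
theorem isFunctionField_CK (hqM : ¬ q ∣ M) : FF.IsFunctionField k (CK M k) :=
  ⟨⟨(jbC (k := k) M : CK M k), transcendental_jbC (k := k) M, FiniteDimensional.of_finrank_pos (by
    rw [finrank_adjoin_eq_relfinrank]
    exact (relfinrank_full (K := k) M (natCast_ne_zero_of_not_dvd M q hqM)).symm ▸ psi_pos M)⟩⟩

include hqM in
theorem finrankAlong_frobE : finrankAlong k (frobE M q (k := k)) = q := by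
  have := isFunctionField_CK M q hqM (k := k)
  have h1 := Hecke.finrank_adjoin_apply (frobE M q (k := k)) (jbC M)
  rw [frobE_jbC] at h1
  have htr := (transcendental_jbC (k := k) M).pow hq.out.pos
  have h2 := FF.degree_poleDiv htr
  rw [h1, show FF.poleDiv (K := k) (jbC M ^ q : CK M k) = q • FF.poleDiv (K := k) (jbC M : CK M k)
      from Finsupp.ext fun Q => by
        rw [Finsupp.smul_apply, FF.poleDiv_apply, FF.poleDiv_apply, Red.ord_pow, nsmul_eq_mul,
          mul_max_of_nonneg _ _ (Int.natCast_nonneg _), mul_zero, mul_neg],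
    map_nsmul, degree_poleDiv_jbC M q hqM, nsmul_eq_mul, finrank_adjoin_eq_relfinrank] at h2
  change ((q : ℕ) : ℤ) * _ = _ at h2
  have hp : IntermediateField.relfinrank
      (IntermediateField.adjoin k {((jbC M : CK M k) : LaurentSeries k)}) (CK M k) = psi M :=
    relfinrank_full M (natCast_ne_zero_of_not_dvd M q hqM)
  rw [hp] at h2
  have h3 : q * psi M = psi M * finrankAlong k (frobE M q (k := k)) := by exact_mod_cast h2
  exact (Nat.eq_of_mul_eq_mul_left (psi_pos M) (h3.symm.trans (mul_comm q _)))

include hqM in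
theorem exists_basis_frobE : ∃ e : Fin q → CK M k,
    ∀ w : CK M k, ∃! c : Fin q → CK M k, w = ∑ l, frobE M q (k := k) (c l) * e l := by
  have := isFunctionField_CK M q hqM (k := k)
  exact exists_basisAlong (frobE M q (k := k)) (Hecke.finiteAlong _) (finrankAlong_frobE M q hqM)

omit [NeZero M] in
theorem pow_mem_frobE (b : CK M k) : ∃ c, frobE M q (k := k) c = b ^ q :=
  ⟨frobC M q (k := k) • b, by rw [frobE_eq, inv_smul_smul]⟩

omit hq in
/-- `j` has degree `ψ(M)` on the curve of level `M`. -/
theorem finrank_adjoin_jLevel : Module.finrank (Qb⟮jLevel M⟯) FB = psi M := by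
  rw [finrank_adjoin_eq_relfinrank]
  exact (congrArg (IntermediateField.relfinrank _) (bar_eq_fullC M)).trans
    (relfinrank_full M (Nat.cast_ne_zero.mpr (NeZero.ne M)))

/-- The forgetful map `α` has degree `q + 1`. -/
theorem finrankAlong_alpha_eq (hqM : ¬ q ∣ M) : finrankAlong Qb αm = q + 1 := by
  have h := Hecke.finrank_adjoin_apply (K := Qb) αm (jLevel M)
  rw [alpha_jLevel, finrank_jOne, finrank_adjoin_jLevel, psi_mul_prime (NeZero.ne M) hq.out,
    if_neg hqM] at h
  exact (Nat.eq_of_mul_eq_mul_left (psi_pos M) (h.symm.trans rfl))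

/-- The degeneracy map `β` has degree `q + 1`. -/
theorem finrankAlong_beta_eq (hqM : ¬ q ∣ M) : finrankAlong Qb βm = q + 1 := by
  have h := Hecke.finrank_adjoin_apply (K := Qb) βm (jLevel M)
  rw [beta_jLevel, finrank_jQ, finrank_adjoin_jLevel, psi_mul_prime (NeZero.ne M) hq.out,
    if_neg hqM] at h
  exact (Nat.eq_of_mul_eq_mul_left (psi_pos M) (h.symm.trans rfl))

variable (hres : ResidueAt A q π)
  (hgen : genusFF Qb (modularFunctionFieldBar M) ≤ genusFF k (CK M k))

/-- The forgetful map `α`, preserving the expansion, as a degeneracy map of the model: it is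
an isomorphism on the component at `∞`. -/
def degenAlpha : Degen (modelTwoRed M q hqM hres hgen) FB where
  RM := redLevelC M q hqM hres
  φ := αm
  side := false
  q := q
  q_pos := hq.out.pos
  Fr := (frobE M q (k := k)).toRingHom
  ψ := MulAction.toPerm (frobC M q (k := k))
  ord_Fr P c := ord_frobE M q P c
  pow_mem := pow_mem_frobE M q
  e := (exists_basis_frobE M q hqM (k := k)).choose
  e_existsUnique := (exists_basis_frobE M q hqM (k := k)).choose_spec
  mem i z := (redC_alpha M q hqM hres i z).1
  red_side z := (redC_alpha M q hqM hres false z).2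
  red_other z := (redC_alpha M q hqM hres true z).2
  finrank_eq := finrankAlong_alpha_eq M q hqM

/-- The degeneracy map `β`, substituting `t^q` in expansions, as a degeneracy map of the model: it
is an isomorphism on the component seen after the Atkin–Lehner involution. -/
def degenBeta : Degen (modelTwoRed M q hqM hres hgen) FB where
  RM := redLevelC M q hqM hres
  φ := βm
  side := true
  q := q
  q_pos := hq.out.pos
  Fr := (frobE M q (k := k)).toRingHom
  ψ := MulAction.toPerm (frobC M q (k := k))
  ord_Fr P c := ord_frobE M q P c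
  pow_mem := pow_mem_frobE M q
  e := (exists_basis_frobE M q hqM (k := k)).choose
  e_existsUnique := (exists_basis_frobE M q hqM (k := k)).choose_spec
  mem i z := (redC_beta M q hqM hres i z).1
  red_side z := (redC_beta M q hqM hres true z).2
  red_other z := (redC_beta M q hqM hres false z).2
  finrank_eq := finrankAlong_beta_eq M q hqM

theorem modelTwoRed_G_ne_zero_iff (P : Place Qb (FN M q)) :
    ((modelTwoRed M q hqM hres hgen).G P ≠ 0 ↔ P.ord (jOne M q) < 0) ∧
    ((modelTwoRed M q hqM hres hgen).G P ≠ 0 ↔ P.ord (jQ M q) < 0) := by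
  have hG : (modelTwoRed M q hqM hres hgen).G P = FF.poleDiv (K := Qb) (xN M q) P := rfl
  have hiff := jQ_mem_iff M q P
  rw [Red.mem_place_iff, Red.mem_place_iff] at hiff
  have h1 : jOne M q ≠ 0 := fun h => transcendental_jOne M q (h ▸ isAlgebraic_zero)
  have h2 : jQ M q ≠ 0 := fun h => transcendental_jQ M q (h ▸ isAlgebraic_zero)
  rw [hG, FF.poleDiv_apply, xN, P.ord_mul h1 h2]
  constructor <;> constructor <;> intro h <;> omega

/-- Pullback along the forgetful map keeps poles bounded by those of the coordinate. -/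
theorem boundedPull_alpha (hint : (degenAlpha M q hqM hres hgen).φ.toRingHom.IsIntegral) :
    (degenAlpha M q hqM hres hgen).BoundedPull hint := by
  refine Degen.boundedPull_of_iff _ hint (jLevel M) fun P => ?_
  rw [show (degenAlpha M q hqM hres hgen).φ (jLevel M) = jOne M q from alpha_jLevel M q]
  exact (modelTwoRed_G_ne_zero_iff M q hqM hres hgen P).1

/-- Pullback along `β` keeps poles bounded by those of the coordinate. -/
theorem boundedPull_beta (hint : (degenBeta M q hqM hres hgen).φ.toRingHom.IsIntegral) :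
    (degenBeta M q hqM hres hgen).BoundedPull hint := by
  refine Degen.boundedPull_of_iff _ hint (jLevel M) fun P => ?_
  rw [show (degenBeta M q hqM hres hgen).φ (jLevel M) = jQ M q from beta_jLevel M q]
  exact (modelTwoRed_G_ne_zero_iff M q hqM hres hgen P).2

end Fermat.Agent.TwoComponent
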