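import Fermat.Agent.Red.Genus
import Fermat.Agent.TwoComponent.Inject
import Fermat.Agent.TwoComponent.ModelSemi

/-!
# Inertia at `q` is unipotent on the prime-to-`q` torsion of `J₀(M q)`

The general theorem on inertia and two-component reductions, applied to `X₀(M q)`.
-/

noncomputable section

open ModularCurve AlgebraicCurve

namespace Fermat.Agent.TwoComponent

local notation "Qb" => AlgebraicClosure ℚ
local notation "GQ" => (AlgebraicClosure ℚ ≃ₐ[ℚ] AlgebraicClosure ℚ)

/-- **Inertia at a prime exactly dividing the level acts with square zero.** -/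
theorem inertia_smul_sub (N q : ℕ) [NeZero N] (hq : q.Prime) (hqN : q ∣ N) (hq2 : ¬ q ^ 2 ∣ N)
    {A : ValuationSubring (AlgebraicClosure ℚ)} (hA : A.LiesOverPrime q) {σ τ : GQ}
    (hσ : σ ∈ A.inertiaSubgroupIn ℚ) (hτ : τ ∈ A.inertiaSubgroupIn ℚ) {m : ℕ} (hm : ¬ q ∣ m)
    {y : JZero N} (hy : m • y = 0) : σ • (τ • y - y) = τ • y - y := by
  obtain ⟨M, rfl⟩ := hqN
  revert y
  rw [mul_comm q M]
  intro y hy
  have : Fact q.Prime := ⟨hq⟩
  have : NeZero M := ⟨fun h => NeZero.ne (q * M) (by rw [h, mul_zero])⟩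
  have hqM : ¬ q ∣ M := fun h => hq2 (by rw [sq]; exact mul_dvd_mul_left q h)
  have := Red.isAlgClosed_residueField A
  have := Red.charP_residueField A hA
  have hres := residueAt q hA
  have hm0 : 0 < m := Nat.pos_of_ne_zero fun h => hm (h ▸ dvd_zero q)
  have hmk : (m : IsLocalRing.ResidueField A) ≠ 0 := fun h =>
    hm ((CharP.cast_eq_zero_iff _ q m).mp h)
  have hnt : ∃ t : A, t ≠ 0 ∧ IsLocalRing.residue A t = 0 :=
    ⟨(q : A), fun h => hq.ne_zero (Nat.cast_eq_zero.mp h),
      by rw [map_natCast, CharP.cast_eq_zero]⟩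
  exact SemiRed.smul_sub_eq
    (modelSemiRed M q hqM hres (Red.genus_le A hqM hA)
      (EichlerShimura.inducesOn_refl_of_inertia hσ))
    (modelSemiRed M q hqM hres (Red.genus_le A hqM hA)
      (EichlerShimura.inducesOn_refl_of_inertia hτ))
    (modelSemiRed_isInertial M q hqM hres (Red.genus_le A hqM hA)
      (EichlerShimura.inducesOn_refl_of_inertia hσ))
    (modelSemiRed_isInertial M q hqM hres (Red.genus_le A hqM hA)
      (EichlerShimura.inducesOn_refl_of_inertia hτ))
    hm0 hmk hnt hy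

end Fermat.Agent.TwoComponent
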