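import Fermat.Agent.Red.RR

/-!
# Values of functions at rational places

`ev P f` is the value of `f` at a place of degree one (junk `0` at a pole).
-/

noncomputable section

open AlgebraicCurve

namespace Fermat.Agent.TwoComponent

variable {k F : Type*} [Field k] [Field F] [Algebra k F]

/-- The value of `f` at `P` (junk outside the valuation ring). -/
def ev (P : Place k F) (f : F) : k :=
  open scoped Classical in
  if h : f ∈ P.toValuationSubring then
    Function.invFun (algebraMap k P.ResidueField) (IsLocalRing.residue _ ⟨f, h⟩)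
  else 0

variable {P : Place k F}

theorem algebraMap_residueField_surjective (hP : P.deg = 1) :
    Function.Surjective (algebraMap k P.ResidueField) := by
  intro y
  obtain ⟨c, hc⟩ := (finrank_eq_one_iff_of_nonzero' (1 : P.ResidueField) one_ne_zero).mp
    (hP : Module.finrank k P.ResidueField = 1) y
  exact ⟨c, by rw [← hc, Algebra.smul_def, mul_one]⟩

theorem residue_eq_ev (hP : P.deg = 1) {f : F} (h : f ∈ P.toValuationSubring) :
    IsLocalRing.residue _ ⟨f, h⟩ = algebraMap k P.ResidueField (ev P f) := by
  rw [ev, dif_pos h, Function.invFun_eq (algebraMap_residueField_surjective hP _)]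

theorem ev_eq_of_residue (hP : P.deg = 1) {f : F} (h : f ∈ P.toValuationSubring) {c : k}
    (hc : IsLocalRing.residue _ ⟨f, h⟩ = algebraMap k P.ResidueField c) : ev P f = c :=
  (algebraMap k P.ResidueField).injective ((residue_eq_ev hP h).symm.trans hc)

theorem ev_algebraMap (hP : P.deg = 1) (c : k) : ev P (algebraMap k F c) = c :=
  ev_eq_of_residue hP (P.algebraMap_mem' c) rfl

theorem ev_zero (hP : P.deg = 1) : ev P (0 : F) = 0 := by
  simpa using ev_algebraMap hP 0

theorem ev_one (hP : P.deg = 1) : ev P (1 : F) = 1 := by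
  simpa using ev_algebraMap hP 1

theorem ev_add (hP : P.deg = 1) {f g : F} (hf : f ∈ P.toValuationSubring)
    (hg : g ∈ P.toValuationSubring) : ev P (f + g) = ev P f + ev P g := by
  refine ev_eq_of_residue hP (add_mem hf hg) ?_
  rw [map_add, ← residue_eq_ev hP hf, ← residue_eq_ev hP hg, ← map_add]
  rfl

theorem ev_mul (hP : P.deg = 1) {f g : F} (hf : f ∈ P.toValuationSubring)
    (hg : g ∈ P.toValuationSubring) : ev P (f * g) = ev P f * ev P g := by
  refine ev_eq_of_residue hP (mul_mem hf hg) ?_
  rw [map_mul, ← residue_eq_ev hP hf, ← residue_eq_ev hP hg, ← map_mul]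
  rfl

theorem ev_smul (hP : P.deg = 1) (c : k) {f : F} (hf : f ∈ P.toValuationSubring) :
    ev P (c • f) = c * ev P f := by
  rw [Algebra.smul_def, ev_mul hP (P.algebraMap_mem' c) hf, ev_algebraMap hP]

theorem ev_pow (hP : P.deg = 1) {f : F} (hf : f ∈ P.toValuationSubring) (n : ℕ) :
    ev P (f ^ n) = ev P f ^ n := by
  induction n with
  | zero => rw [pow_zero, pow_zero, ev_one hP]
  | succ n ih => rw [pow_succ, pow_succ, ev_mul hP (pow_mem hf n) hf, ih]

theorem ev_eq_zero_iff (hP : P.deg = 1) {f : F} (hf : f ∈ P.toValuationSubring) :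
    ev P f = 0 ↔ f = 0 ∨ 0 < P.ord f := by
  have hres : ev P f = 0 ↔ IsLocalRing.residue P.toValuationSubring ⟨f, hf⟩ = 0 := by
    rw [residue_eq_ev hP hf, map_eq_zero_iff _ (algebraMap k P.ResidueField).injective]
  rw [hres, IsLocalRing.residue_eq_zero_iff, IsLocalRing.mem_maximalIdeal, mem_nonunits_iff]
  rcases eq_or_ne f 0 with rfl | hf0
  · simp only [true_or, iff_true]
    exact fun hu => (hu.ne_zero) rfl
  rw [← P.adicValuation_coe_eq_one_iff, P.adicValuation_eq_exp_neg_ord hf0,
    WithZero.exp_eq_one, or_iff_right hf0]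
  have := (Red.mem_place_iff P).mp hf
  omega

end Fermat.Agent.TwoComponent
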