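import Fermat.Prelude.Def_AlgebraicCurve_BaseChangeGalois
import Fermat.Agent.Red.Basic
import Fermat.Agent.TwoComponent.Eval

/-!
# Two-component constant reduction: the axiomatic package

`TwoRed` is what we use about a curve `F/K` whose reduction along `π : A →+* k` consists of two
smooth components, both with function field `Fk`, meeting at finitely many ordinary double points:
two constant reductions `R false`, `R true` of functions, a coordinate `x` whose pole divisor
specialises away from the nodes, the gluing condition at the nodes for functions with poles only at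
the poles of `x`, the rank of pairs of reductions, and the genus identity `g + 1 = 2 gk + #S`.
Nothing is assumed about the reduction of places.
-/

noncomputable section

open AlgebraicCurve Fermat.Agent.Red

namespace Fermat.Agent.TwoComponent

variable {K k F Fk : Type*} [Field K] [Field F] [Algebra K F] [Field k] [Field Fk] [Algebra k Fk]
variable {A : ValuationSubring K} {π : A →+* k}

/-- The pairs of reductions `(red_i (u / c i))` of the functions `u ∈ V`. -/
def pairImage (R : Bool → RedBase A π F Fk) (c : Bool → K) (V : Submodule K F) :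
    Submodule k (Bool → Fk) where
  carrier := {w | ∃ u ∈ V, ∀ i, ∃ v : (R i).O,
    algebraMap K F (c i) * (v : F) = u ∧ (R i).red v = w i}
  zero_mem' := ⟨0, V.zero_mem, fun i => ⟨0, by simp, map_zero _⟩⟩
  add_mem' := by
    rintro w w' ⟨u, hu, h⟩ ⟨u', hu', h'⟩
    refine ⟨u + u', V.add_mem hu hu', fun i => ?_⟩
    obtain ⟨v, hv, hr⟩ := h i
    obtain ⟨v', hv', hr'⟩ := h' i
    exact ⟨v + v', by rw [Subring.coe_add, mul_add, hv, hv'], by rw [map_add, hr, hr']; rfl⟩
  smul_mem' := by
    rintro a w ⟨u, hu, h⟩
    obtain ⟨b, rfl⟩ := (R false).surj_pi a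
    refine ⟨(b : K) • u, V.smul_mem _ hu, fun i => ?_⟩
    obtain ⟨v, hv, hr⟩ := h i
    refine ⟨(R i).ι b * v, ?_, ?_⟩
    · rw [Subring.coe_mul, RedBase.coe_ι, mul_left_comm, hv, Algebra.smul_def]
    · rw [map_mul, RedBase.red_ι, hr, Pi.smul_apply, Algebra.smul_def]

theorem mem_pairImage {R : Bool → RedBase A π F Fk} {c : Bool → K} {V : Submodule K F}
    {w : Bool → Fk} : w ∈ pairImage R c V ↔ ∃ u ∈ V, ∀ i, ∃ v : (R i).O,
      algebraMap K F (c i) * (v : F) = u ∧ (R i).red v = w i := Iff.rfl

/-- The axioms of a semistable two-component reduction. -/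
structure TwoRed (A : ValuationSubring K) (π : A →+* k) (F Fk : Type*) [Field F] [Algebra K F]
    [Field Fk] [Algebra k Fk] (S : Type*) [Fintype S] where
  /-- the two constant reductions -/
  R : Bool → RedBase A π F Fk
  /-- the coordinate -/
  x : F
  x_mem : ∀ i, x ∈ (R i).O
  /-- the polar divisor of `x` -/
  G : Divisor K F
  /-- the polar divisor of the reduction of `x` on each component -/
  Gk : Bool → Divisor k Fk
  G_spec : ∀ P : Place K F, G P = max 0 (-P.ord x)
  Gk_spec : ∀ (i : Bool) (Q : Place k Fk), Gk i Q = max 0 (-Q.ord ((R i).red ⟨x, x_mem i⟩))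
  /-- the genus of `F` -/
  g : ℕ
  /-- the genus of a component -/
  gk : ℕ
  rrF : RR K F g
  rrK : RR k Fk gk
  genus_eq : g + 1 = 2 * gk + Fintype.card S
  degree_G : Divisor.degree G = Divisor.degree (Gk false) + Divisor.degree (Gk true)
  degree_Gk_pos : ∀ i, 0 < Divisor.degree (Gk i)
  /-- the valuation of `K` has rank one -/
  arch : ∀ a b : A, π a = 0 → b ≠ 0 → ∃ (n : ℕ) (c : A), a ^ n = c * b
  /-- the two branches at each node -/
  br : S → Bool → Place k Fk
  br_inj : ∀ i, Function.Injective fun s => br s i
  br_regular : ∀ s i, Gk i (br s i) = 0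
  /-- pairs of reductions see the whole of a finite-dimensional space, for any weights -/
  finrank_pair : ∀ V : Submodule K F, FiniteDimensional K V → ∀ c : Bool → K, (∀ i, c i ≠ 0) →
    Module.finrank K V ≤ Module.finrank k (pairImage R c V)
  /-- poles of the reductions, and gluing at the nodes -/
  bound : ∀ (n : ℕ) (u : F), u ∈ riemannRochSpace (n • G) → ∀ h : ∀ i, u ∈ (R i).O,
    (∀ i, (R i).red ⟨u, h i⟩ ∈ riemannRochSpace (n • Gk i)) ∧
      ∀ s, ev (br s false) ((R false).red ⟨u, h false⟩) =
        ev (br s true) ((R true).red ⟨u, h true⟩)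

variable {S : Type*} [Fintype S]

/-- A semilinear automorphism of `F` compatible with a two-component reduction. -/
structure SemiRed (T : TwoRed A π F Fk S) where
  /-- the automorphism -/
  aut : SemilinearAut K F
  /-- its residual action on constants -/
  res : k ≃+* k
  /-- its residual action on each component -/
  resF : Fk ≃+* Fk
  resF_algebraMap : ∀ a : k, resF (algebraMap k Fk a) = algebraMap k Fk (res a)
  base_mem : ∀ a : K, a ∈ A → SemilinearAut.baseAut aut a ∈ A
  pi_base : ∀ a : A, π ⟨SemilinearAut.baseAut aut a, base_mem a a.2⟩ = res (π a)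
  mem : ∀ (i : Bool) (u : F), u ∈ (T.R i).O → aut • u ∈ (T.R i).O
  red_smul : ∀ (i : Bool) (u : (T.R i).O),
    (T.R i).red ⟨aut • (u : F), mem i u u.2⟩ = resF ((T.R i).red u)
  x_fix : aut • T.x = T.x

/-- A compatible automorphism acting trivially on both reduced components (inertia). -/
def SemiRed.IsInertial {T : TwoRed A π F Fk S} (σ : SemiRed T) : Prop :=
  ∀ w : Fk, σ.resF w = w

end Fermat.Agent.TwoComponent
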