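import Fermat.Agent.FF.Duality

/-!
# Values of functions at places; functions regular away from the poles of a coordinate

`K` algebraically closed, `F/K` a function field.  `val v f` is the value of `f` at `v` (`0` at a
pole).  `regSubalgebra z` consists of the functions regular wherever `z` is: it is the coordinate
ring of the affine curve lying over the `z`-line, and its characters are the evaluations.
-/

noncomputable section

open AlgebraicCurve

namespace Fermat.Agent.TwoComponent

variable {K F : Type*} [Field K] [Field F] [Algebra K F] [IsAlgClosed K] [FF.IsFunctionField K F]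

open FF

variable (v : Place K F)

/-- The residue field of a place is `K`. -/
def resEquiv : K ≃ₐ[K] v.ResidueField :=
  AlgEquiv.ofBijective (Algebra.ofId K v.ResidueField) (algebraMap_residueField_bijective v)

/-- Evaluation on the valuation ring. -/
def valHom : v.toValuationSubring →+* K :=
  (resEquiv v).symm.toRingEquiv.toRingHom.comp (IsLocalRing.residue _)

open scoped Classical in
/-- The value of `f` at `v`; `0` at a pole. -/
def val (f : F) : K :=
  if h : f ∈ v.toValuationSubring then valHom v ⟨f, h⟩ else 0

theorem val_of_mem {f : F} (h : f ∈ v.toValuationSubring) : val v f = valHom v ⟨f, h⟩ := by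
  rw [val, dif_pos h]

theorem valHom_algebraMap (c : K) (h : algebraMap K F c ∈ v.toValuationSubring) :
    valHom v ⟨algebraMap K F c, h⟩ = c := by
  have h1 : (⟨algebraMap K F c, h⟩ : v.toValuationSubring)
      = algebraMap K v.toValuationSubring c := Subtype.ext (Place.coe_algebraMap v c).symm
  rw [h1]
  show (resEquiv v).symm (algebraMap K v.ResidueField c) = c
  rw [AlgEquiv.commutes]
  rfl

@[simp]
theorem val_algebraMap (c : K) : val v (algebraMap K F c) = c := by
  rw [val_of_mem v (v.algebraMap_mem' c), valHom_algebraMap]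

@[simp]
theorem val_zero : val v (0 : F) = 0 := by
  rw [← map_zero (algebraMap K F), val_algebraMap]

@[simp]
theorem val_one : val v (1 : F) = 1 := by
  rw [← map_one (algebraMap K F), val_algebraMap]

theorem val_add {f g : F} (hf : f ∈ v.toValuationSubring) (hg : g ∈ v.toValuationSubring) :
    val v (f + g) = val v f + val v g := by
  rw [val_of_mem v hf, val_of_mem v hg, val_of_mem v (add_mem hf hg), ← map_add]
  rfl

theorem val_sub {f g : F} (hf : f ∈ v.toValuationSubring) (hg : g ∈ v.toValuationSubring) :
    val v (f - g) = val v f - val v g := by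
  rw [val_of_mem v hf, val_of_mem v hg, val_of_mem v (sub_mem hf hg), ← map_sub]
  rfl

theorem val_mul {f g : F} (hf : f ∈ v.toValuationSubring) (hg : g ∈ v.toValuationSubring) :
    val v (f * g) = val v f * val v g := by
  rw [val_of_mem v hf, val_of_mem v hg, val_of_mem v (mul_mem hf hg), ← map_mul]
  rfl

theorem val_smul (c : K) {f : F} (hf : f ∈ v.toValuationSubring) :
    val v (algebraMap K F c * f) = c * val v f := by
  rw [val_mul v (v.algebraMap_mem' c) hf, val_algebraMap]

theorem valHom_eq_zero_iff (x : v.toValuationSubring) :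
    valHom v x = 0 ↔ ¬ IsUnit x := by
  show (resEquiv v).symm (IsLocalRing.residue _ x) = 0 ↔ _
  rw [map_eq_zero_iff _ (resEquiv v).symm.injective, IsLocalRing.residue_eq_zero_iff,
    IsLocalRing.mem_maximalIdeal, mem_nonunits_iff]

/-- `f` vanishes at `v` iff it lies in the maximal ideal. -/
theorem val_eq_zero_iff {f : F} (hf : f ∈ v.toValuationSubring) :
    val v f = 0 ↔ f ∈ poleLe v (-1) := by
  rw [val_of_mem v hf, valHom_eq_zero_iff, ← v.adicValuation_coe_eq_one_iff, mem_poleLe]
  rcases eq_or_ne f 0 with rfl | hf0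
  · simp
  rw [v.adicValuation_eq_exp_neg_ord hf0, ← WithZero.exp_zero, WithZero.exp_inj]
  have := (mem_iff_ord_nonneg v).mp hf
  simp only [hf0, false_or, neg_neg]
  omega

theorem val_eq_iff {f : F} (hf : f ∈ v.toValuationSubring) (c : K) :
    val v f = c ↔ f - algebraMap K F c ∈ poleLe v (-1) := by
  rw [← val_eq_zero_iff v (sub_mem hf (v.algebraMap_mem' c)), val_sub v hf (v.algebraMap_mem' c),
    val_algebraMap, sub_eq_zero]

theorem val_ne_zero_iff {f : F} (hf : f ∈ v.toValuationSubring) (hf0 : f ≠ 0) :
    val v f ≠ 0 ↔ v.ord f = 0 := by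
  rw [Ne, val_eq_zero_iff v hf, mem_poleLe_of_ne v hf0]
  have := (mem_iff_ord_nonneg v).mp hf
  omega

theorem ord_eq_zero_of_val_ne_zero {f : F} (hf : f ∈ v.toValuationSubring) (h : val v f ≠ 0) :
    v.ord f = 0 :=
  (val_ne_zero_iff v hf (fun h0 => h (by rw [h0, val_zero]))).mp h

/-! ### Functions regular away from the poles of `z` -/

variable (z : F)

/-- The functions regular wherever `z` is regular. -/
def regSubalgebra : Subalgebra K F where
  carrier := {f | ∀ w : Place K F, z ∈ w.toValuationSubring → f ∈ w.toValuationSubring}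
  mul_mem' hf hg w hw := mul_mem (hf w hw) (hg w hw)
  one_mem' _ _ := one_mem _
  add_mem' hf hg w hw := add_mem (hf w hw) (hg w hw)
  zero_mem' _ _ := zero_mem _
  algebraMap_mem' c w _ := w.algebraMap_mem' c

omit [IsAlgClosed K] [IsFunctionField K F] in
theorem self_mem_regSubalgebra : z ∈ regSubalgebra (K := K) z := fun _ h => h

theorem poleDiv_eq_zero_of_mem {w : Place K F} (hw : z ∈ w.toValuationSubring) :
    poleDiv (K := K) z w = 0 := by
  rw [poleDiv_apply]
  have := (mem_iff_ord_nonneg w).mp hw
  omega

theorem mem_reg_of_mem_rrSpace {n : ℕ} {f : F}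
    (hf : f ∈ riemannRochSpace ((n : ℤ) • poleDiv (K := K) z)) : f ∈ regSubalgebra (K := K) z := by
  intro w hw
  have h1 := hf w
  rw [Finsupp.smul_apply, poleDiv_eq_zero_of_mem z hw, smul_zero] at h1
  exact (poleLe_zero_eq w).mp h1

theorem exists_mem_rrSpace_of_mem_reg {f : F} (hf : f ∈ regSubalgebra (K := K) z) :
    ∃ n : ℕ, f ∈ riemannRochSpace ((n : ℤ) • poleDiv (K := K) z) := by
  classical
  refine ⟨(poleDiv (K := K) f).support.sup fun w => (-w.ord f).toNat, fun w => ?_⟩
  by_cases hw : z ∈ w.toValuationSubring
  · rw [Finsupp.smul_apply, poleDiv_eq_zero_of_mem z hw, smul_zero]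
    exact (poleLe_zero_eq w).mpr (hf w hw)
  · refine (mem_poleLe w).mpr ?_
    rcases eq_or_ne f 0 with h | h
    · exact Or.inl h
    refine Or.inr ?_
    have hp : (1 : ℤ) ≤ poleDiv (K := K) z w := by
      rw [mem_iff_ord_nonneg] at hw
      rw [poleDiv_apply]; omega
    set n := (poleDiv (K := K) f).support.sup fun w => (-w.ord f).toNat with hn
    have hb : -w.ord f ≤ n := by
      by_cases hm : w ∈ (poleDiv (K := K) f).support
      · have := Finset.le_sup (f := fun w => (-w.ord f).toNat) hm
        simp only [← hn] at this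
        omega
      · rw [Finsupp.notMem_support_iff, poleDiv_apply] at hm
        omega
    rw [Finsupp.smul_apply, smul_eq_mul]
    nlinarith

variable {z}

theorem degree_poleDiv_pos (hz : Transcendental K z) :
    0 < Divisor.degree (poleDiv (K := K) z) := by
  have := finiteDimensional_adjoin_of_transcendental (K := K) hz
  rw [degree_poleDiv hz]
  exact_mod_cast Module.finrank_pos

/-- Interpolation: prescribed values, to any order, at finitely many affine points. -/
theorem exists_interp (hz : Transcendental K z) (S : Finset (Place K F))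
    (hS : ∀ x ∈ S, z ∈ x.toValuationSubring) (c : Place K F → K) (M : ℕ) :
    ∃ f ∈ regSubalgebra (K := K) z, ∀ x ∈ S,
      f - algebraMap K F (c x) ∈ poleLe x (-(M : ℤ)) := by
  classical
  have hd := degree_poleDiv_pos hz
  have key : ∀ x ∈ S, ∃ g ∈ regSubalgebra (K := K) z,
      g - 1 ∈ poleLe x (-(M : ℤ)) ∧ ∀ y ∈ S, y ≠ x → g ∈ poleLe y (-(M : ℤ)) := by
    intro x hx
    set Y : Divisor K F := ∑ y ∈ S.erase x, Finsupp.single y (M : ℤ) with hY
    have hYapp : ∀ y, Y y = if y ∈ S.erase x then (M : ℤ) else 0 := fun y => by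
      rw [hY, Finsupp.finsetSum_apply]
      simp [Finsupp.single_apply]
    set n : ℕ := (Divisor.degree Y + 2 * genusFF K F + 1).toNat with hn
    set D : Divisor K F := (n : ℤ) • poleDiv (K := K) z - Y with hD
    have hdeg : 2 * (genusFF K F : ℤ) ≤ Divisor.degree D := by
      have h0 : Divisor.degree Y + 2 * genusFF K F + 1 ≤ (n : ℤ) := by rw [hn]; omega
      have h1 : (n : ℤ) ≤ n * Divisor.degree (poleDiv (K := K) z) :=
        le_mul_of_one_le_right (Int.natCast_nonneg n) hd
      rw [hD, map_sub, map_zsmul, smul_eq_mul]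
      omega
    obtain ⟨e, he, hne⟩ : ∃ e ∈ riemannRochSpace D,
        e ∉ riemannRochSpace (D - Finsupp.single x 1) := by
      by_contra hcon
      push Not at hcon
      have hx1 : Divisor.degree (D - Finsupp.single x 1) = Divisor.degree D - 1 := by
        rw [map_sub, degree_eq_sum (Finsupp.single x 1), Finsupp.sum_single_index rfl]
      have h1 := ell_eq_of_large_degree (D := D) (by omega)
      have h2 := ell_eq_of_large_degree (D := D - Finsupp.single x 1) (by omega)
      have h3 : ell D ≤ ell (D - Finsupp.single x 1) :=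
        Submodule.finrank_mono (fun f hf => hcon f hf)
      omega
    have hereg : e ∈ regSubalgebra (K := K) z := by
      refine mem_reg_of_mem_rrSpace (n := n) z (rrSpace_mono (fun y => ?_) he)
      rw [hD, Finsupp.sub_apply, hYapp]
      split_ifs <;> omega
    have hxO : e ∈ x.toValuationSubring := hereg x (hS x hx)
    have hval : val x e ≠ 0 := by
      intro h0
      refine hne fun y => ?_
      rcases eq_or_ne y x with rfl | hy
      · rw [Finsupp.sub_apply, Finsupp.single_eq_same, hD, Finsupp.sub_apply, Finsupp.smul_apply,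
          poleDiv_eq_zero_of_mem z (hS _ hx), hYapp, if_neg (Finset.notMem_erase _ _),
          smul_zero, sub_zero, zero_sub]
        exact (val_eq_zero_iff _ hxO).mp h0
      · rw [Finsupp.sub_apply, Finsupp.single_eq_of_ne hy, sub_zero]
        exact he y
    set e₁ : F := algebraMap K F (val x e)⁻¹ * e with he₁
    have he₁reg : e₁ ∈ regSubalgebra (K := K) z :=
      mul_mem (Subalgebra.algebraMap_mem _ _) hereg
    refine ⟨1 - (1 - e₁) ^ M, sub_mem (one_mem _) (pow_mem (sub_mem (one_mem _) he₁reg) _), ?_,
      fun y hy hyx => ?_⟩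
    · rw [sub_sub_cancel_left]
      refine neg_mem ?_
      have h1 : 1 - e₁ ∈ poleLe x (-1) := by
        rw [← val_eq_zero_iff x (sub_mem (one_mem _) (he₁reg x (hS x hx))),
          val_sub x (one_mem _) (he₁reg x (hS x hx)), val_one, he₁, val_smul x _ hxO,
          inv_mul_cancel₀ hval, sub_self]
      clear_value e₁
      induction M with
      | zero => simpa using (poleLe_zero_eq x).mpr (one_mem _)
      | succ M _ =>
        refine (mem_poleLe x).mpr ?_
        rcases (mem_poleLe x).mp h1 with h | h
        · exact Or.inl (by rw [h, zero_pow (Nat.succ_ne_zero _)])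
        · refine Or.inr ?_
          rw [FF.ord_pow]
          push_cast
          nlinarith
    · rw [show (1 : F) - (1 - e₁) ^ M
          = e₁ * ∑ i ∈ Finset.range M, (1 - e₁) ^ i by
        rw [mul_comm, ← geom_sum_mul_neg (1 - e₁) M, sub_sub_cancel]]
      have h1 : e ∈ poleLe y (-(M : ℤ)) := by
        have := he y
        rwa [hD, Finsupp.sub_apply, Finsupp.smul_apply, poleDiv_eq_zero_of_mem z (hS y hy), hYapp,
          if_pos (Finset.mem_erase.mpr ⟨hyx, hy⟩), smul_zero, zero_sub] at this
      have h2 : algebraMap K F (val x e)⁻¹ * (∑ i ∈ Finset.range M, (1 - e₁) ^ i)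
          ∈ poleLe y 0 :=
        (poleLe_zero_eq y).mpr (mul_mem (y.algebraMap_mem' _)
          (sum_mem fun i _ => pow_mem (sub_mem (one_mem _) (he₁reg y (hS y hy))) _))
      have h3 := mul_mem_poleLe y h1 h2
      rw [add_zero] at h3
      convert h3 using 1
      rw [he₁]
      ring
  choose g hg hg1 hg2 using key
  refine ⟨∑ x ∈ S.attach, algebraMap K F (c x) * g x x.2,
    sum_mem fun x _ => mul_mem (Subalgebra.algebraMap_mem _ _) (hg x x.2), fun x hx => ?_⟩
  rw [← Finset.add_sum_erase _ _ (Finset.mem_attach S ⟨x, hx⟩), add_sub_right_comm, ← mul_sub_one]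
  refine add_mem ?_ (sum_mem fun y hy => ?_)
  · rw [← Algebra.smul_def]
    exact Submodule.smul_mem _ _ (hg1 x hx)
  · rw [← Algebra.smul_def]
    refine Submodule.smul_mem _ _ (hg2 y y.2 x hx fun h => Finset.ne_of_mem_erase hy ?_)
    exact Subtype.ext h.symm

end Fermat.Agent.TwoComponent
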