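import Fermat.Prelude.Def_AlgebraicCurve_BaseChangeGalois
import Fermat.Agent.Red.Basic
import Fermat.Agent.TwoComponent.Val

/-!
# Reductions to pairs of functions, and compatible pairs

`PairRed A π F C₁ C₂` is a reduction of the function field `F/K` along `π : A →+* k` to pairs of
functions on two curves; `compat nodes D₁ D₂` consists of the pairs in given Riemann–Roch spaces
which glue at finitely many pairs of points (`nodes`).
-/

noncomputable section

open AlgebraicCurve

namespace Fermat.Agent.TwoComponent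

open FF

variable {K F k C₁ C₂ : Type*} [Field K] [Field F] [Algebra K F] [Field k] [Field C₁] [Algebra k C₁]
  [Field C₂] [Algebra k C₂]

/-- A reduction of functions to pairs of functions. -/
abbrev PairRed (A : ValuationSubring K) (π : A →+* k) (F C₁ C₂ : Type*) [Field F] [Algebra K F]
    [Field C₁] [Algebra k C₁] [Field C₂] [Algebra k C₂] :=
  Red.RedBase A π F (C₁ × C₂)

variable [IsAlgClosed k] [FF.IsFunctionField k C₁] [FF.IsFunctionField k C₂]

/-- Pairs of functions in given Riemann–Roch spaces which are regular and take equal values at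
the nodes. -/
def compat (nodes : Finset (Place k C₁ × Place k C₂)) (D₁ : Divisor k C₁) (D₂ : Divisor k C₂) :
    Submodule k (C₁ × C₂) where
  carrier := {g | g.1 ∈ riemannRochSpace D₁ ∧ g.2 ∈ riemannRochSpace D₂ ∧
    ∀ x ∈ nodes, g.1 ∈ x.1.toValuationSubring ∧ g.2 ∈ x.2.toValuationSubring ∧
      val x.1 g.1 = val x.2 g.2}
  zero_mem' := ⟨zero_mem _, zero_mem _, fun x _ =>
    ⟨zero_mem _, zero_mem _, by rw [Prod.fst_zero, Prod.snd_zero, val_zero, val_zero]⟩⟩
  add_mem' := by
    rintro f g ⟨hf1, hf2, hf3⟩ ⟨hg1, hg2, hg3⟩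
    refine ⟨add_mem hf1 hg1, add_mem hf2 hg2, fun x hx => ?_⟩
    obtain ⟨a1, a2, a3⟩ := hf3 x hx
    obtain ⟨b1, b2, b3⟩ := hg3 x hx
    exact ⟨add_mem a1 b1, add_mem a2 b2, by
      rw [Prod.fst_add, Prod.snd_add, val_add _ a1 b1, val_add _ a2 b2, a3, b3]⟩
  smul_mem' := by
    rintro c f ⟨hf1, hf2, hf3⟩
    refine ⟨Submodule.smul_mem _ c hf1, Submodule.smul_mem _ c hf2, fun x hx => ?_⟩
    obtain ⟨a1, a2, a3⟩ := hf3 x hx
    rw [Prod.smul_fst, Prod.smul_snd, Algebra.smul_def, Algebra.smul_def]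
    exact ⟨mul_mem (x.1.algebraMap_mem' c) a1, mul_mem (x.2.algebraMap_mem' c) a2, by
      rw [val_smul _ c a1, val_smul _ c a2, a3]⟩

instance finite_compat (nodes : Finset (Place k C₁ × Place k C₂)) (D₁ : Divisor k C₁)
    (D₂ : Divisor k C₂) : FiniteDimensional k (compat nodes D₁ D₂) :=
  haveI : FiniteDimensional k ((riemannRochSpace D₁).prod (riemannRochSpace D₂)) :=
    Module.Finite.iff_fg.mpr
      ((Module.Finite.iff_fg.mp inferInstance).prod (Module.Finite.iff_fg.mp inferInstance))
  Submodule.finiteDimensional_of_le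
    (S₂ := (riemannRochSpace D₁).prod (riemannRochSpace D₂)) fun _ hg => ⟨hg.1, hg.2.1⟩

end Fermat.Agent.TwoComponent
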