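import Fermat.Agent.Red.Monomial
import Fermat.Agent.TwoComponent.Defs
import Fermat.Agent.TwoComponent.TwoComp

/-!
# Two Gauss reductions with a split lifted basis

A `Frame` is a pair of reductions `R false`, `R true` of `F` with a common coordinate `x`, and a
family of `[F : K(x)]` functions, each reducing to zero on one side and forming a basis over
`k(red x)` on the other side. It follows that pairs of reductions see every finite-dimensional
space, for all weights, and that all reductions lie in any field containing the reduced family.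
-/

noncomputable section

open AlgebraicCurve Polynomial IntermediateField Fermat.Agent.Red

namespace Fermat.Agent.TwoComponent

variable {K k F C : Type*} [Field K] [Field F] [Algebra K F] [Field k] [Field C] [Algebra k C]
variable {A : ValuationSubring K} {π : A →+* k}

theorem mem_of_mul_mem (R : RedBase A π F C) {n : R.O} (hn : R.red n ≠ 0) {u : F}
    (h : (n : F) * u ∈ R.O) : u ∈ R.O := by
  rcases eq_or_ne u 0 with rfl | hu
  · exact zero_mem _
  obtain ⟨c, v, hv, huv⟩ := R.scale u hu
  have hnv : R.red (n * v) ≠ 0 := by rw [map_mul]; exact mul_ne_zero hn hv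
  have hc := R.mem_of_smul_mem hnv (c := c) (f := ⟨_, h⟩)
    (by show (n : F) * u = _; rw [Subring.coe_mul, huv]; ring)
  rw [huv]
  exact mul_mem (R.algebraMap_mem ⟨c, hc⟩) v.2

/-- The product of two reductions. -/
def pairRedOf (R : Bool → RedBase A π F C) : PairRed A π F C C where
  O := (R false).O ⊓ (R true).O
  red := RingHom.prod ((R false).red.comp (Subring.inclusion inf_le_left))
    ((R true).red.comp (Subring.inclusion inf_le_right))
  algebraMap_mem a := ⟨(R false).algebraMap_mem a, (R true).algebraMap_mem a⟩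
  red_algebraMap a := Prod.ext ((R false).red_algebraMap a) ((R true).red_algebraMap a)
  scale f hf := by
    have key : ∀ (i i' : Bool) (c c' : K) (v : (R i).O) (v' : (R i').O),
        (R i).red v ≠ 0 → f = algebraMap K F c * (v : F) → f = algebraMap K F c' * (v' : F) →
        A.valuation c' ≤ A.valuation c → ∃ u : F, f = algebraMap K F c * u ∧
          (∃ h : u ∈ (R i).O, (R i).red ⟨u, h⟩ ≠ 0) ∧ u ∈ (R i').O := by
      intro i i' c c' v v' hv h h' hle
      have hc : c ≠ 0 := by rintro rfl; simp [h] at hf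
      have hd : c' / c ∈ A := by
        rw [← A.valuation_le_one_iff, map_div₀]
        exact div_le_one_of_le₀ hle zero_le
      refine ⟨v, h, ⟨v.2, hv⟩, ?_⟩
      have : (v : F) = algebraMap K F (c' / c) * v' := by
        have e := h.symm.trans h'
        rw [map_div₀, div_mul_eq_mul_div, eq_div_iff ((_root_.map_ne_zero _).mpr hc), ← e, mul_comm]
      rw [this]
      exact mul_mem ((R i').algebraMap_mem ⟨_, hd⟩) v'.2
    obtain ⟨c, v, hv, h⟩ := (R false).scale f hf
    obtain ⟨c', v', hv', h'⟩ := (R true).scale f hf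
    rcases le_total (A.valuation c') (A.valuation c) with hle | hle
    · obtain ⟨u, hu, ⟨m0, hne⟩, m1⟩ := key false true c c' v v' hv h h' hle
      exact ⟨c, ⟨u, m0, m1⟩, fun h0 => hne (congrArg Prod.fst h0), hu⟩
    · obtain ⟨u, hu, ⟨m1, hne⟩, m0⟩ := key true false c' c v' v hv' h' h hle
      exact ⟨c', ⟨u, m0, m1⟩, fun h0 => hne (congrArg Prod.snd h0), hu⟩
  surj_pi := (R false).surj_pi

/-- The `i`-th component of a pair, as a linear map. -/
def selLin (i : Bool) : (C × C) →ₗ[k] C :=
  Bool.rec (LinearMap.fst k C C) (LinearMap.snd k C C) i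

theorem pair_ext {a b : C × C} (h : ∀ i, selLin (k := k) i a = selLin (k := k) i b) : a = b :=
  Prod.ext (h false) (h true)

theorem pairRedOf_mem {R : Bool → RedBase A π F C} {f : F} :
    f ∈ (pairRedOf R).O ↔ ∀ i, f ∈ (R i).O :=
  ⟨fun h i => by cases i; exacts [h.1, h.2], fun h => ⟨h false, h true⟩⟩

theorem selLin_red (R : Bool → RedBase A π F C) (i : Bool) (u : (pairRedOf R).O) :
    selLin (k := k) i ((pairRedOf R).red u) = (R i).red ⟨u, pairRedOf_mem.mp u.2 i⟩ := by
  cases i <;> rfl

/-- Two reductions with a split lifted basis. -/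
structure Frame (A : ValuationSubring K) (π : A →+* k) (F C : Type*) [Field F] [Algebra K F]
    [Field C] [Algebra k C] where
  /-- the two reductions -/
  R : Bool → RedBase A π F C
  /-- the coordinate -/
  x : F
  x_mem : ∀ i, x ∈ (R i).O
  transcendental : ∀ i, Transcendental k ((R i).red ⟨x, x_mem i⟩)
  /-- the degree on each side -/
  d : ℕ
  d_pos : 0 < d
  /-- the split family -/
  m : Bool → Fin d → F
  m_mem : ∀ i l i', m i l ∈ (R i').O
  m_red : ∀ i l i', i' ≠ i → (R i').red ⟨m i l, m_mem i l i'⟩ = 0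
  linearIndependent : ∀ i, LinearIndependent (k⟮(R i).red ⟨x, x_mem i⟩⟯)
    fun l => (R i).red ⟨m i l, m_mem i l i⟩
  finrank_eq : Module.finrank (K⟮x⟯) F = 2 * d
  /-- an element of the maximal ideal -/
  θ : A
  π_θ : π θ = 0
  θ_ne : θ ≠ 0
  arch : ∀ a b : A, π a = 0 → b ≠ 0 → ∃ (n : ℕ) (c : A), a ^ n = c * b
  /-- a function nonzero on side `i` and small on the other -/
  sh : Bool → F
  sh_mem : ∀ i i', sh i ∈ (R i').O
  sh_red : ∀ i, (R i).red ⟨sh i, sh_mem i i⟩ ≠ 0
  sh_small : ∀ i, ∃ v ∈ (R (!i)).O, sh i = algebraMap K F (θ : K) * v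

namespace Frame

variable (G : Frame A π F C)

/-- The pair of reductions of the frame. -/
abbrev P : PairRed A π F C C := pairRedOf G.R

/-- The reduction of the coordinate on side `i`. -/
def xb (i : Bool) : C := (G.R i).red ⟨G.x, G.x_mem i⟩

/-- The coordinate, as an element of the ring of the pair of reductions. -/
def xP : G.P.O := ⟨G.x, pairRedOf_mem.mpr G.x_mem⟩

/-- The monomial `x^j m` of an element `m` of the family. -/
def mon (p : ℕ × Bool × Fin G.d) : G.P.O :=
  G.xP ^ p.1 * ⟨G.m p.2.1 p.2.2, pairRedOf_mem.mpr (G.m_mem _ _)⟩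

theorem selLin_red_mon (i : Bool) (p : ℕ × Bool × Fin G.d) :
    selLin (k := k) i (G.P.red (G.mon p)) =
      G.xb i ^ p.1 * (G.R i).red ⟨G.m p.2.1 p.2.2, G.m_mem _ _ i⟩ := by
  rw [selLin_red, xb, ← map_pow, ← map_mul]
  rfl

theorem linearIndependent_pow (i : Bool) : LinearIndependent k fun j : ℕ => G.xb i ^ j := by
  have hinj : Function.Injective (Polynomial.aeval (R := k) (G.xb i)) :=
    transcendental_iff_injective.mp (G.transcendental i)
  have := (Polynomial.basisMonomials k).linearIndependent.map'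
    (Polynomial.aeval (R := k) (G.xb i)).toLinearMap (LinearMap.ker_eq_bot.mpr hinj)
  simpa [Function.comp_def, Polynomial.coe_basisMonomials] using this

theorem linearIndependent_side (i : Bool) :
    LinearIndependent k fun p : ℕ × Fin G.d =>
      G.xb i ^ p.1 * (G.R i).red ⟨G.m i p.2, G.m_mem _ _ i⟩ := by
  have h1 : LinearIndependent k fun j : ℕ => (AdjoinSimple.gen k (G.xb i)) ^ j := by
    refine LinearIndependent.of_comp (k⟮G.xb i⟯.val.toLinearMap) ?_
    simpa [Function.comp_def, map_pow] using G.linearIndependent_pow i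
  have : IsScalarTower k (k⟮G.xb i⟯) C := IsScalarTower.of_algebraMap_eq fun _ => rfl
  refine (linearIndependent_equiv' (Equiv.refl _) ?_).mp
    (linearIndependent_smul h1 (show LinearIndependent (k⟮G.xb i⟯)
      fun l => (G.R i).red ⟨G.m i l, G.m_mem i l i⟩ from G.linearIndependent i))
  funext p
  simp only [Equiv.refl_apply, Function.comp_apply]
  rfl

theorem linearIndependent_red_mon : LinearIndependent k fun p => G.P.red (G.mon p) := by
  classical
  rw [linearIndependent_iff']
  intro s g hg p hp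
  obtain ⟨j, i, l⟩ := p
  have h := congrArg (selLin (k := k) i) hg
  simp only [map_sum, map_smul, map_zero, G.selLin_red_mon] at h
  rw [← Finset.sum_filter_add_sum_filter_not s (fun p => p.2.1 = i),
    Finset.sum_eq_zero (s := s.filter fun p => ¬ p.2.1 = i) (fun p hp => by
      rw [G.m_red _ _ i (fun e => (Finset.mem_filter.mp hp).2 e.symm), mul_zero, smul_zero]),
    add_zero] at h
  have hinj : Set.InjOn (fun p : ℕ × Bool × Fin G.d => (p.1, p.2.2))
      (s.filter fun p => p.2.1 = i : Finset _) := by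
    rintro ⟨a, b, c⟩ ha ⟨a', b', c'⟩ ha' e
    simp only [Finset.coe_filter, Set.mem_ofPred_eq] at ha ha'
    simp only [Prod.mk.injEq] at e ⊢
    exact ⟨e.1, ha.2.trans ha'.2.symm, e.2⟩
  have h2 : ∑ r ∈ (s.filter fun p => p.2.1 = i).image (fun p => (p.1, p.2.2)),
      g (r.1, i, r.2) • (G.xb i ^ r.1 * (G.R i).red ⟨G.m i r.2, G.m_mem _ _ i⟩) = 0 := by
    rw [Finset.sum_image hinj, ← h]
    refine Finset.sum_congr rfl fun p hp => ?_
    obtain ⟨a, b, c⟩ := p
    obtain rfl : b = i := (Finset.mem_filter.mp hp).2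
    rfl
  exact linearIndependent_iff'.mp (G.linearIndependent_side i) _ (fun r => g (r.1, i, r.2)) h2
    (j, l) (Finset.mem_image.mpr ⟨(j, i, l), Finset.mem_filter.mpr ⟨hp, rfl⟩, rfl⟩)

theorem linearIndependent_mon (s : Finset (ℕ × Bool × Fin G.d)) :
    LinearIndependent K fun p : s => (G.mon p : F) :=
  G.P.linearIndependent_lift _ (G.linearIndependent_red_mon.comp _ Subtype.val_injective)

theorem linearIndependent_all : LinearIndependent K fun p => (G.mon p : F) := by
  rw [linearIndependent_iff']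
  intro s g hg p hp
  have h := G.linearIndependent_mon s
  rw [Fintype.linearIndependent_iff] at h
  exact h (fun p => g p) (by rw [← hg, ← Finset.sum_coe_sort s]) ⟨p, hp⟩

theorem transcendental_x : Transcendental K G.x := by
  intro hx
  obtain ⟨q, hq, hq0⟩ := hx
  have hl : LinearIndependent K fun j : ℕ => G.x ^ j := by
    have h := (G.linearIndependent_all).comp (fun j : ℕ => (j, false, (⟨0, G.d_pos⟩ : Fin G.d)))
      fun a b h => (Prod.mk.injEq _ _ _ _ ▸ h).1
    refine LinearIndependent.of_comp (LinearMap.mulRight K (G.m false ⟨0, G.d_pos⟩)) ?_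
    exact h
  refine hq ?_
  ext j
  rw [coeff_zero]
  rw [Polynomial.aeval_eq_sum_range] at hq0
  rcases le_or_gt j q.natDegree with hj | hj
  · exact linearIndependent_iff'.mp hl _ q.coeff hq0 j (Finset.mem_range.mpr (Nat.lt_succ_of_le hj))
  · exact coeff_eq_zero_of_natDegree_lt hj

/-- The span of the monomials of the frame. -/
def monSpan : Submodule K F := monomialSpan K G.x fun p : Bool × Fin G.d => G.m p.1 p.2

theorem coe_mon (p : ℕ × Bool × Fin G.d) : (G.mon p : F) = G.x ^ p.1 * G.m p.2.1 p.2.2 := rfl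

theorem linearIndependent_m : LinearIndependent (K⟮G.x⟯) fun p : Bool × Fin G.d => G.m p.1 p.2 :=
  linearIndependent_adjoin_of_monomial _ _ G.linearIndependent_all

/-- One polynomial in `x` clears a finite-dimensional space relative to the family. -/
theorem exists_clear_finite (V : Submodule K F) (hV : V.FG) :
    ∃ q : K[X], q ≠ 0 ∧ ∀ f ∈ V, Polynomial.aeval G.x q * f ∈ G.monSpan := by
  have : FiniteDimensional (K⟮G.x⟯) F :=
    FiniteDimensional.of_finrank_pos (by rw [G.finrank_eq]; exact Nat.mul_pos two_pos G.d_pos)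
  exact exists_aeval_mul_mem_monomialSpan _ _
    (G.linearIndependent_m.span_eq_top_of_card_eq_finrank'
      (by rw [Fintype.card_prod, Fintype.card_bool, Fintype.card_fin, G.finrank_eq])) V hV

/-- Every function has a polynomial denominator relative to the family. -/
theorem exists_clear (f : F) :
    ∃ q : K[X], q ≠ 0 ∧ Polynomial.aeval G.x q * f ∈ G.monSpan :=
  have ⟨q, hq, h⟩ := G.exists_clear_finite (K ∙ f) (Submodule.fg_span_singleton f)
  ⟨q, hq, h f (Submodule.mem_span_singleton_self f)⟩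

/-- A nonzero polynomial in `x` is a scalar times a function with both reductions nonzero. -/
theorem exists_primitive_aeval {q : K[X]} (hq : q ≠ 0) :
    ∃ c : K, c ≠ 0 ∧ ∃ n : G.P.O, (∀ i, selLin (k := k) i (G.P.red n) ≠ 0) ∧
      (∀ i, selLin (k := k) i (G.P.red n) ∈ k⟮G.xb i⟯) ∧
      Polynomial.aeval G.x q = algebraMap K F c * (n : F) := by
  classical
  obtain ⟨j₁, hj₁, hmax⟩ := (Finset.range (q.natDegree + 1)).exists_max_image
    (fun j => A.valuation (q.coeff j)) ⟨0, by simp⟩
  have hc : q.coeff j₁ ≠ 0 := fun h0 => leadingCoeff_ne_zero.mpr hq <|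
    (map_eq_zero A.valuation).mp <| le_zero_iff.mp <| by
      simpa [h0] using hmax q.natDegree (by simp)
  have hd : ∀ j, q.coeff j / q.coeff j₁ ∈ A := fun j => by
    rcases le_or_gt j q.natDegree with hj | hj
    · rw [← A.valuation_le_one_iff, map_div₀]
      exact div_le_one_of_le₀ (hmax j (Finset.mem_range.mpr (Nat.lt_succ_of_le hj))) zero_le
    · rw [coeff_eq_zero_of_natDegree_lt hj, zero_div]; exact A.zero_mem
  refine ⟨q.coeff j₁, hc, ∑ j ∈ Finset.range (q.natDegree + 1),
    G.P.ι ⟨_, hd j⟩ * G.xP ^ j, fun i h0 => ?_, fun i => ?_, ?_⟩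
  · have h : ∑ j ∈ Finset.range (q.natDegree + 1), π ⟨_, hd j⟩ • G.xb i ^ j = 0 := by
      rw [← h0, map_sum, map_sum]
      refine Finset.sum_congr rfl fun j _ => ?_
      rw [map_mul, RedBase.red_ι, ← Algebra.smul_def, map_smul, selLin_red, xb, ← map_pow]
      rfl
    have h1 := linearIndependent_iff'.mp (G.linearIndependent_pow i) _ _ h j₁ hj₁
    rw [show (⟨_, hd j₁⟩ : A) = 1 from Subtype.ext (div_self hc), map_one] at h1
    exact one_ne_zero h1
  · rw [map_sum, map_sum]
    refine sum_mem fun j _ => ?_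
    rw [map_mul, RedBase.red_ι, ← Algebra.smul_def, map_smul, selLin_red, Algebra.smul_def]
    refine mul_mem ((k⟮G.xb i⟯).algebraMap_mem _) ?_
    exact (congrArg (fun z => z ∈ k⟮G.xb i⟯) (map_pow ((G.R i).red) ⟨G.x, G.x_mem i⟩ j)).mpr
      (pow_mem (IntermediateField.mem_adjoin_simple_self k (G.xb i)) j)
  · rw [Polynomial.aeval_eq_sum_range, AddSubmonoidClass.coe_finsetSum, Finset.mul_sum]
    refine Finset.sum_congr rfl fun j _ => ?_
    rw [Subring.coe_mul, RedBase.coe_ι, SubmonoidClass.coe_pow, ← mul_assoc, ← map_mul,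
      mul_div_cancel₀ _ hc, Algebra.smul_def]
    rfl

/-- Finite-dimensional spaces have pairs of reductions of full rank. -/
theorem finrank_redImage (V : Submodule K F) [FiniteDimensional K V] :
    Module.finrank k (G.P.redImage V) = Module.finrank K V := by
  classical
  refine le_antisymm (G.P.finrank_redImage_le V) ?_
  obtain ⟨q, hq, hqV⟩ := G.exists_clear_finite V ((Submodule.fg_iff_finiteDimensional V).mpr
    inferInstance)
  obtain ⟨c, hc, n, hn, -, hqe⟩ := G.exists_primitive_aeval hq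
  have hn0 : (n : F) ≠ 0 := G.P.coe_ne_zero fun h0 => hn false (by rw [h0, map_zero])
  set V' := V.map (LinearMap.mulLeft K (n : F)) with hV'
  have hV'mon : V' ≤ G.monSpan := by
    rintro _ ⟨f, hf, rfl⟩
    have := G.monSpan.smul_mem c⁻¹ (hqV f hf)
    rwa [hqe, Algebra.smul_def, ← mul_assoc, ← mul_assoc, ← map_mul, inv_mul_cancel₀ hc, map_one,
      one_mul] at this
  obtain ⟨s, hs⟩ := exists_finset_le_span (fun p => (G.mon p : F))
    ((Submodule.fg_iff_finiteDimensional V').mpr inferInstance) hV'mon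
  set L := Submodule.span K (Set.range fun p : s => (G.mon p : F)) with hL
  have : FiniteDimensional K L := FiniteDimensional.span_of_finite K (Set.finite_range _)
  have hfull : Module.finrank k (G.P.redImage L) = Module.finrank K L := by
    refine le_antisymm (G.P.finrank_redImage_le L) ?_
    rw [hL, finrank_span_eq_card (G.linearIndependent_mon s)]
    have h1 : LinearIndependent k fun p : s =>
        (⟨G.P.red (G.mon p), ⟨G.mon p, Submodule.subset_span ⟨p, rfl⟩, rfl⟩⟩ :
          G.P.redImage L) :=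
      LinearIndependent.of_comp (G.P.redImage L).subtype
        (G.linearIndependent_red_mon.comp _ Subtype.val_injective)
    exact h1.fintype_card_le_finrank
  have h2 := G.P.finrank_redImage_eq_of_le hfull hs
  have h3 : G.P.redImage V' ≤ (G.P.redImage V).map (LinearMap.mulLeft k (G.P.red n)) := by
    rintro _ ⟨w, ⟨f, hf, hfw⟩, rfl⟩
    rw [LinearMap.mulLeft_apply] at hfw
    have hfO : f ∈ G.P.O := pairRedOf_mem.mpr fun i =>
      mem_of_mul_mem (G.R i) (n := ⟨n, pairRedOf_mem.mp n.2 i⟩) (by rw [← selLin_red]; exact hn i)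
        (by show (n : F) * f ∈ _; rw [hfw]; exact pairRedOf_mem.mp w.2 i)
    refine ⟨G.P.red ⟨f, hfO⟩, ⟨⟨f, hfO⟩, hf, rfl⟩, ?_⟩
    show G.P.red n * G.P.red ⟨f, hfO⟩ = G.P.red w
    rw [← map_mul]
    exact congrArg G.P.red (Subtype.ext hfw)
  have h4 := (Submodule.finrank_mono h3).trans (Submodule.finrank_map_le _ _)
  rw [h2, (Submodule.equivMapOfInjective _ (mul_right_injective₀ hn0) V).finrank_eq.symm] at h4
  exact h4

theorem exists_pow_small (c : K) : ∃ N : ℕ, ∀ M : ℕ, N ≤ M →
    ∃ h : c * (G.θ : K) ^ M ∈ A, π ⟨_, h⟩ = 0 := by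
  obtain ⟨n, hn⟩ : ∃ n : ℕ, c * (G.θ : K) ^ n ∈ A := by
    by_cases hc : c ∈ A
    · exact ⟨0, by simpa using hc⟩
    · have hc0 : c ≠ 0 := fun h => hc (h ▸ A.zero_mem)
      obtain ⟨n, e, he⟩ := G.arch G.θ ⟨c⁻¹, (A.mem_or_inv_mem c).resolve_left hc⟩ G.π_θ
        (fun h => inv_ne_zero hc0 (congrArg Subtype.val h))
      refine ⟨n, ?_⟩
      have h' : (G.θ : K) ^ n = (e : K) * c⁻¹ := congrArg Subtype.val he
      rw [h', mul_left_comm, mul_inv_cancel₀ hc0, mul_one]
      exact e.2
  refine ⟨n + 1, fun M hM => ?_⟩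
  obtain ⟨r, rfl⟩ := Nat.exists_eq_add_of_le hM
  have hmem : c * (G.θ : K) ^ (n + 1 + r) ∈ A := by
    rw [pow_add, pow_succ, ← mul_assoc, ← mul_assoc]
    exact mul_mem (mul_mem hn G.θ.2) (pow_mem G.θ.2 r)
  refine ⟨hmem, ?_⟩
  have : (⟨_, hmem⟩ : A) = ⟨_, hn⟩ * G.θ * G.θ ^ r :=
    Subtype.ext (by simp only [MulMemClass.coe_mul, SubmonoidClass.coe_pow]; ring)
  rw [this, map_mul, map_mul, G.π_θ, mul_zero, zero_mul]

theorem finite_pairImage (V : Submodule K F) [FiniteDimensional K V] (c : Bool → K)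
    (hc : ∀ i, c i ≠ 0) : FiniteDimensional k (pairImage G.R c V) := by
  classical
  let W : Bool → Submodule k C := fun i =>
    (G.R i).redImage (V.map (LinearMap.mulLeft K (algebraMap K F (c i)⁻¹)))
  have h : pairImage G.R c V ≤ Submodule.pi Set.univ W := by
    rintro w ⟨u, hu, hw⟩ i -
    obtain ⟨v, hv, hvw⟩ := hw i
    refine ⟨v, ⟨u, hu, ?_⟩, hvw⟩
    rw [LinearMap.mulLeft_apply, ← hv, ← mul_assoc, ← map_mul, inv_mul_cancel₀ (hc i), map_one,
      one_mul]
  have : FiniteDimensional k (Submodule.pi Set.univ W) := by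
    let e : (∀ i, W i) →ₗ[k] (Bool → C) := LinearMap.pi fun i => (W i).subtype ∘ₗ LinearMap.proj i
    have he : Submodule.pi Set.univ W ≤ LinearMap.range e := fun w hw =>
      ⟨fun i => ⟨w i, hw i trivial⟩, rfl⟩
    exact Submodule.finiteDimensional_of_le he
  exact Submodule.finiteDimensional_of_le h

/-- Pairs of reductions see every finite-dimensional space, for all weights. -/
theorem finrank_pair (V : Submodule K F) (hV : FiniteDimensional K V) (c : Bool → K)
    (hc : ∀ i, c i ≠ 0) : Module.finrank K V ≤ Module.finrank k (pairImage G.R c V) := by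
  classical
  obtain ⟨N₀, hN₀⟩ := G.exists_pow_small (c (!false) / c false)
  obtain ⟨N₁, hN₁⟩ := G.exists_pow_small (c (!true) / c true)
  set N := max N₀ N₁ with hN
  set φ : F := algebraMap K F (c false) * G.sh false ^ N + algebraMap K F (c true) * G.sh true ^ N
    with hφ
  -- on each side `φ / c` has reduction `sh^N`
  have hside : ∀ i, ∃ v : (G.R i).O, algebraMap K F (c i) * (v : F) = φ ∧
      (G.R i).red v = (G.R i).red ⟨G.sh i, G.sh_mem i i⟩ ^ N := by
    intro i
    obtain ⟨hmem, hsm⟩ : ∃ h : (c (!i) / c i) * (G.θ : K) ^ N ∈ A, π ⟨_, h⟩ = 0 := by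
      cases i
      · exact hN₀ N (le_max_left _ _)
      · exact hN₁ N (le_max_right _ _)
    obtain ⟨v, hv, hsh⟩ := G.sh_small (!i)
    rw [Bool.not_not] at hv
    refine ⟨⟨G.sh i, G.sh_mem i i⟩ ^ N + (G.R i).ι ⟨_, hmem⟩ * ⟨v, hv⟩ ^ N, ?_, ?_⟩
    · have h2 : algebraMap K F (c i) *
          (algebraMap K F ((c (!i) / c i) * (G.θ : K) ^ N) * v ^ N) =
            algebraMap K F (c (!i)) * G.sh (!i) ^ N := by
        rw [← mul_assoc, ← map_mul, ← mul_assoc, mul_div_cancel₀ _ (hc i), map_mul, map_pow,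
          hsh, mul_pow, mul_assoc]
      rw [Subring.coe_add, Subring.coe_mul, RedBase.coe_ι, SubmonoidClass.coe_pow,
        SubmonoidClass.coe_pow, mul_add, h2, hφ]
      cases i
      · rfl
      · rw [add_comm]; rfl
    · rw [map_add, map_mul, RedBase.red_ι, hsm, map_zero, zero_mul, add_zero, map_pow]
  choose u hu hur using hside
  have hu0 : ∀ i, (G.R i).red (u i) ≠ 0 := fun i => by
    rw [hur]; exact pow_ne_zero _ (G.sh_red i)
  have hφ0 : φ ≠ 0 := by
    rw [← hu false]
    exact mul_ne_zero ((_root_.map_ne_zero _).mpr (hc false)) ((G.R false).coe_ne_zero (hu0 false))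
  set V' := V.map (LinearMap.mulLeft K φ⁻¹) with hV'
  have hdim : Module.finrank K V' = Module.finrank K V :=
    (Submodule.equivMapOfInjective _ (mul_right_injective₀ (inv_ne_zero hφ0)) V).finrank_eq.symm
  let g : (C × C) →ₗ[k] (Bool → C) :=
    LinearMap.pi fun i => LinearMap.mulLeft k ((G.R i).red (u i)) ∘ₗ selLin i
  have hg : Function.Injective g := fun a b h => pair_ext (k := k) fun i =>
    mul_left_cancel₀ (hu0 i) (congrFun h i)
  have hle : (G.P.redImage V').map g ≤ pairImage G.R c V := by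
    rintro _ ⟨_, ⟨w, ⟨f, hf, hfw⟩, rfl⟩, rfl⟩
    rw [LinearMap.mulLeft_apply] at hfw
    refine ⟨f, hf, fun i => ⟨u i * ⟨w, pairRedOf_mem.mp w.2 i⟩, ?_, ?_⟩⟩
    · rw [Subring.coe_mul, ← mul_assoc, hu]
      show φ * (w : F) = f
      rw [← hfw, mul_inv_cancel_left₀ hφ0]
    · rw [map_mul, ← selLin_red]
      rfl
  have := G.finite_pairImage V c hc
  have h4 := Submodule.finrank_mono hle
  rw [(Submodule.equivMapOfInjective g hg _).finrank_eq.symm, G.finrank_redImage V', hdim] at h4
  exact h4

/-- All reductions lie in a field containing the reduced family. -/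
theorem red_mem (Fk : IntermediateField k C) (i : Bool) (hx : G.xb i ∈ Fk)
    (hm : ∀ l, (G.R i).red ⟨G.m i l, G.m_mem i l i⟩ ∈ Fk)
    (hsh : (G.R i).red ⟨G.sh i, G.sh_mem i i⟩ ∈ Fk) (u : (G.R i).O) : (G.R i).red u ∈ Fk := by
  classical
  rcases eq_or_ne (u : F) 0 with hu0 | hu0
  · rw [show u = 0 from Subtype.ext hu0, map_zero]; exact zero_mem _
  obtain ⟨v, hv, hsmall⟩ := G.sh_small i
  obtain ⟨c, w, hw, hfw⟩ := (G.R (!i)).scale _ hu0
  obtain ⟨N, hN⟩ := G.exists_pow_small c
  obtain ⟨hmem, -⟩ := hN N le_rfl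
  set f : F := G.sh i ^ N * u with hf
  have hfi : f ∈ (G.R i).O := mul_mem (pow_mem (G.sh_mem i i) N) u.2
  have hf' : f = algebraMap K F (c * (G.θ : K) ^ N) * (v ^ N * (w : F)) := by
    rw [hf, hfw, hsmall, map_mul, map_pow]; ring
  have hfo : f ∈ G.P.O := pairRedOf_mem.mpr fun i' => by
    rcases eq_or_ne i' i with rfl | h
    · exact hfi
    · obtain rfl : i' = !i := by cases i <;> cases i' <;> simp_all
      rw [hf']
      exact mul_mem ((G.R _).algebraMap_mem ⟨_, hmem⟩) (mul_mem (pow_mem hv N) w.2)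
  suffices hξ : selLin (k := k) i (G.P.red ⟨f, hfo⟩) ∈ Fk by
    have e : selLin (k := k) i (G.P.red ⟨f, hfo⟩) =
        (G.R i).red ⟨G.sh i, G.sh_mem i i⟩ ^ N * (G.R i).red u := by
      rw [selLin_red, ← map_pow, ← map_mul]; rfl
    have h := div_mem hξ (pow_mem hsh N)
    rwa [e, mul_div_cancel_left₀ _ (pow_ne_zero _ (G.sh_red i))] at h
  obtain ⟨q, hq, hqf⟩ := G.exists_clear f
  obtain ⟨c', hc', n, hn, hnmem, hqe⟩ := G.exists_primitive_aeval hq
  have hnf : (n : F) * f ∈ G.monSpan := by
    have h := G.monSpan.smul_mem c'⁻¹ hqf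
    have e1 : c'⁻¹ • (Polynomial.aeval G.x q * f) = (n : F) * f := by
      rw [hqe, Algebra.smul_def, mul_assoc, ← mul_assoc, ← map_mul, inv_mul_cancel₀ hc', map_one,
        one_mul]
    rwa [e1] at h
  obtain ⟨e, he⟩ := Finsupp.mem_span_range_iff_exists_finsupp.mp hnf
  rw [Finsupp.sum] at he
  have hsum : ((n * ⟨f, hfo⟩ : G.P.O) : F) =
      ∑ p : e.support, algebraMap K F (e p) * (G.mon p : F) := by
    rw [Finset.sum_coe_sort e.support fun p => algebraMap K F (e p) * (G.mon p : F),
      Subring.coe_mul, ← he]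
    exact Finset.sum_congr rfl fun p _ => Algebra.smul_def _ _
  have hA : ∀ p : e.support, e p ∈ A := fun p => G.P.coeff_mem_of_linearIndependent Finset.univ
    (fun q : e.support => G.mon q)
    ((G.linearIndependent_red_mon.comp _ Subtype.val_injective).comp _ Subtype.val_injective) _ _
    hsum p (Finset.mem_univ p)
  have heq : (n * ⟨f, hfo⟩ : G.P.O) = ∑ p : e.support, G.P.ι ⟨e p, hA p⟩ * G.mon p := by
    refine Subtype.ext (hsum.trans ?_)
    rw [AddSubmonoidClass.coe_finsetSum]
    rfl
  have hFk : selLin (k := k) i (G.P.red (n * ⟨f, hfo⟩)) ∈ Fk := by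
    rw [heq, map_sum, map_sum]
    refine sum_mem fun p _ => ?_
    rw [map_mul, RedBase.red_ι, ← Algebra.smul_def, map_smul, G.selLin_red_mon, Algebra.smul_def]
    refine mul_mem (Fk.algebraMap_mem _) (mul_mem (pow_mem hx _) ?_)
    obtain ⟨⟨j, b, l⟩, hp⟩ := p
    rcases eq_or_ne b i with rfl | hb
    · exact hm l
    · rw [G.m_red b l i (Ne.symm hb)]; exact zero_mem _
  have hnFk : selLin (k := k) i (G.P.red n) ∈ Fk :=
    IntermediateField.adjoin_simple_le_iff.mpr hx (hnmem i)
  have hmul : selLin (k := k) i (G.P.red (n * ⟨f, hfo⟩)) =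
      selLin (k := k) i (G.P.red n) * selLin (k := k) i (G.P.red ⟨f, hfo⟩) := by
    rw [map_mul]; cases i <;> rfl
  have h := div_mem hFk hnFk
  rwa [hmul, mul_div_cancel_left₀ _ (hn i)] at h

end Frame

end Fermat.Agent.TwoComponent
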