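import Fermat.Agent.FF.Degree
import Fermat.Agent.Red.OfFF
import Fermat.Agent.Red.PoleBound
import Fermat.Agent.TwoComponent.Frame

/-!
# Restricting a frame to a field of reductions; pole bounds

The reductions of a frame can be corestricted to any field containing the reduced family, and
functions with bounded poles relative to the coordinate reduce to functions with bounded poles.
-/

noncomputable section

open AlgebraicCurve Polynomial IntermediateField Fermat.Agent.Red

namespace Fermat.Agent.TwoComponent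

variable {K k F C : Type*} [Field K] [Field F] [Algebra K F] [Field k] [Field C] [Algebra k C]
variable {A : ValuationSubring K} {π : A →+* k}

/-- Corestriction of a reduction to a subfield containing its values. -/
def corestrictRed (R : RedBase A π F C) (Fk : IntermediateField k C)
    (h : ∀ u : R.O, R.red u ∈ Fk) : RedBase A π F Fk where
  O := R.O
  red := R.red.codRestrict Fk h
  algebraMap_mem := R.algebraMap_mem
  red_algebraMap a := Subtype.ext (R.red_algebraMap a)
  scale f hf := by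
    obtain ⟨c, u, hu, h'⟩ := R.scale f hf
    exact ⟨c, u, fun h0 => hu (congrArg Subtype.val h0), h'⟩
  surj_pi := R.surj_pi

@[simp] theorem coe_corestrictRed_red (R : RedBase A π F C) (Fk : IntermediateField k C)
    (h : ∀ u : R.O, R.red u ∈ Fk) (u : R.O) :
    (((corestrictRed R Fk h).red u : Fk) : C) = R.red u := rfl

namespace Frame

/-- A frame with reductions in a subfield. -/
def corestrict (G : Frame A π F C) (Fk : IntermediateField k C)
    (h : ∀ (i : Bool) (u : (G.R i).O), (G.R i).red u ∈ Fk) : Frame A π F Fk where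
  R i := corestrictRed (G.R i) Fk (h i)
  x := G.x
  x_mem := G.x_mem
  transcendental i := fun hal => G.transcendental i (hal.algHom Fk.val)
  d := G.d
  d_pos := G.d_pos
  m := G.m
  m_mem := G.m_mem
  m_red i l i' hne := Subtype.ext (G.m_red i l i' hne)
  linearIndependent i := by
    rw [Fintype.linearIndependent_iff]
    intro g hg l
    let x' : Fk := (corestrictRed (G.R i) Fk (h i)).red ⟨G.x, G.x_mem i⟩
    have hbx : ∀ r ∈ k⟮x'⟯, (r : C) ∈ k⟮G.xb i⟯ := fun r hr => by
      have : (r : C) ∈ (k⟮x'⟯).map Fk.val := ⟨r, hr, rfl⟩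
      rwa [IntermediateField.adjoin_map, Set.image_singleton] at this
    have h1 := congrArg Fk.val hg
    simp only [map_sum, map_zero, IntermediateField.smul_def, smul_eq_mul, map_mul] at h1
    have h2 : ((g l : Fk) : C) = ((0 : k⟮G.xb i⟯) : C) :=
      congrArg Subtype.val (Fintype.linearIndependent_iff.mp (G.linearIndependent i)
        (fun l => ⟨_, hbx _ (g l).2⟩)
        (by simp only [IntermediateField.smul_def, smul_eq_mul]; exact h1) l)
    apply Subtype.ext
    apply Subtype.ext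
    simpa using h2
  finrank_eq := G.finrank_eq
  θ := G.θ
  π_θ := G.π_θ
  θ_ne := G.θ_ne
  arch := G.arch
  sh := G.sh
  sh_mem := G.sh_mem
  sh_red i := fun h0 => G.sh_red i (congrArg Subtype.val h0)
  sh_small := G.sh_small

section Pole

variable [IsAlgClosed K] [FF.IsFunctionField K F] [IsAlgClosed k] [FF.IsFunctionField k C]
variable (G : Frame A π F C)

omit [IsAlgClosed k] [FF.IsFunctionField k C] in
theorem degree_poleDiv_x : Divisor.degree (FF.poleDiv (K := K) G.x) = 2 * (G.d : ℤ) := by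
  rw [FF.degree_poleDiv G.transcendental_x, G.finrank_eq]
  push_cast
  ring

/-- A pair with only one nonzero component. -/
def inLin (i : Bool) : C →ₗ[k] C × C :=
  Bool.rec (LinearMap.inl k C C) (LinearMap.inr k C C) i

omit [IsAlgClosed k] [FF.IsFunctionField k C] in
theorem selLin_inLin (i i' : Bool) (c : C) :
    selLin (k := k) i' (inLin (k := k) i c) = if i' = i then c else 0 := by
  cases i <;> cases i' <;> rfl

omit [IsAlgClosed k] [FF.IsFunctionField k C] in
/-- The monomials of the frame lie in the Riemann–Roch space of a divisor bounding the family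
plus a multiple of the poles of the coordinate. -/
theorem mon_mem_space (D₀ : Divisor K F) (hb : ∀ (b : Bool) l P, -D₀ P ≤ P.ord (G.m b l)) {n : ℕ}
    {j : ℕ} (hj : j ≤ n) (b : Bool) (l : Fin G.d) :
    (G.mon (j, b, l) : F) ∈ riemannRochSpace (D₀ + n • FF.poleDiv (K := K) G.x) := by
  refine mem_riemannRochSpace_iff.mpr fun P => Or.inr ?_
  rw [Finsupp.add_apply, Finsupp.smul_apply, nsmul_eq_mul]
  have hpd : ∀ (f : F) (P : Place K F), 0 ≤ FF.poleDiv (K := K) f P := fun f P => by
    rw [FF.poleDiv_apply]; exact le_max_right _ _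
  rw [coe_mon]
  have hbz : G.m b l ≠ 0 := fun h0 => (G.linearIndependent b).ne_zero l
    (show (G.R b).red ⟨G.m b l, G.m_mem b l b⟩ = 0 by
      rw [show (⟨G.m b l, G.m_mem b l b⟩ : (G.R b).O) = 0 from Subtype.ext h0, map_zero])
  have hx0 : G.x ≠ 0 := fun h0 => G.transcendental_x (h0 ▸ isAlgebraic_zero)
  rw [P.ord_mul (pow_ne_zero _ hx0) hbz, Red.ord_pow]
  have h1 := hb b l P
  have h3 : -FF.poleDiv (K := K) G.x P ≤ P.ord G.x := by rw [FF.poleDiv_apply]; omega
  have h4 : (j : ℤ) ≤ n := by omega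
  nlinarith [mul_le_mul_of_nonneg_right h4 (hpd G.x P), mul_le_mul_of_nonneg_left h3
    (Int.natCast_nonneg j)]

omit [IsAlgClosed K] [FF.IsFunctionField K F] [IsAlgClosed k] [FF.IsFunctionField k C] in
/-- The monomials of one side have poles at `Q` bounded by those of the coordinate and family. -/
theorem side_mem_poleLe (i : Bool) (Q : Place k C) {e C₀ : ℤ}
    (he : e = max (-Q.ord (G.xb i)) 0) {l : Fin G.d}
    (hC : -Q.ord ((G.R i).red ⟨G.m i l, G.m_mem i l i⟩) ≤ C₀) {n j : ℕ} (hj : j ≤ n) :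
    G.xb i ^ j * (G.R i).red ⟨G.m i l, G.m_mem i l i⟩ ∈ FF.poleLe Q ((n : ℤ) * e + C₀) := by
  refine (FF.mem_poleLe _).mpr (Or.inr ?_)
  have hne : (G.R i).red ⟨G.m i l, G.m_mem i l i⟩ ≠ 0 := (G.linearIndependent i).ne_zero l
  have hxne : G.xb i ≠ 0 := fun h0 => G.transcendental i (by
    show IsAlgebraic k (G.xb i); rw [h0]; exact isAlgebraic_zero)
  show -((n : ℤ) * e + C₀) ≤ Q.ord (G.xb i ^ j * _)
  rw [Q.ord_mul (pow_ne_zero _ hxne) hne, Red.ord_pow]
  have h1 := hC
  have h3 : -e ≤ Q.ord (G.xb i) := by omega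
  have h4 : (j : ℤ) ≤ n := by omega
  have he0 : 0 ≤ e := he ▸ le_max_right _ _
  nlinarith [mul_le_mul_of_nonneg_left h3 (Int.natCast_nonneg j),
    mul_le_mul_of_nonneg_right h4 he0]

omit [IsAlgClosed k] [FF.IsFunctionField k C] in
/-- Pairs supported on the two sides are independent. -/
theorem finrank_comap_add_le (i : Bool) (W : Submodule k (C × C)) [FiniteDimensional k W]
    (U₂ : Submodule k C) (h : U₂ ≤ W.comap (inLin (k := k) (!i))) :
    Module.finrank k (W.comap (inLin (k := k) i)) + Module.finrank k U₂ ≤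
      Module.finrank k W := by
  have hinj : ∀ b, Function.Injective (inLin (k := k) (C := C) b) := fun b a c h => by
    simpa [selLin_inLin] using congrArg (selLin (k := k) b) h
  set X1 := (W.comap (inLin (k := k) i)).map (inLin (k := k) i) with hX1
  set X2 := U₂.map (inLin (k := k) (!i)) with hX2
  have e1 : X1 ≤ W := Submodule.map_le_iff_le_comap.mpr le_rfl
  have e2 : X2 ≤ W := Submodule.map_le_iff_le_comap.mpr h
  have e3 : X1 ⊓ X2 = ⊥ := by
    rw [eq_bot_iff]
    rintro w ⟨⟨a, -, ha⟩, ⟨b, -, hb'⟩⟩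
    have h0 : selLin (k := k) i w = 0 := by rw [← hb', selLin_inLin]; simp
    rw [← ha, selLin_inLin, if_pos rfl] at h0
    rw [Submodule.mem_bot, ← ha, h0, map_zero]
  have : FiniteDimensional k X1 := Submodule.finiteDimensional_of_le e1
  have : FiniteDimensional k X2 := Submodule.finiteDimensional_of_le e2
  have e4 := Submodule.finrank_sup_add_finrank_inf_eq X1 X2
  rw [e3, finrank_bot, add_zero, (Submodule.equivMapOfInjective _ (hinj i) _).finrank_eq.symm,
    (Submodule.equivMapOfInjective _ (hinj (!i)) _).finrank_eq.symm] at e4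
  exact e4 ▸ Submodule.finrank_mono (sup_le e1 e2)

omit [IsAlgClosed k] [FF.IsFunctionField k C] in
/-- `sh i` times a power of `u` lies in the space and reduces to one side only. -/
theorem sh_mul_pow_mem_redImage {m n I kk : ℕ} {u : F}
    (hu : u ∈ riemannRochSpace (m • FF.poleDiv (K := K) G.x)) (huO : ∀ i, u ∈ (G.R i).O) (i : Bool)
    (hub0 : (G.R i).red ⟨u, huO i⟩ ≠ 0) {D₀ : Divisor K F} (hs : ∀ P, -D₀ P ≤ P.ord (G.sh i))
    (hn : n = m * I) (hk : kk ≤ I) :
    inLin (k := k) i ((G.R i).red ⟨G.sh i, G.sh_mem i i⟩ * (G.R i).red ⟨u, huO i⟩ ^ kk) ∈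
      G.P.redImage (riemannRochSpace (D₀ + n • FF.poleDiv (K := K) G.x)) := by
  have hpd : ∀ P : Place K F, 0 ≤ FF.poleDiv (K := K) G.x P := fun P => by
    rw [FF.poleDiv_apply]; exact le_max_right _ _
  have hO : ∀ b, G.sh i * u ^ (kk) ∈ (G.R b).O := fun b =>
    mul_mem (G.sh_mem i b) (pow_mem (huO b) _)
  refine ⟨⟨_, pairRedOf_mem.mpr hO⟩, mem_riemannRochSpace_iff.mpr fun P => Or.inr ?_,
    pair_ext (k := k) fun b => ?_⟩
  · rw [Finsupp.add_apply, Finsupp.smul_apply, nsmul_eq_mul]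
    show -(D₀ P + n * FF.poleDiv (K := K) G.x P) ≤ P.ord (G.sh i * u ^ (kk))
    have hu0 : u ≠ 0 := fun h0 => hub0 (by
      rw [show (⟨u, huO i⟩ : (G.R i).O) = 0 from Subtype.ext h0, map_zero])
    have hs0 : G.sh i ≠ 0 := fun h0 => G.sh_red i
      (by rw [show (⟨G.sh i, G.sh_mem i i⟩ : (G.R i).O) = 0 from Subtype.ext h0, map_zero])
    rw [P.ord_mul hs0 (pow_ne_zero _ hu0), Red.ord_pow]
    have h1 : -((m : ℤ) * FF.poleDiv (K := K) G.x P) ≤ P.ord u := by
      have h0 := ((mem_riemannRochSpace_iff.mp hu) P).resolve_left hu0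
      rwa [Finsupp.smul_apply, nsmul_eq_mul] at h0
    have h3 : (kk : ℤ) ≤ I := by omega
    have hn' : (n : ℤ) = m * I := by rw [hn]; push_cast; ring
    rw [hn']
    nlinarith [mul_le_mul_of_nonneg_right h3 (mul_nonneg (Int.natCast_nonneg m) (hpd P)),
      mul_le_mul_of_nonneg_left h1 (Int.natCast_nonneg (kk)), hs P]
  · rw [selLin_red, selLin_inLin]
    have : (G.R b).red ⟨G.sh i * u ^ (kk), hO b⟩ =
        (G.R b).red ⟨G.sh i, G.sh_mem i b⟩ * (G.R b).red ⟨u, huO b⟩ ^ (kk) := by
      rw [← map_pow, ← map_mul]; rfl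
    rw [this]
    split_ifs with e
    · subst e; rfl
    · obtain ⟨v, hv, hsm⟩ := G.sh_small i
      obtain rfl : b = !i := by cases i <;> cases b <;> first | rfl | exact absurd rfl e
      rw [show (⟨G.sh i, G.sh_mem i (!i)⟩ : (G.R (!i)).O) = (G.R (!i)).ι G.θ * ⟨v, hv⟩ from
        Subtype.ext hsm, map_mul, RedBase.red_ι, G.π_θ, map_zero, zero_mul, zero_mul]

omit [IsAlgClosed k] [FF.IsFunctionField k C] in
/-- An effective divisor of large degree bounding the poles of the family and of `sh i`. -/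
theorem exists_bounding_divisor (i : Bool) :
    ∃ D₀ : Divisor K F, (∀ P, 0 ≤ D₀ P) ∧ (∀ (b : Bool) l P, -D₀ P ≤ P.ord (G.m b l)) ∧
      (∀ P, -D₀ P ≤ P.ord (G.sh i)) ∧
      (2 * genusFF K F : ℕ) * (2 * (G.d : ℤ)) ≤ Divisor.degree D₀ := by
  classical
  set D₁ : Divisor K F := ∑ p : Bool × Fin G.d, FF.poleDiv (K := K) (G.m p.1 p.2) with hD₁
  set D₀ : Divisor K F := D₁ + FF.poleDiv (K := K) (G.sh i) +
    (2 * genusFF K F) • FF.poleDiv (K := K) G.x with hD₀
  have hpd : ∀ (f : F) (P : Place K F), 0 ≤ FF.poleDiv (K := K) f P := fun f P => by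
    rw [FF.poleDiv_apply]; exact le_max_right _ _
  have hsum0 : ∀ P, 0 ≤ D₁ P := fun P => by
    rw [hD₁, Finsupp.finsetSum_apply]; exact Finset.sum_nonneg fun j _ => hpd _ P
  have hD₀apply : ∀ P, D₀ P = D₁ P + FF.poleDiv (K := K) (G.sh i) P +
      (2 * genusFF K F : ℕ) * FF.poleDiv (K := K) G.x P := fun P => by
    simp only [hD₀, Finsupp.add_apply, Finsupp.smul_apply, nsmul_eq_mul]
  have hg0 : ∀ P, 0 ≤ ((2 * genusFF K F : ℕ) : ℤ) * FF.poleDiv (K := K) G.x P := fun P =>
    mul_nonneg (Int.natCast_nonneg _) (hpd _ P)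
  have hD₀nn : ∀ P, 0 ≤ D₀ P := fun P => by
    have := hsum0 P; have := hpd (G.sh i) P; have := hg0 P; have := hD₀apply P; omega
  have hb : ∀ (b : Bool) l P, -D₀ P ≤ P.ord (G.m b l) := fun b l P => by
    have h1 : FF.poleDiv (K := K) (G.m b l) P ≤ D₁ P := by
      rw [hD₁, Finsupp.finsetSum_apply]
      have key : ∀ φ : Bool × Fin G.d → ℤ, (∀ j, 0 ≤ φ j) → ∀ j₀, φ j₀ ≤ ∑ j, φ j :=
        fun φ hφ j₀ => Finset.single_le_sum (fun j _ => hφ j) (Finset.mem_univ j₀)
      exact key (fun j => FF.poleDiv (K := K) (G.m j.1 j.2) P)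
        (fun j => hpd (G.m j.1 j.2) P) (b, l)
    rw [FF.poleDiv_apply] at h1
    have := hpd (G.sh i) P; have := hg0 P; have := hD₀apply P
    omega
  have hs : ∀ P, -D₀ P ≤ P.ord (G.sh i) := fun P => by
    have h1 := FF.poleDiv_apply (K := K) (G.sh i) P
    have := hsum0 P; have := hg0 P; have := hD₀apply P
    omega
  refine ⟨D₀, hD₀nn, hb, hs, ?_⟩
  have e1 : Divisor.degree D₀ = Divisor.degree (D₁ + FF.poleDiv (K := K) (G.sh i)) +
      (2 * genusFF K F : ℕ) * (2 * (G.d : ℤ)) := by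
    rw [hD₀, map_add _ (D₁ + FF.poleDiv (K := K) (G.sh i)), map_nsmul, G.degree_poleDiv_x,
      nsmul_eq_mul]
  have e2 : 0 ≤ Divisor.degree (D₁ + FF.poleDiv (K := K) (G.sh i)) := by
    rw [FF.degree_eq_sum, Finsupp.sum]
    exact Finset.sum_nonneg fun P _ => by
      rw [Finsupp.add_apply]; exact add_nonneg (hsum0 P) (hpd _ P)
  omega

/-- Reductions respect pole bounds relative to the coordinate. -/
theorem red_mem_of_mem {m : ℕ} {u : F} (hu : u ∈ riemannRochSpace (m • FF.poleDiv (K := K) G.x))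
    (huO : ∀ i, u ∈ (G.R i).O) (i : Bool) :
    (G.R i).red ⟨u, huO i⟩ ∈ riemannRochSpace (m • FF.poleDiv (K := k) (G.xb i)) := by
  classical
  refine mem_riemannRochSpace_iff.mpr fun Q => ?_
  set ub : C := (G.R i).red ⟨u, huO i⟩ with hub
  rw [Finsupp.smul_apply, nsmul_eq_mul, FF.poleDiv_apply]
  by_contra hcon
  push Not at hcon
  obtain ⟨hub0, hlt⟩ := hcon
  set e : ℤ := max (-Q.ord (G.xb i)) 0 with he
  set p : ℤ := -Q.ord ub with hp
  have hpe : (m : ℤ) * e + 1 ≤ p := by omega
  have he0 : 0 ≤ e := le_max_right _ _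
  have hp1 : 1 ≤ p := le_trans (by nlinarith) hpe
  have hF : RR K F (genusFF K F) := RR.ofFF
  obtain ⟨D₀, hD₀nn, hb, hs, hdeg0⟩ := G.exists_bounding_divisor i
  set β : C := (G.R i).red ⟨G.sh i, G.sh_mem i i⟩ with hβ
  obtain ⟨C₀, hC0, hC⟩ : ∃ C₀ : ℤ, 0 ≤ C₀ ∧
      ∀ l, -Q.ord ((G.R i).red ⟨G.m i l, G.m_mem i l i⟩) ≤ C₀ := by
    refine ⟨∑ l, max (-Q.ord ((G.R i).red ⟨G.m i l, G.m_mem i l i⟩)) 0,
      Finset.sum_nonneg fun _ _ => le_max_right _ _, fun l => (le_max_left _ 0).trans
        (Finset.single_le_sum (f := fun l => max (-Q.ord ((G.R i).red ⟨G.m i l, G.m_mem i l i⟩)) 0)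
          (fun j _ => le_max_right _ _) (Finset.mem_univ l))⟩
  have hD₀deg : 0 ≤ Divisor.degree D₀ := by
    rw [FF.degree_eq_sum, Finsupp.sum]
    exact Finset.sum_nonneg fun P _ => hD₀nn P
  set N : ℕ := (Divisor.degree D₀ + 1).toNat with hN
  obtain ⟨I, hI, hIN⟩ : ∃ I : ℕ,
      C₀ + (N : ℤ) * ((m : ℤ) * e + 1) + |Q.ord β| < I ∧ N ≤ I := by
    refine ⟨(C₀ + (N : ℤ) * ((m : ℤ) * e + 1) + |Q.ord β|).toNat + 1 + N, ?_,
      by omega⟩
    have := Int.self_le_toNat (C₀ + (N : ℤ) * ((m : ℤ) * e + 1) + |Q.ord β|)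
    push_cast
    omega
  set n : ℕ := m * I with hn
  set V : Submodule K F := riemannRochSpace (D₀ + n • FF.poleDiv (K := K) G.x) with hV
  have : FiniteDimensional K V := hF.finiteDim _
  set W := G.P.redImage V with hW
  -- monomials of both sides
  have hmonV : ∀ p : ℕ × Bool × Fin G.d, p.1 ≤ n → (G.mon p : F) ∈ V := fun p hj =>
    G.mon_mem_space D₀ hb hj p.2.1 p.2.2
  let side : Bool → (Finset.range (n + 1) ×ˢ (Finset.univ : Finset (Fin G.d)) : Finset _) → C :=
    fun b r => G.xb b ^ r.1.1 * (G.R b).red ⟨G.m b r.1.2, G.m_mem _ _ b⟩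
  have hsideW : ∀ b r, inLin (k := k) b (side b r) ∈ W := by
    rintro b ⟨⟨j, l⟩, hr⟩
    simp only [Finset.mem_product, Finset.mem_range, Finset.mem_univ, and_true] at hr
    refine ⟨G.mon (j, b, l), hmonV _ (Nat.lt_succ_iff.mp hr), ?_⟩
    refine pair_ext (k := k) fun b' => ?_
    rw [G.selLin_red_mon, selLin_inLin]
    split_ifs with e
    · subst e; rfl
    · rw [G.m_red b l b' e, mul_zero]
  have hsdim : ∀ b, Module.finrank k (Submodule.span k (Set.range (side b))) = (n + 1) * G.d := by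
    intro b
    have hli : LinearIndependent k (side b) :=
      (G.linearIndependent_side b).comp _ Subtype.val_injective
    rw [finrank_span_eq_card hli]
    simp
  set W1 : Submodule k C := W.comap (inLin (k := k) i) with hW1
  have hinj : ∀ b, Function.Injective (inLin (k := k) (C := C) b) := fun b a c h => by
    simpa [selLin_inLin] using congrArg (selLin (k := k) b) h
  have : FiniteDimensional k W1 :=
    FiniteDimensional.of_injective
      ((inLin (k := k) i).restrict (p := W1) (q := W) fun c hc => hc)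
      fun a c h => Subtype.ext (hinj i (congrArg Subtype.val h))
  set U : Submodule k C := Submodule.span k (Set.range (side i)) with hU
  have hUW : U ≤ W1 := by
    rw [hU, Submodule.span_le]; rintro _ ⟨r, rfl⟩; exact hsideW i r
  have hUC : U ≤ FF.poleLe Q ((n : ℤ) * e + C₀) := by
    rw [hU, Submodule.span_le]
    rintro _ ⟨⟨⟨j, l⟩, hr⟩, rfl⟩
    simp only [Finset.mem_product, Finset.mem_range, Finset.mem_univ, and_true] at hr
    exact G.side_mem_poleLe i Q he (hC l) (Nat.lt_succ_iff.mp hr)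
  -- excessive powers of `u` times `sh i`
  let f : ℕ → C := fun t => β * ub ^ (I - N + 1 + t)
  have hfW : ∀ t < N, f t ∈ W1 := fun t ht =>
    G.sh_mul_pow_mem_redImage hu huO i hub0 hs hn (by omega)
  have hord : ∀ t, -Q.ord (f t) = ((I - N + 1 + t : ℕ) : ℤ) * p - Q.ord β := fun t => by
    simp only [f]
    rw [Q.ord_mul (G.sh_red i) (pow_ne_zero _ hub0), Red.ord_pow, hp]; ring
  have hfC : ∀ t < N, (n : ℤ) * e + C₀ < -Q.ord (f t) := by
    intro t ht
    rw [hord]
    have h1 : (I : ℤ) - N + 1 ≤ ((I - N + 1 + t : ℕ) : ℤ) := by push_cast [Nat.cast_sub hIN]; omega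
    have hn' : (n : ℤ) = m * I := by rw [hn]; push_cast; ring
    rw [hn']
    nlinarith [mul_le_mul_of_nonneg_right h1 (by omega : (0 : ℤ) ≤ p),
      mul_le_mul_of_nonneg_left hpe (by omega : (0 : ℤ) ≤ (I : ℤ) - N + 1),
      le_abs_self (Q.ord β), mul_nonneg (Int.natCast_nonneg m) he0]
  have hinc : ∀ a b, a < b → b < N → -Q.ord (f a) < -Q.ord (f b) := by
    intro a b hab _
    rw [hord, hord]
    have h1 : ((I - N + 1 + a : ℕ) : ℤ) + 1 ≤ ((I - N + 1 + b : ℕ) : ℤ) := by omega
    nlinarith [mul_le_mul_of_nonneg_right h1 (by omega : (0 : ℤ) ≤ p)]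
  obtain ⟨U', hU', hdim, -⟩ :=
    finrank_add_le_of_increasing Q W1 U hUW (by positivity) hUC N f hfW hfC hinc
  -- the two sides are independent inside `W`
  have h1 := Submodule.finrank_mono hU'
  have hsplit : Module.finrank k W1 + _ ≤ Module.finrank k W :=
    finrank_comap_add_le i W (Submodule.span k (Set.range (side (!i))))
    (Submodule.span_le.mpr (by rintro _ ⟨r, rfl⟩; exact hsideW _ r))
  have h2 := G.P.finrank_redImage_le V
  have hdegE : Divisor.degree (D₀ + n • FF.poleDiv (K := K) G.x) =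
      Divisor.degree D₀ + n * (2 * G.d) := by
    rw [map_add, map_nsmul, G.degree_poleDiv_x, nsmul_eq_mul]
  have hd1 : (1 : ℤ) ≤ G.d := by exact_mod_cast G.d_pos
  have hbig : 2 * (genusFF K F : ℤ) - 1 ≤ Divisor.degree (D₀ + n • FF.poleDiv (K := K) G.x) := by
    rw [hdegE]
    push_cast at hdeg0
    nlinarith [Int.natCast_nonneg n]
  have h3 := hF.ell_eq_of_large hbig
  rw [hdegE] at h3
  have h4 : (Module.finrank K V : ℤ) = Red.ell (D₀ + n • FF.poleDiv (K := K) G.x) := rfl
  rw [hsdim (!i)] at hsplit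
  have h5 : Module.finrank k U = (n + 1) * G.d := hsdim i
  rw [h5] at hdim
  have h6 : (n + 1) * G.d + N + (n + 1) * G.d ≤ Module.finrank K V :=
    le_trans (by omega) (hsplit.trans h2)
  have h7 : (((n + 1) * G.d + N + (n + 1) * G.d : ℕ) : ℤ) ≤ (Module.finrank K V : ℤ) := by
    exact_mod_cast h6
  push_cast at h7
  have hN' : Divisor.degree D₀ + 1 = N := by omega
  linarith

end Pole

end Frame

end Fermat.Agent.TwoComponent
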