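import Mathlib.FieldTheory.IntermediateField.Adjoin.Defs
import Mathlib.RingTheory.Adjoin.Basic
import Mathlib.RingTheory.Noetherian.Basic
import Fermat.Prelude.Def_ModularCurve_LaurentCoeff
import Fermat.Agent.Red.Basic
import Fermat.Agent.Red.Fraction

/-!
# The Gauss reduction of a field generated by series with integer coefficients

In the span of series with coefficients in `ℤ` the coefficient of largest valuation exists, so
every element of a field generated by such series is a constant times a quotient of two series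
with integral coefficients and nonzero reductions.
-/

noncomputable section

open ModularCurve

namespace Fermat.Agent.TwoComponent

variable {L : Type*} [Field L] {k : Type*} [Field k] (A : ValuationSubring L) (π : A →+* k)

/-- Series with integer coefficients. -/
abbrev IntSer (L : Type*) [CommRing L] : Set (LaurentSeries L) :=
  Set.range (coeffMap (Int.castRingHom L))

theorem coeff_sum_smul {ι : Type*} (s : Finset ι) (c : ι → L) (v : ι → LaurentSeries L) (n : ℤ) :
    (∑ i ∈ s, c i • v i).coeff n = ∑ i ∈ s, c i * (v i).coeff n := by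
  rw [HahnSeries.coeff_sum]
  exact Finset.sum_congr rfl fun i _ => by simp

theorem algebraMap_mul_coeff (c : L) (v : LaurentSeries L) (n : ℤ) :
    (algebraMap L (LaurentSeries L) c * v).coeff n = c * v.coeff n := by
  rw [algebraMap_laurentSeries_eq_single, HahnSeries.coeff_single_mul, sub_zero]

variable {A π}

/-- A nonzero combination of integer series is a scalar times an integral series with nonzero
reduction. -/
theorem exists_primitive_series (π : A →+* k) {P : LaurentSeries L}
    (hP : P ∈ Submodule.span L (IntSer L)) (hP0 : P ≠ 0) :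
    ∃ c : L, c ≠ 0 ∧ ∃ y : LaurentSeries A,
      P = algebraMap L (LaurentSeries L) c * coeffMap A.subtype y ∧ coeffMap π y ≠ 0 := by
  classical
  obtain ⟨e, he⟩ := Finsupp.mem_span_range_iff_exists_finsupp.mp hP
  set s := e.support with hs
  let row : ℤ → (s → ℤ) := fun n i => (i : LaurentSeries ℤ).coeff n
  -- finitely many rows generate the lattice of all rows
  obtain ⟨t, ht⟩ : (Submodule.span ℤ (Set.range row)).FG := IsNoetherian.noetherian _
  have hfin : ∀ r : t, ∃ I : Finset ℤ, (r : s → ℤ) ∈ Submodule.span ℤ (row '' (I : Set ℤ)) := by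
    intro r
    obtain ⟨T, hT, hrT⟩ := Submodule.mem_span_finite_of_mem_span (ht ▸ Submodule.subset_span r.2)
    obtain ⟨I, -, hI⟩ := Finset.subset_set_image_iff.mp
      (show (T : Set (s → ℤ)) ⊆ row '' Set.univ by rwa [Set.image_univ])
    exact ⟨I, by rw [← Finset.coe_image, hI]; exact hrT⟩
  choose Ir hIr using hfin
  set I : Finset ℤ := Finset.univ.biUnion Ir with hI
  have hgen : ∀ n, row n ∈ Submodule.span ℤ (row '' (I : Set ℤ)) := by
    intro n
    have h1 : row n ∈ Submodule.span ℤ (t : Set (s → ℤ)) := ht.symm ▸ Submodule.subset_span ⟨n, rfl⟩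
    refine Submodule.span_le.mpr (fun r hr => ?_) h1
    exact Submodule.span_mono (Set.image_mono (Finset.coe_subset.mpr
      (Finset.subset_biUnion_of_mem Ir (Finset.mem_univ (⟨r, hr⟩ : t))))) (hIr ⟨r, hr⟩)
  let val : (s → ℤ) →ₗ[ℤ] L :=
    { toFun := fun r => ∑ i : s, e i.1 * ((r i : ℤ) : L)
      map_add' := fun a b => by
        rw [← Finset.sum_add_distrib]
        exact Finset.sum_congr rfl fun i _ => by push_cast [Pi.add_apply]; ring
      map_smul' := fun z a => by
        rw [Finset.smul_sum]
        exact Finset.sum_congr rfl fun i _ => by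
          simp only [Pi.smul_apply, smul_eq_mul, Int.cast_mul, zsmul_eq_mul, RingHom.id_apply]
          ring }
  have hcoeff : ∀ n, P.coeff n = val (row n) := by
    intro n
    rw [← he, Finsupp.sum, coeff_sum_smul, ← Finset.sum_coe_sort]
    exact Finset.sum_congr rfl fun i _ => rfl
  have hex : ∃ n ∈ I, P.coeff n ≠ 0 := by
    by_contra h
    push Not at h
    refine hP0 (HahnSeries.ext (funext fun n => ?_))
    rw [hcoeff, HahnSeries.coeff_zero]
    have : Submodule.span ℤ (row '' (I : Set ℤ)) ≤ LinearMap.ker val :=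
      Submodule.span_le.mpr (by
        rintro _ ⟨n', hn', rfl⟩
        rw [SetLike.mem_coe, LinearMap.mem_ker, ← hcoeff]
        exact h n' hn')
    exact LinearMap.mem_ker.mp (this (hgen n))
  obtain ⟨n₀, hn₀, hne⟩ := hex
  obtain ⟨n₁, hn₁, hmax⟩ := I.exists_max_image (fun n => A.valuation (P.coeff n)) ⟨n₀, hn₀⟩
  set c := P.coeff n₁ with hc
  have hc0 : c ≠ 0 := fun h0 => hne <| (map_eq_zero A.valuation).mp <| le_zero_iff.mp <| by
    simpa [h0] using hmax n₀ hn₀
  have hle : ∀ n, A.valuation (P.coeff n) ≤ A.valuation c := by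
    intro n
    rw [hcoeff]
    refine (?_ : ∀ r ∈ Submodule.span ℤ (row '' (I : Set ℤ)),
      A.valuation (val r) ≤ A.valuation c) (row n) (hgen n)
    intro r hr
    induction hr using Submodule.span_induction with
    | mem r hr =>
      obtain ⟨n', hn', rfl⟩ := hr
      rw [← hcoeff]
      exact hmax n' hn'
    | zero => rw [map_zero, map_zero]; exact zero_le
    | add a b _ _ iha ihb => rw [map_add]; exact (Valuation.map_add _ _ _).trans (max_le iha ihb)
    | smul z a _ iha =>
      rw [map_zsmul, zsmul_eq_mul, map_mul]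
      exact le_trans (mul_le_of_le_one_left' ((A.valuation_le_one_iff _).mpr (intCast_mem A z))) iha
  have hd : ∀ n, P.coeff n / c ∈ A := fun n => by
    rw [← A.valuation_le_one_iff, map_div₀]
    exact div_le_one_of_le₀ (hle n) zero_le
  let y : LaurentSeries A :=
    { coeff := fun n => ⟨_, hd n⟩
      isPWO_support' := P.isPWO_support.mono fun n hn h0 => hn (by
        ext
        simp [h0]) }
  refine ⟨c, hc0, y, HahnSeries.ext (funext fun n => ?_), fun h0 => ?_⟩
  · rw [algebraMap_mul_coeff, coeffMap_coeff]
    exact (mul_div_cancel₀ _ hc0).symm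
  · have := congrArg (fun f : LaurentSeries k => f.coeff n₁) h0
    simp only [coeffMap_coeff, HahnSeries.coeff_zero] at this
    rw [show (y.coeff n₁) = 1 from Subtype.ext (div_self hc0), map_one] at this
    exact one_ne_zero this

variable (A π)
variable (F : IntermediateField L (LaurentSeries L))

/-- Functions with integral expansion. -/
def intFns : Subring F where
  carrier := {f | ∃ y : LaurentSeries A, coeffMap A.subtype y = (f : LaurentSeries L)}
  one_mem' := ⟨1, by rw [map_one]; rfl⟩
  zero_mem' := ⟨0, by rw [map_zero]; rfl⟩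
  mul_mem' := by rintro f g ⟨y, hy⟩ ⟨z, hz⟩; exact ⟨y * z, by rw [map_mul, hy, hz]; rfl⟩
  add_mem' := by rintro f g ⟨y, hy⟩ ⟨z, hz⟩; exact ⟨y + z, by rw [map_add, hy, hz]; rfl⟩
  neg_mem' := by rintro f ⟨y, hy⟩; exact ⟨-y, by rw [map_neg, hy]; rfl⟩

theorem mem_intFns {f : F} :
    f ∈ intFns A F ↔ ∃ y, coeffMap A.subtype y = (f : LaurentSeries L) := Iff.rfl

theorem coeffMap_subtype_inj : Function.Injective (coeffMap (A.subtype : A →+* L)) :=
  fun _ _ h =>
    HahnSeries.ext (funext fun n => Subtype.ext (congrArg (fun f => HahnSeries.coeff f n) h))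

/-- The expansion over `A`. -/
def liftSeries : intFns A F →+* LaurentSeries A where
  toFun f := ((mem_intFns A F).mp f.2).choose
  map_one' := coeffMap_subtype_inj A <| by
    rw [map_one, ((mem_intFns A F).mp (1 : intFns A F).2).choose_spec]; rfl
  map_zero' := coeffMap_subtype_inj A <| by
    rw [map_zero, ((mem_intFns A F).mp (0 : intFns A F).2).choose_spec]; rfl
  map_mul' f g := coeffMap_subtype_inj A <| by
    rw [map_mul, ((mem_intFns A F).mp (f * g).2).choose_spec, ((mem_intFns A F).mp f.2).choose_spec,
      ((mem_intFns A F).mp g.2).choose_spec]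
    rfl
  map_add' f g := coeffMap_subtype_inj A <| by
    rw [map_add, ((mem_intFns A F).mp (f + g).2).choose_spec, ((mem_intFns A F).mp f.2).choose_spec,
      ((mem_intFns A F).mp g.2).choose_spec]
    rfl

theorem coeffMap_liftSeries (f : intFns A F) :
    coeffMap A.subtype (liftSeries A F f) = ((f : F) : LaurentSeries L) :=
  ((mem_intFns A F).mp f.2).choose_spec

/-- Reduction of an integral expansion. -/
def intRed : intFns A F →+* LaurentSeries k := (coeffMap π).comp (liftSeries A F)

theorem intRed_eq {f : intFns A F} {y : LaurentSeries A}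
    (h : coeffMap A.subtype y = ((f : F) : LaurentSeries L)) : intRed A π F f = coeffMap π y := by
  have : liftSeries A F f = y := coeffMap_subtype_inj A ((coeffMap_liftSeries A F f).trans h.symm)
  rw [intRed, RingHom.comp_apply, this]

theorem algebraMap_mem_intFns (a : A) : algebraMap L F (a : L) ∈ intFns A F :=
  ⟨HahnSeries.single 0 a, by
    rw [coeffMap_single]
    exact (algebraMap_laurentSeries_eq_single L (a : L)).symm⟩

theorem intRed_algebraMap (a : A) :
    intRed A π F ⟨_, algebraMap_mem_intFns A F a⟩ = algebraMap k (LaurentSeries k) (π a) := by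
  rw [intRed_eq A π F (y := HahnSeries.single 0 a) (by
    rw [coeffMap_single]; exact (algebraMap_laurentSeries_eq_single L (a : L)).symm),
    coeffMap_single, algebraMap_laurentSeries_eq_single]

/-- The reduction ring: quotients of integral expansions, denominators with nonzero reduction. -/
def gaussO : Subring F := Red.fracSubring (intRed A π F)

theorem mem_gaussO {f : F} :
    f ∈ gaussO A π F ↔ ∃ y z : intFns A F, intRed A π F z ≠ 0 ∧ f * z = y := Iff.rfl

theorem intFns_le_gaussO (y : intFns A F) : (y : F) ∈ gaussO A π F :=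
  Red.coe_mem_fracSubring _ y

/-- The reduction. -/
def gaussRedHom : gaussO A π F →+* LaurentSeries k := Red.fracHom (intRed A π F)

theorem gaussRedHom_eq {f : gaussO A π F} {y z : intFns A F} (hz : intRed A π F z ≠ 0)
    (h : (f : F) * z = y) : gaussRedHom A π F f = intRed A π F y / intRed A π F z :=
  Red.fracHom_eq _ hz h

theorem gaussRedHom_int (y : intFns A F) :
    gaussRedHom A π F ⟨y, intFns_le_gaussO A π F y⟩ = intRed A π F y :=
  Red.fracHom_coe _ y

/-- Every nonzero function is a constant times an integral one with nonzero reduction. -/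
theorem scale_gauss (S : Set (LaurentSeries L))
    (hF : F = IntermediateField.adjoin L S) (hS : S ⊆ IntSer L) (f : F) (hf : f ≠ 0) :
    ∃ c : L, ∃ u : gaussO A π F, gaussRedHom A π F u ≠ 0 ∧ f = algebraMap L F c * u := by
  have hfS : (f : LaurentSeries L) ∈ IntermediateField.adjoin L S := hF ▸ f.2
  obtain ⟨r, hr, s, hs, hrs⟩ := IntermediateField.mem_adjoin_iff_div.mp hfS
  have hspan : ∀ {p : LaurentSeries L}, p ∈ Algebra.adjoin L S →
      p ∈ Submodule.span L (IntSer L) ∧ p ∈ F := fun {p} hp => by
    refine ⟨?_, hF.symm ▸ IntermediateField.algebra_adjoin_le_adjoin L S hp⟩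
    have hle : Submonoid.closure S ≤ (coeffMap (Int.castRingHom L)).range.toSubmonoid :=
      Submonoid.closure_le.mpr fun x hx => hS hx
    rw [← Subalgebra.mem_toSubmodule, Algebra.adjoin_eq_span] at hp
    induction hp using Submodule.span_induction with
    | mem x hx => exact Submodule.subset_span (hle hx)
    | zero => exact zero_mem _
    | add a b _ _ iha ihb => exact add_mem iha ihb
    | smul a x _ ih =>
      have e : algebraMap L (LaurentSeries L) a * x ∈ Submodule.span L (IntSer L) := by
        have : algebraMap L (LaurentSeries L) a * x = a • x := HahnSeries.ext (funext fun n => by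
          rw [algebraMap_mul_coeff]; simp)
        rw [this]; exact Submodule.smul_mem _ _ ih
      rwa [Algebra.smul_def]
  have hf0 : (f : LaurentSeries L) ≠ 0 := fun h => hf (Subtype.ext h)
  have hr0 : r ≠ 0 := fun h => hf0 (by rw [hrs, h, zero_div])
  have hs0 : s ≠ 0 := fun h => hf0 (by rw [hrs, h, div_zero])
  obtain ⟨c, hc, y, hry, hy⟩ := exists_primitive_series π (hspan hr).1 hr0
  obtain ⟨c', hc', z, hsz, hz⟩ := exists_primitive_series π (hspan hs).1 hs0
  have hmem : ∀ {a : L} {v : LaurentSeries A} {p : LaurentSeries L}, a ≠ 0 → p ∈ F →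
      p = algebraMap L (LaurentSeries L) a * coeffMap A.subtype v →
      coeffMap A.subtype v ∈ F := fun {a v p} ha hp e => by
    have : coeffMap A.subtype v = algebraMap L (LaurentSeries L) a⁻¹ * p := by
      rw [e, ← mul_assoc, ← map_mul, inv_mul_cancel₀ ha, map_one, one_mul]
    rw [this]
    exact mul_mem (F.algebraMap_mem _) hp
  let yF : intFns A F := ⟨⟨_, hmem hc (hspan hr).2 hry⟩, (mem_intFns A F).mpr ⟨y, rfl⟩⟩
  let zF : intFns A F := ⟨⟨_, hmem hc' (hspan hs).2 hsz⟩, (mem_intFns A F).mpr ⟨z, rfl⟩⟩
  have hzF : intRed A π F zF ≠ 0 := by rw [intRed_eq A π F (y := z) rfl]; exact hz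
  have hyF : intRed A π F yF ≠ 0 := by rw [intRed_eq A π F (y := y) rfl]; exact hy
  have hzne : (zF : F) ≠ 0 := fun h => hzF (by rw [show zF = 0 from Subtype.ext h, map_zero])
  generalize hYF : yF = Y at hyF
  generalize hZF : zF = Z at hzF hzne
  have hmul : (Y : F) / (Z : F) * (Z : F) = (Y : F) := div_mul_cancel₀ _ hzne
  have hu : (Y : F) / (Z : F) ∈ gaussO A π F := ⟨Y, Z, hzF, hmul⟩
  refine ⟨c / c', ⟨_, hu⟩, ?_, Subtype.ext ?_⟩
  · show gaussRedHom A π F ⟨_, hu⟩ ≠ 0
    rw [gaussRedHom_eq A π F (f := ⟨_, hu⟩) (y := Y) (z := Z) hzF hmul]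
    exact div_ne_zero hyF hzF
  · subst hYF hZF
    rw [hrs, hry, hsz]
    show _ = algebraMap L (LaurentSeries L) (c / c') *
      (coeffMap A.subtype y / coeffMap A.subtype z)
    rw [map_div₀, div_mul_div_comm]

/-- The Gauss reduction of a field generated by integer series. -/
def gaussBase (hπ : Function.Surjective π) (S : Set (LaurentSeries L))
    (hF : F = IntermediateField.adjoin L S) (hS : S ⊆ IntSer L) :
    Red.RedBase A π F (LaurentSeries k) where
  O := gaussO A π F
  red := gaussRedHom A π F
  algebraMap_mem a := intFns_le_gaussO A π F ⟨_, algebraMap_mem_intFns A F a⟩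
  red_algebraMap a :=
    (gaussRedHom_int A π F ⟨_, algebraMap_mem_intFns A F a⟩).trans (intRed_algebraMap A π F a)
  scale := scale_gauss A π F S hF hS
  surj_pi := hπ

theorem gaussBase_red (hπ : Function.Surjective π) {S : Set (LaurentSeries L)}
    (hF : F = IntermediateField.adjoin L S) (hS : S ⊆ IntSer L) {f : F} {y : LaurentSeries A}
    (hy : coeffMap A.subtype y = (f : LaurentSeries L)) :
    ∃ h : f ∈ (gaussBase A π F hπ S hF hS).O,
      (gaussBase A π F hπ S hF hS).red ⟨f, h⟩ = coeffMap π y := by
  refine ⟨intFns_le_gaussO A π F ⟨f, (mem_intFns A F).mpr ⟨y, hy⟩⟩, ?_⟩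
  exact (gaussRedHom_int A π F ⟨f, (mem_intFns A F).mpr ⟨y, hy⟩⟩).trans
    (intRed_eq A π F (y := y) hy)

end Fermat.Agent.TwoComponent
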