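import Fermat.Prelude.Def_ModularCurve_ArithmeticGalois
import Fermat.Agent.EichlerShimura.Series
import Fermat.Agent.Red.Modular
import Fermat.Agent.TwoComponent.AtkinLehner
import Fermat.Agent.TwoComponent.IntSeries

/-!
# The function field of level `M q`: the Atkin–Lehner involution and the coordinate

The involution `wAL` exchanges `j(dτ)` and `j(dqτ)` for `d ∣ M`; the coordinate used for the
reduction at `q` is `x = j(τ) j(qτ)`, fixed by the involution, whose pole divisor is computed here.
-/

noncomputable section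

open ModularCurve AlgebraicCurve IntermediateField Fermat.Agent.Red Fermat.Agent.Igusa

namespace Fermat.Agent.TwoComponent

local notation "Qb" => AlgebraicClosure ℚ

/-- Pull back a reduction along an automorphism. -/
def comapRed {L F C k : Type*} [Field L] [Field F] [Algebra L F] [Field k] [Field C] [Algebra k C]
    {A : ValuationSubring L} {π : A →+* k} (R : RedBase A π F C) (w : F ≃ₐ[L] F) :
    RedBase A π F C where
  O := R.O.comap (w : F →+* F)
  red := R.red.comp (((w : F →+* F).comp (R.O.comap (w : F →+* F)).subtype).codRestrict R.O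
    fun f => f.2)
  algebraMap_mem a := by
    show w (algebraMap L F a) ∈ R.O
    rw [w.commutes]
    exact R.algebraMap_mem a
  red_algebraMap a := by
    refine (congrArg R.red (Subtype.ext (w.commutes _))).trans (R.red_algebraMap a)
  scale f hf := by
    obtain ⟨c, u, hu, h⟩ := R.scale (w f) (by simpa using hf)
    refine ⟨c, ⟨w.symm u, by show w (w.symm u) ∈ R.O; rw [w.apply_symm_apply]; exact u.2⟩, ?_, ?_⟩
    · intro h0
      exact hu ((congrArg R.red (Subtype.ext (w.apply_symm_apply _).symm)).trans h0)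
    · apply w.injective
      rw [map_mul, w.commutes, w.apply_symm_apply, h]
  surj_pi := R.surj_pi

variable (M q : ℕ) [hq : Fact q.Prime] [NeZero M]

/-- The function field of level `M q`. -/
abbrev FN : IntermediateField Qb (LaurentSeries Qb) := modularFunctionFieldBar (M * q)

instance : NeZero q := ⟨hq.out.ne_zero⟩

omit hq [NeZero M] in
theorem FN_eq : FN M q = modularFunctionFieldFullC Qb (M * q) :=
  MF.laurentBaseChange_full_eq Qb (M * q)

theorem cast_mul_ne_zero : ((M * q : ℕ) : Qb) ≠ 0 :=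
  Nat.cast_ne_zero.mpr (mul_ne_zero (NeZero.ne M) hq.out.ne_zero)

variable (hqM : ¬ q ∣ M)

theorem coe_equivOfEq {K L : Type*} [Field K] [Field L] [Algebra K L]
    {E F : IntermediateField K L} (h : E = F) (x : E) :
    (IntermediateField.equivOfEq h x : L) = x := rfl

/-- The Atkin–Lehner involution at `q` of the function field of level `M q`. -/
def wAL : FN M q ≃ₐ[Qb] FN M q :=
  (IntermediateField.equivOfEq (FN_eq M q)).trans
    ((exists_atkinLehner hqM (cast_mul_ne_zero M q)).choose.trans
      (IntermediateField.equivOfEq (FN_eq M q).symm))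

theorem coe_wAL (z : FN M q) : (wAL M q hqM z : LaurentSeries Qb) =
    ((exists_atkinLehner hqM (cast_mul_ne_zero M q)).choose
      (IntermediateField.equivOfEq (FN_eq M q) z) : LaurentSeries Qb) := by
  rw [wAL, AlgEquiv.trans_apply, AlgEquiv.trans_apply]
  rfl

theorem wAL_wAL (z : FN M q) : wAL M q hqM (wAL M q hqM z) = z := by
  apply Subtype.ext
  have h := congrArg Subtype.val ((exists_atkinLehner hqM (cast_mul_ne_zero M q)).choose_spec.1
    (IntermediateField.equivOfEq (FN_eq M q) z))
  rw [coe_wAL, show IntermediateField.equivOfEq (FN_eq M q) (wAL M q hqM z) =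
      (exists_atkinLehner hqM (cast_mul_ne_zero M q)).choose
        (IntermediateField.equivOfEq (FN_eq M q) z) from
    Subtype.ext ((coe_equivOfEq _ _).trans (coe_wAL M q hqM z))]
  exact h.trans (coe_equivOfEq _ z)

/-- `j(dτ)` -/
def jEl (d : ℕ) (hd0 : d ≠ 0) (hd : d ∣ M * q) : FN M q :=
  ⟨jv (1 : Qbˣ) d, (FN_eq M q).symm ▸ jv_mem_full hd0 hd⟩

omit hq [NeZero M] in
theorem coe_jEl (d : ℕ) (hd0 : d ≠ 0) (hd : d ∣ M * q) :
    (jEl M q d hd0 hd : LaurentSeries Qb) = jv (1 : Qbˣ) d := rfl

theorem coe_wAL_jv {d : ℕ} (hd0 : d ≠ 0) (hd : d ∣ M) (z : FN M q)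
    (hz : (z : LaurentSeries Qb) = jv (1 : Qbˣ) d) :
    (wAL M q hqM z : LaurentSeries Qb) = jv (1 : Qbˣ) (d * q) := by
  obtain rfl : z = ⟨_, (FN_eq M q).symm ▸ jv_mem_full hd0 (hd.mul_right q)⟩ := Subtype.ext hz
  rw [coe_wAL]
  exact (exists_atkinLehner hqM (cast_mul_ne_zero M q)).choose_spec.2.1 d hd0 hd

theorem coe_wAL_jv_mul {d : ℕ} (hd0 : d ≠ 0) (hd : d ∣ M) (z : FN M q)
    (hz : (z : LaurentSeries Qb) = jv (1 : Qbˣ) (d * q)) :
    (wAL M q hqM z : LaurentSeries Qb) = jv (1 : Qbˣ) d := by
  obtain rfl : z = ⟨_, (FN_eq M q).symm ▸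
    jv_mem_full (mul_ne_zero hd0 hq.out.ne_zero) (Nat.mul_dvd_mul_right hd q)⟩ := Subtype.ext hz
  rw [coe_wAL]
  exact (exists_atkinLehner hqM (cast_mul_ne_zero M q)).choose_spec.2.2 d hd0 hd

/-- `j(τ)` -/
def jOne : FN M q := jEl M q 1 one_ne_zero (one_dvd _)

/-- `j(qτ)` -/
def jQ : FN M q := jEl M q q hq.out.ne_zero (dvd_mul_left q M)

theorem wAL_jOne : wAL M q hqM (jOne M q) = jQ M q :=
  Subtype.ext ((coe_wAL_jv M q hqM one_ne_zero (one_dvd M) _ (coe_jEl M q 1 _ _)).trans
    (by rw [one_mul]; rfl))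

theorem wAL_jQ : wAL M q hqM (jQ M q) = jOne M q := by
  rw [← wAL_jOne M q hqM, wAL_wAL]

/-- The inclusion of level `M`. -/
def inclM : modularFunctionFieldBar M →ₐ[Qb] FN M q :=
  IntermediateField.inclusion (by
    rw [FN_eq, show modularFunctionFieldBar M = modularFunctionFieldFullC Qb M from
      MF.laurentBaseChange_full_eq Qb M]
    exact full_le_iff.mpr fun d hd0 hd => jv_mem_full hd0 (hd.mul_right q))

omit hq [NeZero M] in
theorem coe_inclM (a : modularFunctionFieldBar M) :
    (inclM M q a : LaurentSeries Qb) = (a : LaurentSeries Qb) :=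
  IntermediateField.coe_inclusion _ a

/-- On level `M` the involution is `f(τ) ↦ f(qτ)`. -/
theorem coe_wAL_inclM (a : modularFunctionFieldBar M) :
    (wAL M q hqM (inclM M q a) : LaurentSeries Qb) = qExpand Qb q (a : LaurentSeries Qb) := by
  obtain ⟨a, ha⟩ := a
  have ha' : a ∈ IntermediateField.adjoin Qb (divisorExpansionsC Qb M) := by
    show a ∈ modularFunctionFieldFullC Qb M
    rw [← show modularFunctionFieldBar M = modularFunctionFieldFullC Qb M from
      MF.laurentBaseChange_full_eq Qb M]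
    exact ha
  have hle : modularFunctionFieldFullC Qb M ≤ FN M q := by
    rw [FN_eq]; exact full_le_iff.mpr fun d hd0 hd => jv_mem_full hd0 (hd.mul_right q)
  suffices h : ∀ (hz : a ∈ FN M q),
      (wAL M q hqM ⟨a, hz⟩ : LaurentSeries Qb) = qExpand Qb q a from h _
  clear ha
  induction ha' using IntermediateField.adjoin_induction with
  | mem y hy =>
    obtain ⟨d, hd, hdM, rfl⟩ := hy
    have := hd
    intro hz
    rw [coe_wAL_jv M q hqM hd.out hdM _ (jv_one_eq_qExpand d).symm, qExpand_qExpand,
      jv_one_eq_qExpand (d * q) ]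
    exact qExpand_congr (mul_comm d q) _
  | algebraMap c =>
    intro hz
    rw [show (⟨_, hz⟩ : FN M q) = algebraMap Qb (FN M q) c from rfl, AlgEquiv.commutes,
      algebraMap_laurentSeries_eq_single, qExpand_single, mul_zero,
      ← algebraMap_laurentSeries_eq_single]
    rfl
  | add y z hy hz ihy ihz =>
    intro h
    rw [show (⟨y + z, h⟩ : FN M q) = ⟨y, hle hy⟩ + ⟨z, hle hz⟩ from rfl, map_add, map_add,
      ← ihy (hle hy), ← ihz (hle hz)]
    rfl
  | inv y hy ihy =>
    intro h
    rw [show (⟨y⁻¹, h⟩ : FN M q) = (⟨y, hle hy⟩ : FN M q)⁻¹ from rfl, map_inv₀, map_inv₀,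
      ← ihy (hle hy)]
    rfl
  | mul y z hy hz ihy ihz =>
    intro h
    rw [show (⟨y * z, h⟩ : FN M q) = ⟨y, hle hy⟩ * ⟨z, hle hz⟩ from rfl, map_mul, map_mul,
      ← ihy (hle hy), ← ihz (hle hz)]
    rfl

/-! ### degrees and poles -/

theorem finrank_jOne : Module.finrank (Qb⟮jOne M q⟯) (FN M q) = psi (M * q) := by
  rw [finrank_adjoin_eq_relfinrank, jOne, coe_jEl, ← relfinrank_full (M * q) (cast_mul_ne_zero M q)]
  congr 1
  exact FN_eq M q

theorem finrank_jQ : Module.finrank (Qb⟮jQ M q⟯) (FN M q) = psi (M * q) := by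
  rw [finrank_adjoin_eq_relfinrank, jQ, coe_jEl, ← relfinrank_full (M * q) (cast_mul_ne_zero M q),
    ← relfinrank_adjoin_jv_eq (cast_mul_ne_zero M q) le_rfl q (dvd_mul_left q M)]
  congr 1
  exact FN_eq M q

theorem transcendental_jv {K : Type*} [Field K] {d : ℕ} (hd : d ≠ 0) :
    Transcendental K (jv (1 : Kˣ) d) := by
  have : NeZero d := ⟨hd⟩
  rw [jv_one_eq_qExpand, ← qExpandAlgHomC_apply]
  exact transcendental_algebraMap_iff'' (MF.transcendental_jqModC (K := K)) (qExpandAlgHomC K d)
    (qExpand_injective d)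
where
  transcendental_algebraMap_iff'' {x : LaurentSeries K} (h : Transcendental K x)
      (φ : LaurentSeries K →ₐ[K] LaurentSeries K) (hφ : Function.Injective φ) :
      Transcendental K (φ x) := fun hal => h ((isAlgebraic_algHom_iff φ hφ).mp hal)

omit hq [NeZero M] in
theorem transcendental_jOne : Transcendental Qb (jOne M q) :=
  transcendental_subtype _ _ (transcendental_jv one_ne_zero)

omit [NeZero M] in
theorem transcendental_jQ : Transcendental Qb (jQ M q) :=
  transcendental_subtype _ _ (transcendental_jv hq.out.ne_zero)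

instance isFunctionField_FN : FF.IsFunctionField Qb (FN M q) :=
  ⟨⟨jOne M q, transcendental_jOne M q,
    FiniteDimensional.of_finrank_pos (by rw [finrank_jOne]; exact psi_pos _)⟩⟩

/-- A root of a monic polynomial over a valuation subring lies in it. -/
theorem mem_of_monic_root {K E : Type*} [Field K] [Field E] [Algebra K E] (P : Place K E)
    {Φ : Polynomial (Polynomial K)} (hΦ : Φ.Monic) {a b : E} (ha : a ∈ P.toValuationSubring)
    (h : (Φ.map (Polynomial.aeval (R := K) a).toRingHom).eval b = 0) :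
    b ∈ P.toValuationSubring := by
  let O := P.toValuationSubring
  have hcoef : ∀ p : Polynomial K, Polynomial.aeval a p ∈ O := fun p => by
    induction p using Polynomial.induction_on' with
    | add u v hu hv => rw [map_add]; exact add_mem hu hv
    | monomial n c =>
      rw [Polynomial.aeval_monomial]
      exact mul_mem (P.algebraMap_mem' c) (pow_mem ha n)
  let ev : Polynomial K →+* O :=
    (Polynomial.aeval (R := K) a).toRingHom.codRestrict O.toSubring hcoef
  have hint : IsIntegral O b := by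
    refine ⟨Φ.map ev, hΦ.map _, ?_⟩
    rw [Polynomial.eval₂_map, ← h, Polynomial.eval_map]
    rfl
  obtain ⟨y, hy⟩ := (IsIntegrallyClosed.isIntegral_iff (R := O) (K := E)).mp hint
  exact hy ▸ y.2

omit hq [NeZero M] in
theorem eval_modPoly {Φ : Polynomial (Polynomial Qb)} {a b : FN M q}
    (h : (Φ.map (evalAt (a : LaurentSeries Qb))).IsRoot (b : LaurentSeries Qb)) :
    (Φ.map (Polynomial.aeval (R := Qb) a).toRingHom).eval b = 0 := by
  refine (algebraMap (FN M q) (LaurentSeries Qb)).injective ?_
  rw [map_zero, ← Polynomial.eval_map_apply, Polynomial.map_map]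
  refine Eq.trans ?_ h
  have hc : (algebraMap (FN M q) (LaurentSeries Qb)).comp (Polynomial.aeval (R := Qb) a).toRingHom =
      evalAt (a : LaurentSeries Qb) := by
    refine Polynomial.ringHom_ext (fun c => ?_) ?_
    · simp only [RingHom.comp_apply, evalAt_C, AlgHom.toRingHom_eq_coe, RingHom.coe_coe,
        Polynomial.aeval_C]
      rw [← IsScalarTower.algebraMap_apply, algebraMap_laurentSeries_eq_single]
      rfl
    · simp
  rw [hc]
  rfl

omit [NeZero M] in
/-- `j(τ)` and `j(qτ)` have the same poles. -/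
theorem jQ_mem_iff (P : Place Qb (FN M q)) :
    jQ M q ∈ P.toValuationSubring ↔ jOne M q ∈ P.toValuationSubring := by
  obtain ⟨Φ, hΦ⟩ := exists_isModPoly (p := q) (K := Qb) (Nat.cast_ne_zero.mpr hq.out.ne_zero)
  have h1 : (Φ.map (evalAt (jOne M q : LaurentSeries Qb))).IsRoot (jQ M q : LaurentSeries Qb) := by
    have := isModPoly_root_up hΦ one_ne_zero
    rwa [one_mul] at this
  have h2 : (Φ.map (evalAt (jQ M q : LaurentSeries Qb))).IsRoot (jOne M q : LaurentSeries Qb) := by
    have := isModPoly_root_down hΦ one_ne_zero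
    rwa [one_mul] at this
  exact ⟨fun h => mem_of_monic_root P hΦ.monic h (eval_modPoly M q h2),
    fun h => mem_of_monic_root P hΦ.monic h (eval_modPoly M q h1)⟩

/-- The coordinate `j(τ) j(qτ)`. -/
def xN : FN M q := jOne M q * jQ M q

theorem wAL_xN : wAL M q hqM (xN M q) = xN M q := by
  rw [xN, map_mul, wAL_jOne, wAL_jQ, mul_comm]

theorem poleDiv_xN (P : Place Qb (FN M q)) :
    FF.poleDiv (K := Qb) (xN M q) P =
      FF.poleDiv (K := Qb) (jOne M q) P + FF.poleDiv (K := Qb) (jQ M q) P := by
  have h1 : jOne M q ≠ 0 := fun h => transcendental_jOne M q (h ▸ isAlgebraic_zero)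
  have h2 : jQ M q ≠ 0 := fun h => transcendental_jQ M q (h ▸ isAlgebraic_zero)
  have hiff := jQ_mem_iff M q P
  rw [Red.mem_place_iff, Red.mem_place_iff] at hiff
  rw [FF.poleDiv_apply, FF.poleDiv_apply, FF.poleDiv_apply, xN, P.ord_mul h1 h2]
  omega

theorem transcendental_xN : Transcendental Qb (xN M q) := by
  obtain ⟨P, hP⟩ := FF.exists_place_ord_neg (K := Qb) (transcendental_jOne M q)
  refine FF.transcendental_of_ord_ne_zero P ?_
  have h := poleDiv_xN M q P
  rw [FF.poleDiv_apply, FF.poleDiv_apply, FF.poleDiv_apply] at h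
  omega

theorem finrank_xN (hqM : ¬ q ∣ M) :
    Module.finrank (Qb⟮xN M q⟯) (FN M q) = 2 * ((q + 1) * psi M) := by
  have h : Divisor.degree (FF.poleDiv (K := Qb) (xN M q)) =
      Divisor.degree (FF.poleDiv (K := Qb) (jOne M q)) +
        Divisor.degree (FF.poleDiv (K := Qb) (jQ M q)) := by
    rw [← map_add]
    congr 1
    exact Finsupp.ext fun P => by rw [Finsupp.add_apply, poleDiv_xN]
  rw [FF.degree_poleDiv (transcendental_xN M q), FF.degree_poleDiv (transcendental_jOne M q),
    FF.degree_poleDiv (transcendental_jQ M q), finrank_jOne, finrank_jQ,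
    psi_mul_prime (NeZero.ne M) hq.out, if_neg hqM] at h
  rw [mul_comm (q + 1)]
  omega

end Fermat.Agent.TwoComponent
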