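import Fermat.Agent.FF.Modular
import Fermat.Agent.TwoComponent.FramePole
import Fermat.Agent.TwoComponent.ModelBase

/-!
# The frame of `X₀(M q)` at `q`, with values in the level `M` field in characteristic `q`

The reductions at the cusp `∞` and after the Atkin–Lehner involution take values in the level `M`
field in characteristic `q`, and have a lifted basis adapted to both sides.
-/

noncomputable section

open ModularCurve AlgebraicCurve IntermediateField Fermat.Agent.Red Fermat.Agent.Igusa

namespace Fermat.Agent.TwoComponent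

local notation "Qb" => AlgebraicClosure ℚ

variable (M q : ℕ) [hq : Fact q.Prime] [NeZero M] (hqM : ¬ q ∣ M)
variable (A : ValuationSubring (AlgebraicClosure ℚ)) {k : Type*} [Field k] (π : A →+* k)

/-- What is assumed of the residue map at a place above `q`. -/
structure ResidueAt (q : ℕ) (π : A →+* k) : Prop where
  surj : Function.Surjective π
  charP : CharP k q
  arch : ∀ a b : A, π a = 0 → b ≠ 0 → ∃ (n : ℕ) (c : A), a ^ n = c * b

variable {A π}

/-- The generators `j(dτ)` have integer coefficients. -/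
theorem jv_mem_intSer {R : Type*} [CommRing R] {d : ℕ} (hd : d ≠ 0) :
    coeffMap (Int.castRingHom R) (jv (1 : ℤˣ) d) = jv (1 : Rˣ) d := by
  rw [coeffMap_jv _ _ hd, map_one]

omit hq [NeZero M] in
theorem divisorExpansions_subset :
    divisorExpansionsC Qb (M * q) ⊆ IntSer Qb := by
  rintro _ ⟨d, hd, -, rfl⟩
  have := hd
  exact ⟨jv (1 : ℤˣ) d, by rw [jv_mem_intSer hd.out, jv_one_eq_qExpand]⟩

/-- Reduction of `q`-expansions. -/
def redInf (hres : ResidueAt A q π) : RedBase A π (FN M q) (LaurentSeries k) :=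
  gaussBase A π (FN M q) hres.surj (divisorExpansionsC Qb (M * q)) (FN_eq M q)
    (divisorExpansions_subset M q)

/-- The reductions of expansions at `∞` and after the Atkin–Lehner involution. -/
def redPair (hqM : ¬ q ∣ M) (hres : ResidueAt A q π) :
    Bool → RedBase A π (FN M q) (LaurentSeries k) :=
  fun i => Bool.rec (redInf M q hres) (comapRed (redInf M q hres) (wAL M q hqM)) i

theorem redInf_of_series (hres : ResidueAt A q π) {f : FN M q} {y : LaurentSeries A}
    (hy : coeffMap A.subtype y = (f : LaurentSeries Qb)) :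
    ∃ h : f ∈ (redPair M q hqM hres false).O,
      (redPair M q hqM hres false).red ⟨f, h⟩ = coeffMap π y :=
  gaussBase_red A π (FN M q) hres.surj (FN_eq M q) (divisorExpansions_subset M q) hy

theorem redZero_of_series (hres : ResidueAt A q π) {f : FN M q} {y : LaurentSeries A}
    (hy : coeffMap A.subtype y = (wAL M q hqM f : LaurentSeries Qb)) :
    ∃ h : f ∈ (redPair M q hqM hres true).O,
      (redPair M q hqM hres true).red ⟨f, h⟩ = coeffMap π y := by
  obtain ⟨h, hr⟩ := redInf_of_series M q hqM hres hy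
  exact ⟨h, hr⟩

theorem red_of_intSeries (hres : ResidueAt A q π) {f : FN M q} (y : LaurentSeries ℤ)
    (hy : coeffMap (Int.castRingHom Qb) y = (f : LaurentSeries Qb)) :
    ∃ h : f ∈ (redPair M q hqM hres false).O,
      (redPair M q hqM hres false).red ⟨f, h⟩ = coeffMap (Int.castRingHom k) y := by
  obtain ⟨h, hr⟩ := redInf_of_series M q hqM hres (f := f)
    (y := coeffMap (Int.castRingHom A) y)
    (by rw [coeffMap_coeffMap, ← hy]; exact coeffMap_congr (RingHom.ext_int _ _) _)
  exact ⟨h, by rw [hr, coeffMap_coeffMap]; exact coeffMap_congr (RingHom.ext_int _ _) _⟩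

/-- In characteristic `q`, `j(t^(dq)) = j(t^d)^q`. -/
theorem jv_mul_char {R : Type*} [CommRing R] [CharP R q] {d : ℕ} (hd : d ≠ 0) :
    jv (1 : Rˣ) (d * q) = jv (1 : Rˣ) d ^ q := by
  have : NeZero d := ⟨hd⟩
  have hfix : coeffMap (frobenius R q) (jv (1 : Rˣ) d) = jv (1 : Rˣ) d := by
    rw [coeffMap_jv _ _ hd, map_one]
  rw [EichlerShimura.pow_char_eq_qExpand q (jv (1 : Rˣ) d), hfix, jv_one_eq_qExpand,
    jv_one_eq_qExpand,
    qExpand_qExpand]
  exact qExpand_congr (mul_comm d q) _

omit [NeZero M] in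
/-- `t ↦ t^q` preserves the field of level `M` in characteristic `q`. -/
theorem qExpand_char_mem [CharP k q] [PerfectRing k q] {x : LaurentSeries k}
    (hx : x ∈ modularFunctionFieldFullC k M) :
    qExpand k q x ∈ modularFunctionFieldFullC k M := by
  have h : qExpand k q x =
      coeffMap ((frobeniusEquiv k q).symm : k →+* k) x ^ q := by
    rw [EichlerShimura.pow_char_eq_qExpand q (coeffMap _ x), coeffMap_coeffMap]
    congr 1
    ext n
    simp
  rw [h]
  refine pow_mem ?_ q
  clear h
  induction hx using IntermediateField.adjoin_induction with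
  | mem y hy =>
    obtain ⟨d, hd, hdM, rfl⟩ := hy
    have := hd
    rw [coeffMap_qExpand, coeffMap_jqModC]
    exact jqModCd_mem_full k M hdM
  | algebraMap c =>
    rw [coeffMap_algebraMap]
    exact (modularFunctionFieldFullC k M).algebraMap_mem _
  | add y z _ _ ihy ihz => rw [map_add]; exact add_mem ihy ihz
  | inv y _ ih => rw [map_inv₀]; exact inv_mem ih
  | mul y z _ _ ihy ihz => rw [map_mul]; exact mul_mem ihy ihz

/-- `j(τ) - j(qτ)^q` -/
def shInf : FN M q := jOne M q - jQ M q ^ q

/-- The integer series of `j(qτ) - j(τ)^q`, divided by `q`. -/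
def killSeries : LaurentSeries ℤ where
  coeff n := (jv (1 : ℤˣ) q - jv (1 : ℤˣ) 1 ^ q).coeff n / (q : ℤ)
  isPWO_support' := (jv (1 : ℤˣ) q - jv (1 : ℤˣ) 1 ^ q).isPWO_support.mono fun n hn h0 =>
    hn (by simp only [h0, Int.zero_ediv])

theorem natCast_mul_killSeries :
    (q : LaurentSeries ℤ) * killSeries q = jv (1 : ℤˣ) q - jv (1 : ℤˣ) 1 ^ q := by
  have h : coeffMap (Int.castRingHom (ZMod q)) (jv (1 : ℤˣ) q - jv (1 : ℤˣ) 1 ^ q) = 0 := by
    rw [map_sub, map_pow, jv_mem_intSer hq.out.ne_zero, jv_mem_intSer one_ne_zero,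
      ← jv_mul_char q one_ne_zero, one_mul, sub_self]
  ext n
  have hn : (q : ℤ) ∣ (jv (1 : ℤˣ) q - jv (1 : ℤˣ) 1 ^ q).coeff n := by
    rw [← ZMod.intCast_zmod_eq_zero_iff_dvd]
    exact congrArg (fun f : LaurentSeries (ZMod q) => f.coeff n) h
  rw [show ((q : LaurentSeries ℤ)) = HahnSeries.C (q : ℤ) from (map_natCast HahnSeries.C q).symm,
    HahnSeries.C_apply, HahnSeries.coeff_single_mul, sub_zero]
  exact Int.mul_ediv_cancel' hn

theorem coe_wAL_shInf :
    (wAL M q hqM (shInf M q) : LaurentSeries Qb) =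
      coeffMap (Int.castRingHom Qb) ((q : LaurentSeries ℤ) * killSeries q) := by
  rw [natCast_mul_killSeries, shInf, map_sub, map_pow, wAL_jOne, wAL_jQ, map_sub, map_pow,
    jv_mem_intSer hq.out.ne_zero, jv_mem_intSer one_ne_zero]
  rfl

/-- `(j(qτ) - j(τ)^q)/q` -/
def zInf : FN M q := (q : FN M q)⁻¹ * wAL M q hqM (shInf M q)

theorem coe_zInf : (zInf M q hqM : LaurentSeries Qb) =
    coeffMap (Int.castRingHom Qb) (killSeries q) := by
  have hq0 : (q : LaurentSeries Qb) ≠ 0 := by
    rw [← map_natCast (algebraMap Qb (LaurentSeries Qb))]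
    exact (_root_.map_ne_zero _).mpr (Nat.cast_ne_zero.mpr hq.out.ne_zero)
  rw [zInf, IntermediateField.coe_mul, IntermediateField.coe_inv, coe_wAL_shInf, map_mul,
    map_natCast, ← mul_assoc]
  show (q : LaurentSeries Qb)⁻¹ * _ * _ = _
  rw [inv_mul_cancel₀ hq0, one_mul]

theorem shInf_eq : shInf M q = algebraMap Qb (FN M q) (q : Qb) * wAL M q hqM (zInf M q hqM) := by
  rw [zInf, map_mul, map_inv₀, map_natCast, wAL_wAL, map_natCast, ← mul_assoc,
    mul_inv_cancel₀ (Nat.cast_ne_zero.mpr hq.out.ne_zero), one_mul]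

variable [CharP k q] [IsAlgClosed k]

/-- `j̄ - j̄^(q²)` -/
def betaBar : LaurentSeries k := jv (1 : kˣ) 1 - jv (1 : kˣ) 1 ^ (q * q)

omit [CharP k q] [IsAlgClosed k] in
theorem betaBar_ne_zero : betaBar q (k := k) ≠ 0 := by
  intro h
  have hq2 : 1 < q * q := by nlinarith [hq.out.two_le]
  have hp : (Polynomial.X - Polynomial.X ^ (q * q) : Polynomial k) ≠ 0 := fun h0 => by
    have := congrArg (fun p : Polynomial k => p.coeff 1) h0
    simp [Polynomial.coeff_X_pow, hq2.ne] at this
  exact transcendental_jv (K := k) one_ne_zero ⟨_, hp, by simpa [betaBar] using h⟩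

omit [IsAlgClosed k] in
theorem shInf_red (hres : ResidueAt A q π) :
    ∃ h : shInf M q ∈ (redPair M q hqM hres false).O,
      (redPair M q hqM hres false).red ⟨shInf M q, h⟩ = betaBar q := by
  obtain ⟨h, hr⟩ := red_of_intSeries M q hqM hres (f := shInf M q)
    (jv (1 : ℤˣ) 1 - jv (1 : ℤˣ) q ^ q)
    (by rw [map_sub, map_pow, jv_mem_intSer hq.out.ne_zero, jv_mem_intSer one_ne_zero]; rfl)
  refine ⟨h, hr.trans ?_⟩
  rw [map_sub, map_pow, jv_mem_intSer hq.out.ne_zero, jv_mem_intSer one_ne_zero, betaBar,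
    pow_mul, ← jv_mul_char q one_ne_zero, one_mul]

/-- `q` in `A` -/
def theta : A := (q : A)

omit hq [IsAlgClosed k] in
theorem pi_theta : π (theta (A := A) q) = 0 := by rw [theta, map_natCast, CharP.cast_eq_zero]

omit [CharP k q] [IsAlgClosed k] in
theorem shInf_small (hres : ResidueAt A q π) :
    ∃ v ∈ (redPair M q hqM hres true).O,
      shInf M q = algebraMap Qb (FN M q) ((theta (A := A) q : A) : Qb) * v := by
  refine ⟨wAL M q hqM (zInf M q hqM), ?_, ?_⟩
  · show wAL M q hqM (wAL M q hqM (zInf M q hqM)) ∈ (redInf M q hres).O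
    rw [wAL_wAL]
    exact (red_of_intSeries M q hqM hres _ (coe_zInf M q hqM).symm).1
  · rw [theta, show (((q : A) : Qb)) = (q : Qb) from map_natCast A.subtype q]
    exact shInf_eq M q hqM

omit hq [NeZero M] [CharP k q] in
/-- The lifts: level `M` functions with integral expansion. -/
theorem exists_basis_level (hπ : Function.Surjective π) (hMk : (M : k) ≠ 0) :
    ∃ (x : modularFunctionFieldFullC k M), (x : LaurentSeries k) = jv (1 : kˣ) 1 ^ (q + 1) ∧
      Transcendental k x ∧
      ∃ b : Fin ((q + 1) * psi M) → integralFunctions A π M,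
        LinearIndependent (k⟮x⟯) fun l => integralReduction A π M (b l) := by
  set jb : modularFunctionFieldFullC k M := ⟨jv (1 : kˣ) 1, jv_mem_full one_ne_zero (one_dvd M)⟩
    with hjb
  have htr : Transcendental k jb := transcendental_subtype _ _ (transcendental_jv one_ne_zero)
  have hfin : Module.finrank (k⟮jb⟯) (modularFunctionFieldFullC k M) = psi M := by
    rw [finrank_adjoin_eq_relfinrank]
    exact relfinrank_full M hMk
  have : FF.IsFunctionField k (modularFunctionFieldFullC k M) :=
    ⟨⟨jb, htr, FiniteDimensional.of_finrank_pos (by rw [hfin]; exact psi_pos M)⟩⟩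
  have hxt : Transcendental k (jb ^ (q + 1)) := htr.pow (Nat.succ_pos q)
  have hd : Module.finrank (k⟮jb ^ (q + 1)⟯) (modularFunctionFieldFullC k M) = (q + 1) * psi M := by
    have h1 := FF.degree_poleDiv hxt
    have h2 : FF.poleDiv (K := k) (jb ^ (q + 1)) = (q + 1) • FF.poleDiv (K := k) jb :=
      Finsupp.ext fun Q => by
        rw [Finsupp.smul_apply, FF.poleDiv_apply, FF.poleDiv_apply, Red.ord_pow, nsmul_eq_mul,
          mul_max_of_nonneg _ _ (Int.natCast_nonneg _), mul_zero, mul_neg]
    rw [h2, map_nsmul, FF.degree_poleDiv htr, hfin, nsmul_eq_mul] at h1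
    exact_mod_cast h1.symm
  have : FiniteDimensional (k⟮jb ^ (q + 1)⟯) (modularFunctionFieldFullC k M) :=
    FiniteDimensional.of_finrank_pos (by rw [hd]; exact Nat.mul_pos (Nat.succ_pos q) (psi_pos M))
  obtain ⟨b, hb⟩ := exists_basis_adjoin (divisorExpansionsC k M) (modularFunctionFieldFullC k M)
    rfl (jb ^ (q + 1)) (integralReduction A π M)
    (fun c => by
      obtain ⟨a, rfl⟩ := hπ c
      exact ⟨⟨_, algebraMap_mem_integralFunctions a⟩, integralReduction_algebraMap a⟩)
    (fun y hy => by
      obtain ⟨d, hd', hdvd, rfl⟩ := hy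
      have := hd'
      exact ⟨jIntegral A π M d hdvd, coe_integralReduction_jIntegral A π M d hdvd⟩)
  exact ⟨jb ^ (q + 1), rfl, hxt, fun l => b (Fin.cast hd.symm l),
    hb.comp _ (Fin.cast_injective _)⟩

omit [CharP k q] [IsAlgClosed k] in
theorem inclM_red (hres : ResidueAt A q π) (b : integralFunctions A π M) :
    (∃ h : inclM M q b.1 ∈ (redPair M q hqM hres false).O,
      (redPair M q hqM hres false).red ⟨_, h⟩ = (integralReduction A π M b : LaurentSeries k)) ∧
    (∃ h : inclM M q b.1 ∈ (redPair M q hqM hres true).O,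
      (redPair M q hqM hres true).red ⟨_, h⟩ =
        qExpand k q (integralReduction A π M b : LaurentSeries k)) := by
  obtain ⟨y, hy, hyk⟩ := b.2
  refine ⟨?_, ?_⟩
  · obtain ⟨h, hr⟩ := redInf_of_series M q hqM hres (f := inclM M q b.1) (y := y)
      (by rw [coe_inclM]; exact hy)
    exact ⟨h, by rw [hr, coe_integralReduction A π M hy]⟩
  · obtain ⟨h, hr⟩ := redZero_of_series M q hqM hres (f := inclM M q b.1) (y := qExpand A q y)
      (by rw [coeffMap_qExpand, hy, coe_wAL_inclM])
    exact ⟨h, by rw [hr, coe_integralReduction A π M hy, coeffMap_qExpand]⟩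

omit [CharP k q] [IsAlgClosed k] in
theorem red_true_wAL (hres : ResidueAt A q π) {f : FN M q}
    (h : f ∈ (redPair M q hqM hres false).O) :
    ∃ h' : wAL M q hqM f ∈ (redPair M q hqM hres true).O,
      (redPair M q hqM hres true).red ⟨_, h'⟩ = (redPair M q hqM hres false).red ⟨f, h⟩ := by
  have h' : wAL M q hqM (wAL M q hqM f) ∈ (redInf M q hres).O := by rw [wAL_wAL]; exact h
  exact ⟨h', congrArg (redInf M q hres).red (Subtype.ext (wAL_wAL M q hqM f))⟩

omit [CharP k q] [IsAlgClosed k] in
theorem red_false_wAL (hres : ResidueAt A q π) {f : FN M q}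
    (h : f ∈ (redPair M q hqM hres true).O) :
    ∃ h' : wAL M q hqM f ∈ (redPair M q hqM hres false).O,
      (redPair M q hqM hres false).red ⟨_, h'⟩ = (redPair M q hqM hres true).red ⟨f, h⟩ :=
  ⟨h, rfl⟩

omit [IsAlgClosed k] in
theorem xN_red (hres : ResidueAt A q π) (i : Bool) :
    ∃ h : xN M q ∈ (redPair M q hqM hres i).O,
      (redPair M q hqM hres i).red ⟨_, h⟩ = jv (1 : kˣ) 1 ^ (q + 1) := by
  obtain ⟨h, hr⟩ := red_of_intSeries M q hqM hres (f := xN M q)
    (jv (1 : ℤˣ) 1 * jv (1 : ℤˣ) q)
    (by rw [map_mul, jv_mem_intSer hq.out.ne_zero, jv_mem_intSer one_ne_zero]; rfl)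
  rw [map_mul, jv_mem_intSer hq.out.ne_zero, jv_mem_intSer one_ne_zero] at hr
  have e : jv (1 : kˣ) 1 * jv (1 : kˣ) q = jv (1 : kˣ) 1 ^ (q + 1) := by
    conv_lhs => rw [show q = 1 * q from (one_mul q).symm, jv_mul_char q one_ne_zero]
    rw [pow_succ']
  cases i
  · exact ⟨h, hr.trans e⟩
  · obtain ⟨h', hr'⟩ := red_true_wAL M q hqM hres h
    have hx := wAL_xN M q hqM
    refine ⟨hx ▸ h', ?_⟩
    rw [← e, ← hr, ← hr']
    exact congrArg _ (Subtype.ext hx.symm)

/-- The two reductions have a frame with coordinate `xN`, with values in the level `M` field. -/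
theorem exists_frame (hres : ResidueAt A q π) (hMk : (M : k) ≠ 0) :
    ∃ G : Frame A π (FN M q) (LaurentSeries k), G.R = redPair M q hqM hres ∧ G.x = xN M q ∧
      G.d = (q + 1) * psi M ∧
      (∀ (i : Bool) (u : (G.R i).O), (G.R i).red u ∈ modularFunctionFieldFullC k M) := by
  classical
  obtain ⟨xb, hxb, hxt, b, hb⟩ := exists_basis_level M q hres.surj hMk (k := k) (A := A)
  obtain ⟨hsF, hsFr⟩ := shInf_red M q hqM hres (k := k)
  obtain ⟨v, hv, hvs⟩ := shInf_small M q hqM hres
  have hsT : shInf M q ∈ (redPair M q hqM hres true).O := by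
    rw [hvs]; exact mul_mem ((redPair M q hqM hres true).algebraMap_mem _) hv
  have hsTr : (redPair M q hqM hres true).red ⟨_, hsT⟩ = 0 := by
    rw [show (⟨_, hsT⟩ : (redPair M q hqM hres true).O) =
      (redPair M q hqM hres true).ι (theta q) * ⟨v, hv⟩ from Subtype.ext hvs, map_mul,
      RedBase.red_ι, pi_theta, map_zero, zero_mul]
  let m : Bool → Fin ((q + 1) * psi M) → FN M q := fun i l =>
    Bool.rec (shInf M q * inclM M q (b l).1) (wAL M q hqM (shInf M q * inclM M q (b l).1)) i
  have hm0 : ∀ l, m false l ∈ (redPair M q hqM hres false).O := fun l =>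
    mul_mem hsF (inclM_red M q hqM hres (b l)).1.1
  have hm1 : ∀ l, m false l ∈ (redPair M q hqM hres true).O := fun l =>
    mul_mem hsT (inclM_red M q hqM hres (b l)).2.1
  have hmem : ∀ i l i', m i l ∈ (redPair M q hqM hres i').O := fun i l i' => by
    cases i <;> cases i'
    · exact hm0 l
    · exact hm1 l
    · exact (red_false_wAL M q hqM hres (hm1 l)).1
    · exact (red_true_wAL M q hqM hres (hm0 l)).1
  have hr0 : ∀ l, (redPair M q hqM hres false).red ⟨m false l, hm0 l⟩ =
      betaBar q * (integralReduction A π M (b l) : LaurentSeries k) := fun l => by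
    obtain ⟨hh, hhr⟩ := (inclM_red M q hqM hres (b l)).1
    rw [show (⟨m false l, hm0 l⟩ : (redPair M q hqM hres false).O) = ⟨_, hsF⟩ * ⟨_, hh⟩ from rfl,
      map_mul, hhr, hsFr]
  have hr1 : ∀ l, (redPair M q hqM hres true).red ⟨m false l, hm1 l⟩ = 0 := fun l => by
    rw [show (⟨m false l, hm1 l⟩ : (redPair M q hqM hres true).O) =
      ⟨_, hsT⟩ * ⟨_, (inclM_red M q hqM hres (b l)).2.1⟩ from rfl, map_mul, hsTr, zero_mul]
  have hw1 : ∀ l, (redPair M q hqM hres false).red ⟨m true l, hmem true l false⟩ = 0 := fun l =>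
    (red_false_wAL M q hqM hres (hm1 l)).2.trans (hr1 l)
  have hw0 : ∀ l, (redPair M q hqM hres true).red ⟨m true l, hmem true l true⟩ =
      betaBar q * (integralReduction A π M (b l) : LaurentSeries k) := fun l =>
    (red_true_wAL M q hqM hres (hm0 l)).2.trans (hr0 l)
  have hwS : wAL M q hqM (shInf M q) ∈ (redPair M q hqM hres true).O :=
    (red_true_wAL M q hqM hres hsF).1
  have hwS0 : wAL M q hqM (shInf M q) ∈ (redPair M q hqM hres false).O :=
    (red_false_wAL M q hqM hres hsT).1
  have hx : ∀ i, (redPair M q hqM hres i).red ⟨xN M q, (xN_red M q hqM hres i).1⟩ =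
      (xb : LaurentSeries k) := fun i => (xN_red M q hqM hres i).2.trans hxb.symm
  have hxtr : Transcendental k (xb : LaurentSeries k) := by
    rw [hxb]; exact (transcendental_jv one_ne_zero).pow (Nat.succ_pos q)
  have hli : LinearIndependent (k⟮(xb : LaurentSeries k)⟯)
      fun l => betaBar q * (integralReduction A π M (b l) : LaurentSeries k) := by
    rw [Fintype.linearIndependent_iff]
    intro g hg l
    have hpre : ∀ l, ∃ r : k⟮xb⟯, ((r : modularFunctionFieldFullC k M) : LaurentSeries k) =
        ((g l : k⟮(xb : LaurentSeries k)⟯) : LaurentSeries k) := fun l => by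
      have h : ((g l : k⟮(xb : LaurentSeries k)⟯) : LaurentSeries k) ∈
          (k⟮xb⟯).map (modularFunctionFieldFullC k M).val := by
        rw [IntermediateField.adjoin_map, Set.image_singleton]
        exact (g l).2
      obtain ⟨r, hr, hre⟩ := h
      exact ⟨⟨r, hr⟩, hre⟩
    choose r hr using hpre
    have h0 : ∑ l, r l • integralReduction A π M (b l) = 0 := by
      apply Subtype.ext
      rw [IntermediateField.coe_sum, ZeroMemClass.coe_zero]
      refine (mul_eq_zero.mp ?_).resolve_left (betaBar_ne_zero q (k := k))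
      rw [Finset.mul_sum, ← hg]
      refine Finset.sum_congr rfl fun l _ => ?_
      rw [IntermediateField.smul_def, IntermediateField.smul_def, smul_eq_mul, smul_eq_mul,
        IntermediateField.coe_mul, hr, mul_left_comm]
    have := Fintype.linearIndependent_iff.mp hb r h0 l
    apply Subtype.ext
    rw [← hr, this]
    simp
  let G : Frame A π (FN M q) (LaurentSeries k) :=
    { R := redPair M q hqM hres
      x := xN M q
      x_mem := fun i => (xN_red M q hqM hres i).1
      transcendental := fun i => by rw [hx i]; exact hxtr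
      d := (q + 1) * psi M
      d_pos := Nat.mul_pos (Nat.succ_pos q) (psi_pos M)
      m := m
      m_mem := hmem
      m_red := fun i l i' hne => by
        cases i <;> cases i'
        · exact absurd rfl hne
        · exact hr1 l
        · exact hw1 l
        · exact absurd rfl hne
      linearIndependent := fun i => by
        rw [hx i]
        cases i
        · exact (funext fun l => hr0 l) ▸ hli
        · exact (funext fun l => hw0 l) ▸ hli
      finrank_eq := finrank_xN M q hqM
      θ := theta q
      π_θ := pi_theta q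
      θ_ne := fun h => hq.out.ne_zero (Nat.cast_eq_zero (R := A).mp h)
      arch := hres.arch
      sh := fun i => Bool.rec (shInf M q) (wAL M q hqM (shInf M q)) i
      sh_mem := fun i i' => by
        cases i <;> cases i'
        exacts [hsF, hsT, hwS0, hwS]
      sh_red := fun i => by
        cases i
        · rw [hsFr]; exact betaBar_ne_zero q
        · rw [(red_true_wAL M q hqM hres hsF).2, hsFr]; exact betaBar_ne_zero q
      sh_small := fun i => by
        cases i
        · exact ⟨v, hv, hvs⟩
        · exact ⟨wAL M q hqM v, (red_false_wAL M q hqM hres hv).1, by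
            rw [show wAL M q hqM (shInf M q) = wAL M q hqM (algebraMap Qb (FN M q) _ * v) from
              congrArg _ hvs, map_mul, AlgEquiv.commutes]⟩ }
  refine ⟨G, rfl, rfl, rfl, fun i u => ?_⟩
  have hj : jv (1 : kˣ) 1 ∈ modularFunctionFieldFullC k M := jv_mem_full one_ne_zero (one_dvd M)
  have hbeta : betaBar q ∈ modularFunctionFieldFullC k M := sub_mem hj (pow_mem hj _)
  refine G.red_mem _ i ?_ ?_ ?_ u
  · show (redPair M q hqM hres i).red _ ∈ _
    rw [hx i]
    exact xb.2
  · intro l
    show (redPair M q hqM hres i).red _ ∈ _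
    cases i
    · exact (hr0 l).symm ▸ mul_mem hbeta (integralReduction A π M (b l)).2
    · exact (hw0 l).symm ▸ mul_mem hbeta (integralReduction A π M (b l)).2
  · show (redPair M q hqM hres i).red _ ∈ _
    cases i
    · exact hsFr.symm ▸ hbeta
    · exact ((red_true_wAL M q hqM hres hsF).2.trans hsFr).symm ▸ hbeta

end Fermat.Agent.TwoComponent
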