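import Fermat.Agent.TwoComponent.ModelDegen
import Fermat.Agent.TwoComponent.ModelSemi

/-!
# The decomposition group permutes the nodes of `X₀(M q)` at `q`

An element of the decomposition group maps the node set to itself, as it commutes with Frobenius
and fixes the coordinate.
-/

noncomputable section

open ModularCurve AlgebraicCurve IntermediateField Fermat.Agent.Red Fermat.Agent.Igusa

namespace Fermat.Agent.TwoComponent

local notation "Qb" => AlgebraicClosure ℚ
local notation "GQ" => (AlgebraicClosure ℚ ≃ₐ[ℚ] AlgebraicClosure ℚ)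

theorem mem_smul_place {K F : Type*} [Field K] [Field F] [Algebra K F] (g : SemilinearAut K F)
    (v : Place K F) (f : F) :
    g • f ∈ (g • v).toValuationSubring ↔ f ∈ v.toValuationSubring := by
  rw [Red.mem_place_iff, Red.mem_place_iff, SemilinearAut.ord_smul]

theorem val_smul_smul {K F : Type*} [Field K] [IsAlgClosed K] [Field F] [Algebra K F]
    [FF.IsFunctionField K F] (g : SemilinearAut K F) (v : Place K F) {f : F}
    (hf : f ∈ v.toValuationSubring) :
    val (g • v) (g • f) = SemilinearAut.baseAut g (val v f) := by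
  refine (val_eq_iff (g • v) ((mem_smul_place g v f).mpr hf) _).mpr ?_
  have h := (val_eq_iff v hf (val v f)).mp rfl
  rcases eq_or_ne (f - algebraMap K F (val v f)) 0 with h0 | h0
  · rw [← SemilinearAut.smul_algebraMap, ← smul_sub, h0, smul_zero]
    exact zero_mem _
  rw [FF.mem_poleLe_of_ne v h0] at h
  rw [← SemilinearAut.smul_algebraMap, ← smul_sub,
    FF.mem_poleLe_of_ne (g • v) (fun h' => h0 ((smul_eq_zero_iff_eq g).mp h')),
    SemilinearAut.ord_smul]
  exact h

variable (M q : ℕ) [hq : Fact q.Prime] [NeZero M] (hqM : ¬ q ∣ M)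
variable {A : ValuationSubring (AlgebraicClosure ℚ)} {k : Type*} [Field k] {π : A →+* k}
variable [CharP k q] [IsAlgClosed k]

omit [NeZero M] in
theorem coeffSemilinear_comm_frobC (φ : k ≃+* k) :
    EichlerShimura.coeffSemilinear M φ * frobC M q (k := k) = frobC M q
      (k := k) * EichlerShimura.coeffSemilinear M φ := by
  have : PerfectRing k q := PerfectField.toPerfectRing q
  have e : ∀ x : k, φ (frobeniusEquiv k q x) = frobeniusEquiv k q (φ x) := fun x => by
    rw [frobeniusEquiv_apply, frobeniusEquiv_apply, frobenius_def, frobenius_def, map_pow]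
  refine Subtype.ext (Prod.ext (RingEquiv.ext fun x => Subtype.ext ?_) (RingEquiv.ext e))
  show coeffMap (φ : k →+* k) (coeffMap (frobeniusEquiv k q : k →+* k) (x : LaurentSeries k)) =
    coeffMap (frobeniusEquiv k q : k →+* k) (coeffMap (φ : k →+* k) (x : LaurentSeries k))
  ext n
  exact e _

omit [NeZero M] [IsAlgClosed k] in
theorem coeffSemilinear_smul_jbC (φ : k ≃+* k) :
    EichlerShimura.coeffSemilinear M φ • (jbC M : CK M k) = jbC M := by
  refine Subtype.ext ?_
  rw [EichlerShimura.coe_coeffSemilinear_smul]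
  show coeffMap (φ : k →+* k) (jv (1 : kˣ) 1) = jv (1 : kˣ) 1
  rw [coeffMap_jv _ _ one_ne_zero, map_one]

variable (hres : ResidueAt A q π)
  (hgen : genusFF Qb (modularFunctionFieldBar M) ≤ genusFF k (CK M k))

theorem coeffSemilinear_smul_nodeSet {σ : GQ} {φ : k ≃+* k}
    (h' : EichlerShimura.InducesOn A π σ.symm φ.symm) {y : Place k (CK M k)}
    (hy : y ∈ (graphAlg M q hqM hres hgen).nodeSet) :
    EichlerShimura.coeffSemilinear M φ • y ∈ (graphAlg M q hqM hres hgen).nodeSet := by
  have := isFunctionField_CK M q hqM (k := k)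
  set G := graphAlg M q hqM hres hgen with hG
  set g := EichlerShimura.coeffSemilinear M φ (k := k) with hg
  obtain ⟨hreg, hfix, hagree⟩ := hy
  have hz : g • (G.z : CK M k) = G.z := by
    show g • (xbC M q : CK M k) = xbC M q
    rw [xbC, smul_pow', hg, coeffSemilinear_smul_jbC]
  have hφ : ∀ v : Place k (CK M k), G.φ (g • v) = g • G.φ v := fun v => by
    show frobC M q (k := k) • (g • v) = g • (frobC M q (k := k) • v)
    rw [← mul_smul, ← mul_smul, hg, coeffSemilinear_comm_frobC]
  refine ⟨hz ▸ (mem_smul_place g y _).mpr hreg, by rw [hφ, hφ, hfix], fun w hw => ?_⟩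
  obtain ⟨n, u, hu, huS, rfl⟩ := (mem_imgC M q hqM hres).mp hw
  -- pull back by the inverse
  have hu' : ∀ i, galFN M q σ.symm • u ∈ (redC M q hqM hres i).O := fun i =>
    (redC_smul M q hqM hres h' i ⟨u, hu i⟩).1
  have huS' : galFN M q σ.symm • u ∈ riemannRochSpace (n • FF.poleDiv (K := Qb) (xN M q)) := by
    have h1 := (modelSemiRed M q hqM hres hgen h').smul_mem_space
      (D := n • FF.poleDiv (K := Qb) (xN M q)) huS
    rwa [smul_comm (modelSemiRed M q hqM hres hgen h').aut n,
      show (modelSemiRed M q hqM hres hgen h').aut • FF.poleDiv (K := Qb) (xN M q) =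
        FF.poleDiv (K := Qb) (xN M q) from (modelSemiRed M q hqM hres hgen h').smul_G] at h1
  have hmem := (mem_imgC M q hqM hres).mpr ⟨n, _, hu', huS', rfl⟩
  have key : ∀ i, (redC M q hqM hres i).red ⟨u, hu i⟩ =
      g • (redC M q hqM hres i).red ⟨_, hu' i⟩ := fun i => by
    rw [(redC_smul M q hqM hres h' i ⟨u, hu i⟩).2]
    show _ = g • (EichlerShimura.coeffSemilinear M φ.symm • (redC M q hqM hres i).red ⟨u, hu i⟩)
    rw [← EichlerShimura.coeffSemilinear_inv, hg, smul_inv_smul]
  have ha := hagree _ hmem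
  have h1 : (redC M q hqM hres false).red ⟨_, hu' false⟩ ∈ y.toValuationSubring :=
    (G.reg _ hmem).1 y hreg
  have h2 : (redC M q hqM hres true).red ⟨_, hu' true⟩ ∈ (G.φ y).toValuationSubring :=
    (G.reg _ hmem).2 _ ((G.z_mem_φ_iff y).mpr hreg)
  rw [hφ]
  show val (g • y) ((redC M q hqM hres false).red ⟨u, hu false⟩) =
    val (g • G.φ y) ((redC M q hqM hres true).red ⟨u, hu true⟩)
  rw [key, key, val_smul_smul g y h1, val_smul_smul g _ h2]
  exact congrArg _ ha

/-- The decomposition group permutes the nodes. -/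
theorem modelSemiRed_permutes {σ : GQ} {φ : k ≃+* k} (h : EichlerShimura.InducesOn A π σ φ) :
    (modelSemiRed M q hqM hres hgen h).PermutesNodes := by
  intro s i
  obtain ⟨y, hy, hs⟩ := (mem_nodesC M q hqM hres hgen).mp s.2
  have hy' := coeffSemilinear_smul_nodeSet M q hqM hres hgen (σ := σ.symm) (φ := φ.symm)
    (by simpa using h) hy
  refine ⟨⟨_, (mem_nodesC M q hqM hres hgen).mpr ⟨_, hy', rfl⟩⟩, ?_⟩
  rw [modelSemiRed_resAut, EichlerShimura.coeffSemilinear_inv]
  cases i
  · show EichlerShimura.coeffSemilinear M φ.symm • (s : Place k (CK M k) × Place k (CK M k)).1 = _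
    rw [← hs]
    rfl
  · show EichlerShimura.coeffSemilinear M φ.symm • (s : Place k (CK M k) × Place k (CK M k)).2 = _
    rw [← hs]
    show EichlerShimura.coeffSemilinear M φ.symm • (frobC M q (k := k) • y) =
      frobC M q (k := k) • (EichlerShimura.coeffSemilinear M φ.symm • y)
    rw [← mul_smul, ← mul_smul, coeffSemilinear_comm_frobC]

end Fermat.Agent.TwoComponent
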