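import Fermat.Agent.TwoComponent.Val

/-!
# Algebras of pairs containing both graphs of a Frobenius

Let `E` be a `k`-endomorphism of a function field `C` which multiplies orders by `q ≥ 2` up to a
permutation `φ` of places and sends the coordinate `z` to `z^q`. An algebra `Img` of pairs of
functions regular away from the poles of `z` which contains all `(a, E a)` and `(E a, a)` consists
exactly of the pairs with equal values at some set of pairs `(y, φ y)`, `φ (φ y) = y`.
-/

noncomputable section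

open AlgebraicCurve

namespace Fermat.Agent.TwoComponent

open FF

variable {K F : Type*} [Field K] [IsAlgClosed K] [Field F] [Algebra K F] [FF.IsFunctionField K F]

/-- A regular function with a prescribed exact order at one point and lower bounds at others. -/
theorem exists_reg_ord {z : F} (hz : Transcendental K z) (S : Finset (Place K F))
    (hS : ∀ x ∈ S, z ∈ x.toValuationSubring) (e : Place K F → ℕ) {y : Place K F} (hy : y ∈ S) :
    ∃ t ∈ regSubalgebra (K := K) z, t ≠ 0 ∧ y.ord t = e y ∧ ∀ x ∈ S, (e x : ℤ) ≤ x.ord t := by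
  classical
  have hd := degree_poleDiv_pos hz
  set Y : Divisor K F := ∑ x ∈ S, Finsupp.single x (e x : ℤ) with hY
  have hYapp : ∀ x, Y x = if x ∈ S then (e x : ℤ) else 0 := fun x => by
    rw [hY, Finsupp.finsetSum_apply]
    simp [Finsupp.single_apply]
  set n : ℕ := (Divisor.degree Y + 2 * genusFF K F + 1).toNat with hn
  set D : Divisor K F := (n : ℤ) • poleDiv (K := K) z - Y with hD
  have hdeg : 2 * (genusFF K F : ℤ) ≤ Divisor.degree D := by
    have h1 : (n : ℤ) ≤ n * Divisor.degree (poleDiv (K := K) z) :=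
      le_mul_of_one_le_right (Int.natCast_nonneg n) hd
    rw [hD, map_sub, map_zsmul, smul_eq_mul]
    omega
  obtain ⟨t, ht, hne⟩ : ∃ t ∈ riemannRochSpace D,
      t ∉ riemannRochSpace (D - Finsupp.single y 1) := by
    by_contra hcon
    push Not at hcon
    have hx1 : Divisor.degree (D - Finsupp.single y 1) = Divisor.degree D - 1 := by
      rw [map_sub, degree_eq_sum (Finsupp.single y 1), Finsupp.sum_single_index rfl]
    have h1 := ell_eq_of_large_degree (D := D) (by omega)
    have h2 := ell_eq_of_large_degree (D := D - Finsupp.single y 1) (by omega)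
    have h3 : ell D ≤ ell (D - Finsupp.single y 1) :=
      Submodule.finrank_mono (fun f hf => hcon f hf)
    omega
  have ht0 : t ≠ 0 := fun h => hne (h ▸ zero_mem _)
  have hDapp : ∀ x ∈ S, D x = -(e x : ℤ) := fun x hx => by
    rw [hD, Finsupp.sub_apply, Finsupp.smul_apply, poleDiv_eq_zero_of_mem z (hS x hx), hYapp,
      if_pos hx, smul_zero, zero_sub]
  have hlow : ∀ x ∈ S, (e x : ℤ) ≤ x.ord t := fun x hx => by
    have := (mem_poleLe_of_ne x ht0).mp (ht x)
    rw [hDapp x hx] at this
    omega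
  refine ⟨t, mem_reg_of_mem_rrSpace (n := n) z (rrSpace_mono (fun x => ?_) ht), ht0, ?_, hlow⟩
  · rw [hD, Finsupp.sub_apply, hYapp]
    split_ifs <;> omega
  · refine le_antisymm ?_ (hlow y hy)
    by_contra hlt
    refine hne fun x => ?_
    rcases eq_or_ne x y with rfl | hxy
    · refine (mem_poleLe_of_ne _ ht0).mpr ?_
      rw [Finsupp.sub_apply, Finsupp.single_eq_same, hDapp _ hy]
      omega
    · rw [Finsupp.sub_apply, Finsupp.single_eq_of_ne hxy, sub_zero]
      exact ht x

/-- An ideal of the regular functions contains every function that is locally in it. -/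
theorem mem_of_local {z : F} (hz : Transcendental K z) (I : Submodule K F)
    (hI : ∀ r ∈ regSubalgebra (K := K) z, ∀ i ∈ I, r * i ∈ I) {g : F} (hgI : g ∈ I)
    (hgR : g ∈ regSubalgebra (K := K) z) (hg : g ≠ 0) {h : F}
    (hR : h ∈ regSubalgebra (K := K) z)
    (hloc : ∀ y : Place K F, z ∈ y.toValuationSubring → 0 < y.ord g → h = 0 ∨
      ∃ i ∈ I, i ≠ 0 ∧ i ∈ regSubalgebra (K := K) z ∧ y.ord i ≤ y.ord h) : h ∈ I := by
  classical
  set Z := (finite_ord_pos (K := K) g).toFinset.filter fun y => z ∈ y.toValuationSubring with hZ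
  have hmemZ : ∀ y, y ∈ Z ↔ 0 < y.ord g ∧ z ∈ y.toValuationSubring := fun y => by
    rw [hZ, Finset.mem_filter, Set.Finite.mem_toFinset]; rfl
  suffices key : ∀ (m : ℕ) (h : F), h ∈ regSubalgebra (K := K) z →
      (∀ y : Place K F, z ∈ y.toValuationSubring → 0 < y.ord g → h = 0 ∨
        ∃ i ∈ I, i ≠ 0 ∧ i ∈ regSubalgebra (K := K) z ∧ y.ord i ≤ y.ord h) →
      (∑ y ∈ Z, (y.ord g - y.ord h).toNat) ≤ m → h ∈ I from key _ h hR hloc le_rfl
  intro m
  induction m with
  | zero =>
    intro h hR _ hm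
    rcases eq_or_ne h 0 with rfl | h0
    · exact zero_mem _
    have hdiv : h / g ∈ regSubalgebra (K := K) z := fun y hy => by
      rw [mem_iff_ord_nonneg, FF.ord_div y h0 hg]
      by_cases hyZ : y ∈ Z
      · have := Finset.sum_eq_zero_iff.mp (Nat.le_zero.mp hm) y hyZ
        omega
      · rw [hmemZ] at hyZ
        have h1 : ¬ 0 < y.ord g := fun hp => hyZ ⟨hp, hy⟩
        have h2 := (mem_iff_ord_nonneg y).mp (hR y hy)
        omega
    have := hI _ hdiv g hgI
    rwa [div_mul_cancel₀ _ hg] at this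
  | succ m ih =>
    intro h hR hloc hm
    by_cases hm' : (∑ y ∈ Z, (y.ord g - y.ord h).toNat) ≤ m
    · exact ih h hR hloc hm'
    rcases eq_or_ne h 0 with rfl | h0
    · exact zero_mem _
    obtain ⟨y, hyZ, hy⟩ := Finset.exists_ne_zero_of_sum_ne_zero
      (show (∑ y ∈ Z, (y.ord g - y.ord h).toNat) ≠ 0 by omega)
    obtain ⟨hyg, hyz⟩ := (hmemZ y).mp hyZ
    obtain ⟨i, hiI, hi0, hiR, hile⟩ := (hloc y hyz hyg).resolve_left h0
    have hiy := (mem_iff_ord_nonneg y).mp (hiR y hyz)
    obtain ⟨t, htR, ht0, hty, htZ⟩ := exists_reg_ord hz Z (fun x hx => ((hmemZ x).mp hx).2)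
      (fun x => if x = y then (y.ord h - y.ord i).toNat else (x.ord g).toNat) hyZ
    rw [if_pos rfl] at hty
    set p := t * i with hp
    have hpI : p ∈ I := hI t htR i hiI
    have hp0 : p ≠ 0 := mul_ne_zero ht0 hi0
    have hpR : p ∈ regSubalgebra (K := K) z := mul_mem htR hiR
    have hpy : y.ord p = y.ord h := by
      rw [hp, y.ord_mul ht0 hi0, hty]; omega
    have hquot : 0 ≤ y.ord (h / p) := by rw [FF.ord_div y h0 hp0, hpy]; omega
    obtain ⟨c, hc⟩ := exists_const y hquot
    set h' := h - algebraMap K F c * p with hh'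
    have hh'R : h' ∈ regSubalgebra (K := K) z :=
      sub_mem hR (mul_mem (Subalgebra.algebraMap_mem _ _) hpR)
    suffices h' ∈ I by
      have h2 : algebraMap K F c * p ∈ I := by
        rw [← Algebra.smul_def]; exact I.smul_mem _ hpI
      have := add_mem this h2
      rwa [hh', sub_add_cancel] at this
    rcases eq_or_ne h' 0 with h'0 | h'0
    · rw [h'0]; exact zero_mem _
    have hlowZ : ∀ x ∈ Z, min (x.ord h) (x.ord g) ≤ x.ord h' := fun x hx => by
      rcases eq_or_ne c 0 with rfl | hc0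
      · rw [hh', map_zero, zero_mul, sub_zero]; exact min_le_left _ _
      have hcp : -(algebraMap K F c * p) ≠ 0 :=
        neg_ne_zero.mpr (mul_ne_zero (by simpa using hc0) hp0)
      have h1 := min_le_ord_add x (f := h) (g := -(algebraMap K F c * p))
        (by rw [← sub_eq_add_neg]; exact h'0)
      rw [FF.ord_neg, ord_algebraMap_mul x hc0, ← sub_eq_add_neg, ← hh'] at h1
      rcases eq_or_ne x y with rfl | hxy
      · rw [hpy, min_self] at h1; exact le_trans (min_le_left _ _) h1
      · have h2 := htZ x hx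
        rw [if_neg hxy] at h2
        have h3 := (mem_iff_ord_nonneg x).mp (hiR x ((hmemZ x).mp hx).2)
        have h4 : x.ord p = x.ord t + x.ord i := x.ord_mul ht0 hi0
        omega
    refine ih h' hh'R (fun x hxz hxg => Or.inr ?_) ?_
    · have h1 := hlowZ x ((hmemZ x).mpr ⟨hxg, hxz⟩)
      rcases le_total (x.ord h) (x.ord g) with hle | hle
      · obtain ⟨i', hi'I, hi'0, hi'R, hi'le⟩ := (hloc x hxz hxg).resolve_left h0
        exact ⟨i', hi'I, hi'0, hi'R, by omega⟩
      · exact ⟨g, hgI, hg, hgR, by omega⟩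
    · have hgain : y.ord h < y.ord h' := by
        have he : h' = p * (h / p - algebraMap K F c) := by
          rw [hh', mul_sub, mul_div_cancel₀ _ hp0]; ring
        have hne : h / p - algebraMap K F c ≠ 0 := fun h0' => h'0 (by rw [he, h0', mul_zero])
        rw [he, y.ord_mul hp0 hne, hpy]
        have := hc.resolve_left hne
        omega
      have hlt : ∑ x ∈ Z, (x.ord g - x.ord h').toNat < ∑ x ∈ Z, (x.ord g - x.ord h).toNat :=
        Finset.sum_lt_sum (fun x hx => by have := hlowZ x hx; omega) ⟨y, hyZ, by omega⟩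
      omega

/-- An algebra of pairs containing both Frobenius graphs. -/
structure GraphAlg (K F : Type*) [Field K] [IsAlgClosed K] [Field F] [Algebra K F]
    [FF.IsFunctionField K F] where
  /-- the coordinate -/
  z : F
  transcendental : Transcendental K z
  /-- the Frobenius endomorphism -/
  E : F →ₐ[K] F
  /-- its action on places -/
  φ : Place K F ≃ Place K F
  /-- its degree -/
  q : ℕ
  two_le : 2 ≤ q
  ord_E : ∀ (Q : Place K F) (g : F), Q.ord (E g) = q * (φ Q).ord g
  E_z : E z = z ^ q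
  /-- the algebra of pairs -/
  Img : Submodule K (F × F)
  mul_mem : ∀ a ∈ Img, ∀ b ∈ Img, a * b ∈ Img
  reg : ∀ a ∈ Img, a.1 ∈ regSubalgebra (K := K) z ∧ a.2 ∈ regSubalgebra (K := K) z
  up : ∀ a ∈ regSubalgebra (K := K) z, (a, E a) ∈ Img
  down : ∀ a ∈ regSubalgebra (K := K) z, (E a, a) ∈ Img

namespace GraphAlg

variable (G : GraphAlg K F)

theorem z_mem_φ_iff (y : Place K F) :
    G.z ∈ (G.φ y).toValuationSubring ↔ G.z ∈ y.toValuationSubring := by
  have h := G.ord_E y G.z
  rw [G.E_z, FF.ord_pow] at h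
  have hq : (G.q : ℤ) ≠ 0 := by have := G.two_le; omega
  rw [mem_iff_ord_nonneg, mem_iff_ord_nonneg, mul_left_cancel₀ hq h]

theorem E_mem_iff (y : Place K F) (g : F) :
    G.E g ∈ y.toValuationSubring ↔ g ∈ (G.φ y).toValuationSubring := by
  rw [mem_iff_ord_nonneg, mem_iff_ord_nonneg, G.ord_E]
  have := G.two_le
  constructor <;> intro h <;> nlinarith

theorem E_reg {a : F} (ha : a ∈ regSubalgebra (K := K) G.z) :
    G.E a ∈ regSubalgebra (K := K) G.z := fun y hy =>
  (G.E_mem_iff y a).mpr (ha _ ((G.z_mem_φ_iff y).mpr hy))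

theorem val_E (y : Place K F) {g : F} (hg : g ∈ (G.φ y).toValuationSubring) :
    val y (G.E g) = val (G.φ y) g := by
  rw [val_eq_iff y ((G.E_mem_iff y g).mpr hg),
    show G.E g - algebraMap K F (val (G.φ y) g) = G.E (g - algebraMap K F (val (G.φ y) g)) by
      rw [map_sub, G.E.commutes]]
  have h := (val_eq_iff (G.φ y) hg (val (G.φ y) g)).mp rfl
  rcases (mem_poleLe _).mp h with h0 | h0
  · rw [h0, map_zero]; exact zero_mem _
  · refine (mem_poleLe _).mpr (Or.inr ?_)
    rw [G.ord_E]
    have := G.two_le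
    nlinarith

/-- The nodes: affine points `y` fixed by `φ²` with equal values at `(y, φ y)` of all pairs
in the algebra. -/
def nodeSet : Set (Place K F) :=
  {y | G.z ∈ y.toValuationSubring ∧ G.φ (G.φ y) = y ∧ ∀ w ∈ G.Img, val y w.1 = val (G.φ y) w.2}

theorem sub_mem_left (b : F) (hb : b ∈ regSubalgebra (K := K) G.z) :
    ((0 : F), b - G.E (G.E b)) ∈ G.Img := by
  have h := sub_mem (G.down b hb) (G.up (G.E b) (G.E_reg hb))
  rwa [Prod.mk_sub_mk, sub_self] at h

/-- The ideal of the functions `a` with `(0, a)` in the algebra. -/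
def ideal₂ : Submodule K F := G.Img.comap (LinearMap.inr K F F)

theorem ideal₂_mul : ∀ r ∈ regSubalgebra (K := K) G.z, ∀ i ∈ G.ideal₂, r * i ∈ G.ideal₂ :=
  fun r hr i hi => by
    have h := G.mul_mem _ (G.down r hr) _ (show ((0 : F), i) ∈ G.Img from hi)
    rw [Prod.mk_mul_mk, mul_zero] at h
    exact h

theorem exists_sub_ne_zero :
    ∃ g ∈ G.ideal₂, g ≠ 0 ∧ g ∈ regSubalgebra (K := K) G.z := by
  refine ⟨G.z - G.E (G.E G.z), G.sub_mem_left _ (self_mem_regSubalgebra _), fun h => ?_,
    sub_mem (self_mem_regSubalgebra _) (G.E_reg (G.E_reg (self_mem_regSubalgebra _)))⟩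
  rw [G.E_z, map_pow, G.E_z, ← pow_mul] at h
  have hq : 1 < G.q * G.q := by nlinarith [G.two_le]
  refine G.transcendental ⟨Polynomial.X - Polynomial.X ^ (G.q * G.q), fun h0 => ?_, by
    simpa using h⟩
  have := congrArg (fun p : Polynomial K => p.coeff 1) h0
  simp [Polynomial.coeff_X_pow, hq.ne] at this

/-- There are finitely many nodes. -/
theorem nodeSet_finite : G.nodeSet.Finite := by
  obtain ⟨g, -, -, -⟩ := G.exists_sub_ne_zero
  refine (finite_ord_pos (K := K) (G.z - G.E (G.E G.z) : F)).subset ?_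
  rintro y ⟨hy, hfix, -⟩
  have hz' : G.z ∈ (G.φ y).toValuationSubring := (G.z_mem_φ_iff y).mpr hy
  have h1 : val y (G.E (G.E G.z)) = val y G.z := by
    rw [G.val_E y (G.E_reg (self_mem_regSubalgebra _) _ hz'),
      G.val_E (G.φ y) (by rw [hfix]; exact hy), hfix]
  have h2 : val y (G.z - G.E (G.E G.z)) = 0 := by
    rw [val_sub y hy (G.E_reg (G.E_reg (self_mem_regSubalgebra _)) y hy), h1, sub_self]
  have h3 := (val_eq_zero_iff y
      (sub_mem hy (G.E_reg (G.E_reg (self_mem_regSubalgebra _)) y hy))).mp h2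
  show 0 < y.ord _
  rcases (mem_poleLe _).mp h3 with h4 | h4
  · exfalso
    rw [G.E_z, map_pow, G.E_z, ← pow_mul] at h4
    have hq : 1 < G.q * G.q := by nlinarith [G.two_le]
    refine G.transcendental ⟨Polynomial.X - Polynomial.X ^ (G.q * G.q), fun h0 => ?_, by
      simpa using h4⟩
    have := congrArg (fun p : Polynomial K => p.coeff 1) h0
    simp [Polynomial.coeff_X_pow, hq.ne] at this
  · omega

/-- **The algebra consists of the regular pairs glued at the nodes.** -/
theorem mem_iff (g₁ g₂ : F) :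
    (g₁, g₂) ∈ G.Img ↔ g₁ ∈ regSubalgebra (K := K) G.z ∧ g₂ ∈ regSubalgebra (K := K) G.z ∧
      ∀ y ∈ G.nodeSet, val y g₁ = val (G.φ y) g₂ := by
  refine ⟨fun h => ⟨(G.reg _ h).1, (G.reg _ h).2, fun y hy => hy.2.2 _ h⟩,
    fun ⟨h1, h2, hglue⟩ => ?_⟩
  suffices h : g₂ - G.E g₁ ∈ G.ideal₂ by
    have := add_mem (G.up g₁ h1) (show ((0 : F), g₂ - G.E g₁) ∈ G.Img from h)
    rwa [Prod.mk_add_mk, add_zero, add_sub_cancel] at this
  obtain ⟨g, hgI, hg0, hgR⟩ := G.exists_sub_ne_zero
  have hR : g₂ - G.E g₁ ∈ regSubalgebra (K := K) G.z := sub_mem h2 (G.E_reg h1)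
  refine mem_of_local G.transcendental G.ideal₂ G.ideal₂_mul hgI hgR hg0 hR fun y' hy' _ => ?_
  rcases eq_or_ne (g₂ - G.E g₁) 0 with h0 | h0
  · exact Or.inl h0
  refine Or.inr ?_
  have hord := (mem_iff_ord_nonneg y').mp (hR y' hy')
  -- witnesses of value nonzero
  have hunit : ∀ w, (0, w) ∈ G.Img → val y' w ≠ 0 →
      ∃ i ∈ G.ideal₂, i ≠ 0 ∧ i ∈ regSubalgebra (K := K) G.z ∧
        y'.ord i ≤ y'.ord (g₂ - G.E g₁) := fun w hw hv =>
    ⟨w, hw, fun e => hv (by rw [e, val_zero]), (G.reg _ hw).2, by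
      rw [ord_eq_zero_of_val_ne_zero y' ((G.reg _ hw).2 y' hy') hv]; exact hord⟩
  by_cases hfix : G.φ (G.φ y') = y'
  · set y := G.φ y' with hy
    have hyz : G.z ∈ y.toValuationSubring := (G.z_mem_φ_iff y').mpr hy'
    by_cases hnode : y ∈ G.nodeSet
    · -- a simple zero
      obtain ⟨b, hbR, hb0, hbord, -⟩ := exists_reg_ord G.transcendental {y'}
        (fun x hx => by rw [Finset.mem_singleton] at hx; exact hx ▸ hy') (fun _ => 1)
        (Finset.mem_singleton_self y')
      refine ⟨b - G.E (G.E b), G.sub_mem_left b hbR, ?_, sub_mem hbR (G.E_reg (G.E_reg hbR)), ?_⟩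
      · intro e
        rw [sub_eq_zero] at e
        have h1 := congrArg y'.ord e
        rw [G.ord_E, G.ord_E, hfix, hbord] at h1
        have := G.two_le
        push_cast at h1
        nlinarith
      · have hE : y'.ord (G.E (G.E b)) = (G.q : ℤ) * G.q := by
          rw [G.ord_E, G.ord_E, hfix, hbord]; push_cast; ring
        have hlt : y'.ord b < y'.ord (-G.E (G.E b)) := by
          rw [FF.ord_neg, hbord, hE]
          have h2 : (2 : ℤ) ≤ G.q := by exact_mod_cast G.two_le
          push_cast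
          nlinarith
        rw [sub_eq_add_neg b, ord_add_eq_of_lt y' hb0 (Or.inr hlt), hbord]
        have hval : val y' (g₂ - G.E g₁) = 0 := by
          rw [val_sub y' (h2 y' hy') (G.E_reg h1 y' hy'), G.val_E y' (h1 _ hyz), ← hy,
            hglue y hnode, hfix, sub_self]
        rcases (mem_poleLe _).mp ((val_eq_zero_iff y' (hR y' hy')).mp hval) with h3 | h3
        · exact absurd h3 h0
        · push_cast; omega
    · have hex : ¬ ∀ w ∈ G.Img, val y w.1 = val (G.φ y) w.2 := fun hall =>
        hnode ⟨hyz, by rw [hfix], hall⟩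
      push Not at hex
      obtain ⟨w, hw, hne⟩ := hex
      have hw1 := (G.reg _ hw).1
      have hmem : ((0 : F), w.2 - G.E w.1) ∈ G.Img := by
        have h := sub_mem hw (G.up w.1 hw1)
        rwa [show w - (w.1, G.E w.1) = (0, w.2 - G.E w.1) from Prod.ext (sub_self _) rfl] at h
      refine hunit _ hmem ?_
      rw [val_sub y' ((G.reg _ hw).2 y' hy') (G.E_reg hw1 y' hy'), G.val_E y' (hw1 _ hyz)]
      rw [hfix] at hne
      exact sub_ne_zero.mpr (Ne.symm hne)
  · have hz2 : G.z ∈ (G.φ (G.φ y')).toValuationSubring :=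
      (G.z_mem_φ_iff _).mpr ((G.z_mem_φ_iff _).mpr hy')
    classical
    obtain ⟨b, hbR, hb⟩ := exists_interp G.transcendental ({y', G.φ (G.φ y')} : Finset _)
      (fun x hx => by
        rcases Finset.mem_insert.mp hx with rfl | hx
        · exact hy'
        · exact Finset.mem_singleton.mp hx ▸ hz2)
      (fun x => if x = y' then 1 else 0) 1
    refine hunit _ (G.sub_mem_left b hbR) ?_
    have e1 : val y' b = 1 := by
      have := hb y' (Finset.mem_insert_self _ _)
      rw [if_pos rfl] at this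
      exact (val_eq_iff y' (hbR y' hy') 1).mpr this
    have e2 : val (G.φ (G.φ y')) b = 0 := by
      have := hb (G.φ (G.φ y')) (Finset.mem_insert_of_mem (Finset.mem_singleton_self _))
      rw [if_neg hfix] at this
      exact (val_eq_iff _ (hbR _ hz2) 0).mpr this
    have hz1 := (G.z_mem_φ_iff y').mpr hy'
    rw [val_sub y' (hbR y' hy') (G.E_reg (G.E_reg hbR) y' hy'),
      G.val_E y' (G.E_reg hbR _ hz1), G.val_E (G.φ y') (hbR _ hz2), e1, e2, sub_zero]
    exact one_ne_zero

end GraphAlg

end Fermat.Agent.TwoComponent
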