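import Fermat.Prelude.Def_AlgebraicCurve_DivisorPushPull
import Fermat.Agent.TwoComponent.ModelBase

/-!
# Poles of `j(τ)`, `j(qτ)` and of level `M` functions on `X₀(M q)`

At every place the pole order of `j(qτ)` is at most `q` times that of `j(τ)` and conversely.
-/

noncomputable section

open ModularCurve AlgebraicCurve IntermediateField Polynomial Fermat.Agent.Red Fermat.Agent.Igusa

namespace Fermat.Agent.TwoComponent

local notation "Qb" => AlgebraicClosure ℚ

section Series

variable {K : Type*} [Field K]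

theorem coeff_mul_eq_zero {x y : LaurentSeries K} {a b : ℤ}
    (hx : ∀ n < a, x.coeff n = 0) (hy : ∀ n < b, y.coeff n = 0) :
    ∀ n < a + b, (x * y).coeff n = 0 := fun n hn => by
  rw [HahnSeries.coeff_mul]
  refine Finset.sum_eq_zero fun ij hij => ?_
  rw [Finset.mem_antidiagonal] at hij
  rcases lt_or_ge ij.1 a with h | h
  · rw [hx _ h, zero_mul]
  · rw [hy ij.2 (by omega), mul_zero]

/-- Coefficients of `∏ (Y - r)` when all roots have poles of order at most `c`. -/
theorem coeff_prod_sub_eq_zero (c : ℕ) (s : Multiset (LaurentSeries K))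
    (hs : ∀ r ∈ s, ∀ n < -(c : ℤ), r.coeff n = 0) (i : ℕ) :
    ∀ n < -((c * (Multiset.card s - i) : ℕ) : ℤ),
      ((s.map fun r => (X : Polynomial (LaurentSeries K)) - C r).prod.coeff i).coeff n = 0 := by
  induction s using Multiset.induction_on generalizing i with
  | empty =>
    intro n hn
    rw [Multiset.map_zero, Multiset.prod_zero, Polynomial.coeff_one]
    have : n < 0 := by simpa using hn
    split_ifs
    · rw [HahnSeries.coeff_one, if_neg this.ne]
    · rw [HahnSeries.coeff_zero]
  | cons r s ih =>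
    intro n hn
    have ih' := ih fun x hx => hs x (Multiset.mem_cons_of_mem hx)
    have hr := hs r (Multiset.mem_cons_self r s)
    rw [Multiset.card_cons] at hn
    rw [Multiset.map_cons, Multiset.prod_cons, sub_mul, coeff_sub, coeff_C_mul,
      HahnSeries.coeff_sub]
    have h2 : (r * (s.map fun r => (X : Polynomial (LaurentSeries K)) - C r).prod.coeff i).coeff n
        = 0 := by
      by_cases hi : i ≤ Multiset.card s
      · refine coeff_mul_eq_zero hr (ih' i) n ?_
        rw [Nat.succ_sub hi, Nat.mul_succ] at hn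
        push_cast at hn ⊢
        omega
      · rw [coeff_eq_zero_of_natDegree_lt, mul_zero, HahnSeries.coeff_zero]
        rw [natDegree_multiset_prod_X_sub_C_eq_card]
        omega
    rw [h2, sub_zero]
    cases i with
    | zero => rw [coeff_X_mul_zero, HahnSeries.coeff_zero]
    | succ i =>
      rw [coeff_X_mul]
      exact ih' i n (by rwa [Nat.add_sub_add_right] at hn)

end Series

variable (M q : ℕ) [hq : Fact q.Prime] [NeZero M]

/-- The coefficient of `Y^i` of the modular polynomial has degree at most `q (q + 1 - i)`. -/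
theorem natDegree_coeff_modPoly {K : Type*} [Field K] {Φ : Polynomial (Polynomial K)}
    (hΦ : IsModPoly q Φ) (i : ℕ) : (Φ.coeff i).natDegree ≤ q * (q + 1 - i) := by
  set f := Φ.map (evalAt (jv (1 : Kˣ) (q * 1))) with hf
  have hsp : f.Splits := hΦ.splits 1 1 one_ne_zero
  have hcard : Multiset.card f.roots = q + 1 := by
    rw [← hsp.natDegree_eq_card_roots, hf, natDegree_map_evalAt hΦ]
  have hroot : ∀ r ∈ f.roots, ∀ n < -((q * q : ℕ) : ℤ), r.coeff n = 0 := by
    intro r hr n hn
    have h := (hΦ.isRoot_iff 1 1 one_ne_zero r).mp (isRoot_of_mem_roots hr)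
    have hq0 := hq.out.ne_zero
    rcases h with rfl | ⟨η', -, rfl⟩
    · exact jv_coeff_of_lt _ (by simp [hq0]) (by simpa using hn)
    · refine jv_coeff_of_lt _ one_ne_zero ?_
      have : 1 ≤ q * q := Nat.one_le_iff_ne_zero.mpr (mul_ne_zero hq0 hq0)
      push_cast at hn ⊢
      omega
  have hprod : f = (f.roots.map fun r => X - C r).prod :=
    hsp.eq_prod_roots_of_monic (map_evalAt_monic hΦ _)
  by_contra hlt
  push Not at hlt
  have hne : Φ.coeff i ≠ 0 := fun h => by simp [h] at hlt
  have h0 : (evalAt (jv (1 : Kˣ) q) (Φ.coeff i)).coeff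
      (-((q * (Φ.coeff i).natDegree : ℕ) : ℤ)) = 0 := by
    have h1 := coeff_prod_sub_eq_zero (q * q) f.roots hroot i
    rw [← hprod, hcard, hf, mul_one, coeff_map] at h1
    refine h1 _ ?_
    rw [Nat.mul_assoc, neg_lt_neg_iff, Nat.cast_lt]
    exact Nat.mul_lt_mul_of_pos_left hlt hq.out.pos
  rw [coeff_evalAt_jv hq.out.ne_zero, leadingCoeff_eq_zero] at h0
  exact hne h0

omit hq in
/-- A root of such a polynomial has at most `q` times the poles of the parameter. -/
theorem ord_root_ge {K E : Type*} [Field K] [Field E] [Algebra K E] (P : Place K E)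
    {Φ : Polynomial (Polynomial K)} {d : ℕ} (hm : Φ.Monic)
    (hdeg : Φ.natDegree = d) (hc : ∀ i, (Φ.coeff i).natDegree ≤ q * (d - i))
    {a b : E} (h : (Φ.map (Polynomial.aeval (R := K) a).toRingHom).eval b = 0) :
    (q : ℤ) * min (P.ord a) 0 ≤ P.ord b := by
  have hmon : ∀ (p : Polynomial K) (N : ℕ), p.natDegree ≤ N →
      ∀ t : E, t ≠ 0 → t ∈ P.toValuationSubring → a * t ∈ P.toValuationSubring →
        Polynomial.aeval a p * t ^ N ∈ P.toValuationSubring := by
    intro p N hN t _ ht hat
    rw [Polynomial.aeval_eq_sum_range, Finset.sum_mul]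
    refine sum_mem fun l hl => ?_
    rw [Finset.mem_range] at hl
    obtain ⟨e, rfl⟩ : ∃ e, N = l + e := ⟨N - l, by omega⟩
    rw [smul_mul_assoc, Algebra.smul_def, pow_add, ← mul_assoc (a ^ l), ← mul_pow]
    exact mul_mem (P.algebraMap_mem' _) (mul_mem (pow_mem hat l) (pow_mem ht e))
  rcases eq_or_ne b 0 with rfl | hb
  · rw [P.ord_zero]
    nlinarith [min_le_right (P.ord a) 0, Int.natCast_nonneg q]
  obtain ⟨t, ht0, htord⟩ : ∃ t : E, t ≠ 0 ∧ P.ord t = -min (P.ord a) 0 := by
    rcases le_or_gt 0 (P.ord a) with ha | ha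
    · exact ⟨1, one_ne_zero, by rw [P.ord_one]; omega⟩
    · have ha0 : a ≠ 0 := fun e => by rw [e, P.ord_zero] at ha; omega
      exact ⟨a⁻¹, inv_ne_zero ha0, by rw [Place.ord_inv]; omega⟩
  have ht : t ∈ P.toValuationSubring := (Red.mem_place_iff P).mpr (by omega)
  have hat : a * t ∈ P.toValuationSubring := by
    rcases eq_or_ne a 0 with rfl | ha0
    · rw [zero_mul]; exact zero_mem _
    · exact (Red.mem_place_iff P).mpr (by rw [P.ord_mul ha0 ht0]; omega)
  set O := P.toValuationSubring with hO
  set s := t ^ q with hs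
  have hint : IsIntegral O (b * s) := by
    let co : ℕ → O := fun i => ⟨Polynomial.aeval a (Φ.coeff i) * t ^ (q * (d - i)),
      hmon _ _ (hc i) t ht0 ht hat⟩
    refine ⟨∑ i ∈ Finset.range (d + 1), monomial i (co i), ?_, ?_⟩
    · refine monic_of_natDegree_le_of_coeff_eq_one d
        (natDegree_sum_le_of_forall_le _ _ fun i hi => (natDegree_monomial_le _).trans
          (Nat.lt_succ_iff.mp (Finset.mem_range.mp hi))) ?_
      rw [finsetSum_coeff, Finset.sum_eq_single d]
      · rw [coeff_monomial, if_pos rfl]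
        apply Subtype.ext
        show Polynomial.aeval a (Φ.coeff d) * t ^ (q * (d - d)) = 1
        rw [← hdeg, hm.coeff_natDegree, map_one, Nat.sub_self, mul_zero, pow_zero, one_mul]
      · intro i _ hi; rw [coeff_monomial, if_neg hi]
      · intro hd; exact absurd (Finset.self_mem_range_succ d) hd
    · rw [eval₂_finsetSum]
      have hd1 : (Φ.map (Polynomial.aeval (R := K) a).toRingHom).natDegree < d + 1 := by
        rw [hm.natDegree_map, hdeg]; omega
      have h' : ∑ i ∈ Finset.range (d + 1), Polynomial.aeval a (Φ.coeff i) * b ^ i = 0 := by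
        rw [← h, eval_eq_sum_range' hd1]
        exact Finset.sum_congr rfl fun i _ => by rw [coeff_map]; rfl
      rw [← zero_mul (t ^ (q * d)), ← h', Finset.sum_mul]
      refine Finset.sum_congr rfl fun i hi => ?_
      rw [eval₂_monomial]
      show Polynomial.aeval a (Φ.coeff i) * t ^ (q * (d - i)) * (b * s) ^ i = _
      rw [Finset.mem_range] at hi
      rw [hs, mul_pow, ← pow_mul, show q * d = q * (d - i) + q * i by
        rw [← Nat.mul_add, Nat.sub_add_cancel (Nat.lt_succ_iff.mp hi)], pow_add]
      ring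
  obtain ⟨y, hy⟩ := (IsIntegrallyClosed.isIntegral_iff (R := O) (K := E)).mp hint
  have := (Red.mem_place_iff P).mp (hy ▸ y.2 : b * s ∈ O)
  rw [hs, P.ord_mul hb (pow_ne_zero _ ht0), Red.ord_pow, htord] at this
  linarith

/-- `j(qτ)` has at most `q` times the poles of `j(τ)`. -/
theorem poleDiv_jQ_le (P : Place Qb (FN M q)) :
    FF.poleDiv (K := Qb) (jQ M q) P ≤ q * FF.poleDiv (K := Qb) (jOne M q) P := by
  obtain ⟨Φ, hΦ⟩ := exists_isModPoly (p := q) (K := Qb) (Nat.cast_ne_zero.mpr hq.out.ne_zero)
  have h1 : (Φ.map (evalAt (jOne M q : LaurentSeries Qb))).IsRoot (jQ M q : LaurentSeries Qb) := by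
    have := isModPoly_root_up hΦ one_ne_zero
    rwa [one_mul] at this
  have h := ord_root_ge q P hΦ.monic hΦ.natDegree_eq (natDegree_coeff_modPoly q hΦ)
    (eval_modPoly M q h1)
  rw [FF.poleDiv_apply, FF.poleDiv_apply]
  rcases le_or_gt 0 (P.ord (jOne M q)) with ha | ha
  · rw [min_eq_right ha] at h
    rw [max_eq_right (a := -P.ord (jOne M q)) (by omega)]
    omega
  · rw [min_eq_left ha.le] at h
    rw [max_eq_left (a := -P.ord (jOne M q)) (by omega), mul_neg]
    refine max_le (by omega) ?_
    nlinarith [Int.natCast_nonneg q]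

variable (hqM : ¬ q ∣ M)

/-- The semilinear automorphism given by the involution. -/
def wSemi : SemilinearAut Qb (FN M q) :=
  ⟨((wAL M q hqM).toRingEquiv, RingEquiv.refl Qb), fun a => (wAL M q hqM).commutes a⟩

theorem wSemi_smul (f : FN M q) : wSemi M q hqM • f = wAL M q hqM f := rfl

theorem ord_wSemi (P : Place Qb (FN M q)) (f : FN M q) :
    (wSemi M q hqM • P).ord (wAL M q hqM f) = P.ord f := by
  rw [← wSemi_smul, SemilinearAut.ord_smul]

/-- The involution preserves the pole bounds relative to `xN`. -/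
theorem wAL_mem_space {n : ℕ} {u : FN M q}
    (hu : u ∈ riemannRochSpace (n • FF.poleDiv (K := Qb) (xN M q))) :
    wAL M q hqM u ∈ riemannRochSpace (n • FF.poleDiv (K := Qb) (xN M q)) := by
  refine mem_riemannRochSpace_iff.mpr fun P => ?_
  obtain ⟨P', rfl⟩ : ∃ P', wSemi M q hqM • P' = P := ⟨(wSemi M q hqM)⁻¹ • P, smul_inv_smul _ _⟩
  have hx : (wSemi M q hqM • P').ord (xN M q) = P'.ord (xN M q) := by
    conv_lhs => rw [← wAL_xN M q hqM]
    exact ord_wSemi M q hqM P' _
  rcases (mem_riemannRochSpace_iff.mp hu) P' with h | h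
  · exact Or.inl (by rw [h, map_zero])
  · right
    rw [Finsupp.smul_apply, FF.poleDiv_apply, hx, ord_wSemi]
    rw [Finsupp.smul_apply, FF.poleDiv_apply] at h
    exact h

/-- `j(τ)` at level `M`. -/
def jLevel : modularFunctionFieldBar M :=
  ⟨jv (1 : Qbˣ) 1, (show modularFunctionFieldBar M = modularFunctionFieldFullC Qb M from
    MF.laurentBaseChange_full_eq Qb M).symm ▸ jv_mem_full one_ne_zero (one_dvd M)⟩

omit hq [NeZero M] in
theorem inclM_jLevel : inclM M q (jLevel M) = jOne M q := Subtype.ext (coe_inclM M q _)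

/-- Pole bounds pull back from level `M`. -/
theorem inclM_mem_space [FF.IsFunctionField Qb (modularFunctionFieldBar M)] {m : ℕ}
    {a : modularFunctionFieldBar M}
    (ha : a ∈ riemannRochSpace (m • FF.poleDiv (K := Qb) (jLevel M))) :
    inclM M q a ∈ riemannRochSpace (m • FF.poleDiv (K := Qb) (jOne M q)) := by
  let _ : Algebra (modularFunctionFieldBar M) (FN M q) := (inclM M q).toRingHom.toAlgebra
  have : IsScalarTower Qb (modularFunctionFieldBar M) (FN M q) :=
    IsScalarTower.of_algebraMap_eq fun c => ((inclM M q).commutes c).symm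
  have : Algebra.IsIntegral (modularFunctionFieldBar M) (FN M q) := by
    refine ⟨fun z => ?_⟩
    have hfin : FiniteDimensional (Qb⟮jOne M q⟯) (FN M q) :=
      FF.finiteDimensional_adjoin_of_transcendental (transcendental_jOne M q)
    have hz : IsIntegral (Qb⟮jOne M q⟯) z := IsIntegral.of_finite _ z
    obtain ⟨p, hp, hp0⟩ := hz
    have hle : ∀ c : Qb⟮jOne M q⟯, ∃ c' : modularFunctionFieldBar M,
        inclM M q c' = (c : FN M q) := fun c => by
      have h : (c : FN M q) ∈ (Qb⟮jLevel M⟯).map (inclM M q) := by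
        rw [IntermediateField.adjoin_map, Set.image_singleton, inclM_jLevel]; exact c.2
      obtain ⟨c', -, hc'⟩ := h
      exact ⟨c', hc'⟩
    let φ : Qb⟮jOne M q⟯ →+* (inclM M q).fieldRange :=
      (IntermediateField.inclusion (fun c hc => hle ⟨c, hc⟩) :
        Qb⟮jOne M q⟯ →ₐ[Qb] (inclM M q).fieldRange).toRingHom
    let e : modularFunctionFieldBar M ≃+* (inclM M q).fieldRange :=
      (AlgEquiv.ofInjectiveField (inclM M q)).toRingEquiv
    refine ⟨p.map ((e.symm : _ →+* _).comp φ), hp.map _, ?_⟩
    rw [eval₂_map, ← hp0]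
    congr 1
    refine RingHom.ext fun c => ?_
    show inclM M q (e.symm (φ c)) = (c : FN M q)
    exact congrArg Subtype.val (e.apply_symm_apply (φ c))
  refine mem_riemannRochSpace_iff.mpr fun P => ?_
  rcases (mem_riemannRochSpace_iff.mp ha) (P.restrict (modularFunctionFieldBar M)) with h | h
  · exact Or.inl (by rw [h, map_zero])
  · right
    have e1 := P.ord_restrict (F := modularFunctionFieldBar M) a
    have e2 := P.ord_restrict (F := modularFunctionFieldBar M) (jLevel M)
    rw [show algebraMap (modularFunctionFieldBar M) (FN M q) a = inclM M q a from rfl] at e1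
    rw [show algebraMap (modularFunctionFieldBar M) (FN M q) (jLevel M) = jOne M q from
      inclM_jLevel M q] at e2
    rw [Finsupp.smul_apply, FF.poleDiv_apply, nsmul_eq_mul] at h ⊢
    rw [e1, e2]
    set r : ℤ := ((Place.ramificationIndex (F := modularFunctionFieldBar M) P : ℕ) : ℤ) with hr
    have hr0 : 0 ≤ r := Int.natCast_nonneg _
    rcases le_or_gt 0 ((P.restrict (modularFunctionFieldBar M)).ord (jLevel M)) with hv | hv
    · rw [max_eq_right (by omega)] at h
      rw [max_eq_right (by nlinarith)]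
      nlinarith
    · rw [max_eq_left (by omega)] at h
      rw [max_eq_left (by nlinarith)]
      nlinarith [mul_le_mul_of_nonneg_left h hr0]

end Fermat.Agent.TwoComponent
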