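import Fermat.Agent.EichlerShimura.FrobFull
import Fermat.Agent.Red.Existence
import Fermat.Agent.TwoComponent.GluedImage
import Fermat.Agent.TwoComponent.ModelFrame
import Fermat.Agent.TwoComponent.ModelPoles

/-!
# The pairs of reductions on `X₀(M q)` form an algebra containing both Frobenius graphs

The two reductions of a level `M` function are `(u, frobE u)` and of its conjugate `(frobE u, u)`;
hence the pairs of reductions contain both Frobenius graphs, which determines the nodes.
-/

noncomputable section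

open ModularCurve AlgebraicCurve IntermediateField Fermat.Agent.Red Fermat.Agent.Igusa

namespace Fermat.Agent.TwoComponent

local notation "Qb" => AlgebraicClosure ℚ

variable (M q : ℕ) [hq : Fact q.Prime] [NeZero M] (hqM : ¬ q ∣ M)
variable {A : ValuationSubring (AlgebraicClosure ℚ)} {k : Type*} [Field k] {π : A →+* k}
variable [CharP k q] [IsAlgClosed k]

/-- The function field of each component: the level `M` field in characteristic `q`. -/
abbrev CK (k : Type*) [Field k] : IntermediateField k (LaurentSeries k) :=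
  modularFunctionFieldFullC k M

/-- The constants of a component, given directly as the general search is slow. -/
instance algebraCK (M : ℕ) (k : Type*) [Field k] : Algebra k (CK M k) :=
  SubalgebraClass.toAlgebra (CK M k)

omit hq [NeZero M] [IsAlgClosed k] in
theorem natCast_ne_zero_of_not_dvd (hqM : ¬ q ∣ M) : (M : k) ≠ 0 := fun h =>
  hqM ((CharP.cast_eq_zero_iff k q M).mp h)

/-- Both reductions have values in the level `M` field in characteristic `q`. -/
theorem red_mem_CK (hres : ResidueAt A q π) (i : Bool) (u : (redPair M q hqM hres i).O) :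
    (redPair M q hqM hres i).red u ∈ CK M k := by
  obtain ⟨G, hR, -, -, hmem⟩ := exists_frame M q hqM hres (natCast_ne_zero_of_not_dvd M q hqM)
  have key : ∀ R, G.R = R → ∀ u : (R i).O, (R i).red u ∈ CK M k := by
    rintro _ rfl; exact hmem i
  exact key _ hR u

/-- The two reductions, with values in the field of a component. -/
def redC (hres : ResidueAt A q π) (i : Bool) : RedBase A π (FN M q) (CK M k) :=
  corestrictRed (redPair M q hqM hres i) (CK M k) (red_mem_CK M q hqM hres i)

theorem coe_redC_red (hres : ResidueAt A q π) (i : Bool) (u : (redC M q hqM hres i).O) :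
    ((redC M q hqM hres i).red u : LaurentSeries k) = (redPair M q hqM hres i).red u := rfl

/-- `j̄` -/
def jbC : CK M k := ⟨jv (1 : kˣ) 1, jv_mem_full one_ne_zero (one_dvd M)⟩

/-- `j̄^(q+1)` -/
def xbC : CK M k := jbC M ^ (q + 1)

omit [NeZero M] [IsAlgClosed k] in
theorem transcendental_jbC : Transcendental k (jbC M : CK M k) :=
  transcendental_subtype _ _ (transcendental_jv one_ne_zero)

omit hq [CharP k q] [NeZero M] [IsAlgClosed k] in
theorem transcendental_xbC : Transcendental k (xbC M q : CK M k) :=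
  (transcendental_jbC M).pow (Nat.succ_pos q)

theorem redC_xN (hres : ResidueAt A q π) (i : Bool) :
    ∃ h : xN M q ∈ (redC M q hqM hres i).O,
      (redC M q hqM hres i).red ⟨xN M q, h⟩ = (xbC M q : CK M k) := by
  obtain ⟨h, hr⟩ := xN_red M q hqM hres (k := k) i
  exact ⟨h, Subtype.ext hr⟩

omit hq [CharP k q] in
theorem poleDiv_xbC (Q : Place k (CK M k)) :
    FF.poleDiv (K := k) (xbC M q : CK M k) Q =
      ((q + 1 : ℕ) : ℤ) * FF.poleDiv (K := k) (jbC M : CK M k) Q := by
  rw [FF.poleDiv_apply, FF.poleDiv_apply, xbC, Red.ord_pow,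
    mul_max_of_nonneg _ _ (Int.natCast_nonneg _), mul_zero, mul_neg]

theorem exists_frameC (hres : ResidueAt A q π) :
    ∃ G : Frame A π (FN M q) (CK M k), G.R = redC M q hqM hres ∧ G.x = xN M q ∧
      G.d = (q + 1) * psi M := by
  obtain ⟨G, hR, hx, hd, hmem⟩ := exists_frame M q hqM hres (natCast_ne_zero_of_not_dvd M q hqM)
  refine ⟨G.corestrict (CK M k) hmem, funext fun i => ?_, hx, hd⟩
  show corestrictRed (G.R i) _ _ = _
  unfold redC
  congr 1
  rw [hR]

/-- `f ↦ f(t^q)` on the field of a component. -/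
def frobE : CK M k →ₐ[k] CK M k :=
  haveI : PerfectRing k q := PerfectField.toPerfectRing q
  ((qExpandAlgHomC k q).comp (CK M k).val).codRestrict (CK M k).toSubalgebra fun a => by
    show qExpandAlgHomC k q (a : LaurentSeries k) ∈ _
    rw [qExpandAlgHomC_apply]
    exact qExpand_char_mem M q a.2

omit [NeZero M] in
theorem coe_frobE (a : CK M k) :
    (frobE M q (k := k) a : LaurentSeries k) = qExpand k q (a : LaurentSeries k) :=
  qExpandAlgHomC_apply _ _ _

/-- Frobenius on coefficients. -/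
def frobC : SemilinearAut k (CK M k) :=
  haveI : PerfectRing k q := PerfectField.toPerfectRing q
  EichlerShimura.coeffSemilinear M (frobeniusEquiv k q)

omit [NeZero M] in
theorem frobE_eq (a : CK M k) : frobE M q (k := k) a = ((frobC M q (k := k))⁻¹ • a) ^ q := by
  have : PerfectRing k q := PerfectField.toPerfectRing q
  refine Subtype.ext ?_
  rw [coe_frobE, SubmonoidClass.coe_pow, frobC, EichlerShimura.coe_coeffSemilinear_inv_smul,
    EichlerShimura.pow_char_eq_qExpand q, coeffMap_coeffMap]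
  congr 1
  ext n
  simp

omit [NeZero M] in
theorem ord_frobE (Q : Place k (CK M k)) (a : CK M k) :
    Q.ord (frobE M q (k := k) a) = q * (frobC M q (k := k) • Q).ord a := by
  conv_rhs => rw [← smul_inv_smul (frobC M q (k := k)) a, SemilinearAut.ord_smul]
  rw [frobE_eq, Red.ord_pow]

omit [NeZero M] in
theorem frobE_jbC : frobE M q (k := k) (jbC M : CK M k) = jbC M ^ q := by
  refine Subtype.ext ?_
  rw [coe_frobE, SubmonoidClass.coe_pow]
  show qExpand k q (jv (1 : kˣ) 1) = jv (1 : kˣ) 1 ^ q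
  rw [jv_one_one, ← jv_one_eq_qExpand, ← jv_one_one, ← jv_mul_char q one_ne_zero, one_mul]

/-- The pairs of reductions of functions with poles only at those of `xN`. -/
def imgC (hres : ResidueAt A q π) : Submodule k (CK M k × CK M k) :=
  ⨆ n : ℕ, (pairRedOf (redC M q hqM hres)).redImage
    (riemannRochSpace (n • FF.poleDiv (K := Qb) (xN M q)))

theorem space_mono {n n' : ℕ} (h : n ≤ n') :
    riemannRochSpace (n • FF.poleDiv (K := Qb) (xN M q)) ≤
      riemannRochSpace (n' • FF.poleDiv (K := Qb) (xN M q)) :=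
  FF.rrSpace_mono fun P => by
    rw [Finsupp.smul_apply, Finsupp.smul_apply]
    exact nsmul_le_nsmul_left (by rw [FF.poleDiv_apply]; exact le_max_right _ _) h

theorem mem_imgC (hres : ResidueAt A q π) {w : CK M k × CK M k} :
    w ∈ imgC M q hqM hres ↔ ∃ (n : ℕ) (u : FN M q) (h : ∀ i, u ∈ (redC M q hqM hres i).O),
      u ∈ riemannRochSpace (n • FF.poleDiv (K := Qb) (xN M q)) ∧
      w = ((redC M q hqM hres false).red ⟨u, h false⟩,
        (redC M q hqM hres true).red ⟨u, h true⟩) := by
  rw [imgC, Submodule.mem_iSup_of_directed _ (Monotone.directed_le fun n n' h =>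
    RedBase.redImage_mono _ (space_mono M q h))]
  constructor
  · rintro ⟨n, u, hu, rfl⟩
    exact ⟨n, u, pairRedOf_mem.mp u.2, hu, rfl⟩
  · rintro ⟨n, u, h, hu, rfl⟩
    exact ⟨n, ⟨u, pairRedOf_mem.mpr h⟩, hu, rfl⟩

theorem redC_mem_space (hres : ResidueAt A q π) {n : ℕ} {u : FN M q}
    (h : ∀ i, u ∈ (redC M q hqM hres i).O)
    (hu : u ∈ riemannRochSpace (n • FF.poleDiv (K := Qb) (xN M q))) (i : Bool) :
    (redC M q hqM hres i).red ⟨u, h i⟩ ∈
      riemannRochSpace (n • FF.poleDiv (K := k) (xbC M q : CK M k)) := by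
  obtain ⟨G, hR, hx, -⟩ := exists_frameC M q hqM hres
  obtain ⟨h0, hr0⟩ := redC_xN M q hqM hres i
  rw [← hx] at hu
  have hxb : G.xb i = xbC M q := by
    have key : ∀ R, R = G.R → ∀ x, x = G.x → ∀ h : x ∈ (R i).O, (R i).red ⟨x, h⟩ = G.xb i := by
      rintro _ rfl _ rfl h; rfl
    rw [← hr0, key _ hR.symm _ hx.symm h0]
  have key : ∀ R, R = G.R → ∀ h' : ∀ i, u ∈ (R i).O,
      (R i).red ⟨u, h' i⟩ ∈ riemannRochSpace (n • FF.poleDiv (K := k) (G.xb i)) := by
    rintro _ rfl h'
    exact G.red_mem_of_mem hu h' i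
  exact hxb ▸ key _ hR.symm h

/-- The reductions of a level `M` function. -/
theorem redC_inclM (hres : ResidueAt A q π)
    (hdeg : SameDegree Qb k M) {u : modularFunctionFieldBar M}
    (hu : u ∈ (gaussData (A := A) (N := M) hres.surj hdeg).toRedBase.O) :
    ∃ h : ∀ i, inclM M q u ∈ (redC M q hqM hres i).O,
      (redC M q hqM hres false).red ⟨_, h false⟩ =
        (gaussData (A := A) (N := M) hres.surj hdeg).toRedBase.red ⟨u, hu⟩ ∧
      (redC M q hqM hres true).red ⟨_, h true⟩ =
        frobE M q (k := k)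
          ((gaussData (A := A) (N := M) hres.surj hdeg).toRedBase.red ⟨u, hu⟩) := by
  obtain ⟨y, z, hz, hyz⟩ := (gaussData (A := A) (N := M) hres.surj hdeg).mem_O.mp hu
  have hz' : (integralReduction A π M z : LaurentSeries k) ≠ 0 := fun h0 => hz (Subtype.ext h0)
  have e : inclM M q z.1 * inclM M q u = inclM M q y.1 := by
    rw [← map_mul, mul_comm]
    exact congrArg _ hyz
  obtain ⟨⟨hz0, hrz0⟩, ⟨hz1, hrz1⟩⟩ := inclM_red M q hqM hres z
  obtain ⟨⟨hy0, hry0⟩, ⟨hy1, hry1⟩⟩ := inclM_red M q hqM hres y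
  have hq1 : qExpand k q (integralReduction A π M z : LaurentSeries k) ≠ 0 := fun h0 =>
    hz' (qExpand_injective q (h0.trans (map_zero _).symm))
  have hmem : ∀ i, inclM M q u ∈ (redC M q hqM hres i).O := fun i => by
    cases i
    · exact mem_of_mul_mem (redPair M q hqM hres false) (n := ⟨_, hz0⟩)
        (by rw [hrz0]; exact hz') (e ▸ hy0)
    · exact mem_of_mul_mem (redPair M q hqM hres true) (n := ⟨_, hz1⟩)
        (by rw [hrz1]; exact hq1) (e ▸ hy1)
  have hred := (gaussData (A := A) (N := M) hres.surj hdeg).red_eq (f := ⟨u, hu⟩) hz hyz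
  have key : ∀ (i : Bool) (hzi : inclM M q z.1 ∈ (redPair M q hqM hres i).O)
      (hyi : inclM M q y.1 ∈ (redPair M q hqM hres i).O),
      (redPair M q hqM hres i).red ⟨_, hzi⟩ *
        ((redC M q hqM hres i).red ⟨_, hmem i⟩ : LaurentSeries k) =
      (redPair M q hqM hres i).red ⟨_, hyi⟩ := fun i hzi hyi => by
    exact ((redPair M q hqM hres i).red.map_mul ⟨_, hzi⟩ ⟨_, hmem i⟩).symm.trans
      (congrArg (redPair M q hqM hres i).red (Subtype.ext e))
  refine ⟨hmem, ?_, ?_⟩
  · refine Subtype.ext ?_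
    show _ = (((gaussData (A := A) (N := M) hres.surj hdeg).red ⟨u, hu⟩ : CK M k) :
      LaurentSeries k)
    rw [hred, IntermediateField.coe_div]
    refine (eq_div_iff hz').mpr ?_
    rw [mul_comm]
    have := key false hz0 hy0
    rwa [hrz0, hry0] at this
  · refine Subtype.ext ?_
    show _ = ((frobE M q (k := k)
        ((gaussData (A := A) (N := M) hres.surj hdeg).red ⟨u, hu⟩) : CK M k) : LaurentSeries k)
    rw [coe_frobE, hred, IntermediateField.coe_div, map_div₀]
    refine (eq_div_iff hq1).mpr ?_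
    rw [mul_comm]
    have := key true hz1 hy1
    rwa [hrz1, hry1] at this

omit hq in
/-- The degree over the `j`-line is the same in characteristic zero and `q`. -/
theorem sameDegree_CK (hqM : ¬ q ∣ M) : SameDegree Qb k M := by
  have e1 := Igusa.relfinrank_full (K := k) M (natCast_ne_zero_of_not_dvd M q hqM)
  have e2 := Igusa.relfinrank_full (K := Qb) M (Nat.cast_ne_zero.mpr (NeZero.ne M))
  rw [Igusa.jv_one_one] at e1 e2
  exact ⟨e1 ▸ Igusa.psi_pos M, e2.trans e1.symm⟩

omit hq [NeZero M] [CharP k q] [IsAlgClosed k] in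
theorem gauss_x (hres : ResidueAt A q π) (hdeg : SameDegree Qb k M) :
    ((gaussData (A := A) (N := M) hres.surj hdeg).x : modularFunctionFieldBar M) = jLevel M ∧
    (gaussData (A := A) (N := M) hres.surj hdeg).ρ
      (gaussData (A := A) (N := M) hres.surj hdeg).x = (jbC M : CK M k) := by
  refine ⟨Subtype.ext ?_, Subtype.ext ?_⟩
  · show qExpand Qb 1 (jqModC Qb) = jv (1 : Qbˣ) 1
    rw [qExpand_one_apply, jv_one_one]
  · show (integralReduction A π M (jIntegral A π M 1 (one_dvd M)) : LaurentSeries k) =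
      jv (1 : kˣ) 1
    rw [coe_integralReduction_jIntegral, qExpand_one_apply, jv_one_one]

/-- Level `M`: large multiples of the pole divisor of `j` lift. -/
theorem exists_lift_level (hres : ResidueAt A q π)
    (hgen : genusFF Qb (modularFunctionFieldBar M) ≤ genusFF k (CK M k)) (hqM : ¬ q ∣ M) :
    ∃ n₁ : ℕ, ∀ m ≥ n₁, ∀ a ∈ riemannRochSpace (m • FF.poleDiv (K := k) (jbC M : CK M k)),
      ∃ (u : FN M q) (h : ∀ i, u ∈ (redC M q hqM hres i).O),
        u ∈ riemannRochSpace (m • FF.poleDiv (K := Qb) (jOne M q)) ∧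
        (redC M q hqM hres false).red ⟨u, h false⟩ = a ∧
        (redC M q hqM hres true).red ⟨u, h true⟩ = frobE M q (k := k) a := by
  have hdeg := sameDegree_CK M q (k := k) hqM
  set D := gaussData (A := A) (N := M) hres.surj hdeg with hD
  obtain ⟨hx, hxb⟩ := gauss_x M q hres hdeg
  have hdk : Module.finrank (k⟮D.ρ D.x⟯) (CK M k) = D.d := rfl
  obtain ⟨-, hS⟩ := D.genus_eq_and_latticeSurj hdk hgen
  obtain ⟨n₁, hn₁⟩ := hS.surj
  refine ⟨n₁, fun m hm a ha => ?_⟩
  rw [← hxb, ← hn₁ m hm] at ha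
  obtain ⟨v, hv, rfl⟩ := ha
  obtain ⟨h, h0, h1⟩ := redC_inclM M q hqM hres hdeg v.2
  refine ⟨inclM M q v, h, inclM_mem_space M q ?_, h0, h1⟩
  rw [← hx]
  exact hv

theorem jOne_space_le (m : ℕ) :
    riemannRochSpace (m • FF.poleDiv (K := Qb) (jOne M q)) ≤
      riemannRochSpace (m • FF.poleDiv (K := Qb) (xN M q)) :=
  FF.rrSpace_mono fun P => by
    rw [Finsupp.smul_apply, Finsupp.smul_apply]
    refine nsmul_le_nsmul_right ?_ m
    rw [poleDiv_xN, FF.poleDiv_apply (K := Qb) (jQ M q)]
    omega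

omit hq [CharP k q] in
theorem exists_space_of_reg {a : CK M k}
    (ha : a ∈ regSubalgebra (K := k) (xbC M q : CK M k)) :
    ∃ n₀ : ℕ, ∀ n ≥ n₀, a ∈ riemannRochSpace (n • FF.poleDiv (K := k) (jbC M : CK M k)) := by
  obtain ⟨n, hn⟩ := exists_mem_rrSpace_of_mem_reg _ ha
  refine ⟨(q + 1) * n, fun n' hn' => FF.rrSpace_mono (fun Q => ?_) hn⟩
  rw [Finsupp.smul_apply, Finsupp.smul_apply, poleDiv_xbC, smul_eq_mul, nsmul_eq_mul]
  have h0 : 0 ≤ FF.poleDiv (K := k) (jbC M : CK M k) Q := by
    rw [FF.poleDiv_apply]; exact le_max_right _ _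
  have h1 : (((q + 1) * n : ℕ) : ℤ) ≤ n' := by exact_mod_cast hn'
  push_cast at h1 ⊢
  nlinarith [mul_le_mul_of_nonneg_right h1 h0]

/-- The pairs of reductions, as an algebra containing both Frobenius graphs. -/
def graphAlg (hres : ResidueAt A q π)
    (hgen : genusFF Qb (modularFunctionFieldBar M) ≤ genusFF k (CK M k)) :
    GraphAlg k (CK M k) where
  z := xbC M q
  transcendental := transcendental_xbC M q
  E := frobE M q (k := k)
  φ :=
    { toFun := fun Q => frobC M q (k := k) • Q
      invFun := fun Q => (frobC M q (k := k))⁻¹ • Q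
      left_inv := fun Q => inv_smul_smul _ Q
      right_inv := fun Q => smul_inv_smul _ Q }
  q := q
  two_le := hq.out.two_le
  ord_E Q g := ord_frobE M q Q g
  E_z := by rw [xbC, map_pow, frobE_jbC, ← pow_mul, ← pow_mul, mul_comm]
  Img := imgC M q hqM hres
  mul_mem a ha b hb := by
    obtain ⟨n, u, h, hu, rfl⟩ := (mem_imgC M q hqM hres).mp ha
    obtain ⟨n', u', h', hu', rfl⟩ := (mem_imgC M q hqM hres).mp hb
    refine (mem_imgC M q hqM hres).mpr ⟨n' + n, u * u', fun i => mul_mem (h i) (h' i), ?_, ?_⟩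
    · rw [add_nsmul]
      exact mul_mem_space_add hu' hu
    · refine Prod.ext ?_ ?_ <;> exact (map_mul _ _ _).symm
  reg a ha := by
    obtain ⟨n, u, h, hu, rfl⟩ := (mem_imgC M q hqM hres).mp ha
    exact ⟨mem_reg_of_mem_rrSpace (n := n) _
        (by rw [natCast_zsmul]; exact redC_mem_space M q hqM hres h hu false),
      mem_reg_of_mem_rrSpace (n := n) _
        (by rw [natCast_zsmul]; exact redC_mem_space M q hqM hres h hu true)⟩
  up a ha := by
    obtain ⟨n₁, hn₁⟩ := exists_lift_level M q hres hgen hqM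
    obtain ⟨n₀, hn₀⟩ := exists_space_of_reg M q ha
    obtain ⟨u, h, hu, h0, h1⟩ := hn₁ (max n₀ n₁) (le_max_right _ _) a (hn₀ _ (le_max_left _ _))
    exact (mem_imgC M q hqM hres).mpr
      ⟨max n₀ n₁, u, h, jOne_space_le M q _ hu, by rw [h0, h1]⟩
  down a ha := by
    obtain ⟨n₁, hn₁⟩ := exists_lift_level M q hres hgen hqM
    obtain ⟨n₀, hn₀⟩ := exists_space_of_reg M q ha
    obtain ⟨u, h, hu, h0, h1⟩ := hn₁ (max n₀ n₁) (le_max_right _ _) a (hn₀ _ (le_max_left _ _))
    obtain ⟨h0', e0⟩ := red_false_wAL M q hqM hres (h true)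
    obtain ⟨h1', e1⟩ := red_true_wAL M q hqM hres (h false)
    refine (mem_imgC M q hqM hres).mpr ⟨max n₀ n₁, wAL M q hqM u,
      fun i => by cases i; exacts [h0', h1'],
      wAL_mem_space M q hqM (jOne_space_le M q _ hu), ?_⟩
    exact Prod.ext (h1.symm.trans (Subtype.ext e0.symm)) (h0.symm.trans (Subtype.ext e1.symm))

end Fermat.Agent.TwoComponent
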