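import Fermat.Agent.TwoComponent.Defs

/-!
# Pairs of reductions: adapted bases

A basis of the pairs of reductions of a finite-dimensional space lifts to a basis with integral
coordinates; in particular the pairs have the same dimension as the space.
-/

noncomputable section

open AlgebraicCurve Fermat.Agent.Red

namespace Fermat.Agent.TwoComponent

variable {K k F Fk : Type*} [Field K] [Field F] [Algebra K F] [Field k] [Field Fk] [Algebra k Fk]
variable {A : ValuationSubring K} {π : A →+* k} {R : Bool → RedBase A π F Fk}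

/-- Inversion in `O` of elements with nonzero reduction. -/
theorem inv_mem_O (R : RedBase A π F Fk) {u : R.O} (hu : R.red u ≠ 0) :
    ∃ r : R.O, (r : F) = (u : F)⁻¹ ∧ R.red r = (R.red u)⁻¹ := by
  obtain ⟨c, v, hv, hcv⟩ := R.scale _ (inv_ne_zero (R.coe_ne_zero hu))
  have hvu : R.red (v * u) ≠ 0 := by rw [map_mul]; exact mul_ne_zero hv hu
  have h1 : ((1 : R.O) : F) = algebraMap K F c * ((v * u : R.O) : F) := by
    rw [Subring.coe_one, Subring.coe_mul, ← mul_assoc, ← hcv,
      inv_mul_cancel₀ (R.coe_ne_zero hu)]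
  have hc : c ∈ A := R.mem_of_smul_mem hvu h1
  refine ⟨R.ι ⟨c, hc⟩ * v, by rw [Subring.coe_mul, RedBase.coe_ι, ← hcv], ?_⟩
  refine eq_inv_of_mul_eq_one_left ?_
  rw [← map_mul]
  refine (congrArg R.red (?_ : R.ι ⟨c, hc⟩ * v * u = 1)).trans (map_one _)
  refine Subtype.ext ?_
  rw [h1, Subring.coe_mul, Subring.coe_mul, Subring.coe_mul, RedBase.coe_ι, mul_assoc]

section Coeff

variable {ι' : Type*} [Fintype ι'] {c : Bool → K} {u : ι' → F} {w : ι' → Bool → Fk}
  {v : ι' → ∀ i, (R i).O}
variable (hu : ∀ j i, algebraMap K F (c i) * (v j i : F) = u j)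
variable (hw : ∀ j i, (R i).red (v j i) = w j i) (hli : LinearIndependent k w)
include hu hw hli

/-- Coefficients of an integral combination are integral. -/
theorem coeff_mem (hc : ∀ i, c i ≠ 0) (β : ι' → K)
    (h : ∀ i, ∃ f : (R i).O, algebraMap K F (c i) * (f : F) = ∑ j, algebraMap K F (β j) * u j) :
    ∀ j, β j ∈ A := by
  classical
  by_contra hcon
  push Not at hcon
  obtain ⟨j₀, hj₀⟩ := hcon
  obtain ⟨j₁, -, hmax⟩ := Finset.univ.exists_max_image (fun j => A.valuation (β j))
    ⟨j₀, Finset.mem_univ _⟩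
  have hM : β j₁ ∉ A := fun hm => hj₀ <| (A.valuation_le_one_iff _).mp <|
    (hmax j₀ (Finset.mem_univ _)).trans ((A.valuation_le_one_iff _).mpr hm)
  have hM0 : β j₁ ≠ 0 := fun h0 => hM (h0 ▸ A.zero_mem)
  have hMi : (β j₁)⁻¹ ∈ A := (A.mem_or_inv_mem _).resolve_left hM
  have hd : ∀ j, β j / β j₁ ∈ A := fun j => by
    rw [← A.valuation_le_one_iff, map_div₀]
    exact div_le_one_of_le₀ (hmax j (Finset.mem_univ _)) zero_le
  have h0 : π ⟨(β j₁)⁻¹, hMi⟩ = 0 := by
    by_contra hne
    exact hM (inv_inv (β j₁) ▸ inv_mem_of_pi_ne_zero (R false).surj_pi hne)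
  have hz : ∑ j, π ⟨β j / β j₁, hd j⟩ • w j = 0 := by
    funext i
    obtain ⟨f, hf⟩ := h i
    have he : (R i).ι ⟨(β j₁)⁻¹, hMi⟩ * f = ∑ j, (R i).ι ⟨β j / β j₁, hd j⟩ * v j i := by
      refine Subtype.ext (mul_left_cancel₀ ((map_ne_zero (algebraMap K F)).mpr (hc i)) ?_)
      rw [Subring.coe_mul, RedBase.coe_ι, mul_left_comm, hf, AddSubmonoidClass.coe_finsetSum,
        Finset.mul_sum, Finset.mul_sum]
      refine Finset.sum_congr rfl fun j _ => ?_
      rw [Subring.coe_mul, RedBase.coe_ι, ← mul_assoc, ← map_mul, mul_left_comm, hu]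
      simp only [div_eq_inv_mul]
    have := congrArg (R i).red he
    rw [map_mul, RedBase.red_ι, h0, map_zero, zero_mul, map_sum] at this
    simp only [map_mul, RedBase.red_ι, hw, ← Algebra.smul_def] at this
    simpa [Finset.sum_apply] using this.symm
  have h1 := Fintype.linearIndependent_iff.mp hli _ hz j₁
  rw [show (⟨β j₁ / β j₁, hd j₁⟩ : A) = 1 from Subtype.ext (div_self hM0), map_one] at h1
  exact one_ne_zero h1

/-- The lifts of independent pairs are independent. -/
theorem linearIndependent_lift (hc : ∀ i, c i ≠ 0) : LinearIndependent K u := by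
  classical
  rw [Fintype.linearIndependent_iff]
  intro β hβ j
  simp only [Algebra.smul_def] at hβ
  by_contra hj
  -- normalise the largest coefficient to `1`
  obtain ⟨j₁, -, hmax⟩ := Finset.univ.exists_max_image (fun j => A.valuation (β j))
    ⟨j, Finset.mem_univ _⟩
  have hM0 : β j₁ ≠ 0 := fun h0 => hj <| (map_eq_zero A.valuation).mp <|
    le_zero_iff.mp (by simpa [h0] using hmax j (Finset.mem_univ _))
  have hd : ∀ j, β j / β j₁ ∈ A := fun j => by
    rw [← A.valuation_le_one_iff, map_div₀]
    exact div_le_one_of_le₀ (hmax j (Finset.mem_univ _)) zero_le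
  have hz : ∑ j, π ⟨β j / β j₁, hd j⟩ • w j = 0 := by
    funext i
    have he : (0 : (R i).O) = ∑ j, (R i).ι ⟨β j / β j₁, hd j⟩ * v j i := by
      refine Subtype.ext (mul_left_cancel₀ ((map_ne_zero (algebraMap K F)).mpr (hc i)) ?_)
      rw [ZeroMemClass.coe_zero, mul_zero, AddSubmonoidClass.coe_finsetSum, Finset.mul_sum]
      calc (0 : F) = algebraMap K F (β j₁)⁻¹ * ∑ j, algebraMap K F (β j) * u j := by
            rw [hβ, mul_zero]
        _ = _ := by
            rw [Finset.mul_sum]
            refine Finset.sum_congr rfl fun j _ => ?_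
            rw [Subring.coe_mul, RedBase.coe_ι, ← mul_assoc, ← map_mul, mul_left_comm, hu]
            simp only [div_eq_inv_mul]
    have := congrArg (R i).red he
    rw [map_zero, map_sum] at this
    simp only [map_mul, RedBase.red_ι, hw, ← Algebra.smul_def] at this
    simpa [Finset.sum_apply] using this.symm
  have h1 := Fintype.linearIndependent_iff.mp hli _ hz j₁
  rw [show (⟨β j₁ / β j₁, hd j₁⟩ : A) = 1 from Subtype.ext (div_self hM0), map_one] at h1
  exact one_ne_zero h1

end Coeff

theorem exists_lifts {ι' : Type*} {c : Bool → K} {V : Submodule K F} {w : ι' → Bool → Fk}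
    (hmem : ∀ j, w j ∈ pairImage R c V) :
    ∃ (u : ι' → F) (v : ι' → ∀ i, (R i).O), (∀ j, u j ∈ V) ∧
      (∀ j i, algebraMap K F (c i) * (v j i : F) = u j) ∧ ∀ j i, (R i).red (v j i) = w j i := by
  choose u hu h using fun j => mem_pairImage.mp (hmem j)
  choose v hv hr using h
  exact ⟨u, v, hu, hv, hr⟩

theorem finiteDimensional_pairImage {c : Bool → K} (hc : ∀ i, c i ≠ 0) (V : Submodule K F)
    [FiniteDimensional K V] : FiniteDimensional k (pairImage R c V) := by
  refine Module.rank_lt_aleph0_iff.mp
    (lt_of_le_of_lt (rank_le fun s hs => ?_)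
      (Cardinal.natCast_lt_aleph0 (n := Module.finrank K V)))
  have hli := hs.map' (pairImage R c V).subtype (Submodule.ker_subtype _)
  obtain ⟨u, v, hu, hv, hr⟩ := exists_lifts (R := R) (c := c) (V := V)
    (w := fun x : s => ((x : pairImage R c V) : Bool → Fk)) fun x => (x : pairImage R c V).2
  have hl : LinearIndependent K fun x : s => (⟨u x, hu x⟩ : V) :=
    LinearIndependent.of_comp V.subtype (linearIndependent_lift hv hr hli hc)
  simpa using hl.fintype_card_le_finrank

theorem finrank_pairImage_le {c : Bool → K} (hc : ∀ i, c i ≠ 0) (V : Submodule K F)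
    [FiniteDimensional K V] :
    Module.finrank k (pairImage R c V) ≤ Module.finrank K V := by
  have := finiteDimensional_pairImage (R := R) hc V
  let b := Module.finBasis k (pairImage R c V)
  have hli := b.linearIndependent.map' (pairImage R c V).subtype (Submodule.ker_subtype _)
  obtain ⟨u, v, hu, hv, hr⟩ := exists_lifts (R := R) (c := c) (V := V)
    (w := fun j => ((b j : pairImage R c V) : Bool → Fk)) fun j => (b j).2
  have hl : LinearIndependent K fun j => (⟨u j, hu j⟩ : V) :=
    LinearIndependent.of_comp V.subtype (linearIndependent_lift hv hr hli hc)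
  simpa using hl.fintype_card_le_finrank

theorem pairImage_mono {c : Bool → K} {V V' : Submodule K F} (h : V ≤ V') :
    pairImage R c V ≤ pairImage R c V' := by
  rintro w ⟨u, hu, hw⟩
  exact ⟨u, h hu, hw⟩

namespace TwoRed

variable {S : Type*} [Fintype S] (T : TwoRed A π F Fk S)

/-- The pairs of reductions of a space have its dimension. -/
theorem finrank_pairImage {c : Bool → K} (hc : ∀ i, c i ≠ 0) (V : Submodule K F)
    [FiniteDimensional K V] :
    Module.finrank k (pairImage T.R c V) = Module.finrank K V :=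
  le_antisymm (finrank_pairImage_le hc V) (T.finrank_pair V inferInstance c hc)

/-- A basis of the pairs of reductions lifts to a basis. -/
theorem exists_expansion {ι' : Type*} [Fintype ι'] {c : Bool → K} (hc : ∀ i, c i ≠ 0)
    {V : Submodule K F} [FiniteDimensional K V] {u : ι' → F} {w : ι' → Bool → Fk}
    {v : ι' → ∀ i, (T.R i).O} (hu : ∀ j i, algebraMap K F (c i) * (v j i : F) = u j)
    (hw : ∀ j i, (T.R i).red (v j i) = w j i) (hli : LinearIndependent k w)
    (hV : ∀ j, u j ∈ V) (hcard : Fintype.card ι' = Module.finrank k (pairImage T.R c V))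
    {f : F} (hf : f ∈ V) : ∃ β : ι' → K, f = ∑ j, algebraMap K F (β j) * u j := by
  rw [T.finrank_pairImage hc] at hcard
  have hl : LinearIndependent K fun j => (⟨u j, hV j⟩ : V) :=
    LinearIndependent.of_comp V.subtype (linearIndependent_lift hu hw hli hc)
  have htop := hl.span_eq_top_of_card_eq_finrank' hcard
  have hm : (⟨f, hf⟩ : V) ∈ Submodule.span K (Set.range fun j => (⟨u j, hV j⟩ : V)) := by
    rw [htop]; exact Submodule.mem_top
  obtain ⟨β, hβ⟩ := (Submodule.mem_span_range_iff_exists_fun K).mp hm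
  refine ⟨β, ?_⟩
  have := congrArg V.subtype hβ
  simp only [map_sum, map_smul, Submodule.subtype_apply, Algebra.smul_def] at this
  exact this.symm

end TwoRed

end Fermat.Agent.TwoComponent
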