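import Mathlib.LinearAlgebra.Matrix.SchurComplement
import Fermat.Agent.TwoComponent.Norm

/-!
# The reduction of a norm

The order of the reduction of a norm along a degeneracy map is the sum of the orders of the
reductions on the two sides, one of them transported by Frobenius; computed in an adapted frame.
-/

noncomputable section

open AlgebraicCurve Fermat.Agent.Red Matrix

namespace Fermat.Agent.TwoComponent

variable {K k F Fk : Type*} [Field K] [Field F] [Algebra K F] [Field k] [Field Fk] [Algebra k Fk]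
variable {A : ValuationSubring K} {π : A →+* k}
variable {S : Type*} [Fintype S] {T : TwoRed A π F Fk S}

theorem TwoRed.one_add_red_x_ne_zero (T : TwoRed A π F Fk S) (i : Bool) :
    (1 : Fk) + (T.R i).red ⟨T.x, T.x_mem i⟩ ≠ 0 := by
  intro h
  have h' : (T.R i).red ⟨T.x, T.x_mem i⟩ = -1 := by linear_combination h
  have h0 : T.Gk i = 0 := Finsupp.ext fun Q => by rw [T.Gk_spec, h', ord_neg]; simp
  have := T.degree_Gk_pos i
  rw [h0, map_zero] at this
  exact lt_irrefl _ this

/-- Functions with prescribed reduction on one side which are deep on the other. -/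
theorem TwoRed.exists_deep (T : TwoRed A π F Fk S) (i : Bool) {w : Fk} (hw : w ≠ 0) {γ : A}
    (hγ : γ ≠ 0) :
    ∃ b : F, (∃ v : (T.R i).O, (v : F) = b ∧ (T.R i).red v = w) ∧
      ∃ r : (T.R (!i)).O, b = algebraMap K F (γ : K) * (r : F) ∧ (T.R (!i)).red r = 0 := by
  classical
  set t := (T.R i).red ⟨T.x, T.x_mem i⟩ with ht
  obtain ⟨h₁, -, hh₁⟩ := T.exists_lift_pair (fun j => if j = i then 1 + t else 1) (fun j => by
    by_cases hj : j = i
    · simp only [hj, if_true]; exact T.one_add_red_x_ne_zero i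
    · simp only [hj, if_false]; exact one_ne_zero)
  obtain ⟨h₂, -, hh₂⟩ := T.exists_lift_pair (fun j => if j = i then t else 1) (fun j => by
    by_cases hj : j = i
    · simp only [hj, if_true]; exact T.red_x_ne_zero i
    · simp only [hj, if_false]; exact one_ne_zero)
  obtain ⟨h, -, hh⟩ := T.exists_lift_pair (fun j => if j = i then w else 1) (fun j => by
    by_cases hj : j = i
    · simp only [hj, if_true]; exact hw
    · simp only [hj, if_false]; exact one_ne_zero)
  obtain ⟨a₁, ha₁, hr₁⟩ := hh₁ i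
  obtain ⟨a₂, ha₂, hr₂⟩ := hh₂ i
  obtain ⟨a, ha, hr⟩ := hh i
  obtain ⟨b₁, hb₁, hs₁⟩ := hh₁ (!i)
  obtain ⟨b₂, hb₂, hs₂⟩ := hh₂ (!i)
  obtain ⟨b, hb, -⟩ := hh (!i)
  simp only [if_true] at hr₁ hr₂ hr
  have hne : (!i) ≠ i := by cases i <;> simp
  simp only [if_neg hne] at hs₁ hs₂
  have hρ : (T.R (!i)).red (b₁ - b₂) = 0 := by rw [map_sub, hs₁, hs₂, sub_self]
  obtain ⟨N, hN⟩ := T.exists_pow_dvd (i := !i) (w := 1 + (b₁ - b₂))
    (by rw [map_add, map_one, hρ, add_zero]) hγ
  obtain ⟨r, hr'⟩ := hN N le_rfl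
  rw [add_sub_cancel_left] at hr'
  refine ⟨h * (h₁ - h₂) ^ (N + 1), ⟨a * (a₁ - a₂) ^ (N + 1), ?_, ?_⟩,
    b * (r * (b₁ - b₂)), ?_, ?_⟩
  · rw [Subring.coe_mul, SubmonoidClass.coe_pow, AddSubgroupClass.coe_sub, ha, ha₁, ha₂]
  · rw [map_mul, map_pow, map_sub, hr, hr₁, hr₂, add_sub_cancel_right, one_pow, mul_one]
  · have : (b₁ - b₂) ^ (N + 1) = (T.R (!i)).ι γ * (r * (b₁ - b₂)) := by
      rw [pow_succ, hr', mul_assoc]
    have hF := congrArg Subtype.val this
    simp only [SubmonoidClass.coe_pow, AddSubgroupClass.coe_sub, hb₁, hb₂, Subring.coe_mul,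
      RedBase.coe_ι] at hF
    simp only [Subring.coe_mul, AddSubgroupClass.coe_sub, hb₁, hb₂, hb, hF]
    ring
  · rw [map_mul, map_mul, hρ, mul_zero, mul_zero]

namespace Degen

variable {FM : Type*} [Field FM] [Algebra K FM] (G : Degen T FM)

theorem red_pullO_side (z : G.RM.O) : (T.R G.side).red (G.pullO G.side z) = G.RM.red z :=
  G.red_side z

theorem red_pullO_other (z : G.RM.O) :
    (T.R (!G.side)).red (G.pullO (!G.side) z) = G.Fr (G.RM.red z) := G.red_other z

/-- Adapted families upstairs, deep on the opposite sides. -/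
structure Frame where
  /-- the deep scalar for the isomorphic side -/
  γs : A
  /-- the deep scalar for the other side -/
  γo : A
  γs_ne : γs ≠ 0
  γo_ne : γo ≠ 0
  /-- the elements -/
  b : Unit ⊕ Fin G.q → F
  /-- on the isomorphic side -/
  s : Unit ⊕ Fin G.q → (T.R G.side).O
  /-- on the other side -/
  o : Unit ⊕ Fin G.q → (T.R (!G.side)).O
  coe_s : ∀ j, (s j : F) = b j
  coe_o : ∀ j, (o j : F) = b j
  red_s_inl : ∀ u, (T.R G.side).red (s (Sum.inl u)) = 1
  red_o_inr : ∀ l, (T.R (!G.side)).red (o (Sum.inr l)) = G.e l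
  /-- deep parts -/
  rs : Fin G.q → (T.R G.side).O
  /-- deep part -/
  ro : (T.R (!G.side)).O
  coe_rs : ∀ l, b (Sum.inr l) = algebraMap K F (γs : K) * (rs l : F)
  coe_ro : b (Sum.inl ()) = algebraMap K F (γo : K) * (ro : F)
  red_rs : ∀ l, (T.R G.side).red (rs l) = 0
  red_ro : (T.R (!G.side)).red ro = 0

variable {G}

theorem Frame.red_s_inr (B : Frame G) (l : Fin G.q) :
    (T.R G.side).red (B.s (Sum.inr l)) = 0 := by
  have : B.s (Sum.inr l) = (T.R G.side).ι B.γs * B.rs l := Subtype.ext (by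
    rw [B.coe_s, B.coe_rs]; rfl)
  rw [this, map_mul, B.red_rs, mul_zero]

theorem Frame.red_o_inl (B : Frame G) (u : Unit) :
    (T.R (!G.side)).red (B.o (Sum.inl u)) = 0 := by
  have : B.o (Sum.inl u) = (T.R (!G.side)).ι B.γo * B.ro := Subtype.ext (by
    rw [B.coe_o, B.coe_ro]; rfl)
  rw [this, map_mul, B.red_ro, mul_zero]

variable (G)

/-- Adapted families with prescribed deep scalars exist. -/
theorem exists_frame (γs γo : A) (hs : γs ≠ 0) (ho : γo ≠ 0) :
    ∃ B : Frame G, B.γs = γs ∧ B.γo = γo := by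
  classical
  have hne : ∀ l, G.e l ≠ 0 := fun l h => by
    have h0 := G.eq_zero_of_sum (c := Pi.single l 1) (Finset.sum_eq_zero fun r _ => by
      rcases eq_or_ne r l with rfl | hr
      · rw [h, mul_zero]
      · rw [Pi.single_eq_of_ne hr, map_zero, zero_mul])
    exact one_ne_zero (α := Fk) (by simpa using congrFun h0 l)
  obtain ⟨b0, ⟨v0, hv0, hv0r⟩, r0, hr0, hr0r⟩ := T.exists_deep G.side one_ne_zero ho
  choose bl hbl hbl' using fun l => T.exists_deep (!G.side) (hne l) hs
  choose vl hvl hvlr using hbl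
  choose rl hrl hrlr using hbl'
  have hside : ∀ l, ∃ r : (T.R G.side).O,
      bl l = algebraMap K F (γs : K) * (r : F) ∧ (T.R G.side).red r = 0 := fun l => by
    have key : ∀ i, i = (!(!G.side)) → ∃ r : (T.R i).O,
        bl l = algebraMap K F (γs : K) * (r : F) ∧ (T.R i).red r = 0 := fun i hi => by
      subst hi; exact ⟨rl l, hrl l, hrlr l⟩
    exact key _ (Bool.not_not _).symm
  choose rs hrs hrsr using hside
  have hbs : ∀ j : Unit ⊕ Fin G.q, Sum.elim (fun _ => b0) bl j ∈ (T.R G.side).O := fun j => by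
    rcases j with u | l
    · exact hv0 ▸ v0.2
    · simp only [Sum.elim_inr, hrs l]
      exact mul_mem ((T.R G.side).algebraMap_mem γs) (rs l).2
  have hbo : ∀ j : Unit ⊕ Fin G.q, Sum.elim (fun _ => b0) bl j ∈ (T.R (!G.side)).O := fun j => by
    rcases j with u | l
    · simp only [Sum.elim_inl, hr0]
      exact mul_mem ((T.R (!G.side)).algebraMap_mem γo) r0.2
    · simp only [Sum.elim_inr, ← hvl l]
      exact (vl l).2
  refine ⟨{
      γs := γs
      γo := γo
      γs_ne := hs
      γo_ne := ho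
      b := Sum.elim (fun _ => b0) bl
      s := fun j => ⟨_, hbs j⟩
      o := fun j => ⟨_, hbo j⟩
      coe_s := fun j => rfl
      coe_o := fun j => rfl
      red_s_inl := fun u => (congrArg (T.R G.side).red (Subtype.ext hv0.symm)).trans hv0r
      red_o_inr := fun l =>
        (congrArg (T.R (!G.side)).red (Subtype.ext (hvl l).symm)).trans (hvlr l)
      rs := rs
      ro := r0
      coe_rs := hrs
      coe_ro := hr0
      red_rs := hrsr
      red_ro := hr0r }, rfl, rfl⟩

variable {G}

theorem Frame.normalize (B : Frame G) {μ : Unit ⊕ Fin G.q → FM} (hμ : ∃ j, μ j ≠ 0) :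
    ∃ (c : K) (i : Bool) (u : (T.R i).O), c ≠ 0 ∧ (T.R i).red u ≠ 0 ∧
      (∀ j, ∃ z : G.RM.O, μ j = algebraMap K FM c * (z : FM)) ∧
      ∑ j, G.φ (μ j) * B.b j = algebraMap K F c * (u : F) := by
  classical
  have hdec : ∀ j, ∃ c : K, ∃ v : G.RM.O, μ j = algebraMap K FM c * (v : FM) ∧
      (c ≠ 0 → G.RM.red v ≠ 0) := fun j => by
    by_cases hm : μ j = 0
    · exact ⟨0, 0, by simp [hm], fun hh => absurd rfl hh⟩
    · obtain ⟨c, v, hv, hh⟩ := G.RM.scale _ hm
      exact ⟨c, v, hh, fun _ => hv⟩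
  choose c v hcv hv using hdec
  obtain ⟨j₀, hj₀⟩ := hμ
  obtain ⟨j₁, -, hmax⟩ := Finset.univ.exists_max_image (fun j => A.valuation (c j))
    ⟨j₀, Finset.mem_univ _⟩
  have hM0 : c j₁ ≠ 0 := fun h0 => by
    have : c j₀ = 0 := (map_eq_zero A.valuation).mp <| le_zero_iff.mp (by
      simpa [h0] using hmax j₀ (Finset.mem_univ _))
    exact hj₀ (by rw [hcv, this, map_zero, zero_mul])
  have hd : ∀ j, c j / c j₁ ∈ A := fun j => by
    rw [← A.valuation_le_one_iff, map_div₀]
    exact div_le_one_of_le₀ (hmax j (Finset.mem_univ _)) zero_le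
  let z : Unit ⊕ Fin G.q → G.RM.O := fun j => G.RM.ι ⟨c j / c j₁, hd j⟩ * v j
  have hz : ∀ j, μ j = algebraMap K FM (c j₁) * (z j : FM) := fun j => by
    simp only [z, Subring.coe_mul, RedBase.coe_ι]
    rw [hcv, ← mul_assoc, ← map_mul, mul_div_cancel₀ _ hM0]
  have hz1 : G.RM.red (z j₁) ≠ 0 := by
    simp only [z, map_mul, RedBase.red_ι]
    rw [show (⟨c j₁ / c j₁, hd j₁⟩ : A) = 1 from Subtype.ext (div_self hM0), map_one, map_one,
      one_mul]
    exact hv j₁ hM0
  let us : (T.R G.side).O := ∑ j, G.pullO G.side (z j) * B.s j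
  let uo : (T.R (!G.side)).O := ∑ j, G.pullO (!G.side) (z j) * B.o j
  have hus : (T.R G.side).red us = G.RM.red (z (Sum.inl ())) := by
    simp [us, map_sum, Fintype.sum_sum_type, red_pullO_side, B.red_s_inl, B.red_s_inr]
  have huo : (T.R (!G.side)).red uo = ∑ l, G.Fr (G.RM.red (z (Sum.inr l))) * G.e l := by
    simp [uo, map_sum, Fintype.sum_sum_type, red_pullO_other, B.red_o_inl, B.red_o_inr]
  have hcs : ∑ j, G.φ (μ j) * B.b j = algebraMap K F (c j₁) * (us : F) := by
    simp only [us, AddSubmonoidClass.coe_finsetSum, Finset.mul_sum, Subring.coe_mul, B.coe_s]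
    refine Finset.sum_congr rfl fun j _ => ?_
    rw [hz, map_mul, AlgHom.commutes, mul_assoc]
    rfl
  have hco : ∑ j, G.φ (μ j) * B.b j = algebraMap K F (c j₁) * (uo : F) := by
    simp only [uo, AddSubmonoidClass.coe_finsetSum, Finset.mul_sum, Subring.coe_mul, B.coe_o]
    refine Finset.sum_congr rfl fun j _ => ?_
    rw [hz, map_mul, AlgHom.commutes, mul_assoc]
    rfl
  by_cases hs : (T.R G.side).red us = 0
  · refine ⟨c j₁, !G.side, uo, hM0, fun h0 => ?_, fun j => ⟨z j, hz j⟩, hco⟩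
    rw [huo] at h0
    rcases j₁ with u | l
    · exact hz1 (hus ▸ hs)
    · exact hz1 (congrFun (G.eq_zero_of_sum h0) l)
  · exact ⟨c j₁, G.side, us, hM0, hs, fun j => ⟨z j, hz j⟩, hcs⟩

theorem Frame.linearIndependent (B : Frame G) :
    letI := algebraAlong G.φ
    LinearIndependent FM B.b := by
  let := algebraAlong G.φ
  rw [Fintype.linearIndependent_iff]
  intro μ hμ
  by_contra hcon
  push Not at hcon
  obtain ⟨c, i, u, hc, hu, -, h⟩ := B.normalize hcon
  have h0 : ∑ j, G.φ (μ j) * B.b j = 0 := by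
    rw [← hμ]; exact Finset.sum_congr rfl fun j _ => (Algebra.smul_def (μ j) (B.b j)).symm
  rw [h0] at h
  exact mul_ne_zero ((map_ne_zero _).mpr hc) ((T.R i).coe_ne_zero hu) h.symm

theorem Frame.coeff_integral (B : Frame G) {μ : Unit ⊕ Fin G.q → FM}
    (h : ∀ i, ∑ j, G.φ (μ j) * B.b j ∈ (T.R i).O) (j : Unit ⊕ Fin G.q) : μ j ∈ G.RM.O := by
  by_cases hz : ∃ j, μ j ≠ 0
  · obtain ⟨c, i, u, hc, hu, hμ, hsum⟩ := B.normalize hz
    have hA : c ∈ A := (T.R i).mem_of_smul_mem hu (f := ⟨_, h i⟩) hsum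
    obtain ⟨z, hz⟩ := hμ j
    rw [hz]
    exact mul_mem (G.RM.algebraMap_mem ⟨c, hA⟩) z.2
  · push Not at hz
    rw [hz j]; exact zero_mem _

/-- On the isomorphic side, integrality of a multiple of the first family member forces integrality
of its coefficient. -/
theorem Frame.coeff_side (B : Frame G) {z : FM}
    (h : G.φ z * B.b (Sum.inl ()) ∈ (T.R G.side).O) : z ∈ G.RM.O := by
  rcases eq_or_ne z 0 with rfl | hz
  · exact zero_mem _
  obtain ⟨c, v, hv, rfl⟩ := G.RM.scale z hz
  have hu : (T.R G.side).red (G.pullO G.side v * B.s (Sum.inl ())) ≠ 0 := by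
    rw [map_mul, red_pullO_side, B.red_s_inl, mul_one]; exact hv
  have hA : c ∈ A := (T.R G.side).mem_of_smul_mem hu (f := ⟨_, h⟩) (by
    rw [Subring.coe_mul, B.coe_s]
    show G.φ (algebraMap K FM c * (v : FM)) * _ = _ * (G.φ v * _)
    rw [map_mul, AlgHom.commutes, mul_assoc])
  exact mul_mem (G.RM.algebraMap_mem ⟨c, hA⟩) v.2

/-- The reduction of the norm of a function written in a frame, up to a scalar. -/
theorem Frame.norm_eq (B : Frame G) {f' : F} {ua : (T.R G.side).O} {ub : (T.R (!G.side)).O}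
    (ha : f' = algebraMap K F (B.γs : K) * (ua : F))
    (hb : f' = algebraMap K F (B.γo : K) * (ub : F)) :
    letI := algebraAlong G.φ
    ∃ z : G.RM.O,
      Algebra.norm FM f' =
        algebraMap K FM ((B.γs : K) * (B.γo : K) ^ G.q) * (z : FM) ∧
      G.RM.red z = (T.R G.side).red ua * (G.mat ((T.R (!G.side)).red ub)).det := by
  classical
  let := algebraAlong G.φ
  have hcard : Fintype.card (Unit ⊕ Fin G.q) = Module.finrank FM F := by
    rw [show Module.finrank FM F = finrankAlong K G.φ from rfl, G.finrank_eq, Fintype.card_sum,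
      Fintype.card_unit, Fintype.card_fin, add_comm]
  let bas : Module.Basis (Unit ⊕ Fin G.q) FM F :=
    basisOfLinearIndependentOfCardEqFinrank B.linearIndependent hcard
  have hbas : ∀ j, bas j = B.b j := fun j => by simp [bas]
  set M := Algebra.leftMulMatrix bas f' with hMdef
  have hM : ∀ j, ∑ l, G.φ (M l j) * B.b l = f' * B.b j := fun j => by
    have := bas.sum_repr (f' * bas j)
    simp only [Algebra.smul_def, hbas] at this
    simp only [hMdef, Algebra.leftMulMatrix_eq_repr_mul, hbas]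
    exact this
  have hint : ∀ l j, M l j ∈ G.RM.O := fun l j =>
    B.coeff_integral (μ := fun l => M l j) (fun i => by
    rw [hM]
    have h2 : i = G.side ∨ i = !G.side := by cases i <;> cases G.side <;> simp
    rcases h2 with rfl | rfl
    · rw [ha, ← B.coe_s j]
      exact mul_mem (mul_mem ((T.R _).algebraMap_mem B.γs) ua.2) (B.s j).2
    · rw [hb, ← B.coe_o j]
      exact mul_mem (mul_mem ((T.R _).algebraMap_mem B.γo) ub.2) (B.o j).2) l
  have hs0 : algebraMap K F (B.γs : K) ≠ 0 :=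
    (map_ne_zero _).mpr fun h => B.γs_ne (Subtype.ext h)
  have ho0 : algebraMap K F (B.γo : K) ≠ 0 :=
    (map_ne_zero _).mpr fun h => B.γo_ne (Subtype.ext h)
  -- first row
  have hrow0 : ∀ j, ∃ w : G.RM.O, M (Sum.inl ()) j = algebraMap K FM (B.γs : K) * (w : FM) ∧
      G.RM.red w = (T.R G.side).red ua * (T.R G.side).red (B.s j) := fun j => by
    let Y : (T.R G.side).O :=
      ua * B.s j - ∑ l, G.pullO G.side ⟨_, hint (Sum.inr l) j⟩ * B.rs l
    set w := M (Sum.inl ()) j / algebraMap K FM (B.γs : K) with hw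
    have hY : (Y : F) = G.φ w * B.b (Sum.inl ()) := by
      have h1 := hM j
      rw [Fintype.sum_sum_type, Fintype.sum_unique, ha] at h1
      simp only [B.coe_rs] at h1
      simp only [Y, AddSubgroupClass.coe_sub, Subring.coe_mul, AddSubmonoidClass.coe_finsetSum,
        B.coe_s, hw, map_div₀, AlgHom.commutes]
      change (ua : F) * B.b j - ∑ l, G.φ (M (Sum.inr l) j) * (B.rs l : F) = _
      have h2 : ∑ l, G.φ (M (Sum.inr l) j) * (algebraMap K F (B.γs : K) * (B.rs l : F)) =
          algebraMap K F (B.γs : K) * ∑ l, G.φ (M (Sum.inr l) j) * (B.rs l : F) := by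
        rw [Finset.mul_sum]; exact Finset.sum_congr rfl fun l _ => by ring
      rw [h2] at h1
      change G.φ (M (Sum.inl ()) j) * B.b (Sum.inl ()) + _ = _ at h1
      field_simp
      linear_combination -h1
    have hmem : w ∈ G.RM.O := B.coeff_side (hY ▸ Y.2)
    refine ⟨⟨w, hmem⟩, ?_, ?_⟩
    · show _ = _ * w
      rw [hw, mul_div_cancel₀]
      exact (map_ne_zero _).mpr fun h => B.γs_ne (Subtype.ext h)
    · have he : Y = G.pullO G.side ⟨w, hmem⟩ * B.s (Sum.inl ()) :=
        Subtype.ext (by rw [hY, Subring.coe_mul, B.coe_s]; rfl)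
      have := congrArg (T.R G.side).red he
      simp only [Y, map_sub, map_sum, map_mul, red_pullO_side, B.red_rs, mul_zero,
        Finset.sum_const_zero, sub_zero, B.red_s_inl, mul_one] at this
      exact this.symm
  -- the other rows
  have hrows : ∀ j, ∃ w : Fin G.q → G.RM.O,
      (∀ l, M (Sum.inr l) j = algebraMap K FM (B.γo : K) * (w l : FM)) ∧
      (fun l => G.RM.red (w l)) =
        G.coord ((T.R (!G.side)).red ub * (T.R (!G.side)).red (B.o j)) := fun j => by
    let X : (T.R (!G.side)).O :=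
      ub * B.o j - G.pullO (!G.side) ⟨_, hint (Sum.inl ()) j⟩ * B.ro
    obtain ⟨w, hw, hwr⟩ := G.coeff_other (b := fun l => B.o (Sum.inr l)) B.red_o_inr
      (fun l => M (Sum.inr l) j / algebraMap K FM (B.γo : K)) X (by
        have h1 := hM j
        rw [Fintype.sum_sum_type, Fintype.sum_unique, hb] at h1
        change G.φ (M (Sum.inl ()) j) * B.b (Sum.inl ()) + _ = _ at h1
        rw [B.coe_ro] at h1
        simp only [X, AddSubgroupClass.coe_sub, Subring.coe_mul, B.coe_o, map_div₀,
          AlgHom.commutes, div_mul_eq_mul_div, ← Finset.sum_div]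
        change (ub : F) * B.b j - G.φ (M (Sum.inl ()) j) * (B.ro : F) = _
        field_simp
        linear_combination -h1)
    refine ⟨w, fun l => ?_, ?_⟩
    · rw [hw l, mul_div_cancel₀]
      exact (map_ne_zero _).mpr fun h => B.γo_ne (Subtype.ext h)
    · rw [hwr]
      simp only [X, map_sub, map_mul, B.red_ro, mul_zero, sub_zero]
  choose w0 hw0 hw0r using hrow0
  choose w hw hwr using hrows
  let M' : Matrix (Unit ⊕ Fin G.q) (Unit ⊕ Fin G.q) G.RM.O := fun l j =>
    Sum.elim (fun _ => w0 j) (fun l => w j l) l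
  refine ⟨M'.det, ?_, ?_⟩
  · have hfac : M = Matrix.diagonal (Sum.elim (fun _ => algebraMap K FM (B.γs : K))
        (fun _ => algebraMap K FM (B.γo : K))) * M'.map G.RM.O.subtype := by
      ext l j
      rw [Matrix.diagonal_mul, Matrix.map_apply]
      rcases l with ⟨⟩ | l
      · exact hw0 j
      · exact hw j l
    rw [Algebra.norm_eq_matrix_det bas, ← hMdef, hfac, Matrix.det_mul, Matrix.det_diagonal,
      Fintype.prod_sum_type, map_mul, map_pow]
    simp only [Sum.elim_inl, Sum.elim_inr, Finset.prod_const, Finset.card_univ, Fintype.card_fin,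
      Fintype.card_unit, pow_one]
    congr 1
    exact (RingHom.map_det G.RM.O.subtype M').symm
  · rw [RingHom.map_det]
    have hblock : (G.RM.red.mapMatrix M') =
        Matrix.fromBlocks (fun _ _ => (T.R G.side).red ua) 0 0
          (G.mat ((T.R (!G.side)).red ub)) := by
      ext l j
      rcases l with u | l <;> rcases j with u' | j
      · simp [M', hw0r, B.red_s_inl]
      · simp [M', hw0r, B.red_s_inr]
      · simp only [RingHom.mapMatrix_apply, Matrix.map_apply, M', Sum.elim_inr,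
          Matrix.fromBlocks_apply₂₁, Matrix.zero_apply]
        rw [show G.RM.red (w (Sum.inl u') l) = _ from congrFun (hwr (Sum.inl u')) l, B.red_o_inl,
          mul_zero]
        exact congrFun (G.coord_unique (w := 0) (c := 0) (by simp)).symm l
      · simp only [RingHom.mapMatrix_apply, Matrix.map_apply, M', Sum.elim_inr,
          Matrix.fromBlocks_apply₂₂]
        rw [show G.RM.red (w (Sum.inr j) l) = _ from congrFun (hwr (Sum.inr j)) l, B.red_o_inr]
        rfl
    rw [hblock, Matrix.det_fromBlocks_zero₂₁]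
    congr 1
    simp [Matrix.det_unique]

/-- **Reduction of norms.** -/
theorem redOrd_norm (G : Degen T FM) {f : F} (hf : f ≠ 0) :
    letI := algebraAlong G.φ
    Algebra.norm FM f ≠ 0 ∧ ∀ Q : Place k Fk, redOrd G.RM (Algebra.norm FM f) Q =
      redOrd (T.R G.side) f Q + redOrd (T.R (!G.side)) f (G.ψ.symm Q) := by
  classical
  let := algebraAlong G.φ
  have := isScalarTower_along G.φ
  obtain ⟨ca, ua, hua, hfa⟩ := (T.R G.side).scale f hf
  obtain ⟨cb, ub, hub, hfb⟩ := (T.R (!G.side)).scale f hf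
  have hca : ca ≠ 0 := by rintro rfl; simp [hfa] at hf
  have hcb : cb ≠ 0 := by rintro rfl; simp [hfb] at hf
  obtain ⟨c, hc, hcA, hcB⟩ : ∃ c : K, c ≠ 0 ∧ ca / c ∈ A ∧ cb / c ∈ A := by
    rcases A.mem_or_inv_mem (ca / cb) with h | h
    · exact ⟨cb, hcb, h, by rw [div_self hcb]; exact A.one_mem⟩
    · exact ⟨ca, hca, by rw [div_self hca]; exact A.one_mem, by rwa [inv_div] at h⟩
  obtain ⟨B, hγs, hγo⟩ := G.exists_frame ⟨ca / c, hcA⟩ ⟨cb / c, hcB⟩
    (fun h => div_ne_zero hca hc (congrArg Subtype.val h))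
    (fun h => div_ne_zero hcb hc (congrArg Subtype.val h))
  set f' := algebraMap K F c⁻¹ * f with hf'
  have ha : f' = algebraMap K F (B.γs : K) * (ua : F) := by
    rw [hf', hγs, hfa, ← mul_assoc, ← map_mul]
    simp only [div_eq_inv_mul]
  have hb : f' = algebraMap K F (B.γo : K) * (ub : F) := by
    rw [hf', hγo, hfb, ← mul_assoc, ← map_mul]
    simp only [div_eq_inv_mul]
  obtain ⟨z, hz, hzr⟩ := B.norm_eq ha hb
  obtain ⟨hdet, hord⟩ := G.ord_det_mat hub
  have hz0 : G.RM.red z ≠ 0 := by rw [hzr]; exact mul_ne_zero hua hdet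
  have hff : f = algebraMap FM F (algebraMap K FM c) * f' := by
    rw [hf', ← IsScalarTower.algebraMap_apply, ← mul_assoc, ← map_mul, mul_inv_cancel₀ hc, map_one,
      one_mul]
  have hN : Algebra.norm FM f = algebraMap K FM (c ^ Module.finrank FM F *
      ((B.γs : K) * (B.γo : K) ^ G.q)) * (z : FM) := by
    rw [hff, map_mul, Algebra.norm_algebraMap, hz, ← map_pow, ← mul_assoc, ← map_mul]
  have hconst : c ^ Module.finrank FM F * ((B.γs : K) * (B.γo : K) ^ G.q) ≠ 0 :=
    mul_ne_zero (pow_ne_zero _ hc) (mul_ne_zero (fun h => B.γs_ne (Subtype.ext h))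
      (pow_ne_zero _ fun h => B.γo_ne (Subtype.ext h)))
  have hne : Algebra.norm FM f ≠ 0 := by
    rw [hN]; exact mul_ne_zero ((map_ne_zero _).mpr hconst) (G.RM.coe_ne_zero hz0)
  refine ⟨hne, fun Q => ?_⟩
  rw [redOrd_eq G.RM hne hz0 hN, hzr, Q.ord_mul hua hdet, redOrd_eq _ hf hua hfa,
    redOrd_eq _ hf hub hfb]
  congr 1
  have := hord (G.ψ.symm Q)
  rwa [Equiv.apply_symm_apply] at this

end Degen

end Fermat.Agent.TwoComponent
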