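import Fermat.Agent.TwoComponent.Inject

/-!
# Torsion of order the residue characteristic, close to trivial

If `θ ^ (p-1) = -p` and some `e * v ^ p` is congruent to `1` beyond `θ ^ p`, the Artin–Schreier
substitution replaces the power series of `X ^ (-1/m)`, and a `p`-torsion class with trivial
reduction is trivial.
-/

noncomputable section

open AlgebraicCurve Fermat.Agent.Red

namespace Fermat.Agent.TwoComponent

/-- The binomial expansion of a prime power with explicit linear term. -/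
theorem exists_add_pow_prime_linear {R : Type*} [CommRing R] {p : ℕ} (hp : p.Prime) (a b : R) :
    ∃ H : R, (a + b) ^ p = a ^ p + b ^ p + (p : R) * (a ^ (p - 1) * b + b ^ 2 * H) := by
  obtain ⟨q, rfl⟩ : ∃ q, p = q + 2 := ⟨p - 2, by have := hp.two_le; omega⟩
  refine ⟨∑ j ∈ Finset.range q,
    b ^ j * a ^ (q - j) * (((q + 2).choose (j + 2) / (q + 2) : ℕ) : R), ?_⟩
  rw [add_comm a b, add_pow, Finset.sum_range_succ, Finset.sum_range_succ', Finset.sum_range_succ']
  simp only [Nat.sub_self, pow_zero, mul_one, Nat.choose_self, Nat.cast_one, Nat.choose_zero_right,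
    one_mul, zero_add, pow_one, Nat.choose_one_right, Nat.sub_zero]
  have hterm : ∀ j ∈ Finset.range q,
      b ^ (j + 1 + 1) * a ^ (q + 2 - (j + 1 + 1)) * (((q + 2).choose (j + 1 + 1) : ℕ) : R) =
        ((q + 2 : ℕ) : R) *
          (b ^ 2 * (b ^ j * a ^ (q - j) * (((q + 2).choose (j + 2) / (q + 2) : ℕ) : R))) := by
    intro j hj
    rw [Finset.mem_range] at hj
    obtain ⟨c, hc⟩ := hp.dvd_choose_self (k := j + 2) (by omega) (by omega)
    rw [show j + 1 + 1 = j + 2 from rfl, show q + 2 - (j + 2) = q - j by omega, hc,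
      Nat.mul_div_cancel_left _ (by omega : 0 < q + 2), Nat.cast_mul]
    ring
  rw [Finset.sum_congr rfl hterm, ← Finset.mul_sum, ← Finset.mul_sum,
    show q + 2 - 1 = q + 1 from rfl]
  push_cast
  ring

variable {K k F Fk : Type*} [Field K] [Field F] [Algebra K F] [Field k] [Field Fk] [Algebra k Fk]
variable {A : ValuationSubring K} {π : A →+* k}

/-- For `p = -θ^(p-1)`, a polynomial correction `1 + θ r` of `1 + θ^p X` to a `p`-th root
congruent modulo `θ^p X^(n+1)`: solutions of the Artin–Schreier equation to any order. -/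
theorem exists_asPoly {R : Type*} [CommRing R] {p : ℕ} (hp : p.Prime) {θ : R}
    (hθ : θ ^ (p - 1) = -(p : R)) (n : ℕ) :
    ∃ r q : Polynomial R, r.eval 0 = 0 ∧
      (1 + Polynomial.C θ * r) ^ p * (1 + Polynomial.C θ ^ p * Polynomial.X) - 1 =
        Polynomial.C θ ^ p * (Polynomial.X ^ (n + 1) * q) := by
  obtain ⟨H, hH⟩ := exists_add_pow_prime_linear hp (1 : Polynomial (Polynomial R))
    (Polynomial.C (Polynomial.C θ) * Polynomial.X)
  set Y : Polynomial (Polynomial R) := Polynomial.X with hY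
  set t : Polynomial (Polynomial R) := Polynomial.C (Polynomial.C θ) with ht
  set QQ : Polynomial (Polynomial R) :=
    Y ^ p - Y - t * Y ^ 2 * H + Polynomial.C Polynomial.X * (1 + t * Y) ^ p with hQQ
  have htp : t ^ (p - 1) = -(p : Polynomial (Polynomial R)) := by
    rw [ht, ← map_pow, ← map_pow, hθ, map_neg, map_neg, map_natCast, map_natCast]
  have htp' : (p : Polynomial (Polynomial R)) * t = -(t ^ p) := by
    have e : t ^ p = t ^ (p - 1) * t := by rw [← pow_succ, Nat.sub_add_cancel hp.one_le]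
    linear_combination t * htp + e
  have hid : (1 + t * Y) ^ p * (1 + t ^ p * Polynomial.C Polynomial.X) - 1 = t ^ p * QQ := by
    have h1 : (1 + t * Y) ^ p = 1 + t ^ p * (Y ^ p - Y - t * Y ^ 2 * H) := by
      rw [hH, one_pow, one_pow, one_mul, mul_pow]
      linear_combination (Y + t * Y ^ 2 * H) * htp'
    rw [hQQ, h1]
    ring
  have hev : ∀ r : Polynomial R,
      (1 + Polynomial.C θ * r) ^ p * (1 + Polynomial.C θ ^ p * Polynomial.X) - 1 =
        Polynomial.C θ ^ p * QQ.eval r := fun r => by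
    have := congrArg (Polynomial.eval r) hid
    simpa [hY, ht] using this
  suffices h : ∃ r q : Polynomial R, r.eval 0 = 0 ∧ QQ.eval r = Polynomial.X ^ (n + 1) * q by
    obtain ⟨r, q, hr, hq⟩ := h
    exact ⟨r, q, hr, by rw [hev, hq]⟩
  induction n with
  | zero =>
    refine ⟨0, 1, Polynomial.eval_zero, ?_⟩
    rw [hQQ]
    simp [hY, zero_pow hp.ne_zero]
  | succ n ih =>
    obtain ⟨r, q, hr, hq⟩ := ih
    set h : Polynomial R := Polynomial.C (q.eval 0) * Polynomial.X ^ (n + 1) with hh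
    obtain ⟨c, hc⟩ := Polynomial.binomExpansion QQ r h
    set q' : Polynomial R := q + (Polynomial.derivative QQ).eval r * Polynomial.C (q.eval 0)
      + c * Polynomial.C (q.eval 0) * h with hq'
    have hd0 : ((Polynomial.derivative QQ).eval r).eval 0 = -1 := by
      have e1 : ((Polynomial.derivative QQ).eval r).eval 0 =
          (Polynomial.derivative (QQ.map (Polynomial.evalRingHom 0))).eval 0 := by
        rw [Polynomial.derivative_map, Polynomial.eval_map, ← Polynomial.coe_evalRingHom,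
          ← Polynomial.eval₂_id, Polynomial.hom_eval₂]
        simp [hr]
      rw [e1, hQQ]
      simp [hY, ht, Polynomial.derivative_pow,
          zero_pow (show p - 1 ≠ 0 by have := hp.two_le; omega)]
    have hroot : q'.IsRoot 0 := by
      have hh0 : h.eval 0 = 0 := by rw [hh]; simp
      simp only [Polynomial.IsRoot.def, hq', Polynomial.eval_add, Polynomial.eval_mul,
        Polynomial.eval_C, hd0, hh0]
      ring
    obtain ⟨q'', hq''⟩ := Polynomial.dvd_iff_isRoot.mpr hroot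
    rw [map_zero, sub_zero] at hq''
    refine ⟨r + h, q'', by rw [Polynomial.eval_add, hr, hh]; simp, ?_⟩
    rw [hq'] at hq''
    rw [hc, hq, hh]
    rw [hh] at hq''
    linear_combination Polynomial.X ^ (n + 1) * hq''

namespace TwoRed

variable {S : Type*} [Fintype S] (T : TwoRed A π F Fk S)

theorem pi_theta {p : ℕ} (hpk : (p : k) = 0) {θ : A}
    (hθ : θ ^ (p - 1) = -(p : A)) : π θ = 0 := by
  refine eq_zero_of_pow_eq_zero (n := p - 1) ?_
  rw [← map_pow, hθ, map_neg, map_natCast, hpk, neg_zero]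

/-- Factor out the larger of two scalars. -/
theorem exists_common_dvd {a b : A} (ha : π a = 0) (hb : π b = 0) :
    ∃ c : A, π c = 0 ∧ c ∣ a ∧ c ∣ b := by
  rcases eq_or_ne (b : K) 0 with h | h
  · exact ⟨a, ha, dvd_rfl, by rw [show b = 0 from Subtype.ext h]; exact dvd_zero _⟩
  rcases A.mem_or_inv_mem ((a : K) / (b : K)) with h' | h'
  · exact ⟨b, hb, ⟨⟨_, h'⟩, Subtype.ext (by
      show (a : K) = (b : K) * ((a : K) / (b : K)); field_simp)⟩, dvd_rfl⟩
  · rw [inv_div] at h'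
    rcases eq_or_ne (a : K) 0 with h0 | h0
    · exact ⟨b, hb, by rw [show a = 0 from Subtype.ext h0]; exact dvd_zero _, dvd_rfl⟩
    exact ⟨a, ha, dvd_rfl, ⟨⟨_, h'⟩, Subtype.ext (by
      show (b : K) = (a : K) * ((b : K) / (a : K)); field_simp)⟩⟩

namespace TrivialData

variable {T} {p : ℕ} {D : Divisor K F} (d : T.TrivialData p D)

/-- The scalar splitting off the poles of a close approximate root is deeper than `θ`. -/
theorem exists_deeper_scalar (hp : p.Prime) {θ : A} (hθ0 : θ ≠ 0)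
    (hθ : θ ^ (p - 1) = -(p : A)) {lam : A} (hlam : π lam = 0) {n : ℕ} {v : ∀ i, (T.R i).O}
    (hvr : ∀ i, (T.R i).red (v i) = 1)
    (hclose : ∀ i, (T.R i).ι (θ ^ p * lam) ∣ d.e i * v i ^ p - 1) {y2 : F}
    (hy2 : y2 ∈ riemannRochSpace (D + d.N • T.G)) {t0 c : ∀ i, (T.R i).O} {μ : A}
    (ht0 : ∀ i, algebraMap K F (d.c i) * (t0 i : F) = y2)
    (htc : ∀ i, v i * ⟨T.x, T.x_mem i⟩ ^ d.N = t0 i + (T.R i).ι μ * c i)
    (hμ : μ ≠ 0 → (fun i => (T.R i).red (c i)) ∈ T.glued (fun i => (n + d.N) • T.Gk i) 1 ∧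
      (fun i => (T.R i).red (c i)) ∉ T.glued (fun i => d.N • T.Gk i) 1) :
    ∃ κ : A, π κ = 0 ∧ μ = θ * κ := by
  classical
  set N := d.N with hN
  let xN : ∀ i, (T.R i).O := fun i => ⟨T.x, T.x_mem i⟩ ^ N
  have hxN : ∀ i, (xN i : F) = T.x ^ N := fun i => SubmonoidClass.coe_pow _ _
  have hxr : ∀ i, (T.R i).red (xN i) = (T.R i).red ⟨T.x, T.x_mem i⟩ ^ N := fun i => map_pow _ _ _
  have hθK : (θ : K) ≠ 0 := fun h => hθ0 (Subtype.ext h)
  by_contra hcon
  push Not at hcon
  have hμ0 : μ ≠ 0 := fun h => hcon 0 (map_zero _) (by rw [h, mul_zero])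
  have hμK : (μ : K) ≠ 0 := fun h => hμ0 (Subtype.ext h)
  obtain ⟨hZ1, hZ0⟩ := hμ hμ0
  have himg0 : (fun i => (T.R i).red (t0 i)) ∈ T.glued (fun i => N • T.Gk i) 1 := by
    rw [← d.image_eq N le_rfl]
    exact ⟨y2, hy2, fun i => ⟨t0 i, ht0 i, rfl⟩⟩
  have hπμ : π μ = 0 := by
    by_contra hne
    refine hZ0 ?_
    have hmem : π μ • (fun i => (T.R i).red (c i)) ∈ T.glued (fun i => N • T.Gk i) 1 := by
      have he : π μ • (fun i => (T.R i).red (c i)) =
          (fun i => (T.R i).red (⟨T.x, T.x_mem i⟩ ^ N)) - fun i => (T.R i).red (t0 i) := by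
        funext i
        have h := congrArg (T.R i).red (htc i)
        rw [map_mul, hvr, one_mul, map_add, map_mul, RedBase.red_ι] at h
        rw [Pi.smul_apply, Pi.sub_apply, Algebra.smul_def, eq_sub_iff_add_eq, add_comm]
        exact h.symm
      rw [he]
      exact sub_mem (T.red_pow_mem_glued N) himg0
    have := Submodule.smul_mem _ (π μ)⁻¹ hmem
    rwa [smul_smul, inv_mul_cancel₀ hne, one_smul] at this
  -- `κ = θ / μ`
  have hκA : (θ : K) / (μ : K) ∈ A := by
    rcases A.mem_or_inv_mem ((θ : K) / (μ : K)) with h | h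
    · exact h
    rw [inv_div] at h
    by_cases hπ : π ⟨_, h⟩ = 0
    · exact absurd (Subtype.ext (by
        show (μ : K) = (θ : K) * ((μ : K) / (θ : K))
        field_simp)) (hcon ⟨_, h⟩ hπ)
    · have := inv_mem_of_pi_ne_zero (T.R false).surj_pi hπ
      rwa [inv_div] at this
  set κ : A := ⟨_, hκA⟩ with hκdef
  have hθμ : θ = μ * κ := Subtype.ext (by
    show (θ : K) = (μ : K) * ((θ : K) / (μ : K))
    field_simp)
  choose H hH using fun i => exists_add_pow_prime_linear hp (v i * xN i) (-((T.R i).ι μ * c i))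
  have hp' : ∀ i, ((p : ℕ) : (T.R i).O) = -(T.R i).ι θ ^ (p - 1) := fun i => by
    rw [← map_pow, hθ, map_neg, map_natCast, neg_neg]
  choose g hg using hclose
  let E : ∀ i, (T.R i).O := fun i =>
    xN i ^ p * ((T.R i).ι (κ ^ p * lam) * g i) + d.e i * ((-1) ^ p * c i ^ p +
      (T.R i).ι (κ ^ (p - 1)) * ((v i * xN i) ^ (p - 1) * c i - (T.R i).ι μ * c i ^ 2 * H i))
  set Yel : F := algebraMap K F (((μ : K) ^ p)⁻¹) * (d.f * y2 ^ p - T.x ^ (p * N)) with hYel
  have hYmem : Yel ∈ riemannRochSpace ((p * N) • T.G) := by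
    rw [hYel, ← Algebra.smul_def]
    exact Submodule.smul_mem _ _
      (sub_mem (d.toNormalData.pow_mem_space hp.pos hy2) (T.pow_x_mem_space _))
  have hEY : ∀ i, (E i : F) = Yel := fun i => by
    have hkey : d.e i * t0 i ^ p - xN i ^ p = (T.R i).ι μ ^ p * E i := by
      have ht : t0 i = v i * xN i + -((T.R i).ι μ * c i) := by rw [htc i]; ring
      have hs : μ * μ ^ (p - 1) = μ ^ p := by
        rw [← pow_succ', Nat.sub_add_cancel hp.one_le]
      have hg' := hg i
      simp only [E]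
      rw [ht, hH i, hp' i, hθμ]
      rw [hθμ] at hg'
      have hs' : (T.R i).ι μ * (T.R i).ι μ ^ (p - 1) = (T.R i).ι μ ^ p := by
        rw [← map_pow, ← map_mul, hs, map_pow]
      simp only [map_mul, map_pow, mul_pow, neg_pow ((T.R i).ι μ * c i)] at hg' ⊢
      linear_combination (xN i ^ p) * hg' + ((T.R i).ι κ ^ (p - 1) * d.e i *
        ((v i * xN i) ^ (p - 1) * c i - (T.R i).ι μ * c i ^ 2 * H i)) * hs'
    have hF := congrArg Subtype.val hkey
    simp only [AddSubgroupClass.coe_sub, Subring.coe_mul, SubmonoidClass.coe_pow, RedBase.coe_ι,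
      hxN, d.e_eq] at hF
    rw [hYel, map_inv₀, map_pow, ← pow_mul, mul_comm p N] at *
    rw [show d.f * y2 ^ p = algebraMap K F (d.c i) ^ p * d.f * (t0 i : F) ^ p from by
      rw [← ht0 i, mul_pow]; ring, hF, ← mul_assoc, inv_mul_cancel₀
      (pow_ne_zero _ ((map_ne_zero (algebraMap K F)).mpr hμK)), one_mul]
  have hb := T.bound' hYmem E hEY
  have hred : ∀ i, (T.R i).red (E i) = (-1) ^ p * (T.R i).red (c i) ^ p +
      algebraMap k Fk (π κ) ^ (p - 1) *
        (((T.R i).red ⟨T.x, T.x_mem i⟩ ^ N) ^ (p - 1) * (T.R i).red (c i)) := fun i => by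
    simp only [E, map_add, map_sub, map_mul, map_pow, map_neg, map_one, RedBase.red_ι, d.red_e,
      hvr, hπμ, hlam, hxr, map_zero, mul_zero, zero_mul, sub_zero, one_mul, zero_add]
  obtain ⟨i, Q, hne, hG, hlt⟩ := TwoRed.exists_excess hZ1 hZ0
  have hx := T.red_x_ne_zero i
  set Z := (T.R i).red (c i) with hZdef
  set X := (T.R i).red ⟨T.x, T.x_mem i⟩ with hX
  have ha0 : (-1 : Fk) ^ p * Z ^ p ≠ 0 :=
    mul_ne_zero (pow_ne_zero _ (neg_ne_zero.mpr one_ne_zero)) (pow_ne_zero _ hne)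
  have hapow : Q.ord ((-1 : Fk) ^ p * Z ^ p) = p * Q.ord Z := by
    rw [Q.ord_mul (pow_ne_zero _ (neg_ne_zero.mpr one_ne_zero)) (pow_ne_zero _ hne), ord_pow,
      ord_pow, ord_neg, Place.ord_one, mul_zero, zero_add]
  have hp2 : (2 : ℤ) ≤ p := by exact_mod_cast hp.two_le
  have hsecond : algebraMap k Fk (π κ) ^ (p - 1) * ((X ^ N) ^ (p - 1) * Z) = 0 ∨
      Q.ord ((-1 : Fk) ^ p * Z ^ p) <
        Q.ord (algebraMap k Fk (π κ) ^ (p - 1) * ((X ^ N) ^ (p - 1) * Z)) := by
    by_cases hk : π κ = 0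
    · left
      rw [hk, map_zero, zero_pow (show p - 1 ≠ 0 by have := hp.two_le; omega), zero_mul]
    right
    rw [hapow, ← map_pow, ord_algebraMap_mul _ (pow_ne_zero _ hk),
      Q.ord_mul (pow_ne_zero _ (pow_ne_zero _ hx)) hne, ord_pow, ord_pow,
      Nat.cast_sub hp.one_le, Nat.cast_one]
    rw [hG] at hlt
    nlinarith
  have hsum := Fermat.Agent.FF.ord_add_eq_of_lt Q ha0 hsecond
  have hnz := Fermat.Agent.FF.add_ne_zero_of_ord_lt Q ha0 hsecond
  rw [← hred i] at hsum hnz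
  have h2 := ((mem_riemannRochSpace_iff.mp (hb.1 i)) Q).resolve_left hnz
  rw [hsum, hapow, Finsupp.smul_apply, nsmul_eq_mul, hG] at h2
  rw [hG] at hlt
  push_cast at h2
  nlinarith

/-- Closeness propagates to the poles of `x`. -/
theorem exists_chart_close (hp : p.Prime) {θ : A} (hθ0 : θ ≠ 0)
    (hθ : θ ^ (p - 1) = -(p : A)) {lam : A} (hlam : π lam = 0) {n : ℕ} (hn : d.N ≤ n) {y : F}
    (hy : y ∈ riemannRochSpace (D + n • T.G)) (v : ∀ i, (T.R i).O)
    (hv : ∀ i, algebraMap K F (d.c i) * (v i : F) = y) (hvr : ∀ i, (T.R i).red (v i) = 1)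
    (hclose : ∀ i, (T.R i).ι (θ ^ p * lam) ∣ d.e i * v i ^ p - 1) :
    ∃ lam' : A, π lam' = 0 ∧ (lam' ∣ lam) ∧
      ∃ y2 ∈ riemannRochSpace (D + d.N • T.G), ∃ w z : ∀ i, (T.R i).O,
        (∀ i, algebraMap K F (d.c i) * (w i : F) = y2) ∧
        (∀ i, (T.R i).red (w i) = (T.R i).red ⟨T.x, T.x_mem i⟩ ^ d.N) ∧
        (∀ i, (z i : F) * T.x ^ d.N = (w i : F)) ∧ (∀ i, (T.R i).red (z i) = 1) ∧
        (∀ i, (T.R i).ι (θ * lam') ∣ z i - v i) ∧
        ∀ i, (T.R i).ι (θ ^ p * lam') ∣ d.e i * z i ^ p - 1 := by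
  classical
  set N := d.N with hN
  let xN : ∀ i, (T.R i).O := fun i => ⟨T.x, T.x_mem i⟩ ^ N
  have hxN : ∀ i, (xN i : F) = T.x ^ N := fun i => SubmonoidClass.coe_pow _ _
  have hxr : ∀ i, (T.R i).red (xN i) = (T.R i).red ⟨T.x, T.x_mem i⟩ ^ N := fun i => map_pow _ _ _
  obtain ⟨y2, hy2, t0, c, μ, ht0, htc, hμ⟩ := d.exists_decomp (n1 := n + N) (by omega)
    (T.mem_space_mul hy (T.pow_x_mem_space N)) (fun i => v i * xN i)
    (fun i => by rw [Subring.coe_mul, hxN, ← mul_assoc, hv])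
  obtain ⟨κ, hκ, hμκ⟩ := d.exists_deeper_scalar hp hθ0 hθ hlam hvr hclose hy2 ht0 htc hμ
  obtain ⟨lam', hl', hdl, hdκ⟩ := exists_common_dvd hlam hκ
  choose xi hxi hxir using fun i => inv_mem_O (T.R i) (u := xN i)
    (by rw [hxr]; exact pow_ne_zero _ (T.red_x_ne_zero i))
  let z : ∀ i, (T.R i).O := fun i => v i - (T.R i).ι μ * (c i * xi i)
  have hzv : ∀ i, (T.R i).ι (θ * lam') ∣ z i - v i := fun i => by
    rw [show z i - v i = -((T.R i).ι μ * (c i * xi i)) by simp [z]]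
    refine Dvd.dvd.neg_right (Dvd.dvd.mul_right (map_dvd (T.R i).ι ?_) _)
    rw [hμκ]
    exact mul_dvd_mul_left _ hdκ
  have hzr : ∀ i, (T.R i).red (z i) = 1 := fun i => by
    simp only [z, map_sub, map_mul, RedBase.red_ι, hμκ, hκ, hvr, map_zero, mul_zero, zero_mul,
      sub_zero]
  have hzw : ∀ i, (z i : F) * T.x ^ N = (t0 i : F) := fun i => by
    have h := congrArg Subtype.val (htc i)
    simp only [Subring.coe_mul, Subring.coe_add, hxN, RedBase.coe_ι] at h
    have hx0 : T.x ^ N ≠ 0 :=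
      hxN i ▸ (T.R i).coe_ne_zero (by rw [hxr]; exact pow_ne_zero _ (T.red_x_ne_zero i))
    simp only [z, AddSubgroupClass.coe_sub, Subring.coe_mul, RedBase.coe_ι, hxi, hxN]
    field_simp
    linear_combination h
  refine ⟨lam', hl', hdl, y2, hy2, t0, z, ht0, fun i => ?_, hzw, hzr, hzv, fun i => ?_⟩
  · have : t0 i = z i * xN i := Subtype.ext (by rw [Subring.coe_mul, hxN, hzw])
    rw [this, map_mul, hzr, hxr, one_mul]
  · have hd : (T.R i).ι (θ ^ p * lam') ∣ d.e i * v i ^ p - 1 :=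
      (map_dvd (T.R i).ι (mul_dvd_mul_left _ hdl)).trans (hclose i)
    have hzp : (T.R i).ι (θ ^ p * lam') ∣ z i ^ p - v i ^ p := by
      obtain ⟨η, hη⟩ := hzv i
      obtain ⟨H, hH⟩ := exists_add_pow_prime_linear hp (v i) ((T.R i).ι (θ * lam') * η)
      have hs' : (T.R i).ι θ ^ (p - 1) * (T.R i).ι θ = (T.R i).ι θ ^ p := by
        rw [← pow_succ, Nat.sub_add_cancel hp.one_le]
      have hl'' : (T.R i).ι lam' ^ (p - 1) * (T.R i).ι lam' = (T.R i).ι lam' ^ p := by
        rw [← pow_succ, Nat.sub_add_cancel hp.one_le]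
      have hpp : ((p : ℕ) : (T.R i).O) = -(T.R i).ι θ ^ (p - 1) := by
        rw [← map_pow, hθ, map_neg, map_natCast, neg_neg]
      rw [show z i = v i + (T.R i).ι (θ * lam') * η by rw [← hη]; ring, hH, map_mul, map_mul,
        map_pow]
      refine ⟨(T.R i).ι lam' ^ (p - 1) * η ^ p -
        (v i ^ (p - 1) * η + (T.R i).ι θ * (T.R i).ι lam' * η ^ 2 * H), ?_⟩
      rw [mul_pow, mul_pow, hpp]
      linear_combination (-((T.R i).ι lam' * (v i ^ (p - 1) * η +
          (T.R i).ι θ * (T.R i).ι lam' * η ^ 2 * H))) * hs' +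
        (-((T.R i).ι θ ^ p * η ^ p)) * hl''
    have : d.e i * z i ^ p - 1 = (d.e i * v i ^ p - 1) + d.e i * (z i ^ p - v i ^ p) := by ring
    rw [this]
    exact dvd_add hd (Dvd.dvd.mul_left hzp _)

/-- The series of the Artin–Schreier substitution evaluated near `1`. -/
theorem exists_eval_root (hp : p.Prime) {θ : A} (hθ0 : θ ≠ 0) (hθ : θ ^ (p - 1) = -(p : A))
    {lam' a : A} (hl' : π lam' = 0) (ha : a ≠ 0) :
    ∃ P : Polynomial K, ∀ i, ∀ W ω : (T.R i).O, W = 1 + (T.R i).ι (θ ^ p) * ω →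
      (T.R i).ι lam' ∣ ω →
      ∃ s η : (T.R i).O, (s : F) = P.eval₂ (algebraMap K F) (W : F) ∧
        s = 1 + (T.R i).ι θ * η ∧ (T.R i).red η = 0 ∧
        (T.R i).ι (θ ^ p * a) ∣ s ^ p * W - 1 := by
  obtain ⟨M, cM, hM⟩ := T.arch lam' a hl' ha
  obtain ⟨r, q, hr0, hrq⟩ := exists_asPoly hp hθ M
  let P : Polynomial K := 1 + Polynomial.C (θ : K) *
    (r.map A.subtype).comp ((Polynomial.X - 1) * Polynomial.C ((θ : K) ^ p)⁻¹)
  have hθK : (θ : K) ≠ 0 := fun h => hθ0 (Subtype.ext h)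
  refine ⟨P, fun i W ω hW hω => ?_⟩
  refine ⟨1 + (T.R i).ι θ * r.eval₂ (T.R i).ι ω, r.eval₂ (T.R i).ι ω, ?_, rfl, ?_, ?_⟩
  · have harg : Polynomial.eval₂ (algebraMap K F) (W : F)
        ((Polynomial.X - 1) * Polynomial.C ((θ : K) ^ p)⁻¹) = (ω : F) := by
      rw [Polynomial.eval₂_mul, Polynomial.eval₂_sub, Polynomial.eval₂_X, Polynomial.eval₂_one,
        Polynomial.eval₂_C, hW, Subring.coe_add, Subring.coe_one, Subring.coe_mul, RedBase.coe_ι,
        add_sub_cancel_left, mul_comm, ← mul_assoc, SubmonoidClass.coe_pow, ← map_mul,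
        inv_mul_cancel₀ (pow_ne_zero _ hθK), map_one, one_mul]
    simp only [P, Polynomial.eval₂_add, Polynomial.eval₂_one, Polynomial.eval₂_mul,
      Polynomial.eval₂_C, Polynomial.eval₂_comp, harg, Polynomial.eval₂_map, Subring.coe_add,
      Subring.coe_one, Subring.coe_mul, RedBase.coe_ι]
    congr 2
    exact Polynomial.hom_eval₂ r (T.R i).ι (T.R i).O.subtype ω
  · have hc : (T.R i).red.comp (T.R i).ι = (algebraMap k Fk).comp π :=
      RingHom.ext fun c => RedBase.red_ι _ c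
    obtain ⟨o, ho⟩ := hω
    rw [Polynomial.hom_eval₂, hc, ho, map_mul, RedBase.red_ι, hl', map_zero, zero_mul,
      ← map_zero ((algebraMap k Fk).comp π), Polynomial.eval₂_at_apply, hr0]
  · have hcm := congrArg (Polynomial.eval₂ (T.R i).ι ω) hrq
    simp only [Polynomial.eval₂_sub, Polynomial.eval₂_mul, Polynomial.eval₂_pow,
      Polynomial.eval₂_add, Polynomial.eval₂_one, Polynomial.eval₂_C,
      Polynomial.eval₂_X] at hcm
    rw [hW, map_pow, hcm, map_mul, map_pow]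
    refine mul_dvd_mul_left _ (Dvd.dvd.mul_right ?_ _)
    refine dvd_trans ?_ (pow_dvd_pow_of_dvd hω (M + 1))
    rw [pow_succ, ← map_pow, hM, map_mul]
    exact Dvd.dvd.mul_right (dvd_mul_left _ _) _

include d in
/-- **Injectivity at the residue characteristic.** -/
theorem principal_of_close [IsAlgClosed K] (hp : p.Prime) (hpk : (p : k) = 0) {θ : A}
    (hθ0 : θ ≠ 0) (hθ : θ ^ (p - 1) = -(p : A)) {lam : A} (hlam : π lam = 0) {n : ℕ} {y : F}
    (hy : y ∈ riemannRochSpace (D + n • T.G)) (v : ∀ i, (T.R i).O)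
    (hv : ∀ i, algebraMap K F (d.c i) * (v i : F) = y) (hvr : ∀ i, (T.R i).red (v i) = 1)
    (hclose : ∀ i, (T.R i).ι (θ ^ p * lam) ∣ d.e i * v i ^ p - 1) :
    D ∈ Divisor.principal (K := K) (F := F) := by
  classical
  have hπθ := pi_theta (π := π) hpk hθ
  refine d.principal_of_bounded_root hp.pos ⟨θ, hθ0, hπθ⟩ fun a ha => ?_
  set n0 := max n d.N with hn0
  have hy0 : y ∈ riemannRochSpace (D + n0 • T.G) := T.space_nsmul_mono (le_max_left _ _) D hy
  obtain ⟨lam', hl', hdl, y2, hy2, w, z, hw, hwr, hzw, hzr, hzv, hzc⟩ :=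
    d.exists_chart_close hp hθ0 hθ hlam (le_max_right n d.N) hy0 v hv hvr hclose
  obtain ⟨P, hP⟩ := exists_eval_root (T := T) hp hθ0 hθ hl' ha
  have hclose1 : ∀ i, (T.R i).ι (θ ^ p * lam') ∣ d.e i * v i ^ p - 1 := fun i =>
    (map_dvd (T.R i).ι (mul_dvd_mul_left _ hdl)).trans (hclose i)
  have hsub : ∀ i, ∀ (u : (T.R i).O), (T.R i).ι (θ ^ p * lam') ∣ d.e i * u ^ p - 1 →
      ∃ ω, d.e i * u ^ p = 1 + (T.R i).ι (θ ^ p) * ω ∧ (T.R i).ι lam' ∣ ω := by
    rintro i u ⟨g, hg⟩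
    exact ⟨(T.R i).ι lam' * g, by rw [← mul_assoc, ← map_mul, ← hg]; ring, dvd_mul_right _ _⟩
  -- the two approximations
  obtain ⟨j1, U1, hU1, h1⟩ := d.toNormalData.exists_approx_of_poly hp.pos hy0 (z := 1)
    (T.one_mem_space n0) v (fun i => (1 : (T.R i).O)) hv (fun i => Subring.coe_one _)
    (fun i => by rw [map_one]; exact one_ne_zero) (fun i => by rw [hvr, map_one])
    (a := θ ^ p * a) P fun i W r hr hW => by
      have he : r = v i := Subtype.ext (by simpa using hr)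
      obtain ⟨ω, hω1, hω2⟩ := hsub i (v i) (hclose1 i)
      obtain ⟨s, η, h1, h2, h3, h4⟩ := hP i W ω (by rw [hW, he, hω1]) hω2
      exact ⟨s, h1, by rw [h2, map_add, map_one, map_mul, h3, mul_zero, add_zero], h4⟩
  choose t r1 s1 ht htr hta hts hr1 hs1 using h1
  simp only [one_pow, mul_one] at ht hr1
  obtain ⟨j2, U2, hU2, h2⟩ := d.toNormalData.exists_approx_of_poly hp.pos hy2 (z := T.x ^ d.N)
    (T.pow_x_mem_space d.N) w (fun i => ⟨T.x, T.x_mem i⟩ ^ d.N) hw
    (fun i => SubmonoidClass.coe_pow _ _)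
    (fun i => by rw [map_pow]; exact pow_ne_zero _ (T.red_x_ne_zero i))
    (fun i => by rw [hwr, map_pow]) (a := θ ^ p * a) P fun i W r hr hW => by
      have hx0 : T.x ^ d.N ≠ 0 := by
        have := (T.R i).coe_ne_zero (u := ⟨T.x, T.x_mem i⟩ ^ d.N)
          (by rw [map_pow]; exact pow_ne_zero _ (T.red_x_ne_zero i))
        rwa [SubmonoidClass.coe_pow] at this
      have he : r = z i := Subtype.ext (mul_right_cancel₀ hx0 (by rw [hr, hzw]))
      obtain ⟨ω, hω1, hω2⟩ := hsub i (z i) (hzc i)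
      obtain ⟨s, η, h1, h2, h3, h4⟩ := hP i W ω (by rw [hW, he, hω1]) hω2
      exact ⟨s, h1, by rw [h2, map_add, map_one, map_mul, h3, mul_zero, add_zero], h4⟩
  choose t' r2 s2 ht' htr' hta' hts' hr2 hs2 using h2
  set K' := d.N * (j2 + 1) with hK'
  have hxK : ∀ i, algebraMap K F (d.c i) * (t' i : F) * T.x ^ K' = U2 := fun i => by
    rw [hK', pow_mul]; exact ht' i
  -- they agree
  have hagree : ∀ i, ∃ δ, t' i - t i = (T.R i).ι a * δ := fun i => by
    have he1 : r1 i = v i := SetLike.coe_eq_coe.mp (hr1 i)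
    have hx0 : T.x ^ d.N ≠ 0 := by
      have := (T.R i).coe_ne_zero (u := ⟨T.x, T.x_mem i⟩ ^ d.N)
        (by rw [map_pow]; exact pow_ne_zero _ (T.red_x_ne_zero i))
      rwa [SubmonoidClass.coe_pow] at this
    have he2 : r2 i = z i := Subtype.ext (mul_right_cancel₀ hx0 (by rw [hr2, hzw]))
    obtain ⟨ω1, hω1, hω1'⟩ := hsub i (v i) (hclose1 i)
    obtain ⟨ω2, hω2, hω2'⟩ := hsub i (z i) (hzc i)
    obtain ⟨σ1, η1, e1, f1, g1, -⟩ := hP i (d.e i * r1 i ^ p) ω1 (by rw [he1, hω1]) hω1'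
    obtain ⟨σ2, η2, e2, f2, g2, -⟩ := hP i (d.e i * r2 i ^ p) ω2 (by rw [he2, hω2]) hω2'
    have hσ1 : s1 i = σ1 := Subtype.ext ((hs1 i).trans e1.symm)
    have hσ2 : s2 i = σ2 := Subtype.ext ((hs2 i).trans e2.symm)
    obtain ⟨ti, hti, htir⟩ := inv_mem_O (T.R i) (u := t i) (by rw [htr]; exact one_ne_zero)
    have hinv : t i * ti = 1 := Subtype.ext (by
      rw [Subring.coe_mul, hti, Subring.coe_one,
        mul_inv_cancel₀ ((T.R i).coe_ne_zero (by rw [htr]; exact one_ne_zero))])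
    obtain ⟨g, hg⟩ := hzv i
    set η : (T.R i).O := ((T.R i).ι lam' * g * s2 i + v i * (η2 - η1)) * ti with hη
    have hηr : (T.R i).red η = 0 := by
      rw [hη]
      simp only [map_mul, map_add, map_sub, RedBase.red_ι, hl', g1, g2, map_zero, zero_mul,
        sub_zero, mul_zero, add_zero]
    have hdiff : t' i - t i = t i * ((T.R i).ι θ * η) := by
      have e : t i * ((T.R i).ι θ * η) =
          (T.R i).ι θ * ((T.R i).ι lam' * g * s2 i + v i * (η2 - η1)) := by
        rw [hη]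
        linear_combination ((T.R i).ι θ * ((T.R i).ι lam' * g * s2 i + v i * (η2 - η1))) * hinv
      rw [e, hts', hts, he1, he2, hσ1, hσ2]
      rw [map_mul] at hg
      rw [hσ2]  at *
      rw [f1, f2] at *
      linear_combination (1 + (T.R i).ι θ * η2) * hg
    obtain ⟨H, hH⟩ := exists_add_pow_prime_linear hp (1 : (T.R i).O) ((T.R i).ι θ * η)
    have hp' : ((p : ℕ) : (T.R i).O) = -(T.R i).ι θ ^ (p - 1) := by
      rw [← map_pow, hθ, map_neg, map_natCast, neg_neg]
    have hs' : (T.R i).ι θ ^ (p - 1) * (T.R i).ι θ = (T.R i).ι θ ^ p := by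
      rw [← pow_succ, Nat.sub_add_cancel hp.one_le]
    set u : (T.R i).O := η ^ (p - 1) - 1 - (T.R i).ι θ * η * H with hu
    have hη' : η ^ (p - 1) * η = η ^ p := by rw [← pow_succ, Nat.sub_add_cancel hp.one_le]
    have hid : (d.e i * t' i ^ p - 1) - (d.e i * t i ^ p - 1) =
        (T.R i).ι θ ^ p * (η * (d.e i * t i ^ p * u)) := by
      have ht'e : t' i = t i * (1 + (T.R i).ι θ * η) := by
        rw [mul_add, mul_one, ← hdiff, add_sub_cancel]
      rw [ht'e, mul_pow, hH, one_pow, one_pow, one_mul, mul_pow, hp', hu]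
      linear_combination (-(d.e i * t i ^ p * (η + (T.R i).ι θ * η ^ 2 * H))) * hs' +
        (-(d.e i * t i ^ p * (T.R i).ι θ ^ p)) * hη'
    have hdvd : (T.R i).ι (θ ^ p * a) ∣ (T.R i).ι θ ^ p * (η * (d.e i * t i ^ p * u)) := by
      rw [← hid]; exact dvd_sub (hta' i) (hta i)
    rw [map_mul, map_pow] at hdvd
    have hθne : (T.R i).ι θ ^ p ≠ 0 := pow_ne_zero _ fun h => hθ0 (Subtype.ext
      ((algebraMap K F).injective (by simpa using congrArg Subtype.val h)))
    have h3 := (mul_dvd_mul_iff_left hθne).mp hdvd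
    have hune : (T.R i).red (d.e i * t i ^ p * u) ≠ 0 := by
      have hη0 : (T.R i).red (η ^ (p - 1)) = 0 := by
        rw [map_pow, hηr, zero_pow (show p - 1 ≠ 0 by have := hp.two_le; omega)]
      simp only [hu, map_mul, map_sub, map_pow, map_one, RedBase.red_ι, hπθ, d.red_e, htr, map_zero,
        one_pow, one_mul, zero_mul, sub_zero] at hη0 ⊢
      rw [hη0]
      simp
    obtain ⟨δ, hδ⟩ := T.dvd_of_mul_red_ne hune h3
    exact ⟨t i * (T.R i).ι θ * δ, by rw [hdiff, hδ]; ring⟩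
  choose δ hδ using hagree
  refine d.exists_bounded_root_of ha (n1 := n0 * (j1 + 1)) (K' := K')
    ((le_max_right n d.N).trans (Nat.le_mul_of_pos_right _ (Nat.succ_pos _))) hU1
    (T.space_nsmul_mono (by omega) D hU2) t t' δ ht (fun i => ?_) hxK hδ
  exact (map_dvd (T.R i).ι (dvd_mul_left a _)).trans (hta i)

end TrivialData

end TwoRed

end Fermat.Agent.TwoComponent
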