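import Fermat.Agent.TwoComponent.TwoComp

/-!
# Dimensions of compatible pairs

Pairs of functions in Riemann–Roch spaces of two curves, glued at finitely many pairs of points,
form a space of dimension `ℓ(D₁) + ℓ(D₂)` minus the number of nodes in large degree.
-/

noncomputable section

open AlgebraicCurve

namespace Fermat.Agent.TwoComponent

open FF

variable {k C₁ C₂ : Type*} [Field k] [IsAlgClosed k] [Field C₁] [Algebra k C₁]
  [FF.IsFunctionField k C₁] [Field C₂] [Algebra k C₂] [FF.IsFunctionField k C₂]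

omit [IsAlgClosed k] [IsFunctionField k C₁] in
theorem mem_of_apply_eq_zero {D : Divisor k C₁} {f : C₁} (hf : f ∈ riemannRochSpace D)
    {v : Place k C₁} (hv : D v = 0) : f ∈ v.toValuationSubring := by
  have := hf v
  rw [hv] at this
  exact (poleLe_zero_eq v).mp this

/-- `dim compat = ℓ(D₁) + ℓ(D₂) - #nodes` in large degree. -/
theorem finrank_compat (nodes : Finset (Place k C₁ × Place k C₂))
    (hinj : Set.InjOn Prod.fst (nodes : Set (Place k C₁ × Place k C₂)))
    (D₁ : Divisor k C₁) (D₂ : Divisor k C₂)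
    (h₁ : ∀ x ∈ nodes, D₁ x.1 = 0) (h₂ : ∀ x ∈ nodes, D₂ x.2 = 0)
    (hd₁ : 2 * (genusFF k C₁ : ℤ) + nodes.card ≤ Divisor.degree D₁) :
    Module.finrank k (compat nodes D₁ D₂) + nodes.card = ell D₁ + ell D₂ := by
  classical
  let Φ : (riemannRochSpace D₁ × riemannRochSpace D₂) →ₗ[k] (nodes → k) :=
    { toFun := fun g x => val (x : Place k C₁ × Place k C₂).1 (g.1 : C₁)
        - val (x : Place k C₁ × Place k C₂).2 (g.2 : C₂)
      map_add' := fun f g => by
        funext x
        simp only [Prod.fst_add, Prod.snd_add, Submodule.coe_add, Pi.add_apply,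
          val_add _ (mem_of_apply_eq_zero f.1.2 (h₁ _ x.2)) (mem_of_apply_eq_zero g.1.2 (h₁ _ x.2)),
          val_add _ (mem_of_apply_eq_zero f.2.2 (h₂ _ x.2)) (mem_of_apply_eq_zero g.2.2 (h₂ _ x.2))]
        ring
      map_smul' := fun c f => by
        funext x
        simp only [Prod.smul_fst, Prod.smul_snd, Submodule.coe_smul, Algebra.smul_def,
          Pi.smul_apply, Algebra.algebraMap_self, RingHom.id_apply,
          val_smul _ c (mem_of_apply_eq_zero f.1.2 (h₁ _ x.2)),
          val_smul _ c (mem_of_apply_eq_zero f.2.2 (h₂ _ x.2))]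
        ring }
  -- surjectivity already on the first factor, by counting
  let Φ₁ : riemannRochSpace D₁ →ₗ[k] (nodes → k) := Φ ∘ₗ LinearMap.inl k _ _
  have hΦ₁ : Function.Surjective Φ₁ := by
    rw [← LinearMap.range_eq_top]
    apply Submodule.eq_top_of_finrank_eq
    have hker : Module.finrank k (LinearMap.ker Φ₁)
        ≤ ell (D₁ - ∑ x ∈ nodes, Finsupp.single x.1 1) := by
      have hle : (LinearMap.ker Φ₁).map (riemannRochSpace D₁).subtype
          ≤ riemannRochSpace (D₁ - ∑ x ∈ nodes, Finsupp.single x.1 1) := by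
        rintro _ ⟨⟨f, hf⟩, hmem, rfl⟩ v
        have h0 : ∀ x ∈ nodes, val x.1 f = 0 := fun x hx => by
          have := congrFun (LinearMap.mem_ker.mp hmem) ⟨x, hx⟩
          simpa [Φ₁, Φ] using this
        show f ∈ poleLe v _
        rw [Finsupp.sub_apply, Finsupp.finsetSum_apply]
        by_cases hv : ∃ x ∈ nodes, x.1 = v
        · obtain ⟨x, hx, rfl⟩ := hv
          rw [Finset.sum_eq_single_of_mem x hx (fun y hy hne => by
            rw [Finsupp.single_apply, if_neg fun h => hne (hinj hy hx h)]),
            Finsupp.single_eq_same, h₁ x hx, zero_sub]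
          exact (val_eq_zero_iff _ (mem_of_apply_eq_zero hf (h₁ x hx))).mp (h0 x hx)
        · rw [Finset.sum_eq_zero (fun y hy => by
            rw [Finsupp.single_apply, if_neg fun h => hv ⟨y, hy, h⟩]), sub_zero]
          exact hf v
      have := Submodule.finrank_mono hle
      rwa [Submodule.finrank_map_subtype_eq] at this
    have hdeg : Divisor.degree (D₁ - ∑ x ∈ nodes, Finsupp.single x.1 1)
        = Divisor.degree D₁ - nodes.card := by
      rw [map_sub, map_sum]
      simp [degree_eq_sum, Finsupp.sum_single_index]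
    have e1 := ell_eq_of_large_degree (D := D₁) (by omega)
    have e2 := ell_eq_of_large_degree (D := D₁ - ∑ x ∈ nodes, Finsupp.single x.1 1) (by omega)
    have e3 := Φ₁.finrank_range_add_finrank_ker
    have e4 := Submodule.finrank_le (LinearMap.range Φ₁)
    rw [Module.finrank_fintype_fun_eq_card, Fintype.card_coe] at e4 ⊢
    rw [hdeg] at e2
    change _ = ell D₁ at e3
    omega
  have hΦ : Function.Surjective Φ := fun y => by
    obtain ⟨f, hf⟩ := hΦ₁ y
    exact ⟨(f, 0), hf⟩
  have e1 := Φ.finrank_range_add_finrank_ker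
  rw [LinearMap.range_eq_top.mpr hΦ, finrank_top, Module.finrank_fintype_fun_eq_card,
    Fintype.card_coe, Module.finrank_prod] at e1
  let emb : LinearMap.ker Φ →ₗ[k] (C₁ × C₂) :=
    ((riemannRochSpace D₁).subtype.prodMap (riemannRochSpace D₂).subtype) ∘ₗ
        (LinearMap.ker Φ).subtype
  have hemb : Function.Injective emb := fun a b h => by
    apply Subtype.ext
    exact Prod.ext (Subtype.ext (congrArg Prod.fst h)) (Subtype.ext (congrArg Prod.snd h))
  have hrange : LinearMap.range emb = compat nodes D₁ D₂ := by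
    ext g
    constructor
    · rintro ⟨⟨⟨f1, f2⟩, hf⟩, rfl⟩
      refine ⟨f1.2, f2.2, fun x hx => ⟨mem_of_apply_eq_zero f1.2 (h₁ x hx),
        mem_of_apply_eq_zero f2.2 (h₂ x hx), sub_eq_zero.mp ?_⟩⟩
      exact congrFun (LinearMap.mem_ker.mp hf) ⟨x, hx⟩
    · rintro ⟨hg1, hg2, hg3⟩
      refine ⟨⟨(⟨g.1, hg1⟩, ⟨g.2, hg2⟩), ?_⟩, rfl⟩
      rw [LinearMap.mem_ker]
      funext x
      exact sub_eq_zero.mpr (hg3 _ x.2).2.2
  have e5 := LinearMap.finrank_range_of_inj hemb
  rw [hrange] at e5
  have : Module.finrank k (riemannRochSpace D₁) = ell D₁ := rfl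
  have : Module.finrank k (riemannRochSpace D₂) = ell D₂ := rfl
  omega

end Fermat.Agent.TwoComponent
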