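import Fermat.Agent.TwoComponent.Pair

/-!
# Glued spaces of pairs of functions on the two components

The space of pairs with prescribed poles on the two components, glued at the nodes along lines `a
= ζ b`, and its dimension in large degree.
-/

noncomputable section

open AlgebraicCurve Fermat.Agent.Red

namespace Fermat.Agent.TwoComponent

variable {K k F Fk : Type*} [Field K] [Field F] [Algebra K F] [Field k] [Field Fk] [Algebra k Fk]
variable {A : ValuationSubring K} {π : A →+* k}

namespace TwoRed

variable {S : Type*} [Fintype S] (T : TwoRed A π F Fk S)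

theorem deg_br (s : S) (i : Bool) : (T.br s i).deg = 1 := T.rrK.deg_one _

theorem mem_of_space {E : Divisor k Fk} {a : Fk} (ha : a ∈ riemannRochSpace E) {P : Place k Fk}
    (hP : E P = 0) : a ∈ P.toValuationSubring := by
  rcases (mem_riemannRochSpace_iff.mp ha) P with rfl | h
  · exact zero_mem _
  · exact (mem_place_iff P).mpr (by omega)

/-- Pairs with prescribed poles, glued at the nodes along the lines `a = ζ b`. -/
def glued (E : Bool → Divisor k Fk) (ζ : S → k) : Submodule k (Bool → Fk) where
  carrier := {w | (∀ i, w i ∈ riemannRochSpace (E i)) ∧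
    (∀ s i, w i ∈ (T.br s i).toValuationSubring) ∧
    ∀ s, ev (T.br s false) (w false) = ζ s * ev (T.br s true) (w true)}
  zero_mem' := ⟨fun i => zero_mem _, fun s i => zero_mem _, fun s => by
    simp [ev_zero (T.deg_br s _)]⟩
  add_mem' := by
    rintro w w' ⟨h1, h2, h3⟩ ⟨h1', h2', h3'⟩
    refine ⟨fun i => add_mem (h1 i) (h1' i), fun s i => add_mem (h2 s i) (h2' s i), fun s => ?_⟩
    rw [Pi.add_apply, Pi.add_apply, ev_add (T.deg_br s _) (h2 s _) (h2' s _),
      ev_add (T.deg_br s _) (h2 s _) (h2' s _), h3, h3', mul_add]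
  smul_mem' := by
    rintro a w ⟨h1, h2, h3⟩
    refine ⟨fun i => Submodule.smul_mem _ a (h1 i), fun s i => ?_, fun s => ?_⟩
    · rw [Pi.smul_apply, Algebra.smul_def]
      exact mul_mem ((T.br s i).algebraMap_mem' a) (h2 s i)
    · rw [Pi.smul_apply, Pi.smul_apply, ev_smul (T.deg_br s _) _ (h2 s _),
        ev_smul (T.deg_br s _) _ (h2 s _), h3, mul_left_comm]

/-- The values at the nodes of one side. -/
def evL (i : Bool) (E : Divisor k Fk) (hE : ∀ s, E (T.br s i) = 0) :
    riemannRochSpace E →ₗ[k] (S → k) where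
  toFun a s := ev (T.br s i) (a : Fk)
  map_add' a b := funext fun s =>
    ev_add (T.deg_br s i) (mem_of_space a.2 (hE s)) (mem_of_space b.2 (hE s))
  map_smul' c a := funext fun s => by
    rw [Submodule.coe_smul, ev_smul (T.deg_br s i) c (mem_of_space a.2 (hE s))]
    rfl

theorem evL_apply (i : Bool) (E : Divisor k Fk) (hE : ∀ s, E (T.br s i) = 0)
    (a : riemannRochSpace E) (s : S) : T.evL i E hE a s = ev (T.br s i) (a : Fk) := rfl

/-- The sum of the node branches on one side. -/
def brDiv (i : Bool) : Divisor k Fk := ∑ s, Finsupp.single (T.br s i) 1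

theorem brDiv_br (i : Bool) (s : S) : T.brDiv i (T.br s i) = 1 := by
  classical
  rw [brDiv, Finsupp.finsetSum_apply, Finset.sum_eq_single s, Finsupp.single_eq_same]
  · intro t _ hts
    exact Finsupp.single_eq_of_ne fun h => hts ((T.br_inj i) h.symm)
  · intro h; exact absurd (Finset.mem_univ s) h

theorem brDiv_other (i : Bool) {Q : Place k Fk} (h : ∀ s, T.br s i ≠ Q) : T.brDiv i Q = 0 := by
  rw [brDiv, Finsupp.finsetSum_apply]
  exact Finset.sum_eq_zero fun s _ => Finsupp.single_eq_of_ne (h s).symm

theorem brDiv_nonneg (i : Bool) (Q : Place k Fk) : 0 ≤ T.brDiv i Q := by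
  classical
  rw [brDiv, Finsupp.finsetSum_apply]
  exact Finset.sum_nonneg fun s _ => by rw [Finsupp.single_apply]; split_ifs <;> omega

theorem degree_brDiv (i : Bool) : Divisor.degree (T.brDiv i) = Fintype.card S := by
  simp [brDiv, map_sum, T.rrK.deg_one]

theorem evL_surjective (i : Bool) (E : Divisor k Fk) (hE : ∀ s, E (T.br s i) = 0)
    (hdeg : 2 * (T.gk : ℤ) - 1 + Fintype.card S ≤ Divisor.degree E) :
    Function.Surjective (T.evL i E hE) := by
  classical
  have := T.rrK.finiteDim E
  have := T.rrK.finiteDim (E - T.brDiv i)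
  have h1 := T.rrK.ell_eq_of_large (D := E) (by omega)
  have h2 := T.rrK.ell_eq_of_large (D := E - T.brDiv i)
    (by rw [map_sub, degree_brDiv]; omega)
  rw [map_sub, degree_brDiv] at h2
  have hker : (LinearMap.ker (T.evL i E hE)).map (riemannRochSpace E).subtype ≤
      riemannRochSpace (E - T.brDiv i) := by
    rintro _ ⟨a, ha, rfl⟩
    refine mem_riemannRochSpace_iff.mpr fun Q => or_iff_not_imp_left.mpr fun hne => ?_
    have hQ := ((mem_riemannRochSpace_iff.mp a.2) Q).resolve_left hne
    rw [Finsupp.sub_apply]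
    rcases em (∃ s, T.br s i = Q) with ⟨s, rfl⟩ | h
    · have h0 : ev (T.br s i) (a : Fk) = 0 := congrFun (LinearMap.mem_ker.mp ha) s
      have := ((ev_eq_zero_iff (T.deg_br s i) (mem_of_space a.2 (hE s))).mp h0).resolve_left hne
      rw [brDiv_br, hE]
      simp only [Submodule.subtype_apply]
      omega
    · push Not at h
      rw [T.brDiv_other i h]
      simpa using hQ
  have h3 := Submodule.finrank_mono hker
  rw [Submodule.finrank_map_subtype_eq] at h3
  have h4 := LinearMap.finrank_range_add_finrank_ker (T.evL i E hE)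
  rw [← LinearMap.range_eq_top]
  refine Submodule.eq_top_of_finrank_eq (le_antisymm (Submodule.finrank_le _) ?_)
  rw [Module.finrank_pi]
  unfold Red.ell at h1 h2
  omega

/-- The dimension of the space of glued pairs in large degree. -/
theorem finrank_glued (E : Bool → Divisor k Fk) (ζ : S → k) (hE : ∀ s i, E i (T.br s i) = 0)
    (hdeg : ∀ i, 2 * (T.gk : ℤ) - 1 + Fintype.card S ≤ Divisor.degree (E i)) :
    (Module.finrank k (T.glued E ζ) : ℤ) =
      Divisor.degree (E false) + Divisor.degree (E true) + 2 - 2 * T.gk - Fintype.card S := by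
  classical
  have := T.rrK.finiteDim (E false)
  have := T.rrK.finiteDim (E true)
  let ef := T.evL false (E false) fun s => hE s false
  let et : riemannRochSpace (E true) →ₗ[k] (S → k) :=
    LinearMap.pi fun s => ζ s • (LinearMap.proj s ∘ₗ T.evL true (E true) fun s => hE s true)
  let Φ : riemannRochSpace (E false) × riemannRochSpace (E true) →ₗ[k] (S → k) :=
    ef ∘ₗ LinearMap.fst k _ _ - et ∘ₗ LinearMap.snd k _ _
  have hΦ : Function.Surjective Φ := fun t => by
    obtain ⟨a, ha⟩ := T.evL_surjective false (E false) (fun s => hE s false) (hdeg false) t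
    exact ⟨(a, 0), by simpa [Φ, ef] using ha⟩
  have hmem : ∀ p, p ∈ LinearMap.ker Φ ↔ ∀ s, ev (T.br s false) (p.1 : Fk) =
      ζ s * ev (T.br s true) (p.2 : Fk) := fun p => by
    simp [Φ, ef, et, LinearMap.mem_ker, funext_iff, sub_eq_zero, evL_apply]
  let j : riemannRochSpace (E false) × riemannRochSpace (E true) →ₗ[k] (Bool → Fk) :=
    LinearMap.pi fun i => match i with
      | false => (riemannRochSpace (E false)).subtype ∘ₗ LinearMap.fst k _ _
      | true => (riemannRochSpace (E true)).subtype ∘ₗ LinearMap.snd k _ _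
  have hj : Function.Injective j := fun p q h =>
    Prod.ext (Subtype.ext (congrFun h false)) (Subtype.ext (congrFun h true))
  have himg : (LinearMap.ker Φ).map j = T.glued E ζ := by
    ext w
    constructor
    · rintro ⟨p, hp, rfl⟩
      exact ⟨fun i => by cases i <;> simp [j],
        fun s i => by cases i <;> exact mem_of_space (SetLike.coe_mem _) (hE s _),
        (hmem p).mp hp⟩
    · rintro ⟨h1, -, h3⟩
      exact ⟨(⟨w false, h1 false⟩, ⟨w true, h1 true⟩), (hmem _).mpr h3,
        funext fun i => by cases i <;> rfl⟩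
  rw [← himg, ← (Submodule.equivMapOfInjective j hj _).finrank_eq]
  have h4 := LinearMap.finrank_range_add_finrank_ker Φ
  rw [LinearMap.range_eq_top.mpr hΦ, finrank_top, Module.finrank_pi, Module.finrank_prod] at h4
  have h1 := T.rrK.ell_eq_of_large (D := E false) (by have := hdeg false; omega)
  have h2 := T.rrK.ell_eq_of_large (D := E true) (by have := hdeg true; omega)
  unfold Red.ell at h1 h2
  omega

theorem finiteDimensional_glued (E : Bool → Divisor k Fk) (ζ : S → k) :
    FiniteDimensional k (T.glued E ζ) := by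
  have := fun i => T.rrK.finiteDim (E i)
  refine Submodule.finiteDimensional_of_le
    (S₂ := LinearMap.range (LinearMap.pi fun i =>
      (riemannRochSpace (E i)).subtype ∘ₗ LinearMap.proj i :
        (∀ i, riemannRochSpace (E i)) →ₗ[k] (Bool → Fk))) ?_
  rintro w ⟨h1, -, -⟩
  exact ⟨fun i => ⟨w i, h1 i⟩, rfl⟩

end TwoRed

end Fermat.Agent.TwoComponent
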