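import Fermat.Agent.TwoComponent.CompatDim
import Fermat.Agent.TwoComponent.ModelNodes

/-!
# Glued pairs with bounded poles lift with the same bound; the genus of `X₀(M q)`

Glued pairs with poles bounded by a multiple of the pole divisor of the coordinate lift with the
same bound; comparing dimensions gives `g(X₀(M q)) + 1 = 2 g(X₀(M)) + #nodes`.
-/

noncomputable section

open ModularCurve AlgebraicCurve IntermediateField Fermat.Agent.Red Fermat.Agent.Igusa

namespace Fermat.Agent.TwoComponent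

local notation "Qb" => AlgebraicClosure ℚ

section Split

variable {K F : Type*} [Field K] [IsAlgClosed K] [Field F] [Algebra K F] [FF.IsFunctionField K F]

theorem poleDiv_nonneg (j : F) (P : Place K F) : 0 ≤ FF.poleDiv (K := K) j P := by
  rw [FF.poleDiv_apply]; exact le_max_right _ _

theorem self_mem_space (j : F) :
    j ∈ riemannRochSpace (1 • FF.poleDiv (K := K) j) := by
  refine mem_riemannRochSpace_iff.mpr fun P => Or.inr ?_
  rw [one_nsmul, FF.poleDiv_apply]
  omega

omit [IsAlgClosed K] [FF.IsFunctionField K F] in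
theorem pow_mem_space {j : F} {D : Divisor K F} (hj : j ∈ riemannRochSpace D) :
    ∀ n : ℕ, j ^ n ∈ riemannRochSpace (n • D) := by
  intro n
  induction n with
  | zero =>
    refine mem_riemannRochSpace_iff.mpr fun P => Or.inr ?_
    rw [pow_zero, zero_nsmul, Finsupp.zero_apply, P.ord_one, neg_zero]
  | succ n ih =>
    rw [pow_succ, succ_nsmul, add_comm]
    exact mul_mem_space_add hj ih

/-- Leading parts: large multiples of the pole divisor of `j` are exhausted by `j^k L(m J)`. -/
theorem exists_split {j : F} (hj : Transcendental K j) {k m e : ℕ} (he : e ≤ m)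
    (hm : 2 * genusFF K F + e ≤ m) {w : F}
    (hw : w ∈ riemannRochSpace ((k + m) • FF.poleDiv (K := K) j)) :
    ∃ a ∈ riemannRochSpace (m • FF.poleDiv (K := K) j),
      w - j ^ k * a ∈ riemannRochSpace ((k + m - e) • FF.poleDiv (K := K) j) := by
  set J := FF.poleDiv (K := K) j with hJ
  have hd : (1 : ℤ) ≤ Divisor.degree J := degree_poleDiv_pos hj
  have hj0 : j ≠ 0 := fun h => hj (h ▸ isAlgebraic_zero)
  set D : ℕ → Submodule K F := fun n => riemannRochSpace (n • J) with hD
  set S1 := (D m).map (LinearMap.mulLeft K (j ^ k)) with hS1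
  set S2 := D (k + m - e) with hS2
  have hinj : Function.Injective (LinearMap.mulLeft K (j ^ k) : F →ₗ[K] F) :=
    mul_right_injective₀ (pow_ne_zero _ hj0)
  have hmono : ∀ {a b : ℕ}, a ≤ b → D a ≤ D b := fun h => FF.rrSpace_mono fun P => by
    rw [Finsupp.smul_apply, Finsupp.smul_apply]
    exact nsmul_le_nsmul_left (poleDiv_nonneg j P) h
  have h1 : S1 ≤ D (k + m) := by
    rintro _ ⟨a, ha, rfl⟩
    show j ^ k * a ∈ _
    rw [hD]
    simp only [add_comm k m, add_nsmul]
    exact mul_mem_space_add ha (by simpa using pow_mem_space (self_mem_space (K := K) j) k)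
  have h2 : S2 ≤ D (k + m) := hmono (Nat.sub_le _ _)
  have h3 : S1 ⊓ S2 ≤ (D (m - e)).map (LinearMap.mulLeft K (j ^ k)) := by
    rintro _ ⟨⟨a, ha, rfl⟩, hb⟩
    refine ⟨a, mem_riemannRochSpace_iff.mpr fun P => ?_, rfl⟩
    rcases (mem_riemannRochSpace_iff.mp ha) P with h | h
    · exact Or.inl h
    rcases eq_or_ne a 0 with ha0 | ha0
    · exact Or.inl ha0
    have h' := ((mem_riemannRochSpace_iff.mp hb) P).resolve_left
      (mul_ne_zero (pow_ne_zero _ hj0) ha0)
    rw [LinearMap.mulLeft_apply, P.ord_mul (pow_ne_zero _ hj0) ha0, Red.ord_pow] at h'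
    rw [Finsupp.smul_apply, nsmul_eq_mul, hJ, FF.poleDiv_apply] at h h' ⊢
    rcases le_or_gt 0 (P.ord j) with hp | hp
    · rw [max_eq_right (by omega)] at h h' ⊢
      right; simpa using h
    · rw [max_eq_left (by omega)] at h h' ⊢
      right
      push_cast [Nat.cast_sub he, Nat.cast_sub (show e ≤ k + m by omega)] at h' ⊢
      linarith
  have : ∀ n, FiniteDimensional K (D n) := fun n => FF.finite_rrSpace _
  have : FiniteDimensional K S1 := Submodule.finiteDimensional_of_le h1
  have hell : ∀ n : ℕ, 2 * genusFF K F ≤ n →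
      (Module.finrank K (D n) : ℤ) = n * Divisor.degree J + 1 - genusFF K F := fun n hn => by
    have h := FF.ell_eq_of_large_degree (D := n • J) (by
      rw [map_nsmul, nsmul_eq_mul]
      have : (2 * genusFF K F : ℤ) ≤ n := by exact_mod_cast hn
      nlinarith)
    rw [map_nsmul, nsmul_eq_mul] at h
    exact h
  have e1 : Module.finrank K S1 = Module.finrank K (D m) :=
    (Submodule.equivMapOfInjective _ hinj _).finrank_eq.symm
  have e2 := (Submodule.finrank_mono h3).trans (Submodule.finrank_map_le _ _)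
  have e3 := Submodule.finrank_sup_add_finrank_inf_eq S1 S2
  have e4 := hell m (by omega)
  have e5 := hell (k + m - e) (by omega)
  have e6 := hell (k + m) (by omega)
  have e7 := hell (m - e) (by omega)
  push_cast [Nat.cast_sub he, Nat.cast_sub (show e ≤ k + m by omega)] at e5 e6 e7
  have hsup : S1 ⊔ S2 = D (k + m) := by
    refine Submodule.eq_of_le_of_finrank_le (sup_le h1 h2) ?_
    have hle : (Module.finrank K (D (k + m)) : ℤ) ≤ Module.finrank K ↥(S1 ⊔ S2) := by
      have e2' : (Module.finrank K ↥(S1 ⊓ S2) : ℤ) ≤ Module.finrank K (D (m - e)) := by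
        exact_mod_cast e2
      have e3' : (Module.finrank K ↥(S1 ⊔ S2) : ℤ) + Module.finrank K ↥(S1 ⊓ S2) =
          Module.finrank K (D m) + Module.finrank K S2 := by
        rw [← e1]; exact_mod_cast e3
      rw [hS2] at e3'
      linarith
    exact_mod_cast hle
  obtain ⟨_, ⟨a, ha, rfl⟩, b, hb, hab⟩ := Submodule.mem_sup.mp (hsup.symm ▸ hw : w ∈ S1 ⊔ S2)
  refine ⟨a, ha, ?_⟩
  rw [← hab, LinearMap.mulLeft_apply, add_sub_cancel_left]
  exact hb

end Split

variable (M q : ℕ) [hq : Fact q.Prime] [NeZero M] (hqM : ¬ q ∣ M)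
variable {A : ValuationSubring (AlgebraicClosure ℚ)} {k : Type*} [Field k] {π : A →+* k}
variable [CharP k q] [IsAlgClosed k]

omit hq in
theorem degree_poleDiv_jbC (hqM : ¬ q ∣ M) :
    Divisor.degree (FF.poleDiv (K := k) (jbC M : CK M k)) = psi M := by
  rw [FF.degree_poleDiv (transcendental_jbC M), finrank_adjoin_eq_relfinrank]
  exact_mod_cast relfinrank_full M (natCast_ne_zero_of_not_dvd M q hqM)

omit hq in
theorem degree_poleDiv_xbC (hqM : ¬ q ∣ M) :
    Divisor.degree (FF.poleDiv (K := k) (xbC M q : CK M k)) = ((q + 1) * psi M : ℕ) := by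
  rw [show FF.poleDiv (K := k) (xbC M q : CK M k) = (q + 1) • FF.poleDiv (K := k) (jbC M : CK M k)
      from Finsupp.ext fun Q => by
        rw [poleDiv_xbC, Finsupp.smul_apply, nsmul_eq_mul],
    map_nsmul, degree_poleDiv_jbC M q hqM, nsmul_eq_mul]
  push_cast
  ring

omit hq [CharP k q] in
theorem smul_poleDiv_xbC (n : ℕ) :
    n • FF.poleDiv (K := k) (xbC M q : CK M k) =
      ((q + 1) * n) • FF.poleDiv (K := k) (jbC M : CK M k) :=
  Finsupp.ext fun Q => by
    rw [Finsupp.smul_apply, Finsupp.smul_apply, poleDiv_xbC, nsmul_eq_mul, nsmul_eq_mul]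
    push_cast
    ring

theorem frobE_mem_space {m : ℕ} {a : CK M k}
    (ha : a ∈ riemannRochSpace (m • FF.poleDiv (K := k) (jbC M : CK M k))) :
    frobE M q (k := k) a ∈ riemannRochSpace ((q * m) • FF.poleDiv (K := k) (jbC M : CK M k)) := by
  refine mem_riemannRochSpace_iff.mpr fun Q => ?_
  have hj := ord_frobE M q Q (jbC M : CK M k)
  rw [frobE_jbC, Red.ord_pow] at hj
  have hq0 : (q : ℤ) ≠ 0 := by exact_mod_cast hq.out.ne_zero
  have hj' := mul_left_cancel₀ hq0 hj
  rcases (mem_riemannRochSpace_iff.mp ha) (frobC M q (k := k) • Q) with h | h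
  · exact Or.inl (by rw [h, map_zero])
  · right
    rw [Finsupp.smul_apply, FF.poleDiv_apply, nsmul_eq_mul, ← hj'] at h
    rw [Finsupp.smul_apply, FF.poleDiv_apply, nsmul_eq_mul, ord_frobE]
    push_cast
    nlinarith [Int.natCast_nonneg q]

theorem redC_jOne_jQ (hres : ResidueAt A q π) :
    ∃ (h1 : ∀ i, jOne M q ∈ (redC M q hqM hres i).O) (h2 : ∀ i, jQ M q ∈ (redC M q hqM hres i).O),
      (redC M q hqM hres false).red ⟨_, h1 false⟩ = (jbC M : CK M k) ∧
      (redC M q hqM hres true).red ⟨_, h1 true⟩ = (jbC M : CK M k) ^ q ∧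
      (redC M q hqM hres false).red ⟨_, h2 false⟩ = (jbC M : CK M k) ^ q ∧
      (redC M q hqM hres true).red ⟨_, h2 true⟩ = (jbC M : CK M k) := by
  obtain ⟨a, ha⟩ := red_of_intSeries M q hqM hres (f := jOne M q) (jv (1 : ℤˣ) 1)
    (by rw [jv_mem_intSer one_ne_zero]; rfl)
  obtain ⟨b, hb⟩ := red_of_intSeries M q hqM hres (f := jQ M q) (jv (1 : ℤˣ) q)
    (by rw [jv_mem_intSer hq.out.ne_zero]; rfl)
  rw [jv_mem_intSer one_ne_zero] at ha
  rw [jv_mem_intSer hq.out.ne_zero] at hb
  have hb' : (redPair M q hqM hres false).red ⟨_, b⟩ = jv (1 : kˣ) 1 ^ q := by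
    rw [hb, ← jv_mul_char q one_ne_zero, one_mul]
  obtain ⟨a', ha'⟩ := red_true_wAL M q hqM hres a
  obtain ⟨b', hb''⟩ := red_true_wAL M q hqM hres b
  have key : ∀ (f g : FN M q) (e : f = g) (h : f ∈ (redPair M q hqM hres true).O),
      ∃ h' : g ∈ (redPair M q hqM hres true).O,
        (redPair M q hqM hres true).red ⟨g, h'⟩ = (redPair M q hqM hres true).red ⟨f, h⟩ := by
    rintro f _ rfl h; exact ⟨h, rfl⟩
  obtain ⟨a'', ea⟩ := key _ _ (wAL_jOne M q hqM) a'
  obtain ⟨b''', eb⟩ := key _ _ (wAL_jQ M q hqM) b'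
  refine ⟨fun i => by cases i; exacts [a, b'''], fun i => by cases i; exacts [b, a''],
    Subtype.ext ha, Subtype.ext ?_, Subtype.ext ?_, Subtype.ext ?_⟩
  · rw [SubmonoidClass.coe_pow]; exact eb.trans (hb''.trans hb')
  · rw [SubmonoidClass.coe_pow]; exact hb'
  · exact ea.trans (ha'.trans ha)

/-- A lift of a leading part: a function with the prescribed reductions and pole bound. -/
theorem exists_leading (hres : ResidueAt A q π) {n m : ℕ} (hn : q + m ≤ n) {u₀ : FN M q}
    (h₀ : ∀ i, u₀ ∈ (redC M q hqM hres i).O)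
    (hu₀ : u₀ ∈ riemannRochSpace (m • FF.poleDiv (K := Qb) (jOne M q))) :
    ∃ (u : FN M q) (h : ∀ i, u ∈ (redC M q hqM hres i).O),
      u ∈ riemannRochSpace (n • FF.poleDiv (K := Qb) (xN M q)) ∧
      (redC M q hqM hres false).red ⟨u, h false⟩ =
        (jbC M : CK M k) ^ ((q + 1) * n - m) * (redC M q hqM hres false).red ⟨u₀, h₀ false⟩ ∧
      (redC M q hqM hres true).red ⟨u, h true⟩ =
        (jbC M : CK M k) ^ (q * (n - q - m) + (n + 1)) *
          (redC M q hqM hres true).red ⟨u₀, h₀ true⟩ := by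
  obtain ⟨h1, h2, r1, r1', r2, r2'⟩ := redC_jOne_jQ M q hqM hres
  refine ⟨jOne M q ^ (n - q - m) * jQ M q ^ (n + 1) * u₀,
    fun i => mul_mem (mul_mem (pow_mem (h1 i) _) (pow_mem (h2 i) _)) (h₀ i), ?_, ?_, ?_⟩
  · have e := mul_mem_space_add hu₀ (mul_mem_space_add
      (pow_mem_space (self_mem_space (K := Qb) (jQ M q)) (n + 1))
      (pow_mem_space (self_mem_space (K := Qb) (jOne M q)) (n - q - m)))
    refine FF.rrSpace_mono (fun P => ?_) e
    simp only [one_nsmul, Finsupp.add_apply, Finsupp.smul_apply, nsmul_eq_mul, poleDiv_xN]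
    push_cast [Nat.cast_sub (show m ≤ n - q by omega), Nat.cast_sub (show q ≤ n by omega)]
    nlinarith [poleDiv_jQ_le M q P]
  · have e : (n - q - m) + q * (n + 1) = (q + 1) * n - m := by
      rw [Nat.mul_add, Nat.add_mul, mul_one, one_mul]
      omega
    have hh : ∀ (i : Bool),
        (redC M q hqM hres i).red ⟨jOne M q ^ (n - q - m) * jQ M q ^ (n + 1) * u₀,
        mul_mem (mul_mem (pow_mem (h1 i) _) (pow_mem (h2 i) _)) (h₀ i)⟩ =
        (redC M q hqM hres i).red ⟨_, h1 i⟩ ^ (n - q - m) *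
          (redC M q hqM hres i).red ⟨_, h2 i⟩ ^ (n + 1) *
            (redC M q hqM hres i).red ⟨u₀, h₀ i⟩ := fun i => by
      rw [← map_pow, ← map_pow, ← map_mul, ← map_mul]; rfl
    rw [hh, r1, r2, ← pow_mul, ← pow_add, e]
  · have hh : (redC M q hqM hres true).red ⟨jOne M q ^ (n - q - m) * jQ M q ^ (n + 1) * u₀,
        mul_mem (mul_mem (pow_mem (h1 true) _) (pow_mem (h2 true) _)) (h₀ true)⟩ =
        (redC M q hqM hres true).red ⟨_, h1 true⟩ ^ (n - q - m) *
          (redC M q hqM hres true).red ⟨_, h2 true⟩ ^ (n + 1) *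
            (redC M q hqM hres true).red ⟨u₀, h₀ true⟩ := by
      rw [← map_pow, ← map_pow, ← map_mul, ← map_mul]; rfl
    rw [hh, r1', r2', ← pow_mul, ← pow_add]

/-- One step: a pair with poles bounded by `n` is a reduction up to poles bounded by `n - 1`. -/
theorem exists_step (hres : ResidueAt A q π)
    (hgen : genusFF Qb (modularFunctionFieldBar M) ≤ genusFF k (CK M k)) :
    ∃ n₀ : ℕ, ∀ n ≥ n₀, ∀ w : CK M k × CK M k,
      w.1 ∈ riemannRochSpace (n • FF.poleDiv (K := k) (xbC M q : CK M k)) →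
      w.2 ∈ riemannRochSpace (n • FF.poleDiv (K := k) (xbC M q : CK M k)) →
      ∃ (u : FN M q) (h : ∀ i, u ∈ (redC M q hqM hres i).O),
        u ∈ riemannRochSpace (n • FF.poleDiv (K := Qb) (xN M q)) ∧
        w.1 - (redC M q hqM hres false).red ⟨u, h false⟩ ∈
          riemannRochSpace ((n - 1) • FF.poleDiv (K := k) (xbC M q : CK M k)) ∧
        w.2 - (redC M q hqM hres true).red ⟨u, h true⟩ ∈
          riemannRochSpace ((n - 1) • FF.poleDiv (K := k) (xbC M q : CK M k)) := by
  obtain ⟨n₁, hn₁⟩ := exists_lift_level M q hres hgen hqM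
  set m := n₁ + 2 * genusFF k (CK M k) + (q + 1) with hm
  refine ⟨q + m + 1, fun n hn w h1 h2 => ?_⟩
  set N := (q + 1) * n with hN
  have hmN : m ≤ N := le_trans (by omega) (Nat.le_mul_of_pos_left n (Nat.succ_pos q))
  rw [smul_poleDiv_xbC, ← hN, show N = (N - m) + m by omega] at h1 h2
  have hsub : N - m + m - (q + 1) = (q + 1) * (n - 1) := by
    rw [Nat.sub_add_cancel hmN, hN, Nat.mul_sub, mul_one]
  obtain ⟨a₁, ha₁, e₁⟩ := exists_split (transcendental_jbC M) (e := q + 1) (by omega) (by omega) h1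
  obtain ⟨a₂, ha₂, e₂⟩ := exists_split (transcendental_jbC M) (e := q + 1) (by omega) (by omega) h2
  rw [hsub, ← smul_poleDiv_xbC] at e₁ e₂
  obtain ⟨v₁, g₁, hv₁, v₁0, v₁1⟩ := hn₁ m (by omega) a₁ ha₁
  obtain ⟨v₂, g₂, hv₂, v₂0, v₂1⟩ := hn₁ m (by omega) a₂ ha₂
  obtain ⟨u₁, f₁, hu₁, u₁0, u₁1⟩ := exists_leading M q hqM hres (n := n) (by omega) g₁ hv₁
  obtain ⟨u₂, f₂, hu₂, u₂0, u₂1⟩ := exists_leading M q hqM hres (n := n) (by omega) g₂ hv₂
  rw [v₁0] at u₁0
  rw [v₁1] at u₁1
  rw [v₂0] at u₂0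
  rw [v₂1] at u₂1
  obtain ⟨b0, eb0⟩ := red_false_wAL M q hqM hres (f₂ true)
  obtain ⟨b1, eb1⟩ := red_true_wAL M q hqM hres (f₂ false)
  -- the other component is small
  have hsmall : ∀ a ∈ riemannRochSpace (m • FF.poleDiv (K := k) (jbC M : CK M k)),
      (jbC M : CK M k) ^ (q * (n - q - m) + (n + 1)) * frobE M q (k := k) a ∈
        riemannRochSpace ((n - 1) • FF.poleDiv (K := k) (xbC M q : CK M k)) := fun a ha => by
    rw [smul_poleDiv_xbC]
    have e := mul_mem_space_add (frobE_mem_space M q ha)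
      (pow_mem_space (self_mem_space (K := k) (jbC M : CK M k)) (q * (n - q - m) + (n + 1)))
    rw [one_nsmul, ← add_nsmul] at e
    refine FF.rrSpace_mono (fun Q => ?_) e
    rw [Finsupp.smul_apply, Finsupp.smul_apply]
    refine nsmul_le_nsmul_left (poleDiv_nonneg _ _) ?_
    have h2q := hq.out.two_le
    zify [show q ≤ n by omega, show m ≤ n - q by omega, show 1 ≤ n by omega]
    nlinarith
  refine ⟨u₁ + wAL M q hqM u₂, fun i => add_mem (f₁ i) (by cases i; exacts [b0, b1]),
    add_mem hu₁ (wAL_mem_space M q hqM hu₂), ?_, ?_⟩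
  · have e : (redC M q hqM hres false).red ⟨u₁ + wAL M q hqM u₂, add_mem (f₁ false) b0⟩ =
        (redC M q hqM hres false).red ⟨u₁, f₁ false⟩ +
          (redC M q hqM hres true).red ⟨u₂, f₂ true⟩ := by
      rw [show (redC M q hqM hres true).red ⟨u₂, f₂ true⟩ =
        (redC M q hqM hres false).red ⟨_, b0⟩ from (Subtype.ext eb0).symm, ← map_add]
      rfl
    rw [e, u₁0, u₂1, ← _root_.sub_sub]
    exact sub_mem e₁ (hsmall a₂ ha₂)
  · have e : (redC M q hqM hres true).red ⟨u₁ + wAL M q hqM u₂, add_mem (f₁ true) b1⟩ =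
        (redC M q hqM hres true).red ⟨u₁, f₁ true⟩ +
          (redC M q hqM hres false).red ⟨u₂, f₂ false⟩ := by
      rw [show (redC M q hqM hres false).red ⟨u₂, f₂ false⟩ =
        (redC M q hqM hres true).red ⟨_, b1⟩ from (Subtype.ext eb1).symm, ← map_add]
      rfl
    rw [e, u₁1, u₂0, add_comm (_ * _), ← _root_.sub_sub]
    exact sub_mem e₂ (hsmall a₁ ha₁)

/-- The pairs `(y, φ y)` at the nodes. -/
def nodesC (hres : ResidueAt A q π)
    (hgen : genusFF Qb (modularFunctionFieldBar M) ≤ genusFF k (CK M k)) :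
    Finset (Place k (CK M k) × Place k (CK M k)) :=
  (graphAlg M q hqM hres hgen).nodeSet_finite.toFinset.map
    ⟨fun y => (y, (graphAlg M q hqM hres hgen).φ y), fun _ _ h => congrArg Prod.fst h⟩

theorem mem_nodesC (hres : ResidueAt A q π)
    (hgen : genusFF Qb (modularFunctionFieldBar M) ≤ genusFF k (CK M k))
    {x : Place k (CK M k) × Place k (CK M k)} :
    x ∈ nodesC M q hqM hres hgen ↔
      ∃ y ∈ (graphAlg M q hqM hres hgen).nodeSet, (y, (graphAlg M q hqM hres hgen).φ y) = x := by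
  rw [nodesC, Finset.mem_map]
  simp only [Set.Finite.mem_toFinset]
  rfl

theorem nodesC_regular (hres : ResidueAt A q π)
    (hgen : genusFF Qb (modularFunctionFieldBar M) ≤ genusFF k (CK M k))
    {x : Place k (CK M k) × Place k (CK M k)} (hx : x ∈ nodesC M q hqM hres hgen) :
    (xbC M q : CK M k) ∈ x.1.toValuationSubring ∧ (xbC M q : CK M k) ∈ x.2.toValuationSubring := by
  obtain ⟨y, hy, rfl⟩ := (mem_nodesC M q hqM hres hgen).mp hx
  exact ⟨hy.1, ((graphAlg M q hqM hres hgen).z_mem_φ_iff y).mpr hy.1⟩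

/-- Pairs glued at the nodes with poles bounded by `n`. -/
def gluedC (hres : ResidueAt A q π)
    (hgen : genusFF Qb (modularFunctionFieldBar M) ≤ genusFF k (CK M k)) (n : ℕ) :
    Submodule k (CK M k × CK M k) :=
  compat (nodesC M q hqM hres hgen) (n • FF.poleDiv (K := k) (xbC M q : CK M k))
    (n • FF.poleDiv (K := k) (xbC M q : CK M k))

theorem redImage_le_gluedC (hres : ResidueAt A q π)
    (hgen : genusFF Qb (modularFunctionFieldBar M) ≤ genusFF k (CK M k)) (n : ℕ) :
    (pairRedOf (redC M q hqM hres)).redImage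
        (riemannRochSpace (n • FF.poleDiv (K := Qb) (xN M q))) ≤
      gluedC M q hqM hres hgen n := by
  rintro _ ⟨u, hu, rfl⟩
  have h1 := redC_mem_space M q hqM hres (pairRedOf_mem.mp u.2) hu false
  have h2 := redC_mem_space M q hqM hres (pairRedOf_mem.mp u.2) hu true
  refine ⟨h1, h2, fun x hx => ?_⟩
  obtain ⟨y, hy, rfl⟩ := (mem_nodesC M q hqM hres hgen).mp hx
  have himg : (pairRedOf (redC M q hqM hres)).red u ∈ (graphAlg M q hqM hres hgen).Img :=
    (mem_imgC M q hqM hres).mpr ⟨n, u, pairRedOf_mem.mp u.2, hu, rfl⟩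
  obtain ⟨r1, r2, r3⟩ := ((graphAlg M q hqM hres hgen).mem_iff _ _).mp himg
  exact ⟨r1 y hy.1, r2 _ (((graphAlg M q hqM hres hgen).z_mem_φ_iff y).mpr hy.1), r3 y hy⟩

/-- **Exactness**: glued pairs lift with the same pole bound. -/
theorem exists_exact (hres : ResidueAt A q π)
    (hgen : genusFF Qb (modularFunctionFieldBar M) ≤ genusFF k (CK M k)) :
    ∃ n₂ : ℕ, ∀ n ≥ n₂, gluedC M q hqM hres hgen n ≤ (pairRedOf (redC M q hqM hres)).redImage
      (riemannRochSpace (n • FF.poleDiv (K := Qb) (xN M q))) := by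
  set G := graphAlg M q hqM hres hgen with hG
  set R : ℕ → Submodule k (CK M k × CK M k) := fun n =>
    (pairRedOf (redC M q hqM hres)).redImage
      (riemannRochSpace (n • FF.poleDiv (K := Qb) (xN M q))) with hR
  have hmono : Monotone R := fun _ _ h => RedBase.redImage_mono _ (space_mono M q h)
  obtain ⟨n₀, hn₀⟩ := exists_step M q hqM hres hgen
  have hW : gluedC M q hqM hres hgen n₀ ≤ imgC M q hqM hres := by
    rintro ⟨g1, g2⟩ ⟨h1, h2, h3⟩
    refine (G.mem_iff g1 g2).mpr ⟨mem_reg_of_mem_rrSpace (n := n₀) _ (by rwa [natCast_zsmul]),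
      mem_reg_of_mem_rrSpace (n := n₀) _ (by rwa [natCast_zsmul]), fun y hy => ?_⟩
    exact (h3 _ ((mem_nodesC M q hqM hres hgen).mpr ⟨y, hy, rfl⟩)).2.2
  obtain ⟨n', hn'⟩ : ∃ n', gluedC M q hqM hres hgen n₀ ≤ R n' := by
    have : FiniteDimensional k (gluedC M q hqM hres hgen n₀) := finite_compat _ _ _
    obtain ⟨s, hs⟩ : (gluedC M q hqM hres hgen n₀).FG :=
      (Submodule.fg_iff_finiteDimensional _).mpr inferInstance
    have hex : ∀ x ∈ s, ∃ n, x ∈ R n := fun x hx =>
      (Submodule.mem_iSup_of_directed _ (Monotone.directed_le hmono)).mp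
        (hW (hs ▸ Submodule.subset_span hx))
    choose f hf using hex
    refine ⟨s.attach.sup fun x => f x.1 x.2, hs ▸ Submodule.span_le.mpr fun x hx => ?_⟩
    exact hmono (Finset.le_sup (f := fun x : s => f x.1 x.2) (Finset.mem_attach s ⟨x, hx⟩))
      (hf x hx)
  have key : ∀ n, n₀ ≤ n → gluedC M q hqM hres hgen n ≤ R (max n n') := by
    intro n hn
    induction n, hn using Nat.le_induction with
    | base => exact hn'.trans (hmono (le_max_right _ _))
    | succ n hn ih =>
      rintro ⟨w1, w2⟩ hw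
      obtain ⟨u, h, hu, e1, e2⟩ := hn₀ (n + 1) (by omega) (w1, w2) hw.1 hw.2.1
      have hr : ((redC M q hqM hres false).red ⟨u, h false⟩,
          (redC M q hqM hres true).red ⟨u, h true⟩) ∈ R (n + 1) :=
        ⟨⟨u, pairRedOf_mem.mpr h⟩, hu, rfl⟩
      have hd := sub_mem hw (redImage_le_gluedC M q hqM hres hgen (n + 1) hr)
      have hd' : (w1, w2) - ((redC M q hqM hres false).red ⟨u, h false⟩,
          (redC M q hqM hres true).red ⟨u, h true⟩) ∈ gluedC M q hqM hres hgen n := by
        refine ⟨e1, e2, hd.2.2⟩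
      have := add_mem (hmono (le_max_left _ n') hr)
        (hmono (max_le_max (Nat.le_succ n) le_rfl) (ih hd'))
      rwa [add_sub_cancel] at this
  exact ⟨max n₀ n', fun n hn => (key n (le_of_max_le_left hn)).trans
    (le_of_eq (by rw [max_eq_left (le_of_max_le_right hn)]))⟩

/-- **The genus of `X₀(M q)`**: twice the genus of a component plus the nodes, minus one. -/
theorem genus_eq_nodes (hres : ResidueAt A q π)
    (hgen : genusFF Qb (modularFunctionFieldBar M) ≤ genusFF k (CK M k)) :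
    genusFF Qb (FN M q) + 1 = 2 * genusFF k (CK M k) + (nodesC M q hqM hres hgen).card := by
  obtain ⟨n₂, hn₂⟩ := exists_exact M q hqM hres hgen
  obtain ⟨G, hGR, hGx, hGd⟩ := exists_frameC M q hqM hres
  set S := nodesC M q hqM hres hgen with hS
  set d := (q + 1) * psi M with hd
  have hd1 : (1 : ℤ) ≤ (d : ℤ) := by
    exact_mod_cast Nat.one_le_iff_ne_zero.mpr
      (mul_ne_zero (Nat.succ_ne_zero q) (psi_pos M).ne')
  set n := n₂ + 2 * genusFF Qb (FN M q) + 2 * genusFF k (CK M k) + S.card + 1 with hn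
  set V := riemannRochSpace (n • FF.poleDiv (K := Qb) (xN M q)) with hV
  have : FiniteDimensional Qb V := FF.finite_rrSpace _
  have he : (pairRedOf (redC M q hqM hres)).redImage V = gluedC M q hqM hres hgen n :=
    le_antisymm (redImage_le_gluedC M q hqM hres hgen n) (hn₂ n (by omega))
  have hfull : Module.finrank k ((pairRedOf (redC M q hqM hres)).redImage V) =
      Module.finrank Qb V := by
    rw [← hGR]; exact G.finrank_redImage V
  rw [he] at hfull
  have hdegN : Divisor.degree (n • FF.poleDiv (K := Qb) (xN M q)) = n * (2 * (d : ℤ)) := by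
    rw [map_nsmul, FF.degree_poleDiv (transcendental_xN M q), finrank_xN M q hqM, nsmul_eq_mul,
      hd]
    push_cast
    ring
  have hdegk : Divisor.degree (n • FF.poleDiv (K := k) (xbC M q : CK M k)) = n * (d : ℤ) := by
    rw [map_nsmul, degree_poleDiv_xbC M q hqM, nsmul_eq_mul, hd]
  have hn1 : (n : ℤ) ≤ n * (d : ℤ) := le_mul_of_one_le_right (Int.natCast_nonneg n) hd1
  have hc := finrank_compat S
    (fun x hx y hy e => by
      obtain ⟨a, -, rfl⟩ := (mem_nodesC M q hqM hres hgen).mp hx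
      obtain ⟨b, -, rfl⟩ := (mem_nodesC M q hqM hres hgen).mp hy
      simp only at e
      rw [e])
    (n • FF.poleDiv (K := k) (xbC M q : CK M k)) (n • FF.poleDiv (K := k) (xbC M q : CK M k))
    (fun x hx => by
      rw [Finsupp.smul_apply,
        poleDiv_eq_zero_of_mem _ (nodesC_regular M q hqM hres hgen hx).1, smul_zero])
    (fun x hx => by
      rw [Finsupp.smul_apply,
        poleDiv_eq_zero_of_mem _ (nodesC_regular M q hqM hres hgen hx).2, smul_zero])
    (by rw [hdegk]; omega)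
  have l1 := FF.ell_eq_of_large_degree (D := n • FF.poleDiv (K := k) (xbC M q : CK M k))
    (by rw [hdegk]; omega)
  have l2 := FF.ell_eq_of_large_degree (D := n • FF.poleDiv (K := Qb) (xN M q))
    (by rw [hdegN]; nlinarith)
  rw [hdegk] at l1
  rw [hdegN] at l2
  change Module.finrank k (gluedC M q hqM hres hgen n) + S.card = _ at hc
  rw [hfull] at hc
  have hc' : (Module.finrank Qb V : ℤ) + S.card =
      (FF.ell (n • FF.poleDiv (K := k) (xbC M q : CK M k)) : ℤ) +
        FF.ell (n • FF.poleDiv (K := k) (xbC M q : CK M k)) := by exact_mod_cast hc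
  have hV' : (Module.finrank Qb V : ℤ) = FF.ell (n • FF.poleDiv (K := Qb) (xN M q)) := rfl
  rw [l1, hV', l2] at hc'
  have : ((genusFF Qb (FN M q) : ℤ) + 1) = 2 * (genusFF k (CK M k) : ℤ) + S.card := by linarith
  exact_mod_cast this

end Fermat.Agent.TwoComponent
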