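import Fermat.Agent.TwoComponent.Slopes

/-!
# Reductions of `L(D + nG)` for normalised torsion data

The reductions form exactly the space of pairs glued along lines at the nodes; in particular all
orders of the reductions of `f` are divisible by `m`.
-/

noncomputable section

open AlgebraicCurve Fermat.Agent.Red

namespace Fermat.Agent.TwoComponent

variable {K k F Fk : Type*} [Field K] [Field F] [Algebra K F] [Field k] [Field Fk] [Algebra k Fk]
variable {A : ValuationSubring K} {π : A →+* k}

namespace TwoRed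

variable {S : Type*} [Fintype S] (T : TwoRed A π F Fk S)

/-- Glued pairs with prescribed values at the nodes. -/
theorem exists_glued_values (E : Bool → Divisor k Fk) (ζ : S → k)
    (hE : ∀ s i, E i (T.br s i) = 0)
    (hdeg : ∀ i, 2 * (T.gk : ℤ) - 1 + Fintype.card S ≤ Divisor.degree (E i)) (t : S → k) :
    ∃ w ∈ T.glued E ζ, ∀ s, ev (T.br s true) (w true) = t s ∧
      ev (T.br s false) (w false) = ζ s * t s := by
  obtain ⟨a, ha⟩ := T.evL_surjective false (E false) (fun s => hE s false) (hdeg false)
    (fun s => ζ s * t s)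
  obtain ⟨b, hb⟩ := T.evL_surjective true (E true) (fun s => hE s true) (hdeg true) t
  have ha' : ∀ s, ev (T.br s false) (a : Fk) = ζ s * t s := fun s => congrFun ha s
  have hb' : ∀ s, ev (T.br s true) (b : Fk) = t s := fun s => congrFun hb s
  refine ⟨fun i => bif i then (b : Fk) else (a : Fk), ⟨fun i => ?_, fun s i => ?_, fun s => ?_⟩,
    fun s => ⟨hb' s, ha' s⟩⟩
  · cases i <;> simp
  · cases i
    · exact mem_of_space a.2 (hE s false)
    · exact mem_of_space b.2 (hE s true)
  · simp only [cond_false, cond_true, ha', hb']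

namespace NormalData

variable {T} {m : ℕ} {D : Divisor K F} (d : T.NormalData m D)

/-- The divisor of the reduction of the scaled function. -/
def redDiv (i : Bool) : Divisor k Fk := (T.rrK.exists_div _ (d.e_ne i)).choose

theorem redDiv_apply (i : Bool) (Q : Place k Fk) :
    d.redDiv i Q = Q.ord ((T.R i).red (d.e i)) :=
  (T.rrK.exists_div _ (d.e_ne i)).choose_spec.1 Q

theorem degree_redDiv (i : Bool) : Divisor.degree (d.redDiv i) = 0 :=
  (T.rrK.exists_div _ (d.e_ne i)).choose_spec.2

/-- The `m`-th part of the divisor of the reduction. -/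
def E (i : Bool) : Divisor k Fk := (d.redDiv i).mapRange (fun a => a / (m : ℤ)) (by simp)

theorem E_apply (i : Bool) (Q : Place k Fk) : d.E i Q = d.redDiv i Q / (m : ℤ) := by
  simp [E]

theorem E_br (s : S) (i : Bool) : d.E i (T.br s i) = 0 := by
  rw [E_apply, redDiv_apply, d.e_br, Int.zero_ediv]

/-- The divisors `E + n Gk`. -/
def twist (n : ℕ) : Bool → Divisor k Fk := fun i => d.E i + n • T.Gk i

theorem twist_br (n : ℕ) (s : S) (i : Bool) : d.twist n i (T.br s i) = 0 := by
  simp [twist, d.E_br, T.br_regular]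

/-- From this multiple of `Gk` on, the divisors `E + n Gk` are non-special. -/
def bigN : ℕ := T.bigN + ∑ i, (Divisor.degree (d.E i)).natAbs

theorem bigN_le_degree {n : ℕ} (hn : d.bigN ≤ n) (i : Bool) :
    2 * (T.gk : ℤ) - 1 + Fintype.card S ≤ Divisor.degree (d.twist n i) := by
  have h1 := T.degree_Gk_pos i
  have h2 : (Divisor.degree (d.E i)).natAbs ≤ ∑ i, (Divisor.degree (d.E i)).natAbs :=
    Finset.single_le_sum (f := fun i => (Divisor.degree (d.E i)).natAbs) (fun _ _ => Nat.zero_le _)
      (Finset.mem_univ i)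
  have h3 : (n : ℤ) ≤ n * Divisor.degree (T.Gk i) := le_mul_of_one_le_right (by omega) (by omega)
  simp only [twist, map_add, map_nsmul, nsmul_eq_mul]
  unfold bigN TwoRed.bigN at hn
  omega

/-- The value at a node of the reduction of the scaled function. -/
def nodeVal (s : S) (i : Bool) : k := ev (T.br s i) ((T.R i).red (d.e i))

theorem mem_br_e (s : S) (i : Bool) : (T.R i).red (d.e i) ∈ (T.br s i).toValuationSubring :=
  (mem_place_iff _).mpr (by rw [d.e_br])

theorem nodeVal_ne (s : S) (i : Bool) : d.nodeVal s i ≠ 0 := fun h0 => by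
  rcases (ev_eq_zero_iff (T.deg_br s i) (d.mem_br_e s i)).mp h0 with h | h
  · exact d.e_ne i h
  · rw [d.e_br] at h; exact lt_irrefl _ h

/-- The reductions satisfy the pole bounds and an `m`-th power gluing relation. -/
theorem image_bound (hm : 0 < m) (n : ℕ) {w : Bool → Fk}
    (hw : w ∈ pairImage T.R d.c (riemannRochSpace (D + n • T.G))) :
    (∀ i, w i ∈ riemannRochSpace (d.twist n i)) ∧
      ∀ s, ev (T.br s false) (w false) ^ m * d.nodeVal s false =
        ev (T.br s true) (w true) ^ m * d.nodeVal s true := by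
  obtain ⟨u, hu, h⟩ := hw
  choose v hv hr using h
  have hU : d.f * u ^ m ∈ riemannRochSpace ((m * n) • T.G) := by
    refine mem_riemannRochSpace_iff.mpr fun P => or_iff_not_imp_left.mpr fun hne => ?_
    have hu0 : u ≠ 0 := fun h0 => hne (by rw [h0, zero_pow hm.ne', mul_zero])
    have h1 := ((mem_riemannRochSpace_iff.mp hu) P).resolve_left hu0
    rw [Finsupp.add_apply, Finsupp.smul_apply, nsmul_eq_mul] at h1
    rw [Finsupp.smul_apply, nsmul_eq_mul, P.ord_mul d.f_ne (pow_ne_zero _ hu0), ord_pow, d.div_f]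
    push_cast
    nlinarith
  have hb := T.bound' hU (fun i => d.e i * v i ^ m) fun i => by
    rw [Subring.coe_mul, SubmonoidClass.coe_pow, d.e_eq, ← hv i, mul_pow]; ring
  obtain ⟨hb1, -, hb3⟩ := hb
  simp only [map_mul, map_pow, hr] at hb1 hb3
  have h1 : ∀ i, w i ∈ riemannRochSpace (d.twist n i) := fun i => by
    refine mem_riemannRochSpace_iff.mpr fun Q => or_iff_not_imp_left.mpr fun hne => ?_
    have h := ((mem_riemannRochSpace_iff.mp (hb1 i)) Q).resolve_left
      (mul_ne_zero (d.e_ne i) (pow_ne_zero _ hne))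
    rw [Q.ord_mul (d.e_ne i) (pow_ne_zero _ hne), ord_pow, Finsupp.smul_apply, nsmul_eq_mul,
      ← redDiv_apply] at h
    have h2 : -Q.ord (w i) - (n : ℤ) * T.Gk i Q ≤ d.redDiv i Q / (m : ℤ) := by
      refine Int.le_ediv_of_mul_le (by omega) ?_
      push_cast at h
      nlinarith
    rw [twist, Finsupp.add_apply, Finsupp.smul_apply, nsmul_eq_mul, E_apply]
    omega
  refine ⟨h1, fun s => ?_⟩
  have hreg : ∀ i, w i ∈ (T.br s i).toValuationSubring := fun i =>
    mem_of_space (h1 i) (d.twist_br n s i)
  have := hb3 s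
  rw [Pi.one_apply, one_mul, ev_mul (T.deg_br s false) (d.mem_br_e s false) (pow_mem (hreg _) m),
    ev_mul (T.deg_br s true) (d.mem_br_e s true) (pow_mem (hreg _) m),
    ev_pow (T.deg_br s false) (hreg _), ev_pow (T.deg_br s true) (hreg _)] at this
  unfold nodeVal
  linear_combination this

/-- The reductions are glued along lines at the nodes. -/
theorem exists_line (hm : 0 < m) (n : ℕ) :
    ∃ ζ : S → k, pairImage T.R d.c (riemannRochSpace (D + n • T.G)) ≤
      T.glued (d.twist n) ζ := by
  classical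
  set W := pairImage T.R d.c (riemannRochSpace (D + n • T.G)) with hW
  have hline : ∀ s, ∃ z : k, ∀ w ∈ W,
      ev (T.br s false) (w false) = z * ev (T.br s true) (w true) := fun s => by
    refine T.exists_node_line (fun w hw i => mem_of_space ((d.image_bound hm n hw).1 i)
      (d.twist_br n s i)) fun w hw h0 => ?_
    have h2 := (d.image_bound hm n hw).2 s
    rw [h0, zero_pow hm.ne', zero_mul, mul_eq_zero, or_iff_left (d.nodeVal_ne s false)] at h2
    exact eq_zero_of_pow_eq_zero h2
  choose ζ hζ using hline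
  exact ⟨ζ, fun w hw => ⟨(d.image_bound hm n hw).1,
    fun s i => mem_of_space ((d.image_bound hm n hw).1 i) (d.twist_br n s i),
    fun s => hζ s w hw⟩⟩

/-- **Moving lemma**: in large degree the reductions of `L(D + n G)` are all the pairs with poles
bounded by `E + n Gk` which are glued along fixed lines at the nodes. -/
theorem exists_image_eq (hm : 0 < m) :
    ∃ ζ : S → k, (∀ s, ζ s ≠ 0) ∧ (∀ i Q, (m : ℤ) * d.E i Q = d.redDiv i Q) ∧
      ∀ n, d.bigN ≤ n →
        pairImage T.R d.c (riemannRochSpace (D + n • T.G)) = T.glued (d.twist n) ζ := by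
  classical
  choose ζ hζ using d.exists_line hm
  -- `m * E ≤ redDiv`
  have hle : ∀ i Q, (m : ℤ) * d.E i Q ≤ d.redDiv i Q := fun i Q => by
    rw [E_apply]; exact Int.mul_ediv_self_le (by omega)
  have hdegle : ∀ (X : Divisor k Fk), (∀ Q, 0 ≤ X Q) → 0 ≤ Divisor.degree X ∧
      (Divisor.degree X = 0 → ∀ Q, X Q = 0) := fun X hX =>
    ⟨degree_nonneg_of_nonneg hX, fun h0 Q => by
      rw [T.rrK.eq_zero_of_degree_eq_zero hX h0, Finsupp.zero_apply]⟩
  set X : Bool → Divisor k Fk := fun i => d.redDiv i - m • d.E i with hX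
  have hXnn : ∀ i Q, 0 ≤ X i Q := fun i Q => by
    simp only [hX, Finsupp.sub_apply, Finsupp.smul_apply, nsmul_eq_mul]
    have := hle i Q
    omega
  have hXdeg : ∀ i, Divisor.degree (X i) = -((m : ℤ) * Divisor.degree (d.E i)) := fun i => by
    simp only [hX, map_sub, map_nsmul, nsmul_eq_mul, d.degree_redDiv, zero_sub]
  have hEle : ∀ i, Divisor.degree (d.E i) ≤ 0 := fun i => by
    have := (hdegle _ (hXnn i)).1
    rw [hXdeg] at this
    have hm' : (0 : ℤ) < m := by omega
    nlinarith
  -- counting
  have hcount : ∀ n, d.bigN ≤ n →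
      pairImage T.R d.c (riemannRochSpace (D + n • T.G)) = T.glued (d.twist n) (ζ n) ∧
        Divisor.degree (d.E false) = 0 ∧ Divisor.degree (d.E true) = 0 := by
    intro n hn
    have := T.finiteDimensional_glued (d.twist n) (ζ n)
    have := T.rrF.finiteDim (D + n • T.G)
    have hnT : T.bigN ≤ n := le_trans (Nat.le_add_right _ _) hn
    have h1 := T.finrank_glued (d.twist n) (ζ n) (d.twist_br n) (d.bigN_le_degree hn)
    have h2 := T.rrF.ell_eq_of_large (D := D + n • T.G)
      (by rw [map_add, d.degree_D, zero_add]; exact T.bigN_le_degree_G hnT)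
    have h3 := Submodule.finrank_mono (hζ n)
    rw [T.finrank_pairImage d.c_ne] at h3
    have h4 := T.genus_eq
    simp only [twist, map_add, map_nsmul] at h1
    rw [map_add, d.degree_D, zero_add, map_nsmul, T.degree_G, smul_add] at h2
    have h5 := hEle false
    have h6 := hEle true
    unfold Red.ell at h2
    refine ⟨Submodule.eq_of_le_of_finrank_le (hζ n) ?_, by omega, by omega⟩
    rw [T.finrank_pairImage d.c_ne]
    omega
  obtain ⟨heq, hf0, ht0⟩ := hcount d.bigN le_rfl
  have hexact : ∀ i Q, (m : ℤ) * d.E i Q = d.redDiv i Q := fun i Q => by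
    have h0 : Divisor.degree (X i) = 0 := by cases i <;> simp [hXdeg, hf0, ht0]
    have := (hdegle _ (hXnn i)).2 h0 Q
    simp only [hX, Finsupp.sub_apply, Finsupp.smul_apply, nsmul_eq_mul] at this
    omega
  obtain ⟨w₁, hw₁, hv₁⟩ := T.exists_glued_values (d.twist d.bigN) (ζ d.bigN) (d.twist_br _)
    (d.bigN_le_degree le_rfl) (fun _ => 1)
  rw [← heq] at hw₁
  refine ⟨ζ d.bigN, fun s h0 => ?_, hexact, fun n hn => ?_⟩
  · have := (d.image_bound hm _ hw₁).2 s
    rw [(hv₁ s).1, (hv₁ s).2, h0, zero_mul, zero_pow hm.ne', zero_mul, one_pow, one_mul] at this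
    exact d.nodeVal_ne s true this.symm
  · have hmem := hζ n (pairImage_mono (T.space_nsmul_mono hn D) hw₁)
    have : ζ n = ζ d.bigN := funext fun s => by
      have := hmem.2.2 s
      rw [(hv₁ s).1, (hv₁ s).2, mul_one, mul_one] at this
      exact this.symm
    rw [← this]
    exact (hcount n hn).1

end NormalData

end TwoRed

end Fermat.Agent.TwoComponent
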